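import Mathlib
import Fermat.Prelude.Def_ModularCurve_LaurentCoeff
import Fermat.Prelude.Def_ModularCurve_X0

set_option autoImplicit false

/-!
# S18 (CUSP, CU1): the `ℤ/e`-grading of Laurent series and Kummer extensions `F₀(s)`, `sᵉ ∈ F₀`

`R((q'))` is graded by the exponent modulo `e`: `comp e k x` is the part of `x` with exponents
`≡ k mod e`.  The image of `qExpand e` (`q ↦ q'ᵉ`) is the degree-`0` part.  If `F₀` is a subfield of
`L((q'))` of degree-`0` elements and `s ≠ 0` is homogeneous of degree `1` with `sᵉ ∈ F₀`, then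
`F₀(s) = ⊕_{k<e} F₀ sᵏ`: `x ∈ F₀(s)` iff all its coordinates `coord k x = comp k x * s⁻ᵏ` lie in `F₀`.
-/

noncomputable section

open HahnSeries ModularCurve

namespace Fermat.Agent.S18.Cusp.Graded

section Grading

variable {R : Type*} [CommRing R] (e : ℕ)

/-- `x` has all its exponents `≡ k mod e`. -/
def IsHomog (k : ℤ) (x : LaurentSeries R) : Prop :=
  ∀ n : ℤ, ¬ (e : ℤ) ∣ n - k → x.coeff n = 0

/-- the component of degree `k` (mod `e`). -/
def comp (k : ℤ) (x : LaurentSeries R) : LaurentSeries R where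
  coeff n := if (e : ℤ) ∣ n - k then x.coeff n else 0
  isPWO_support' := x.isPWO_support.mono (by
    intro n hn
    simp only [Function.mem_support, ne_eq] at hn
    by_cases h : (e : ℤ) ∣ n - k
    · rw [if_pos h] at hn
      exact hn
    · rw [if_neg h] at hn
      exact absurd rfl hn)

variable {e}

theorem comp_coeff (k : ℤ) (x : LaurentSeries R) (n : ℤ) :
    (comp e k x).coeff n = if (e : ℤ) ∣ n - k then x.coeff n else 0 := rfl

theorem comp_coeff_of_dvd {k : ℤ} (x : LaurentSeries R) {n : ℤ} (h : (e : ℤ) ∣ n - k) :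
    (comp e k x).coeff n = x.coeff n := by rw [comp_coeff, if_pos h]

theorem comp_coeff_of_not_dvd {k : ℤ} (x : LaurentSeries R) {n : ℤ} (h : ¬ (e : ℤ) ∣ n - k) :
    (comp e k x).coeff n = 0 := by rw [comp_coeff, if_neg h]

theorem isHomog_comp (k : ℤ) (x : LaurentSeries R) : IsHomog e k (comp e k x) :=
  fun _ hn => comp_coeff_of_not_dvd x hn

theorem IsHomog.comp_eq {k : ℤ} {x : LaurentSeries R} (hx : IsHomog e k x) : comp e k x = x := by
  ext n
  by_cases h : (e : ℤ) ∣ n - k
  · rw [comp_coeff_of_dvd x h]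
  · rw [comp_coeff_of_not_dvd x h, hx n h]

theorem IsHomog.comp_eq_zero {j k : ℤ} {x : LaurentSeries R} (hx : IsHomog e j x)
    (hjk : ¬ (e : ℤ) ∣ j - k) : comp e k x = 0 := by
  ext n
  by_cases h : (e : ℤ) ∣ n - k
  · rw [comp_coeff_of_dvd x h, coeff_zero]
    apply hx n
    intro h'
    apply hjk
    have : j - k = (n - k) - (n - j) := by ring
    rw [this]
    exact dvd_sub h h'
  · rw [comp_coeff_of_not_dvd x h, coeff_zero]

theorem IsHomog.congr {j k : ℤ} {x : LaurentSeries R} (hx : IsHomog e j x)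
    (hjk : (e : ℤ) ∣ j - k) : IsHomog e k x := by
  intro n hn
  apply hx n
  intro h'
  apply hn
  have : n - k = (n - j) + (j - k) := by ring
  rw [this]
  exact dvd_add h' hjk

theorem comp_congr {j k : ℤ} (hjk : (e : ℤ) ∣ j - k) (x : LaurentSeries R) :
    comp e j x = comp e k x := by
  ext n
  have hiff : (e : ℤ) ∣ n - j ↔ (e : ℤ) ∣ n - k := by
    constructor
    · intro h
      have : n - k = (n - j) + (j - k) := by ring
      rw [this]
      exact dvd_add h hjk
    · intro h
      have : n - j = (n - k) - (j - k) := by ring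
      rw [this]
      exact dvd_sub h hjk
  rw [comp_coeff, comp_coeff]
  simp only [hiff]

@[simp] theorem comp_zero (k : ℤ) : comp e k (0 : LaurentSeries R) = 0 := by
  ext n
  rw [comp_coeff]
  simp

theorem comp_add (k : ℤ) (x y : LaurentSeries R) : comp e k (x + y) = comp e k x + comp e k y := by
  ext n
  rw [coeff_add, comp_coeff, comp_coeff, comp_coeff, coeff_add]
  split_ifs <;> simp

theorem comp_neg (k : ℤ) (x : LaurentSeries R) : comp e k (-x) = -comp e k x := by
  ext n
  rw [coeff_neg, comp_coeff, comp_coeff, coeff_neg]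
  split_ifs <;> simp

theorem comp_sub (k : ℤ) (x y : LaurentSeries R) : comp e k (x - y) = comp e k x - comp e k y := by
  rw [sub_eq_add_neg, comp_add, comp_neg, sub_eq_add_neg]

/-- `comp e k` as an additive map. -/
def compHom (e : ℕ) (k : ℤ) : LaurentSeries R →+ LaurentSeries R where
  toFun := comp e k
  map_zero' := comp_zero k
  map_add' := comp_add k

@[simp] theorem compHom_apply (k : ℤ) (x : LaurentSeries R) : compHom e k x = comp e k x := rfl

theorem comp_sum {ι : Type*} (s : Finset ι) (k : ℤ) (f : ι → LaurentSeries R) :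
    comp e k (∑ i ∈ s, f i) = ∑ i ∈ s, comp e k (f i) :=
  map_sum (compHom e k) f s

theorem IsHomog.zero (k : ℤ) : IsHomog e k (0 : LaurentSeries R) := fun _ _ => coeff_zero

theorem IsHomog.add {k : ℤ} {x y : LaurentSeries R} (hx : IsHomog e k x) (hy : IsHomog e k y) :
    IsHomog e k (x + y) := fun n hn => by rw [coeff_add, hx n hn, hy n hn, add_zero]

theorem IsHomog.neg {k : ℤ} {x : LaurentSeries R} (hx : IsHomog e k x) : IsHomog e k (-x) :=
  fun n hn => by rw [coeff_neg, hx n hn, neg_zero]

theorem IsHomog.sum {ι : Type*} (s : Finset ι) {k : ℤ} {f : ι → LaurentSeries R}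
    (h : ∀ i ∈ s, IsHomog e k (f i)) : IsHomog e k (∑ i ∈ s, f i) := by
  classical
  induction s using Finset.induction_on with
  | empty => simpa using IsHomog.zero k
  | insert a s ha ih =>
    rw [Finset.sum_insert ha]
    exact (h a (Finset.mem_insert_self a s)).add
      (ih fun i hi => h i (Finset.mem_insert_of_mem hi))

theorem IsHomog.mul {a b : ℤ} {x y : LaurentSeries R} (hx : IsHomog e a x) (hy : IsHomog e b y) :
    IsHomog e (a + b) (x * y) := by
  intro n hn
  rw [HahnSeries.coeff_mul]
  apply Finset.sum_eq_zero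
  rintro ⟨i, j⟩ hij
  rw [Finset.mem_antidiagonal] at hij
  obtain ⟨-, -, hsum⟩ := hij
  simp only at hsum ⊢
  by_cases hi : (e : ℤ) ∣ i - a
  · have hj : ¬ (e : ℤ) ∣ j - b := by
      intro hj
      apply hn
      have : n - (a + b) = (i - a) + (j - b) := by rw [← hsum]; ring
      rw [this]
      exact dvd_add hi hj
    rw [hy j hj, mul_zero]
  · rw [hx i hi, zero_mul]

theorem isHomog_one : IsHomog e 0 (1 : LaurentSeries R) := by
  intro n hn
  rw [HahnSeries.coeff_one, if_neg]
  rintro rfl
  exact hn (by simp)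

theorem IsHomog.pow {a : ℤ} {x : LaurentSeries R} (hx : IsHomog e a x) (m : ℕ) :
    IsHomog e (m * a) (x ^ m) := by
  induction m with
  | zero => simpa using isHomog_one
  | succ m ih =>
    rw [pow_succ]
    have := ih.mul hx
    refine this.congr ?_
    push_cast
    ring_nf
    simp

theorem isHomog_single (n : ℤ) (r : R) : IsHomog e n (single n r : LaurentSeries R) := by
  intro m hm
  rw [coeff_single_of_ne]
  rintro rfl
  exact hm (by simp)

theorem isHomog_qExpand [NeZero e] (x : LaurentSeries R) : IsHomog e 0 (qExpand R e x) := by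
  intro n hn
  rw [sub_zero] at hn
  exact qExpand_coeff_of_not_dvd e x hn

/-- the decomposition into components. -/
theorem sum_comp [NeZero e] (x : LaurentSeries R) : ∑ k ∈ Finset.range e, comp e (k : ℤ) x = x := by
  ext n
  rw [coeff_sum]
  have he : (0 : ℤ) < e := by exact_mod_cast Nat.pos_of_ne_zero (NeZero.ne e)
  set r : ℕ := (n % (e : ℤ)).toNat with hr
  have hr0 : (0 : ℤ) ≤ n % (e : ℤ) := Int.emod_nonneg n he.ne'
  have hrlt : n % (e : ℤ) < e := Int.emod_lt_of_pos n he
  have hrcast : (r : ℤ) = n % (e : ℤ) := Int.toNat_of_nonneg hr0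
  have hrmem : r ∈ Finset.range e := by
    rw [Finset.mem_range]
    have : (r : ℤ) < e := by rw [hrcast]; exact hrlt
    exact_mod_cast this
  rw [Finset.sum_eq_single_of_mem r hrmem]
  · rw [comp_coeff_of_dvd]
    rw [hrcast]
    exact Int.dvd_self_sub_emod
  · intro k hk hkr
    rw [comp_coeff_of_not_dvd]
    intro hdvd
    apply hkr
    have hk' : (k : ℤ) < e := by exact_mod_cast Finset.mem_range.mp hk
    have h1 : (e : ℤ) ∣ (r : ℤ) - k := by
      have : (r : ℤ) - k = (n - k) - (n - n % (e : ℤ)) := by rw [hrcast]; ring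
      rw [this]
      exact dvd_sub hdvd Int.dvd_self_sub_emod
    have h2 : (r : ℤ) - k = 0 := by
      apply Int.eq_zero_of_abs_lt_dvd h1
      rw [abs_lt]
      constructor <;> [skip; skip] <;> omega
    omega

/-- independence of homogeneous elements of distinct degrees `< e`. -/
theorem comp_sum_of_isHomog {y : ℕ → LaurentSeries R}
    (hy : ∀ k ∈ Finset.range e, IsHomog e (k : ℤ) (y k)) {j : ℕ} (hj : j ∈ Finset.range e) :
    comp e (j : ℤ) (∑ k ∈ Finset.range e, y k) = y j := by
  rw [comp_sum, Finset.sum_eq_single_of_mem j hj]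
  · exact (hy j hj).comp_eq
  · intro k hk hkj
    apply (hy k hk).comp_eq_zero
    intro hdvd
    apply hkj
    have hk' : (k : ℤ) < e := by exact_mod_cast Finset.mem_range.mp hk
    have hj' : (j : ℤ) < e := by exact_mod_cast Finset.mem_range.mp hj
    have h2 : (k : ℤ) - j = 0 := by
      apply Int.eq_zero_of_abs_lt_dvd hdvd
      rw [abs_lt]
      constructor <;> omega
    omega

theorem eq_zero_of_sum_eq_zero {y : ℕ → LaurentSeries R}
    (hy : ∀ k ∈ Finset.range e, IsHomog e (k : ℤ) (y k))
    (hsum : ∑ k ∈ Finset.range e, y k = 0) {j : ℕ} (hj : j ∈ Finset.range e) : y j = 0 := by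
  rw [← comp_sum_of_isHomog hy hj, hsum, comp_zero]

/-- multiplication by a homogeneous element shifts the components. -/
theorem comp_mul_of_isHomog [NeZero e] {b : ℤ} {y : LaurentSeries R} (hy : IsHomog e b y)
    (a : ℤ) (x : LaurentSeries R) : comp e (a + b) (x * y) = comp e a x * y := by
  conv_lhs => rw [← sum_comp (e := e) x, Finset.sum_mul, comp_sum]
  have he : (0 : ℤ) < e := by exact_mod_cast Nat.pos_of_ne_zero (NeZero.ne e)
  -- only the index `k ≡ a` survives
  have key : ∀ k ∈ Finset.range e, comp e (a + b) (comp e (k : ℤ) x * y) =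
      if (e : ℤ) ∣ (k : ℤ) - a then comp e (k : ℤ) x * y else 0 := by
    intro k _
    have hh : IsHomog e ((k : ℤ) + b) (comp e (k : ℤ) x * y) := (isHomog_comp _ x).mul hy
    by_cases h : (e : ℤ) ∣ (k : ℤ) - a
    · rw [if_pos h]
      exact (hh.congr (by
        have : (k : ℤ) + b - (a + b) = (k : ℤ) - a := by ring
        rw [this]; exact h)).comp_eq
    · rw [if_neg h]
      exact hh.comp_eq_zero (by
        have : (k : ℤ) + b - (a + b) = (k : ℤ) - a := by ring
        rw [this]; exact h)
  rw [Finset.sum_congr rfl key]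
  -- rewrite `comp e a x` the same way
  have key2 : comp e a x = ∑ k ∈ Finset.range e,
      if (e : ℤ) ∣ (k : ℤ) - a then comp e (k : ℤ) x else 0 := by
    conv_lhs => rw [← sum_comp (e := e) x, comp_sum]
    apply Finset.sum_congr rfl
    intro k _
    by_cases h : (e : ℤ) ∣ (k : ℤ) - a
    · rw [if_pos h]; exact ((isHomog_comp _ x).congr h).comp_eq
    · rw [if_neg h]; exact (isHomog_comp _ x).comp_eq_zero h
  rw [key2, Finset.sum_mul]
  apply Finset.sum_congr rfl
  intro k _
  split_ifs <;> simp

theorem coeffMap_comp {S : Type*} [CommRing S] (f : R →+* S) (k : ℤ) (x : LaurentSeries R) :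
    coeffMap f (comp e k x) = comp e k (coeffMap f x) := by
  ext n
  rw [coeffMap_coeff, comp_coeff, comp_coeff, coeffMap_coeff]
  split_ifs <;> simp

theorem IsHomog.coeffMap {S : Type*} [CommRing S] (f : R →+* S) {k : ℤ} {x : LaurentSeries R}
    (hx : IsHomog e k x) : IsHomog e k (coeffMap f x) := fun n hn => by
  rw [coeffMap_coeff, hx n hn, map_zero]

theorem coeffMap_qExpand {S : Type*} [CommRing S] [NeZero e] (f : R →+* S) (x : LaurentSeries R) :
    coeffMap f (qExpand R e x) = qExpand S e (coeffMap f x) := by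
  ext n
  by_cases h : (e : ℤ) ∣ n
  · obtain ⟨m, rfl⟩ := h
    rw [coeffMap_coeff, qExpand_coeff_mul, qExpand_coeff_mul, coeffMap_coeff]
  · rw [coeffMap_coeff, qExpand_coeff_of_not_dvd e x h, qExpand_coeff_of_not_dvd e _ h, map_zero]

end Grading

end Fermat.Agent.S18.Cusp.Graded
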