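import Mathlib
import Fermat.Agent.S18.Cusp.Graded

set_option autoImplicit false
set_option linter.unusedSectionVars false

/-!
# S18 (CUSP, CU1b): the Kummer extension `F₀(s)`, `sᵉ ∈ F₀`, inside `L((q'))`

`F₀` a subfield of `L((q'))` of homogeneous elements of degree `0` (for the `ℤ/e`-grading of
`Graded.lean`), `s ≠ 0` homogeneous of degree `1` with `sᵉ ∈ F₀`.  Then
`x ∈ F₀(s) ↔ ∀ k, coord k x ∈ F₀`, where `coord k x = comp k x * s⁻ᵏ` is "the coefficient of `sᵏ`",
and `x = ∑_{k<e} coord k x * sᵏ`.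
-/

noncomputable section

open HahnSeries ModularCurve IntermediateField

namespace Fermat.Agent.S18.Cusp.Kummer

open Fermat.Agent.S18.Cusp.Graded

variable {L : Type*} [Field L] (e : ℕ) [NeZero e] (F0 : Subfield (LaurentSeries L))
  (s : LaurentSeries L)

/-- the hypotheses on `(F₀, s)`. -/
structure KummerData : Prop where
  homog0 : ∀ x ∈ F0, IsHomog e 0 x
  homog1 : IsHomog e 1 s
  ne_zero : s ≠ 0
  pow_mem : s ^ e ∈ F0

/-- "the coefficient of `sᵏ`" -/
def coord (k : ℤ) (x : LaurentSeries L) : LaurentSeries L := comp e k x * s ^ (-k)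

variable {e F0 s}

theorem coord_add (k : ℤ) (x y : LaurentSeries L) :
    coord e s k (x + y) = coord e s k x + coord e s k y := by
  unfold coord
  rw [comp_add, add_mul]

theorem coord_zero (k : ℤ) : coord e s k 0 = 0 := by
  unfold coord
  rw [comp_zero, zero_mul]

theorem coord_sum {ι : Type*} (t : Finset ι) (k : ℤ) (f : ι → LaurentSeries L) :
    coord e s k (∑ i ∈ t, f i) = ∑ i ∈ t, coord e s k (f i) := by
  unfold coord
  rw [comp_sum, Finset.sum_mul]

namespace KummerData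

variable (h : KummerData e F0 s)
include h

theorem zpow_mem {m : ℤ} (hm : (e : ℤ) ∣ m) : s ^ m ∈ F0 := by
  obtain ⟨c, rfl⟩ := hm
  rw [zpow_mul, zpow_natCast]
  exact _root_.zpow_mem h.pow_mem c

theorem isHomog_zpow (m : ℤ) : IsHomog e m (s ^ m) := by
  have hepos : (0 : ℤ) < e := by exact_mod_cast Nat.pos_of_ne_zero (NeZero.ne e)
  -- `s ^ m = s ^ n * (s ^ (e c))⁻¹` with `n = m + e c ≥ 0`
  set c : ℕ := m.natAbs with hc
  have hn : 0 ≤ m + (e : ℤ) * c := by
    have h1 : (c : ℤ) = |m| := Int.natCast_natAbs m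
    rw [h1]
    have h2 : |m| ≤ (e : ℤ) * |m| := le_mul_of_one_le_left (abs_nonneg m) (by omega)
    have h3 : -|m| ≤ m := neg_abs_le m
    linarith
  obtain ⟨n, hn'⟩ := Int.eq_ofNat_of_zero_le hn
  have hs : s ^ m = s ^ n * s ^ (-((e : ℤ) * c)) := by
    rw [← zpow_natCast, ← zpow_add₀ h.ne_zero, ← hn']
    congr 1
    ring
  rw [hs]
  have h1 : IsHomog e ((n : ℤ) * 1) (s ^ n) := h.homog1.pow n
  have h2 : IsHomog e 0 (s ^ (-((e : ℤ) * c))) :=
    h.homog0 _ (h.zpow_mem (Dvd.dvd.neg_right (dvd_mul_right _ _)))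
  refine (h1.mul h2).congr ?_
  have : (n : ℤ) * 1 + 0 - m = (e : ℤ) * c := by rw [← hn']; ring
  rw [this]
  exact dvd_mul_right _ _

theorem sum_coord (x : LaurentSeries L) :
    ∑ k ∈ Finset.range e, coord e s (k : ℤ) x * s ^ k = x := by
  conv_rhs => rw [← sum_comp (e := e) x]
  apply Finset.sum_congr rfl
  intro k _
  unfold coord
  rw [mul_assoc, ← zpow_natCast, ← zpow_add₀ h.ne_zero, neg_add_cancel, zpow_zero, mul_one]

theorem coord_congr {j k : ℤ} (hjk : (e : ℤ) ∣ j - k) (x : LaurentSeries L) :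
    coord e s j x = coord e s k x * s ^ (k - j) := by
  unfold coord
  rw [comp_congr hjk, mul_assoc, ← zpow_add₀ h.ne_zero]
  congr 2
  ring

/-- the coordinates of a product. -/
theorem coord_mul (k : ℤ) (x y : LaurentSeries L) :
    coord e s k (x * y) = ∑ i ∈ Finset.range e, coord e s (i : ℤ) x * coord e s (k - i) y := by
  unfold coord
  conv_lhs => rw [← sum_comp (e := e) x, Finset.sum_mul, comp_sum, Finset.sum_mul]
  apply Finset.sum_congr rfl
  intro i _
  have h1 : comp e k (comp e (i : ℤ) x * y) = comp e (k - i) y * comp e (i : ℤ) x := by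
    rw [mul_comm (comp e (i : ℤ) x) y]
    have := comp_mul_of_isHomog (e := e) (isHomog_comp (i : ℤ) x) (k - i) y
    rwa [sub_add_cancel] at this
  rw [h1]
  have h2 : s ^ (-k) = s ^ (-(i : ℤ)) * s ^ (-(k - i)) := by
    rw [← zpow_add₀ h.ne_zero]
    congr 1
    ring
  rw [h2]
  ring

theorem coord_of_mem {a : LaurentSeries L} (ha : a ∈ F0) (k : ℤ) : coord e s k a ∈ F0 := by
  unfold coord
  by_cases hk : (e : ℤ) ∣ k
  · have : comp e k a = a := ((h.homog0 a ha).congr (by simpa using hk)).comp_eq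
    rw [this]
    exact F0.mul_mem ha (h.zpow_mem (Dvd.dvd.neg_right hk))
  · have : comp e k a = 0 := (h.homog0 a ha).comp_eq_zero (by simpa using hk)
    rw [this, zero_mul]
    exact F0.zero_mem

theorem coord_of_mem_zero {a : LaurentSeries L} (ha : a ∈ F0) : coord e s 0 a = a := by
  unfold coord
  rw [(h.homog0 a ha).comp_eq, neg_zero, zpow_zero, mul_one]

theorem coord_self (k : ℤ) : coord e s k s ∈ F0 := by
  unfold coord
  by_cases hk : (e : ℤ) ∣ 1 - k
  · have : comp e k s = s := (h.homog1.congr hk).comp_eq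
    rw [this]
    have h1 : s * s ^ (-k) = s ^ (1 - k) := by
      rw [sub_eq_add_neg, zpow_add₀ h.ne_zero, zpow_one]
    rw [h1]
    exact h.zpow_mem hk
  · have : comp e k s = 0 := h.homog1.comp_eq_zero hk
    rw [this, zero_mul]
    exact F0.zero_mem

/-- the subalgebra `⊕ F₀ sᵏ`, described by coordinates. -/
def coordSubalgebra : Subalgebra F0 (LaurentSeries L) where
  carrier := {x | ∀ k : ℤ, coord e s k x ∈ F0}
  mul_mem' := by
    intro x y hx hy k
    rw [h.coord_mul]
    exact F0.sum_mem fun i _ => F0.mul_mem (hx _) (hy _)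
  add_mem' := by
    intro x y hx hy k
    rw [coord_add]
    exact F0.add_mem (hx k) (hy k)
  algebraMap_mem' := by
    intro a k
    exact h.coord_of_mem a.2 k

theorem mem_coordSubalgebra {x : LaurentSeries L} :
    x ∈ h.coordSubalgebra ↔ ∀ k : ℤ, coord e s k x ∈ F0 := Iff.rfl

theorem isIntegral_s : IsIntegral F0 s := by
  refine ⟨Polynomial.X ^ e - Polynomial.C (⟨s ^ e, h.pow_mem⟩ : F0),
    Polynomial.monic_X_pow_sub_C _ (NeZero.ne e), ?_⟩
  rw [Polynomial.eval₂_sub, Polynomial.eval₂_pow, Polynomial.eval₂_X, Polynomial.eval₂_C]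
  exact sub_self _

/-- **`F₀(s) = ⊕_{k<e} F₀ sᵏ`**, in coordinates. -/
theorem mem_adjoin_iff {x : LaurentSeries L} :
    x ∈ F0⟮s⟯ ↔ ∀ k : ℤ, coord e s k x ∈ F0 := by
  rw [← h.mem_coordSubalgebra, ← IntermediateField.mem_toSubalgebra,
    IntermediateField.adjoin_simple_toSubalgebra_of_isAlgebraic h.isIntegral_s.isAlgebraic]
  constructor
  · intro hx
    refine Algebra.adjoin_le ?_ hx
    rintro _ rfl
    exact fun k => h.coord_self k
  · intro hx
    rw [← h.sum_coord x]
    refine Subalgebra.sum_mem _ fun k _ => Subalgebra.mul_mem _ ?_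
      (Subalgebra.pow_mem _ (Algebra.self_mem_adjoin_singleton F0 s) k)
    exact Subalgebra.algebraMap_mem _ (⟨_, hx k⟩ : F0)

/-- it suffices to check the coordinates `0 ≤ k < e`. -/
theorem mem_adjoin_iff_range {x : LaurentSeries L} :
    x ∈ F0⟮s⟯ ↔ ∀ k ∈ Finset.range e, coord e s (k : ℤ) x ∈ F0 := by
  rw [h.mem_adjoin_iff]
  constructor
  · intro hx k _
    exact hx k
  · intro hx k
    have hepos : (0 : ℤ) < e := by exact_mod_cast Nat.pos_of_ne_zero (NeZero.ne e)
    set r : ℕ := (k % (e : ℤ)).toNat with hr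
    have hr0 : (0 : ℤ) ≤ k % (e : ℤ) := Int.emod_nonneg k hepos.ne'
    have hrcast : (r : ℤ) = k % (e : ℤ) := Int.toNat_of_nonneg hr0
    have hrmem : r ∈ Finset.range e := by
      rw [Finset.mem_range]
      have : (r : ℤ) < e := by rw [hrcast]; exact Int.emod_lt_of_pos k hepos
      exact_mod_cast this
    have hdvd : (e : ℤ) ∣ k - r := by rw [hrcast]; exact Int.dvd_self_sub_emod
    rw [h.coord_congr hdvd]
    refine F0.mul_mem (hx r hrmem) (h.zpow_mem ?_)
    have : (r : ℤ) - k = -(k - r) := by ring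
    rw [this]
    exact Dvd.dvd.neg_right hdvd

/-- uniqueness of the coordinates: a sum `∑ a_k sᵏ` with `a_k ∈ F₀` has coordinates `a_k`. -/
theorem coord_sum_mul_pow {a : ℕ → LaurentSeries L} (ha : ∀ k ∈ Finset.range e, a k ∈ F0)
    {j : ℕ} (hj : j ∈ Finset.range e) :
    coord e s (j : ℤ) (∑ k ∈ Finset.range e, a k * s ^ k) = a j := by
  unfold coord
  have hy : ∀ k ∈ Finset.range e, IsHomog e (k : ℤ) (a k * s ^ k) := by
    intro k hk
    have := (h.homog0 _ (ha k hk)).mul (h.homog1.pow k)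
    refine this.congr ?_
    simp
  rw [comp_sum_of_isHomog hy hj, mul_assoc, ← zpow_natCast, ← zpow_add₀ h.ne_zero, add_neg_cancel,
    zpow_zero, mul_one]

theorem eq_zero_of_sum_mul_pow_eq_zero {a : ℕ → LaurentSeries L}
    (ha : ∀ k ∈ Finset.range e, a k ∈ F0)
    (hsum : ∑ k ∈ Finset.range e, a k * s ^ k = 0) {j : ℕ} (hj : j ∈ Finset.range e) :
    a j = 0 := by
  rw [← h.coord_sum_mul_pow ha hj, hsum, coord_zero]

end KummerData

end Fermat.Agent.S18.Cusp.Kummer
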