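import Mathlib
import Fermat.Agent.S18.Cusp.Kummer
import Fermat.Agent.S18.Gauss.Basic
import Fermat.Agent.S18.Gauss.PolyScale

/-!
# S18 (CUSP, CU4 part 1): the Gauss valuation of the Kummer extension `F₀(s)`, `sᵉ ∈ F₀`

Setting of `Cusp/Kummer.lean` (`F₀` a subfield of `L((q'))` of degree-`0` elements, `s` homogeneous
of degree `1` with `sᵉ ∈ F₀`) plus Gauss data (`Gauss/Basic.lean`): `A` a valuation subring of `L`,
`F₀` Gauss-scalable, `s` and `s⁻¹` with `A`-integral expansions (`GaussUnit`).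

* (K0) `isHomog_inv`, `isHomog_res`: inverses / reductions of homogeneous series are homogeneous.
* (K1) `exists_max`: for `x = ∑ a_k sᵏ ≠ 0` (`a_k ∈ F₀`) a coordinate `a_{k₀}` of maximal Gauss
  valuation makes all `a_k / a_{k₀}` Gauss-integral and `x / a_{k₀}` a Gauss unit
  (`v'(x) = max_k v(a_k)`).  Consequences: `scalable_adjoin` (`F₀(s)` is Gauss-scalable),
  `mem_gaussRing_iff_coord` / `mem_gaussSubring_adjoin_iff` (`O' = ⊕ O₀ sᵏ`).
-/

set_option autoImplicit false
set_option linter.unusedSectionVars false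
set_option linter.style.haveILetI false

noncomputable section

open HahnSeries ModularCurve IntermediateField

namespace Fermat.Agent.S18.Cusp.GaussKummer

open Fermat.Agent.S18.Cusp.Graded Fermat.Agent.S18.Cusp.Kummer Fermat.Agent.S18.Gauss.Basic

section Homog

variable {K : Type*} [Field K] {e : ℕ} [NeZero e]

/-- the inverse of a nonzero homogeneous series over a field is homogeneous. -/
theorem isHomog_inv {d : ℤ} {y : LaurentSeries K} (hy : IsHomog e d y) (hy0 : y ≠ 0) :
    IsHomog e (-d) y⁻¹ := by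
  intro n hn
  have h1 := comp_mul_of_isHomog hy n y⁻¹
  rw [inv_mul_cancel₀ hy0] at h1
  have h2 : comp e (n + d) (1 : LaurentSeries K) = 0 := by
    apply (isHomog_one (e := e) (R := K)).comp_eq_zero
    intro hdvd
    apply hn
    have : n - -d = -(0 - (n + d)) := by ring
    rw [this]
    exact Dvd.dvd.neg_right hdvd
  rw [h2] at h1
  have h3 : comp e n y⁻¹ = 0 := (mul_eq_zero.mp h1.symm).resolve_right hy0
  rw [← comp_coeff_of_dvd (e := e) (k := n) y⁻¹ (by simp), h3, coeff_zero]

theorem IsHomog.div {a b : ℤ} {x y : LaurentSeries K} (hx : IsHomog e a x) (hy : IsHomog e b y)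
    (hy0 : y ≠ 0) : IsHomog e (a - b) (x / y) := by
  rw [div_eq_mul_inv, sub_eq_add_neg]
  exact hx.mul (isHomog_inv hy hy0)

end Homog

section ResHomog

variable {L : Type*} [Field L] (A : ValuationSubring L) {e : ℕ} [NeZero e]

/-- a series over `A` whose image over `L` is homogeneous is homogeneous. -/
theorem isHomog_of_incl {d : ℤ} {P : LaurentSeries A} (h : IsHomog e d (incl A P)) :
    IsHomog e d P := by
  intro n hn
  have := h n hn
  rw [incl_coeff] at this
  exact Subtype.ext this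

theorem incl_comp (k : ℤ) (P : LaurentSeries A) : incl A (comp e k P) = comp e k (incl A P) :=
  coeffMap_comp _ k P

theorem red_comp (k : ℤ) (P : LaurentSeries A) : red A (comp e k P) = comp e k (red A P) :=
  coeffMap_comp _ k P

/-- some component of a series with nonzero reduction has nonzero reduction. -/
theorem exists_comp_red_ne_zero {Q : LaurentSeries A} (hQ : red A Q ≠ 0) :
    ∃ j ∈ Finset.range e, red A (comp e (j : ℤ) Q) ≠ 0 := by
  by_contra hall
  push Not at hall
  apply hQ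
  rw [← sum_comp (e := e) (red A Q)]
  apply Finset.sum_eq_zero
  intro j hj
  rw [← red_comp]
  exact hall j hj

/-- the reduction of a homogeneous Gauss-integral series is homogeneous of the same degree. -/
theorem isHomog_res {d : ℤ} (x : gaussRing A) (hx : IsHomog e d (x : LaurentSeries L)) :
    IsHomog e d (res A x) := by
  obtain ⟨P, Q, hQ, h⟩ := x.2
  obtain ⟨j, -, hj⟩ := exists_comp_red_ne_zero (e := e) A hQ
  have h1 : (x : LaurentSeries L) * incl A (comp e (j : ℤ) Q)
      = incl A (comp e ((j : ℤ) + d) P) := by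
    rw [incl_comp, incl_comp, ← h, mul_comm (x : LaurentSeries L) (incl A Q),
      comp_mul_of_isHomog hx, mul_comm]
  rw [res_eq A x hj h1]
  have hP : IsHomog e ((j : ℤ) + d) (red A (comp e ((j : ℤ) + d) P)) := by
    rw [red_comp]; exact isHomog_comp _ _
  have hQ' : IsHomog e (j : ℤ) (red A (comp e (j : ℤ) Q)) := by
    rw [red_comp]; exact isHomog_comp _ _
  have := IsHomog.div hP hQ' hj
  refine this.congr ?_
  simp

end ResHomog

section Max

variable {L : Type*} [Field L] {A : ValuationSubring L} {e : ℕ} [NeZero e]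
  {F0 : Subfield (LaurentSeries L)} {s : LaurentSeries L}

/-- the Gauss data of the Kummer generator: `s` and `s⁻¹` have integral expansions. -/
structure GaussUnit (A : ValuationSubring L) (s : LaurentSeries L) : Prop where
  exists_incl : ∃ S : LaurentSeries A, incl A S = s
  exists_incl_inv : ∃ S' : LaurentSeries A, incl A S' = s⁻¹

namespace GaussUnit

variable (hs : GaussUnit A s)
include hs

theorem mem : s ∈ gaussRing A := by
  obtain ⟨S, hS⟩ := hs.exists_incl
  rw [← hS]; exact incl_mem_gaussRing A S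

theorem inv_mem : s⁻¹ ∈ gaussRing A := by
  obtain ⟨S, hS⟩ := hs.exists_incl_inv
  rw [← hS]; exact incl_mem_gaussRing A S

theorem pow_mem (k : ℕ) : s ^ k ∈ gaussRing A := Subring.pow_mem _ hs.mem k

end GaussUnit

/-- the reduction `s̄` of the Kummer generator. -/
def sbar (hs : GaussUnit A s) : LaurentSeries (IsLocalRing.ResidueField A) :=
  res A ⟨s, hs.mem⟩

theorem sbar_ne_zero (hs0 : s ≠ 0) (hs : GaussUnit A s) : sbar hs ≠ 0 := by
  apply res_ne_zero_of_inv_mem A ⟨s, hs.mem⟩ hs0
  exact hs.inv_mem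

theorem isHomog_sbar (h : KummerData e F0 s) (hs : GaussUnit A s) : IsHomog e 1 (sbar hs) :=
  isHomog_res A ⟨s, hs.mem⟩ h.homog1

/-- **max formula (K1).**  For `x = ∑ a_k sᵏ ≠ 0` with `a_k ∈ F₀`, a coordinate `a_{k₀}` of
maximal Gauss valuation satisfies: all `a_k / a_{k₀}` are Gauss-integral and `x / a_{k₀}` is a
Gauss unit. -/
theorem exists_max (h : KummerData e F0 s) (hφ0 : Scalable A (F0.subtype : F0 →+* LaurentSeries L))
    (hs : GaussUnit A s) (x : LaurentSeries L) (hx : ∀ k : ℤ, coord e s k x ∈ F0) (hx0 : x ≠ 0) :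
    ∃ k0 ∈ Finset.range e, coord e s (k0 : ℤ) x ≠ 0 ∧
      (∀ k ∈ Finset.range e, coord e s (k : ℤ) x / coord e s (k0 : ℤ) x ∈ gaussRing A) ∧
      x / coord e s (k0 : ℤ) x ∈ gaussRing A ∧ (x / coord e s (k0 : ℤ) x)⁻¹ ∈ gaussRing A := by
  classical
  let a : ℕ → F0 := fun k => ⟨coord e s (k : ℤ) x, hx k⟩
  have hne : ∃ k ∈ Finset.range e, a k ≠ 0 := by
    by_contra hall
    push Not at hall
    apply hx0
    rw [← h.sum_coord x]
    apply Finset.sum_eq_zero
    intro k hk
    have : coord e s (k : ℤ) x = 0 := congrArg Subtype.val (hall k hk)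
    rw [this, zero_mul]
  obtain ⟨k0, hk0, hak0, hmax⟩ :=
    Fermat.Agent.S18.Gauss.PolyScale.exists_max_val (gaussSubring hφ0) (Finset.range e) a hne
  have hc0 : coord e s (k0 : ℤ) x ≠ 0 := fun h0 => hak0 (Subtype.ext h0)
  have hint : ∀ k ∈ Finset.range e,
      coord e s (k : ℤ) x / coord e s (k0 : ℤ) x ∈ gaussRing A := by
    intro k hk
    have := hmax k hk
    rw [mem_gaussSubring_iff] at this
    have e1 : (F0.subtype (a k / a k0) : LaurentSeries L)
        = coord e s (k : ℤ) x / coord e s (k0 : ℤ) x := by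
      rw [map_div₀]; rfl
    rw [e1] at this
    exact this
  refine ⟨k0, hk0, hc0, hint, ?_⟩
  -- `y = x / a_{k0} = ∑ b_k sᵏ`
  have hy : x / coord e s (k0 : ℤ) x
      = ∑ k ∈ Finset.range e, coord e s (k : ℤ) x / coord e s (k0 : ℤ) x * s ^ k := by
    have h1 : ∑ k ∈ Finset.range e, coord e s (k : ℤ) x / coord e s (k0 : ℤ) x * s ^ k
        = (∑ k ∈ Finset.range e, coord e s (k : ℤ) x * s ^ k) / coord e s (k0 : ℤ) x := by
      rw [Finset.sum_div]
      apply Finset.sum_congr rfl
      intro k _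
      ring
    rw [h1, h.sum_coord x]
  have hymem : x / coord e s (k0 : ℤ) x ∈ gaussRing A := by
    rw [hy]
    exact Subring.sum_mem _ fun k hk => Subring.mul_mem _ (hint k hk) (hs.pow_mem k)
  refine ⟨hymem, ?_⟩
  -- the reduction of `y`
  apply inv_mem_of_res_ne_zero A ⟨_, hymem⟩
  have hres : res A ⟨_, hymem⟩
      = ∑ k ∈ Finset.range e,
        (if hk : k ∈ Finset.range e then res A ⟨_, hint k hk⟩ else 0) * sbar hs ^ k := by
    have e2 : (⟨_, hymem⟩ : gaussRing A)
        = ∑ k ∈ Finset.range e,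
          (if hk : k ∈ Finset.range e then (⟨_, hint k hk⟩ : gaussRing A) else 0) *
            (⟨s, hs.mem⟩ : gaussRing A) ^ k := by
      apply Subtype.ext
      have hcoe : ∀ z : gaussRing A, (z : LaurentSeries L) = (gaussRing A).subtype z := fun _ => rfl
      rw [hcoe (∑ k ∈ Finset.range e, _), map_sum]
      show x / coord e s (k0 : ℤ) x = _
      rw [hy]
      apply Finset.sum_congr rfl
      intro k hk
      rw [dif_pos hk]
      rfl
    rw [e2, map_sum]
    apply Finset.sum_congr rfl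
    intro k hk
    rw [map_mul, map_pow, dif_pos hk, dif_pos hk]
    rfl
  rw [hres]
  intro hzero
  have hhom : ∀ k ∈ Finset.range e, IsHomog e (k : ℤ)
      ((if hk : k ∈ Finset.range e then res A ⟨_, hint k hk⟩ else 0) * sbar hs ^ k) := by
    intro k hk
    rw [dif_pos hk]
    have h0 : IsHomog e 0 (res A ⟨_, hint k hk⟩) := by
      apply isHomog_res
      have := IsHomog.div (h.homog0 _ (hx k)) (h.homog0 _ (hx k0)) hc0
      simpa using this
    have := h0.mul ((isHomog_sbar h hs).pow k)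
    refine this.congr ?_
    simp
  have hk0z := eq_zero_of_sum_eq_zero hhom hzero hk0
  rw [dif_pos hk0] at hk0z
  have hone : res A ⟨_, hint k0 hk0⟩ = 1 := by
    have : (⟨_, hint k0 hk0⟩ : gaussRing A) = 1 := Subtype.ext (div_self hc0)
    rw [this, map_one]
  rw [hone, one_mul] at hk0z
  exact pow_ne_zero k0 (sbar_ne_zero h.ne_zero hs) hk0z

end Max

section Scalable

variable {L : Type*} [Field L] {A : ValuationSubring L} {e : ℕ} [NeZero e]
  {F0 : Subfield (LaurentSeries L)} {s : LaurentSeries L}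

/-- a scalable series times a Gauss unit is scalable. -/
theorem scalableElt_mul_unit {a y : LaurentSeries L} (ha : ScalableElt A a)
    (hy : y ∈ gaussRing A) (hy' : y⁻¹ ∈ gaussRing A) (hy0 : y ≠ 0) : ScalableElt A (a * y) := by
  obtain ⟨c, P0, Q0, hc, hP0, hQ0, h0⟩ := ha
  have hy2 := hy
  obtain ⟨P1, Q1, hQ1, h1⟩ := hy
  have hres : res A ⟨y, hy2⟩ ≠ 0 := res_ne_zero_of_inv_mem A ⟨y, hy2⟩ hy0 hy'
  rw [res_eq A ⟨y, hy2⟩ hQ1 h1] at hres
  have hP1 : red A P1 ≠ 0 := fun h => hres (by rw [h, zero_div])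
  refine ⟨c, P0 * P1, Q0 * Q1, hc, ?_, ?_, ?_⟩
  · rw [map_mul]; exact mul_ne_zero hP0 hP1
  · rw [map_mul]; exact mul_ne_zero hQ0 hQ1
  · rw [map_mul, map_mul, mul_mul_mul_comm, h0, h1, mul_assoc]

variable (h : KummerData e F0 s) (hφ0 : Scalable A (F0.subtype : F0 →+* LaurentSeries L))
  (hs : GaussUnit A s)
include h hφ0 hs

/-- (K1a) elements of `⊕ F₀ sᵏ` are scalable. -/
theorem scalableElt_of_coord_mem (x : LaurentSeries L) (hx : ∀ k : ℤ, coord e s k x ∈ F0)
    (hx0 : x ≠ 0) : ScalableElt A x := by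
  obtain ⟨k0, -, hc0, -, hy, hy'⟩ := exists_max h hφ0 hs x hx hx0
  have ha : ScalableElt A (coord e s (k0 : ℤ) x) :=
    hφ0 ⟨_, hx k0⟩ (fun h0 => hc0 (congrArg Subtype.val h0))
  have hy0 : x / coord e s (k0 : ℤ) x ≠ 0 := div_ne_zero hx0 hc0
  have := scalableElt_mul_unit ha hy hy' hy0
  rwa [mul_div_cancel₀ _ hc0] at this

/-- (K1b) `O' = ⊕ O₀ sᵏ`: Gauss integrality is tested on the coordinates. -/
theorem mem_gaussRing_iff_coord (x : LaurentSeries L) (hx : ∀ k : ℤ, coord e s k x ∈ F0) :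
    x ∈ gaussRing A ↔ ∀ k ∈ Finset.range e, coord e s (k : ℤ) x ∈ gaussRing A := by
  constructor
  · intro hxm k hk
    by_cases hx0 : x = 0
    · rw [hx0, coord_zero]; exact Subring.zero_mem _
    obtain ⟨k0, -, hc0, hint, hy, hy'⟩ := exists_max h hφ0 hs x hx hx0
    have h1 : coord e s (k0 : ℤ) x ∈ gaussRing A := by
      have : coord e s (k0 : ℤ) x = x * (x / coord e s (k0 : ℤ) x)⁻¹ := by
        rw [inv_div, mul_div_cancel₀ _ hx0]
      rw [this]
      exact Subring.mul_mem _ hxm hy'
    have h2 : coord e s (k : ℤ) x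
        = coord e s (k : ℤ) x / coord e s (k0 : ℤ) x * coord e s (k0 : ℤ) x := by
      rw [div_mul_cancel₀ _ hc0]
    rw [h2]
    exact Subring.mul_mem _ (hint k hk) h1
  · intro hall
    rw [← h.sum_coord x]
    exact Subring.sum_mem _ fun k hk => Subring.mul_mem _ (hall k hk) (hs.pow_mem k)

/-- the inclusion `F₀(s) → L((q'))`. -/
def adjoinHom (F0 : Subfield (LaurentSeries L)) (s : LaurentSeries L) :
    (F0⟮s⟯ : IntermediateField F0 (LaurentSeries L)) →+* LaurentSeries L :=
  (IntermediateField.val _).toRingHom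

omit h hφ0 hs in
@[simp] theorem adjoinHom_apply (x : (F0⟮s⟯ : IntermediateField F0 (LaurentSeries L))) :
    adjoinHom F0 s x = (x : LaurentSeries L) := rfl

/-- **(K1) `F' = F₀(s)` is Gauss-scalable.** -/
theorem scalable_adjoin : Scalable A (adjoinHom F0 s) := by
  intro x hx0
  refine scalableElt_of_coord_mem h hφ0 hs _ (h.mem_adjoin_iff.mp x.2) ?_
  intro h0
  exact hx0 (Subtype.ext h0)

/-- membership in the Gauss valuation subring of `F₀(s)`, by coordinates. -/
theorem mem_gaussSubring_adjoin_iff (x : (F0⟮s⟯ : IntermediateField F0 (LaurentSeries L))) :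
    x ∈ gaussSubring (scalable_adjoin h hφ0 hs) ↔
      ∀ k ∈ Finset.range e, coord e s (k : ℤ) (x : LaurentSeries L) ∈ gaussRing A := by
  rw [mem_gaussSubring_iff, ← mem_gaussRing]
  exact mem_gaussRing_iff_coord h hφ0 hs _ (h.mem_adjoin_iff.mp x.2)

end Scalable

end Fermat.Agent.S18.Cusp.GaussKummer
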