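import Mathlib
import Fermat.Agent.S18.Cusp.GaussKummer

/-!
# S18 (CUSP, CU4 part 2): the residue field of the Gauss valuation of `F₀(s)`

* `resT` : the total residue `L((q')) → κ((q'))` (zero outside the Gauss ring);
* `resSubfield hφ` : the residue field of a Gauss valuation as a subfield of `κ((q'))`;
* `kummerData_bar` : `(F̄₀, s̄)` is again a Kummer datum;
* `resMap_adjoin_eq` : `resMap' x = ∑ resT (a_k) s̄ᵏ` for `x = ∑ a_k sᵏ ∈ O'`;
* `resSubfield_adjoin` : the residue field of `F₀(s)` is `F̄₀(s̄) = ⊕ F̄₀ s̄ᵏ`.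
-/

set_option autoImplicit false
set_option linter.unusedSectionVars false
set_option linter.style.haveILetI false

noncomputable section

open HahnSeries ModularCurve IntermediateField

namespace Fermat.Agent.S18.Cusp.GaussKummer

open Fermat.Agent.S18.Cusp.Graded Fermat.Agent.S18.Cusp.Kummer Fermat.Agent.S18.Gauss.Basic

section ResT

variable {L : Type*} [Field L] (A : ValuationSubring L)

open Classical in
/-- the total residue map (zero outside the Gauss ring). -/
def resT (z : LaurentSeries L) : LaurentSeries (IsLocalRing.ResidueField A) :=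
  if h : z ∈ gaussRing A then res A ⟨z, h⟩ else 0

theorem resT_of_mem {z : LaurentSeries L} (h : z ∈ gaussRing A) : resT A z = res A ⟨z, h⟩ := by
  unfold resT
  rw [dif_pos h]

theorem resT_mul {z w : LaurentSeries L} (hz : z ∈ gaussRing A) (hw : w ∈ gaussRing A) :
    resT A (z * w) = resT A z * resT A w := by
  rw [resT_of_mem A hz, resT_of_mem A hw, resT_of_mem A (Subring.mul_mem _ hz hw), ← map_mul]
  rfl

theorem resT_add {z w : LaurentSeries L} (hz : z ∈ gaussRing A) (hw : w ∈ gaussRing A) :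
    resT A (z + w) = resT A z + resT A w := by
  rw [resT_of_mem A hz, resT_of_mem A hw, resT_of_mem A (Subring.add_mem _ hz hw), ← map_add]
  rfl

theorem resT_zero : resT A (0 : LaurentSeries L) = 0 := by
  rw [resT_of_mem A (Subring.zero_mem _)]
  exact map_zero (res A)

theorem resT_one : resT A (1 : LaurentSeries L) = 1 := by
  rw [resT_of_mem A (Subring.one_mem _)]
  exact map_one (res A)

theorem resT_pow {z : LaurentSeries L} (hz : z ∈ gaussRing A) (n : ℕ) :
    resT A (z ^ n) = resT A z ^ n := by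
  induction n with
  | zero => rw [pow_zero, pow_zero, resT_one]
  | succ n ih => rw [pow_succ, pow_succ, resT_mul A (Subring.pow_mem _ hz n) hz, ih]

theorem resT_sum {ι : Type*} (t : Finset ι) (f : ι → LaurentSeries L)
    (hf : ∀ i ∈ t, f i ∈ gaussRing A) : resT A (∑ i ∈ t, f i) = ∑ i ∈ t, resT A (f i) := by
  classical
  induction t using Finset.induction_on with
  | empty => simp [resT_zero]
  | insert a t ha ih =>
    rw [Finset.sum_insert ha, Finset.sum_insert ha,
      resT_add A (hf a (Finset.mem_insert_self a t))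
        (Subring.sum_mem _ fun i hi => hf i (Finset.mem_insert_of_mem hi)),
      ih fun i hi => hf i (Finset.mem_insert_of_mem hi)]

theorem resT_incl (P : LaurentSeries A) : resT A (incl A P) = red A P := by
  rw [resT_of_mem A (incl_mem_gaussRing A P), res_incl]

variable {F : Type*} [Field F] {φ : F →+* LaurentSeries L}

theorem resMap_eq_resT (hφ : Scalable A φ) (x : gaussSubring hφ) :
    resMap hφ x = resT A (φ x) := by
  rw [resT_of_mem A (show φ x ∈ gaussRing A from x.2)]
  rfl

/-- the residue field of a Gauss valuation, as a subfield of `κ((q'))`. -/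
def resSubfield (hφ : Scalable A φ) : Subfield (LaurentSeries (IsLocalRing.ResidueField A)) where
  toSubring := (resMap hφ).range
  inv_mem' := by
    rintro _ ⟨x, rfl⟩
    by_cases hx : resMap hφ x = 0
    · rw [hx, inv_zero]; exact Subring.zero_mem _
    · obtain ⟨u, hu⟩ := (isUnit_iff_resMap_ne_zero hφ x).mpr hx
      refine ⟨((u⁻¹ : (gaussSubring hφ)ˣ) : gaussSubring hφ), ?_⟩
      have h1 : resMap hφ ((u⁻¹ : (gaussSubring hφ)ˣ) : gaussSubring hφ) * resMap hφ x = 1 := by
        rw [← hu, ← map_mul, Units.inv_mul, map_one]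
      exact eq_inv_of_mul_eq_one_left h1

theorem mem_resSubfield (hφ : Scalable A φ) {z : LaurentSeries (IsLocalRing.ResidueField A)} :
    z ∈ resSubfield A hφ ↔ ∃ x : gaussSubring hφ, resMap hφ x = z := Iff.rfl

end ResT

section Bar

variable {L : Type*} [Field L] {A : ValuationSubring L} {e : ℕ} [NeZero e]
  {F0 : Subfield (LaurentSeries L)} {s : LaurentSeries L}
  (h : KummerData e F0 s) (hφ0 : Scalable A (F0.subtype : F0 →+* LaurentSeries L))
  (hs : GaussUnit A s)
include h hφ0 hs

omit h hφ0 in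
theorem sbar_eq_resT : sbar hs = resT A s := (resT_of_mem A hs.mem).symm

/-- `(F̄₀, s̄)` is a Kummer datum in `κ((q'))`. -/
theorem kummerData_bar : KummerData e (resSubfield A hφ0) (sbar hs) where
  homog0 := by
    rintro _ ⟨x, rfl⟩
    exact isHomog_res A ⟨_, x.2⟩ (h.homog0 _ (x : F0).2)
  homog1 := isHomog_sbar h hs
  ne_zero := sbar_ne_zero h.ne_zero hs
  pow_mem := by
    have hmem : (⟨s ^ e, h.pow_mem⟩ : F0) ∈ gaussSubring hφ0 := by
      show s ^ e ∈ gaussRing A
      exact hs.pow_mem e
    refine ⟨⟨_, hmem⟩, ?_⟩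
    rw [resMap_eq_resT, sbar_eq_resT, ← resT_pow A hs.mem]
    rfl

/-- **(K2)** the residue of `x = ∑ a_k sᵏ ∈ O'` is `∑ ā_k s̄ᵏ`. -/
theorem resT_eq_sum_coord (x : LaurentSeries L) (hx : ∀ k : ℤ, coord e s k x ∈ F0)
    (hxm : x ∈ gaussRing A) :
    resT A x = ∑ k ∈ Finset.range e, resT A (coord e s (k : ℤ) x) * sbar hs ^ k := by
  have hc := (mem_gaussRing_iff_coord h hφ0 hs x hx).mp hxm
  conv_lhs => rw [← h.sum_coord x]
  rw [resT_sum A _ _ fun k hk => Subring.mul_mem _ (hc k hk) (hs.pow_mem k)]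
  apply Finset.sum_congr rfl
  intro k hk
  rw [resT_mul A (hc k hk) (hs.pow_mem k), resT_pow A hs.mem, sbar_eq_resT]

theorem resMap_adjoin_eq (x : gaussSubring (scalable_adjoin h hφ0 hs)) :
    resMap (scalable_adjoin h hφ0 hs) x
      = ∑ k ∈ Finset.range e,
          resT A (coord e s (k : ℤ) ((x : (F0⟮s⟯ : IntermediateField F0 (LaurentSeries L)))
            : LaurentSeries L)) * sbar hs ^ k := by
  rw [resMap_eq_resT]
  exact resT_eq_sum_coord h hφ0 hs _ (h.mem_adjoin_iff.mp (x : F0⟮s⟯).2) x.2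

/-- the coordinates of a residue are the residues of the coordinates. -/
theorem coord_resT (x : LaurentSeries L) (hx : ∀ k : ℤ, coord e s k x ∈ F0)
    (hxm : x ∈ gaussRing A) {j : ℕ} (hj : j ∈ Finset.range e) :
    coord e (sbar hs) (j : ℤ) (resT A x) = resT A (coord e s (j : ℤ) x) := by
  have hc := (mem_gaussRing_iff_coord h hφ0 hs x hx).mp hxm
  rw [resT_eq_sum_coord h hφ0 hs x hx hxm]
  refine (kummerData_bar h hφ0 hs).coord_sum_mul_pow (a := fun k => resT A (coord e s (k : ℤ) x))
    (fun k hk => ?_) hj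
  have hmem : (⟨coord e s (k : ℤ) x, hx k⟩ : F0) ∈ gaussSubring hφ0 := hc k hk
  exact ⟨⟨_, hmem⟩, by rw [resMap_eq_resT]; rfl⟩

/-- **(K2) the residue field of `F₀(s)` is `F̄₀(s̄)`.** -/
theorem mem_resSubfield_adjoin_iff {z : LaurentSeries (IsLocalRing.ResidueField A)} :
    z ∈ resSubfield A (scalable_adjoin h hφ0 hs) ↔
      z ∈ ((resSubfield A hφ0)⟮sbar hs⟯ :
        IntermediateField (resSubfield A hφ0) (LaurentSeries (IsLocalRing.ResidueField A))) := by
  have hbar := kummerData_bar h hφ0 hs
  rw [hbar.mem_adjoin_iff_range]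
  constructor
  · rintro ⟨x, rfl⟩ k hk
    rw [resMap_eq_resT]
    have hx := h.mem_adjoin_iff.mp (x : F0⟮s⟯).2
    have hxm : ((x : F0⟮s⟯) : LaurentSeries L) ∈ gaussRing A := x.2
    show coord e (sbar hs) (k : ℤ) (resT A ((x : F0⟮s⟯) : LaurentSeries L)) ∈ _
    rw [coord_resT h hφ0 hs _ hx hxm hk]
    have hc := (mem_gaussRing_iff_coord h hφ0 hs _ hx).mp hxm
    have hmem : (⟨coord e s (k : ℤ) ((x : F0⟮s⟯) : LaurentSeries L), hx k⟩ : F0)
        ∈ gaussSubring hφ0 := hc k hk
    exact ⟨⟨_, hmem⟩, by rw [resMap_eq_resT]; rfl⟩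
  · intro hz
    -- lift the coordinates
    have hlift : ∀ k ∈ Finset.range e, ∃ y : gaussSubring hφ0,
        resMap hφ0 y = coord e (sbar hs) (k : ℤ) z := fun k hk => hz k hk
    classical
    let y : ℕ → LaurentSeries L := fun k =>
      if hk : k ∈ Finset.range e then (((hlift k hk).choose : gaussSubring hφ0) : F0) else 0
    have hyF : ∀ k, y k ∈ F0 := by
      intro k
      by_cases hk : k ∈ Finset.range e
      · simp only [y, dif_pos hk]; exact SetLike.coe_mem _
      · simp only [y, dif_neg hk]; exact F0.zero_mem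
    have hyG : ∀ k, y k ∈ gaussRing A := by
      intro k
      by_cases hk : k ∈ Finset.range e
      · simp only [y, dif_pos hk]; exact ((hlift k hk).choose).2
      · simp only [y, dif_neg hk]; exact Subring.zero_mem _
    have hyres : ∀ k ∈ Finset.range e, resT A (y k) = coord e (sbar hs) (k : ℤ) z := by
      intro k hk
      simp only [y, dif_pos hk]
      have hspec := (hlift k hk).choose_spec
      rw [resMap_eq_resT] at hspec
      exact hspec
    set x : LaurentSeries L := ∑ k ∈ Finset.range e, y k * s ^ k with hxdef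
    have hxF : x ∈ (F0⟮s⟯ : IntermediateField F0 (LaurentSeries L)) := by
      refine IntermediateField.sum_mem _ fun k _ => IntermediateField.mul_mem _ ?_
        (IntermediateField.pow_mem _ (IntermediateField.mem_adjoin_simple_self F0 s) k)
      exact IntermediateField.algebraMap_mem _ (⟨y k, hyF k⟩ : F0)
    have hxG : x ∈ gaussRing A :=
      Subring.sum_mem _ fun k _ => Subring.mul_mem _ (hyG k) (hs.pow_mem k)
    refine ⟨⟨⟨x, hxF⟩, hxG⟩, ?_⟩
    rw [resMap_eq_resT]
    show resT A x = z
    rw [hxdef, resT_sum A _ _ fun k _ => Subring.mul_mem _ (hyG k) (hs.pow_mem k),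
      ← hbar.sum_coord z]
    apply Finset.sum_congr rfl
    intro k hk
    rw [resT_mul A (hyG k) (hs.pow_mem k), resT_pow A hs.mem, hyres k hk, sbar_eq_resT]

end Bar

end Fermat.Agent.S18.Cusp.GaussKummer
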