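import Mathlib
import Fermat.Agent.S18.Cusp.GaussKummerRes
import Fermat.Agent.S18.ValExt.UniqueOfResidue

/-!
# S18 (CUSP, CU4 part 3): residual independence in the Kummer extension `F₀(s)`

Element-level residual independence `ResIndepElt A E₀ b` (for the Gauss valuation of `L((q'))`,
over a subfield `E₀`), its equivalence with `UniqueOfResidue.ResIndep` for any field `F'` mapped
to `L((q'))` by a scalable homomorphism, and

* **(K3)** `resIndepElt_mul_pow` : if `b : ι → F₀` is residually independent over `E₀ ≤ F₀`, then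
  `(i, k) ↦ b i * sᵏ`, `k < e`, is residually independent over `E₀` (in `F₀(s)`);
* `finrank_adjoin` : `[F₀(s) : F₀] = e`;
* `eq_of_comap_eq_adjoin` : hence, if `card ι = [F₀ : E₀]`, the Gauss valuation subring of `F₀(s)`
  is the unique valuation subring of `F₀(s)` with its trace on `E₀` (**huniq** for the Kummer
  cover, over `E₀` and therefore over every intermediate field, e.g. `L(s)`).
-/

set_option autoImplicit false
set_option linter.unusedSectionVars false
set_option linter.style.haveILetI false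

noncomputable section

open HahnSeries ModularCurve IntermediateField

namespace Fermat.Agent.S18.Cusp.GaussKummer

open Fermat.Agent.S18.Cusp.Graded Fermat.Agent.S18.Cusp.Kummer Fermat.Agent.S18.Gauss.Basic
open Fermat.Agent.S18.ValExt.UniqueOfResidue

section Elt

variable {L : Type*} [Field L] (A : ValuationSubring L)

theorem mem_of_resT_ne_zero {z : LaurentSeries L} (h : resT A z ≠ 0) : z ∈ gaussRing A := by
  by_contra hz
  apply h
  unfold resT
  rw [dif_neg hz]

theorem inv_mem_of_resT_ne_zero {z : LaurentSeries L} (h : resT A z ≠ 0) :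
    z⁻¹ ∈ gaussRing A := by
  have hz := mem_of_resT_ne_zero A h
  rw [resT_of_mem A hz] at h
  exact inv_mem_of_res_ne_zero A ⟨z, hz⟩ h

theorem resT_ne_zero_of_inv_mem {z : LaurentSeries L} (hz0 : z ≠ 0) (hz : z ∈ gaussRing A)
    (hz' : z⁻¹ ∈ gaussRing A) : resT A z ≠ 0 := by
  rw [resT_of_mem A hz]
  exact res_ne_zero_of_inv_mem A ⟨z, hz⟩ hz0 hz'

theorem ne_zero_of_resT_ne_zero {z : LaurentSeries L} (h : resT A z ≠ 0) : z ≠ 0 := by
  rintro rfl
  exact h (resT_zero A)

/-- element-level residual independence over a subfield `E₀ ⊆ L((q'))`, for the Gauss valuation. -/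
def ResIndepElt (E0 : Subfield (LaurentSeries L)) {ι : Type*} [Fintype ι]
    (b : ι → LaurentSeries L) : Prop :=
  ∀ a : ι → LaurentSeries L, (∀ i, a i ∈ E0) → (∀ i, a i ∈ gaussRing A) →
    (∃ i, resT A (a i) ≠ 0) → resT A (∑ i, a i * b i) ≠ 0

variable {A}

theorem ResIndepElt.resT_ne_zero {E0 : Subfield (LaurentSeries L)} {ι : Type*} [Fintype ι]
    {b : ι → LaurentSeries L} (hb : ResIndepElt A E0 b) (i : ι) : resT A (b i) ≠ 0 := by
  classical
  have h := hb (fun j => if j = i then 1 else 0)
    (fun j => by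
      by_cases hj : j = i
      · simp only [hj, if_true]; exact E0.one_mem
      · simp only [hj, if_false]; exact E0.zero_mem)
    (fun j => by
      by_cases hj : j = i
      · simp only [hj, if_true]; exact Subring.one_mem _
      · simp only [hj, if_false]; exact Subring.zero_mem _)
    ⟨i, by simp only [if_true]; rw [resT_one]; exact one_ne_zero⟩
  have e : (∑ j, (if j = i then (1 : LaurentSeries L) else 0) * b j) = b i := by
    rw [Finset.sum_eq_single i]
    · simp
    · intro j _ hj
      simp [hj]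
    · intro hi
      exact absurd (Finset.mem_univ i) hi
  rwa [e] at h

theorem ResIndepElt.mem {E0 : Subfield (LaurentSeries L)} {ι : Type*} [Fintype ι]
    {b : ι → LaurentSeries L} (hb : ResIndepElt A E0 b) (i : ι) : b i ∈ gaussRing A :=
  mem_of_resT_ne_zero A (hb.resT_ne_zero i)

theorem ResIndepElt.mono {E0 E1 : Subfield (LaurentSeries L)} (hE : E1 ≤ E0) {ι : Type*}
    [Fintype ι] {b : ι → LaurentSeries L} (hb : ResIndepElt A E0 b) : ResIndepElt A E1 b :=
  fun a ha => hb a fun i => hE (ha i)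

end Elt

section Bridge

variable {L : Type*} [Field L] {A : ValuationSubring L}
  {F' : Type*} [Field F'] {φ' : F' →+* LaurentSeries L} (hφ' : Scalable A φ')

theorem valuation_eq_one_iff_resT (x : F') :
    (gaussSubring hφ').valuation x = 1 ↔ resT A (φ' x) ≠ 0 := by
  constructor
  · intro hx
    have hx0 : x ≠ 0 := by
      rintro rfl
      rw [map_zero] at hx
      exact zero_ne_one hx
    have hxm : x ∈ gaussSubring hφ' := by
      rw [← ValuationSubring.valuation_le_one_iff, hx]
    have hxi : x⁻¹ ∈ gaussSubring hφ' := by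
      rw [← ValuationSubring.valuation_le_one_iff, map_inv₀, hx, inv_one]
    refine resT_ne_zero_of_inv_mem A ?_ hxm ?_
    · rwa [Ne, map_eq_zero_iff _ φ'.injective]
    · have : φ' x⁻¹ ∈ gaussRing A := hxi
      rwa [map_inv₀] at this
  · intro hx
    have hxm : x ∈ gaussSubring hφ' := mem_of_resT_ne_zero A hx
    have hxi : x⁻¹ ∈ gaussSubring hφ' := by
      show φ' x⁻¹ ∈ gaussRing A
      rw [map_inv₀]
      exact inv_mem_of_resT_ne_zero A hx
    have h1 : (gaussSubring hφ').valuation x ≤ 1 :=
      (ValuationSubring.valuation_le_one_iff _ _).mpr hxm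
    have h2 : (gaussSubring hφ').valuation x⁻¹ ≤ 1 :=
      (ValuationSubring.valuation_le_one_iff _ _).mpr hxi
    have hx0 : x ≠ 0 := by
      rintro rfl
      rw [map_zero] at hx
      exact hx (resT_zero A)
    have hv0 : (gaussSubring hφ').valuation x ≠ 0 := by
      rwa [Ne, Valuation.zero_iff]
    rw [map_inv₀] at h2
    refine le_antisymm h1 ?_
    have := (inv_le_one₀ (zero_lt_iff.mpr hv0)).mp h2
    exact this

variable {E : Type*} [Field E] [Algebra E F'] {ι : Type*} [Fintype ι] {b : ι → F'}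

/-- from the element level to `UniqueOfResidue.ResIndep`. -/
theorem resIndep_of_resIndepElt (E0 : Subfield (LaurentSeries L))
    (hE0 : ∀ c : E, φ' (algebraMap E F' c) ∈ E0)
    (hb : ResIndepElt A E0 fun i => φ' (b i)) :
    ResIndep (F := E) (gaussSubring hφ') b := by
  intro a ha hex
  rw [valuation_eq_one_iff_resT]
  have hsum : φ' (∑ i, a i • b i) = ∑ i, φ' (algebraMap E F' (a i)) * φ' (b i) := by
    rw [map_sum]
    refine Finset.sum_congr rfl fun i _ => ?_
    rw [Algebra.smul_def, map_mul]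
  rw [hsum]
  refine hb (fun i => φ' (algebraMap E F' (a i))) (fun i => hE0 _) (fun i => ?_) ?_
  · exact (ValuationSubring.valuation_le_one_iff _ _).mp (ha i)
  · obtain ⟨i, hi⟩ := hex
    exact ⟨i, (valuation_eq_one_iff_resT hφ' _).mp hi⟩

/-- from `UniqueOfResidue.ResIndep` to the element level. -/
theorem resIndepElt_of_resIndep (E0 : Subfield (LaurentSeries L))
    (hE0 : ∀ z ∈ E0, ∃ c : E, φ' (algebraMap E F' c) = z)
    (hb : ResIndep (F := E) (gaussSubring hφ') b) :
    ResIndepElt A E0 fun i => φ' (b i) := by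
  intro a haE ha hex
  choose c hc using fun i => hE0 (a i) (haE i)
  have hsum : ∑ i, a i * φ' (b i) = φ' (∑ i, c i • b i) := by
    rw [map_sum]
    refine Finset.sum_congr rfl fun i _ => ?_
    rw [Algebra.smul_def, map_mul, hc]
  rw [hsum, ← valuation_eq_one_iff_resT hφ']
  refine hb c (fun i => ?_) ?_
  · rw [ValuationSubring.valuation_le_one_iff]
    show φ' _ ∈ gaussRing A
    rw [hc]
    exact ha i
  · obtain ⟨i, hi⟩ := hex
    refine ⟨i, ?_⟩
    rw [valuation_eq_one_iff_resT, hc]
    exact hi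

end Bridge

section Kummer

variable {L : Type*} [Field L] {A : ValuationSubring L} {e : ℕ} [NeZero e]
  {F0 : Subfield (LaurentSeries L)} {s : LaurentSeries L}
  (h : KummerData e F0 s) (hφ0 : Scalable A (F0.subtype : F0 →+* LaurentSeries L))
  (hs : GaussUnit A s)
include h hφ0 hs

omit h hs in
theorem resT_mem_resSubfield {c : LaurentSeries L} (hcF : c ∈ F0) (hcG : c ∈ gaussRing A) :
    resT A c ∈ resSubfield A hφ0 := by
  have hmem : (⟨c, hcF⟩ : F0) ∈ gaussSubring hφ0 := hcG
  exact ⟨⟨_, hmem⟩, by rw [resMap_eq_resT]; rfl⟩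

/-- the residue of `∑ c_k sᵏ`, `c_k ∈ O₀`, vanishes only if all the residues of the `c_k` do. -/
theorem resT_sum_mul_pow_ne_zero {c : ℕ → LaurentSeries L}
    (hcF : ∀ k ∈ Finset.range e, c k ∈ F0) (hcG : ∀ k ∈ Finset.range e, c k ∈ gaussRing A)
    {k0 : ℕ} (hk0 : k0 ∈ Finset.range e) (hk0r : resT A (c k0) ≠ 0) :
    resT A (∑ k ∈ Finset.range e, c k * s ^ k) ≠ 0 := by
  rw [resT_sum A _ _ fun k hk => Subring.mul_mem _ (hcG k hk) (hs.pow_mem k)]
  intro hzero
  have hsum : ∑ k ∈ Finset.range e, resT A (c k) * sbar hs ^ k = 0 := by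
    rw [← hzero]
    refine Finset.sum_congr rfl fun k hk => ?_
    rw [resT_mul A (hcG k hk) (hs.pow_mem k), resT_pow A hs.mem, sbar_eq_resT]
  exact hk0r ((kummerData_bar h hφ0 hs).eq_zero_of_sum_mul_pow_eq_zero
    (a := fun k => resT A (c k))
    (fun k hk => resT_mem_resSubfield hφ0 (hcF k hk) (hcG k hk)) hsum hk0)

/-- **(K3)** residual independence of `b i * sᵏ` over `E₀`. -/
theorem resIndepElt_mul_pow {E0 : Subfield (LaurentSeries L)} (hE : E0 ≤ F0) {ι : Type*}
    [Fintype ι] {b : ι → LaurentSeries L} (hbF : ∀ i, b i ∈ F0) (hb : ResIndepElt A E0 b) :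
    ResIndepElt A E0 fun p : ι × Fin e => b p.1 * s ^ (p.2 : ℕ) := by
  classical
  intro a haE haG ⟨p0, hp0⟩
  -- regroup by powers of `s`
  let c : ℕ → LaurentSeries L := fun k =>
    if hk : k < e then ∑ i, a (i, ⟨k, hk⟩) * b i else 0
  have hsum : ∑ p : ι × Fin e, a p * (b p.1 * s ^ (p.2 : ℕ))
      = ∑ k ∈ Finset.range e, c k * s ^ k := by
    rw [Fintype.sum_prod_type_right, ← Fin.sum_univ_eq_sum_range (fun k => c k * s ^ k) e]
    refine Finset.sum_congr rfl fun k _ => ?_
    simp only [c, dif_pos k.2, Fin.eta, Finset.sum_mul]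
    refine Finset.sum_congr rfl fun i _ => ?_
    ring
  have hcF : ∀ k ∈ Finset.range e, c k ∈ F0 := by
    intro k hk
    have hk' : k < e := Finset.mem_range.mp hk
    simp only [c, dif_pos hk']
    exact F0.sum_mem fun i _ => F0.mul_mem (hE (haE _)) (hbF i)
  have hcG : ∀ k ∈ Finset.range e, c k ∈ gaussRing A := by
    intro k hk
    have hk' : k < e := Finset.mem_range.mp hk
    simp only [c, dif_pos hk']
    exact Subring.sum_mem _ fun i _ => Subring.mul_mem _ (haG _) (hb.mem i)
  rw [hsum]
  refine resT_sum_mul_pow_ne_zero h hφ0 hs hcF hcG (k0 := (p0.2 : ℕ))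
    (Finset.mem_range.mpr p0.2.2) ?_
  simp only [c, dif_pos p0.2.2, Fin.eta]
  exact hb (fun i => a (i, p0.2)) (fun i => haE _) (fun i => haG _) ⟨p0.1, hp0⟩

end Kummer

end Fermat.Agent.S18.Cusp.GaussKummer
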