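import Mathlib
import Fermat.Agent.S18.Cusp.GaussKummerIndep

/-!
# S18 (CUSP, CU4 part 4): transport of the Gauss data along `q ↦ q'ᵉ`

`qExpand L e : L((q)) → L((q'))` commutes with `incl`, `red`, preserves the Gauss ring, the
residue, scalability and residual independence.  This turns the Gauss data of a subfield
`F ⊆ L((q))` into the hypotheses of `GaussKummer*.lean` for `F₀ := F.map (qExpand L e)`.
-/

set_option autoImplicit false
set_option linter.unusedSectionVars false

noncomputable section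

open HahnSeries ModularCurve IntermediateField

namespace Fermat.Agent.S18.Cusp.GaussKummer

open Fermat.Agent.S18.Cusp.Graded Fermat.Agent.S18.Cusp.Kummer Fermat.Agent.S18.Gauss.Basic

section QExpand

variable {L : Type*} [Field L] (A : ValuationSubring L) (e : ℕ) [NeZero e]

theorem incl_qExpand (P : LaurentSeries A) :
    incl A (qExpand A e P) = qExpand L e (incl A P) :=
  ModularCurve.coeffMap_qExpand _ e P

theorem red_qExpand (P : LaurentSeries A) :
    red A (qExpand A e P) = qExpand (IsLocalRing.ResidueField A) e (red A P) :=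
  ModularCurve.coeffMap_qExpand _ e P

theorem red_qExpand_ne_zero {P : LaurentSeries A} (h : red A P ≠ 0) :
    red A (qExpand A e P) ≠ 0 := by
  rw [red_qExpand]
  intro h0
  apply h
  apply qExpand_injective (R := IsLocalRing.ResidueField A) e
  rw [h0, map_zero]

theorem qExpand_mem_gaussRing {x : LaurentSeries L} (hx : x ∈ gaussRing A) :
    qExpand L e x ∈ gaussRing A := by
  obtain ⟨P, Q, hQ, h⟩ := hx
  exact ⟨qExpand A e P, qExpand A e Q, red_qExpand_ne_zero A e hQ, by
    rw [incl_qExpand, incl_qExpand, ← map_mul, h]⟩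

theorem res_qExpand (x : gaussRing A) :
    res A ⟨qExpand L e x, qExpand_mem_gaussRing A e x.2⟩
      = qExpand (IsLocalRing.ResidueField A) e (res A x) := by
  obtain ⟨P, Q, hQ, h⟩ := x.2
  rw [res_eq A x hQ h, res_eq A ⟨qExpand L e x, qExpand_mem_gaussRing A e x.2⟩
    (P := qExpand A e P) (Q := qExpand A e Q) (red_qExpand_ne_zero A e hQ)
    (by rw [incl_qExpand, incl_qExpand, ← map_mul, h]), red_qExpand, red_qExpand, map_div₀]

theorem resT_qExpand_of_mem {x : LaurentSeries L} (hx : x ∈ gaussRing A) :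
    resT A (qExpand L e x) = qExpand (IsLocalRing.ResidueField A) e (resT A x) := by
  rw [resT_of_mem A hx, resT_of_mem A (qExpand_mem_gaussRing A e hx)]
  exact res_qExpand A e ⟨x, hx⟩

theorem scalableElt_qExpand {x : LaurentSeries L} (hx : ScalableElt A x) :
    ScalableElt A (qExpand L e x) := by
  obtain ⟨c, P, Q, hc, hP, hQ, h⟩ := hx
  refine ⟨c, qExpand A e P, qExpand A e Q, hc, red_qExpand_ne_zero A e hP,
    red_qExpand_ne_zero A e hQ, ?_⟩
  rw [incl_qExpand, incl_qExpand, ← map_mul, h, map_mul, qExpand_C]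

/-- for scalable `x`, Gauss integrality can be tested after `q ↦ q'ᵉ`. -/
theorem qExpand_mem_gaussRing_iff {x : LaurentSeries L} (hx : ScalableElt A x) :
    qExpand L e x ∈ gaussRing A ↔ x ∈ gaussRing A := by
  refine ⟨fun hq => ?_, qExpand_mem_gaussRing A e⟩
  obtain ⟨c, hc, hu, hu'⟩ := hx.exists_const A
  -- `x = c u`, `u` a Gauss unit
  have hC : (HahnSeries.C c : LaurentSeries L) ≠ 0 := by
    intro h0
    exact hc ((map_eq_zero_iff _ HahnSeries.C_injective).1 h0)
  set u : LaurentSeries L := (HahnSeries.C c : LaurentSeries L)⁻¹ * x with hu_def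
  have hxu : x = HahnSeries.C c * u := by
    rw [hu_def, ← mul_assoc, mul_inv_cancel₀ hC, one_mul]
  have hu0 : u ≠ 0 := by
    intro h0
    apply hx.ne_zero A
    rw [hxu, h0, mul_zero]
  -- `C c = qExpand x * qExpand u⁻¹`
  have hCc : (HahnSeries.C c : LaurentSeries L) = qExpand L e x * qExpand L e u⁻¹ := by
    rw [← map_mul, hxu, mul_assoc, mul_inv_cancel₀ hu0, mul_one, qExpand_C]
  have hcA : c ∈ A := by
    rw [← C_mem_gaussRing_iff, hCc]
    exact Subring.mul_mem _ hq (qExpand_mem_gaussRing A e hu')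
  rw [hxu]
  exact Subring.mul_mem _ ((C_mem_gaussRing_iff A c).mpr hcA) hu

theorem resT_qExpand {x : LaurentSeries L} (hx : ScalableElt A x) :
    resT A (qExpand L e x) = qExpand (IsLocalRing.ResidueField A) e (resT A x) := by
  by_cases hxm : x ∈ gaussRing A
  · exact resT_qExpand_of_mem A e hxm
  · have h1 : resT A x = 0 := by
      unfold resT
      rw [dif_neg hxm]
    have h2 : resT A (qExpand L e x) = 0 := by
      unfold resT
      rw [dif_neg (fun hq => hxm ((qExpand_mem_gaussRing_iff A e hx).mp hq))]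
    rw [h1, h2, map_zero]

theorem resT_qExpand_ne_zero_iff {x : LaurentSeries L} (hx : x = 0 ∨ ScalableElt A x) :
    resT A (qExpand L e x) ≠ 0 ↔ resT A x ≠ 0 := by
  rcases hx with rfl | hx
  · rw [map_zero]
  · rw [resT_qExpand A e hx, Ne, Ne,
      map_eq_zero_iff _ (qExpand_injective (R := IsLocalRing.ResidueField A) e)]

end QExpand

section Subfield

variable {L : Type*} [Field L] {A : ValuationSubring L} (e : ℕ) [NeZero e]
  {F : Subfield (LaurentSeries L)}

/-- **`hφ0` for `F₀ = F.map (qExpand L e)`.** -/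
theorem scalable_map_qExpand (hφ : Scalable A (F.subtype : F →+* LaurentSeries L)) :
    Scalable A ((F.map (qExpand L e)).subtype : F.map (qExpand L e) →+* LaurentSeries L) := by
  rintro ⟨x, hx⟩ hx0
  obtain ⟨y, hy, rfl⟩ := (Subfield.mem_map).mp hx
  have hy0 : (⟨y, hy⟩ : F) ≠ 0 := by
    intro h0
    apply hx0
    apply Subtype.ext
    have : y = 0 := congrArg Subtype.val h0
    show qExpand L e y = 0
    rw [this, map_zero]
  exact scalableElt_qExpand A e (hφ ⟨y, hy⟩ hy0)

omit [NeZero e] in
theorem zero_or_scalableElt_of_mem (hφ : Scalable A (F.subtype : F →+* LaurentSeries L))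
    {y : LaurentSeries L} (hy : y ∈ F) : y = 0 ∨ ScalableElt A y := by
  by_cases h0 : y = 0
  · exact Or.inl h0
  · exact Or.inr (hφ ⟨y, hy⟩ fun h => h0 (congrArg Subtype.val h))

/-- the residue field of `F.map (qExpand L e)` is the image of that of `F`. -/
theorem resSubfield_map_qExpand (hφ : Scalable A (F.subtype : F →+* LaurentSeries L)) :
    resSubfield A (scalable_map_qExpand e hφ)
      = (resSubfield A hφ).map (qExpand (IsLocalRing.ResidueField A) e) := by
  ext z
  rw [Subfield.mem_map]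
  constructor
  · rintro ⟨⟨⟨x, hx⟩, hxm⟩, rfl⟩
    obtain ⟨y, hy, rfl⟩ := (Subfield.mem_map).mp hx
    have hxm' : qExpand L e y ∈ gaussRing A := hxm
    have hym : y ∈ gaussRing A := by
      rcases zero_or_scalableElt_of_mem hφ hy with rfl | hys
      · exact Subring.zero_mem _
      · exact (qExpand_mem_gaussRing_iff A e hys).mp hxm'
    have hmem : (⟨y, hy⟩ : F) ∈ gaussSubring hφ := hym
    refine ⟨resMap hφ ⟨⟨y, hy⟩, hmem⟩, ⟨_, rfl⟩, ?_⟩
    rw [resMap_eq_resT, resMap_eq_resT]
    exact (resT_qExpand_of_mem A e hym).symm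
  · rintro ⟨w, ⟨⟨⟨y, hy⟩, hym⟩, rfl⟩, rfl⟩
    have hym' : y ∈ gaussRing A := hym
    have hx : qExpand L e y ∈ F.map (qExpand L e) := (Subfield.mem_map).mpr ⟨y, hy, rfl⟩
    have hmem : (⟨qExpand L e y, hx⟩ : F.map (qExpand L e))
        ∈ gaussSubring (scalable_map_qExpand e hφ) := qExpand_mem_gaussRing A e hym'
    refine ⟨⟨⟨_, hx⟩, hmem⟩, ?_⟩
    rw [resMap_eq_resT, resMap_eq_resT]
    exact resT_qExpand_of_mem A e hym'

/-- residual independence is preserved by `q ↦ q'ᵉ`. -/
theorem resIndepElt_qExpand {E0 : Subfield (LaurentSeries L)}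
    (hE0 : ∀ z ∈ E0, z = 0 ∨ ScalableElt A z) {ι : Type*} [Fintype ι]
    {b : ι → LaurentSeries L} (hb : ResIndepElt A E0 b) :
    ResIndepElt A (E0.map (qExpand L e)) fun i => qExpand L e (b i) := by
  intro a haE haG ⟨i0, hi0⟩
  choose a' ha'E ha' using fun i => (Subfield.mem_map).mp (haE i)
  have ha'G : ∀ i, a' i ∈ gaussRing A := by
    intro i
    rcases hE0 _ (ha'E i) with h0 | hsc
    · rw [h0]; exact Subring.zero_mem _
    · refine (qExpand_mem_gaussRing_iff A e hsc).mp ?_
      rw [ha' i]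
      exact haG i
  have hsum : ∑ i, a i * qExpand L e (b i) = qExpand L e (∑ i, a' i * b i) := by
    rw [map_sum]
    refine Finset.sum_congr rfl fun i _ => ?_
    rw [map_mul, ha' i]
  have hmem : ∑ i, a' i * b i ∈ gaussRing A :=
    Subring.sum_mem _ fun i _ => Subring.mul_mem _ (ha'G i) (hb.mem i)
  rw [hsum, resT_qExpand_of_mem A e hmem, Ne,
    map_eq_zero_iff _ (qExpand_injective (R := IsLocalRing.ResidueField A) e)]
  refine hb a' ha'E ha'G ⟨i0, ?_⟩
  rw [← ha' i0] at hi0
  exact (resT_qExpand_ne_zero_iff A e (hE0 _ (ha'E i0))).mp hi0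

end Subfield

end Fermat.Agent.S18.Cusp.GaussKummer
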