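import Mathlib
import Fermat.Prelude.Def_ModularCurve_X0ModL
import Fermat.Prelude.Def_ModularCurve_LaurentCoeff
import Fermat.Agent.S18.Cusp.Graded
import Fermat.Agent.S18.Cusp.Kummer

/-
S18 (project G), block CUSP, leaf CU6 (helper29): **the Kummer field `F' = F(q'ᵉ)(s)` inside
`k((q'))` as a function field over `k`, generic in the constant field `k`** (used for `k = L₁`
and for `k = K̄`), and the base change of constants `F'_L → F'_K`.

* `base k e F = F.map (qExpandAlgHomC k e)` (`= F(q'ᵉ)`), `base0` the same as a `Subfield`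
  (the `F0` of `Cusp/Kummer.lean`), `kummerField k e F s = k(base ∪ {s})`
  (an `IntermediateField k (LaurentSeries k)`);
* `inclBase : F →ₐ[k] F'` (`x ↦ x(q'ᵉ)`), `algInclBase` (the `Algebra F F'` structure, for `letI`),
  `isScalarTower_inclBase`, `sEl`, `sEl_pow'`, `isIntegral_sEl`,
  `mem_kummerField_iff_mem_adjoin` (`F' = F0⟮s⟯` as sets), **`adjoin_sEl_eq_top`** (`F' = F[s]`),
  `finite_kummerField`, `isIntegral_kummerField`, **`transcendental_sEl`** (htr),
  **`finiteDimensional_kummerField`** (hfin), `kummerData`;
* base change: `upBase`, `up`, `up_sEl`, `up_inclBase`, `up_algebraMap`, `algUp`, `algL`,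
  `isScalarTower_algL`, `isScalarTower_algUp`, `algebraMap_algUp_sEl`.
-/

set_option autoImplicit false
set_option linter.unusedSectionVars false

noncomputable section

open IntermediateField Polynomial ModularCurve

namespace Fermat.Agent.S18.Cusp.KummerField

/-! ## Abstract part (Mathlib only) -/

section Abstract

variable {k F F' : Type*} [Field k] [Field F] [Field F'] [Algebra k F] [Algebra k F']
  [Algebra F F'] [IsScalarTower k F F']

/-- `s` is transcendental as soon as a power of it is the image of a transcendental. -/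
theorem transcendental_of_pow_eq {t : F} {s : F'} {e : ℕ}
    (hs : s ^ e = algebraMap F F' t) (ht : Transcendental k t) : Transcendental k s := by
  intro hsalg
  apply ht
  have h1 : IsAlgebraic k (s ^ e) := hsalg.pow e
  rw [hs] at h1
  exact (isAlgebraic_algebraMap_iff (algebraMap F F').injective).mp h1

/-- `F'` is finite over `k(s)` if `F` is finite over `k(t)`, `F'` finite over `F`,
`s ^ e = t`. -/
theorem finiteDimensional_of_pow_eq {t : F} {s : F'} {e : ℕ}
    (hs : s ^ e = algebraMap F F' t) [FiniteDimensional k⟮t⟯ F] [Module.Finite F F'] :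
    FiniteDimensional k⟮s⟯ F' := by
  have hmem : ∀ x : k⟮t⟯, algebraMap F F' (x : F) ∈ k⟮s⟯ := by
    intro x
    have h1 : (k⟮t⟯).map (IsScalarTower.toAlgHom k F F') = k⟮algebraMap F F' t⟯ := by
      rw [adjoin_map, Set.image_singleton]
      rfl
    have h2 : algebraMap F F' (x : F) ∈ (k⟮t⟯).map (IsScalarTower.toAlgHom k F F') :=
      ⟨x, x.2, rfl⟩
    rw [h1] at h2
    have h3 : k⟮algebraMap F F' t⟯ ≤ k⟮s⟯ := by
      rw [adjoin_simple_le_iff, ← hs]
      exact pow_mem (mem_adjoin_simple_self k s) e
    exact h3 h2
  let ψ : k⟮t⟯ →+* k⟮s⟯ :=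
    ((algebraMap F F').comp (algebraMap k⟮t⟯ F)).codRestrict (k⟮s⟯).toSubfield.toSubring hmem
  let _ : Algebra k⟮t⟯ k⟮s⟯ := ψ.toAlgebra
  have : IsScalarTower k⟮t⟯ k⟮s⟯ F' := IsScalarTower.of_algebraMap_eq fun x => rfl
  have : Module.Finite k⟮t⟯ F' := Module.Finite.trans F F'
  exact Module.Finite.right k⟮t⟯ k⟮s⟯ F'

/-- if `s` is integral over `F` and generates `F'` as an `F`-algebra, then `F'` is finite
over `F`. -/
theorem finite_of_adjoin_eq_top {s : F'} (hint : IsIntegral F s)
    (hgen : Algebra.adjoin F {s} = ⊤) : Module.Finite F F' := by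
  rw [Module.finite_def, ← Algebra.top_toSubmodule, ← hgen]
  exact hint.fg_adjoin_singleton

end Abstract

/-! ## Concrete part: the Kummer field inside `k((q'))` -/

section Concrete

variable (k : Type*) [Field k] (e : ℕ) [NeZero e]
  (F : IntermediateField k (LaurentSeries k)) (s : LaurentSeries k)

/-- the degree-zero copy `F(q'ᵉ)` of `F` inside `k((q'))`. -/
def base : IntermediateField k (LaurentSeries k) := F.map (qExpandAlgHomC k e)

/-- the same as a `Subfield` (the `F0` of `Cusp/Kummer.lean`). -/
def base0 : Subfield (LaurentSeries k) := (base k e F).toSubfield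

/-- the Kummer field `F(q'ᵉ)(s)` inside `k((q'))`. -/
def kummerField : IntermediateField k (LaurentSeries k) :=
  IntermediateField.adjoin k ((base k e F : Set (LaurentSeries k)) ∪ {s})

theorem qExpand_mem_base {x : LaurentSeries k} (hx : x ∈ F) : qExpand k e x ∈ base k e F :=
  ⟨x, hx, rfl⟩

theorem mem_base_iff {y : LaurentSeries k} : y ∈ base k e F ↔ ∃ x ∈ F, qExpand k e x = y :=
  Iff.rfl

theorem mem_base0_iff {y : LaurentSeries k} : y ∈ base0 k e F ↔ ∃ x ∈ F, qExpand k e x = y :=
  Iff.rfl

theorem base_le_kummerField : base k e F ≤ kummerField k e F s := by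
  intro x hx
  exact subset_adjoin k _ (Or.inl hx)

theorem self_mem_kummerField : s ∈ kummerField k e F s :=
  subset_adjoin k _ (Or.inr rfl)

theorem qExpand_mem_kummerField {x : LaurentSeries k} (hx : x ∈ F) :
    qExpand k e x ∈ kummerField k e F s :=
  base_le_kummerField k e F s (qExpand_mem_base k e F hx)

/-- the inclusion `F → F'`, `x ↦ x(q'ᵉ)`. -/
def inclBase : F →ₐ[k] kummerField k e F s where
  toFun x := ⟨qExpand k e (x : LaurentSeries k), qExpand_mem_kummerField k e F s x.2⟩
  map_one' := Subtype.ext (by simp)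
  map_mul' a b := Subtype.ext (by simp)
  map_zero' := Subtype.ext (by simp)
  map_add' a b := Subtype.ext (by simp)
  commutes' c := Subtype.ext (by
    show qExpand k e (algebraMap k (LaurentSeries k) c) = algebraMap k (LaurentSeries k) c
    exact (qExpandAlgHomC k e).commutes c)

@[simp]
theorem coe_inclBase (x : F) :
    ((inclBase k e F s x : kummerField k e F s) : LaurentSeries k)
      = qExpand k e (x : LaurentSeries k) := rfl

/-- `s` as an element of `F'`. -/
def sEl : kummerField k e F s := ⟨s, self_mem_kummerField k e F s⟩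

@[simp]
theorem coe_sEl : ((sEl k e F s : kummerField k e F s) : LaurentSeries k) = s := rfl

/-- the `F`-algebra structure of `F'` (use with `letI`). -/
@[reducible] def algInclBase : Algebra F (kummerField k e F s) :=
  (inclBase k e F s).toRingHom.toAlgebra

theorem algebraMap_inclBase (x : F) :
    letI := algInclBase k e F s
    algebraMap F (kummerField k e F s) x = inclBase k e F s x := rfl

theorem isScalarTower_inclBase :
    letI := algInclBase k e F s
    IsScalarTower k F (kummerField k e F s) :=
  letI := algInclBase k e F s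
  IsScalarTower.of_algebraMap_eq fun c => ((inclBase k e F s).commutes c).symm

variable {k e F s}

theorem sEl_pow {t : LaurentSeries k} (ht : t ∈ F) (hs : s ^ e = qExpand k e t) :
    (sEl k e F s) ^ e = inclBase k e F s ⟨t, ht⟩ :=
  Subtype.ext (by simpa using hs)

theorem sEl_pow' {t : LaurentSeries k} (ht : t ∈ F) (hs : s ^ e = qExpand k e t) :
    letI := algInclBase k e F s
    (sEl k e F s) ^ e = algebraMap F (kummerField k e F s) ⟨t, ht⟩ :=
  sEl_pow ht hs

/-- `s` is integral over `F`. -/
theorem isIntegral_sEl {t : LaurentSeries k} (ht : t ∈ F) (hs : s ^ e = qExpand k e t) :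
    letI := algInclBase k e F s
    IsIntegral F (sEl k e F s) := by
  let _ := algInclBase k e F s
  refine ⟨(X ^ e - C (⟨t, ht⟩ : F) : (↥F)[X]), monic_X_pow_sub_C _ (NeZero.ne e), ?_⟩
  rw [eval₂_sub, eval₂_pow, eval₂_X, eval₂_C, sEl_pow' ht hs]
  exact sub_self _

/-! ### Bridge to `F0⟮s⟯` (`Cusp/Kummer.lean`) and generation -/

variable (k e F s) in
/-- `F' = F0⟮s⟯` as sets, `F0 = base0`. -/
theorem mem_kummerField_iff_mem_adjoin {x : LaurentSeries k} :
    x ∈ kummerField k e F s ↔
      x ∈ (IntermediateField.adjoin (base0 k e F) {s} :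
        IntermediateField (base0 k e F) (LaurentSeries k)) := by
  constructor
  · intro hx
    have h1 : (kummerField k e F s).toSubfield ≤
        (IntermediateField.adjoin (base0 k e F) {s} :
          IntermediateField (base0 k e F) (LaurentSeries k)).toSubfield := by
      rw [kummerField, adjoin_toSubfield, Subfield.closure_le]
      rintro y (⟨c, rfl⟩ | hy | hy)
      · exact IntermediateField.algebraMap_mem _
          (⟨algebraMap k (LaurentSeries k) c, (base k e F).algebraMap_mem c⟩ : base0 k e F)
      · exact IntermediateField.algebraMap_mem _ (⟨y, hy⟩ : base0 k e F)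
      · rw [Set.mem_singleton_iff] at hy
        subst hy
        exact mem_adjoin_simple_self _ _
    exact h1 hx
  · intro hx
    let T : IntermediateField (base0 k e F) (LaurentSeries k) :=
      Subfield.toIntermediateField (kummerField k e F s).toSubfield
        (fun y => base_le_kummerField k e F s y.2)
    have h1 : (IntermediateField.adjoin (base0 k e F) {s} :
        IntermediateField (base0 k e F) (LaurentSeries k)) ≤ T := by
      rw [adjoin_le_iff]
      rintro y hy
      rw [Set.mem_singleton_iff] at hy
      subst hy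
      exact self_mem_kummerField k e F y
    exact h1 hx

/-- every element of `F'` is a polynomial in `s` with coefficients in `F(q'ᵉ)`. -/
theorem exists_eval₂_eq {t : LaurentSeries k} (ht : t ∈ F) (hs : s ^ e = qExpand k e t)
    {x : LaurentSeries k} (hx : x ∈ kummerField k e F s) :
    ∃ p : (↥F)[X], eval₂ ((qExpand k e).comp F.val.toRingHom) s p = x := by
  rw [mem_kummerField_iff_mem_adjoin] at hx
  have hsmem : s ^ e ∈ base0 k e F := hs ▸ qExpand_mem_base k e F ht
  have halg : IsAlgebraic (base0 k e F) s := by
    refine IsIntegral.isAlgebraic ⟨(X ^ e - C (⟨s ^ e, hsmem⟩ : base0 k e F)),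
      monic_X_pow_sub_C _ (NeZero.ne e), ?_⟩
    rw [eval₂_sub, eval₂_pow, eval₂_X, eval₂_C]
    exact sub_self _
  have h2 : x ∈ ((base0 k e F)⟮s⟯).toSubalgebra := hx
  rw [adjoin_simple_toSubalgebra_of_isAlgebraic halg, Algebra.adjoin_singleton_eq_range_aeval]
    at h2
  obtain ⟨p, hp⟩ := h2
  -- pull the coefficients back to `F`
  let ψ : ↥F →+* ↥(base0 k e F) :=
    ((qExpand k e).comp F.val.toRingHom).codRestrict (base0 k e F).toSubring
      (fun y => qExpand_mem_base k e F y.2)
  have hψ : Function.Surjective ψ := by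
    rintro ⟨y, z, hz, rfl⟩
    exact ⟨⟨z, hz⟩, rfl⟩
  obtain ⟨q, rfl⟩ := Polynomial.map_surjective ψ hψ p
  refine ⟨q, ?_⟩
  have hp' : aeval s (q.map ψ) = x := hp
  rw [aeval_def, eval₂_map] at hp'
  exact hp'

/-- **`F' = F[s]`**: `s` generates `F'` as an `F`-algebra (the `hgen` of CU3). -/
theorem adjoin_sEl_eq_top {t : LaurentSeries k} (ht : t ∈ F) (hs : s ^ e = qExpand k e t) :
    letI := algInclBase k e F s
    Algebra.adjoin F {sEl k e F s} = ⊤ := by
  let _ := algInclBase k e F s
  rw [eq_top_iff]
  rintro ⟨x, hx⟩ -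
  obtain ⟨p, hp⟩ := exists_eval₂_eq ht hs hx
  rw [Algebra.adjoin_singleton_eq_range_aeval]
  refine ⟨p, Subtype.ext ?_⟩
  show ((aeval (sEl k e F s) p : kummerField k e F s) : LaurentSeries k) = x
  rw [← hp, aeval_def]
  have h3 := Polynomial.hom_eval₂ p (algebraMap F (kummerField k e F s))
    (kummerField k e F s).val.toRingHom (sEl k e F s)
  exact h3

/-- `F'` is a finite `F`-module. -/
theorem finite_kummerField {t : LaurentSeries k} (ht : t ∈ F) (hs : s ^ e = qExpand k e t) :
    letI := algInclBase k e F s
    Module.Finite F (kummerField k e F s) :=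
  letI := algInclBase k e F s
  finite_of_adjoin_eq_top (isIntegral_sEl ht hs) (adjoin_sEl_eq_top ht hs)

/-- `F'` is integral over `F`. -/
theorem isIntegral_kummerField {t : LaurentSeries k} (ht : t ∈ F) (hs : s ^ e = qExpand k e t) :
    letI := algInclBase k e F s
    Algebra.IsIntegral F (kummerField k e F s) :=
  letI := algInclBase k e F s
  haveI := finite_kummerField ht hs
  Algebra.IsIntegral.of_finite F (kummerField k e F s)

/-- **htr**: `s` is transcendental over the constants if `t` is. -/
theorem transcendental_sEl {t : LaurentSeries k} (ht : t ∈ F) (hs : s ^ e = qExpand k e t)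
    (htr : Transcendental k (⟨t, ht⟩ : F)) : Transcendental k (sEl k e F s) :=
  letI := algInclBase k e F s
  haveI := isScalarTower_inclBase k e F s
  transcendental_of_pow_eq (sEl_pow' ht hs) htr

/-- **hfin**: `F'` is finite over `k(s)` if `F` is finite over `k(t)`. -/
theorem finiteDimensional_kummerField {t : LaurentSeries k} (ht : t ∈ F)
    (hs : s ^ e = qExpand k e t) [FiniteDimensional k⟮(⟨t, ht⟩ : F)⟯ F] :
    FiniteDimensional k⟮sEl k e F s⟯ (kummerField k e F s) :=
  letI := algInclBase k e F s
  haveI := isScalarTower_inclBase k e F s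
  haveI := finite_kummerField ht hs
  finiteDimensional_of_pow_eq (sEl_pow' ht hs)

/-- the `KummerData` of `Cusp/Kummer.lean` for `(base0, s)`. -/
theorem kummerData {t : LaurentSeries k} (ht : t ∈ F) (hs : s ^ e = qExpand k e t)
    (h1 : Fermat.Agent.S18.Cusp.Graded.IsHomog e 1 s) (h0 : s ≠ 0) :
    Fermat.Agent.S18.Cusp.Kummer.KummerData e (base0 k e F) s where
  homog0 := by
    rintro x ⟨y, -, rfl⟩
    exact Fermat.Agent.S18.Cusp.Graded.isHomog_qExpand (e := e) y
  homog1 := h1
  ne_zero := h0
  pow_mem := hs ▸ qExpand_mem_base k e F ht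

end Concrete

/-! ## Base change of the constants -/

section BaseChange

variable {L K : Type*} [Field L] [Field K] [Algebra L K] {e : ℕ} [NeZero e]
  {FL : IntermediateField L (LaurentSeries L)} {FK : IntermediateField K (LaurentSeries K)}
  {sL : LaurentSeries L} {sK : LaurentSeries K}

theorem coeffMap_algebraMap_up (c : L) :
    coeffMap (algebraMap L K) (algebraMap L (LaurentSeries L) c)
      = algebraMap K (LaurentSeries K) (algebraMap L K c) := by
  rw [algebraMap_laurentSeries_eq_single, algebraMap_laurentSeries_eq_single, coeffMap_single]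

/-- `coeffMap` maps `F'_L` into `F'_K`. -/
theorem coeffMap_mem_kummerField (hF : ∀ x ∈ FL, coeffMap (algebraMap L K) x ∈ FK)
    (hs : coeffMap (algebraMap L K) sL = sK) {x : LaurentSeries L}
    (hx : x ∈ kummerField L e FL sL) :
    coeffMap (algebraMap L K) x ∈ kummerField K e FK sK := by
  have h1 : (kummerField L e FL sL).toSubfield ≤
      (kummerField K e FK sK).toSubfield.comap (coeffMap (algebraMap L K)) := by
    rw [kummerField, adjoin_toSubfield, Subfield.closure_le]
    rintro y (⟨c, rfl⟩ | ⟨z, hz, rfl⟩ | hy)
    · show coeffMap (algebraMap L K) _ ∈ kummerField K e FK sK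
      rw [coeffMap_algebraMap_up]
      exact IntermediateField.algebraMap_mem _ _
    · show coeffMap (algebraMap L K) (qExpand L e z) ∈ kummerField K e FK sK
      rw [Fermat.Agent.S18.Cusp.Graded.coeffMap_qExpand]
      exact qExpand_mem_kummerField K e FK sK (hF z hz)
    · rw [Set.mem_singleton_iff] at hy
      subst hy
      show coeffMap (algebraMap L K) y ∈ kummerField K e FK sK
      rw [hs]
      exact self_mem_kummerField K e FK sK
  exact h1 hx

/-- the base change map on the base fields. -/
def upBase (hF : ∀ x ∈ FL, coeffMap (algebraMap L K) x ∈ FK) : FL →+* FK where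
  toFun x := ⟨coeffMap (algebraMap L K) x.1, hF x.1 x.2⟩
  map_one' := Subtype.ext (by simp)
  map_mul' a b := Subtype.ext (by simp)
  map_zero' := Subtype.ext (by simp)
  map_add' a b := Subtype.ext (by simp)

@[simp]
theorem coe_upBase (hF : ∀ x ∈ FL, coeffMap (algebraMap L K) x ∈ FK) (x : FL) :
    ((upBase hF x : FK) : LaurentSeries K) = coeffMap (algebraMap L K) (x : LaurentSeries L) :=
  rfl

variable (e) in
/-- the base change map `F'_L → F'_K` on the Kummer fields. -/
def up (hF : ∀ x ∈ FL, coeffMap (algebraMap L K) x ∈ FK)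
    (hs : coeffMap (algebraMap L K) sL = sK) :
    kummerField L e FL sL →+* kummerField K e FK sK where
  toFun x := ⟨coeffMap (algebraMap L K) x.1, coeffMap_mem_kummerField hF hs x.2⟩
  map_one' := Subtype.ext (by simp)
  map_mul' a b := Subtype.ext (by simp)
  map_zero' := Subtype.ext (by simp)
  map_add' a b := Subtype.ext (by simp)

variable (e) (hF : ∀ x ∈ FL, coeffMap (algebraMap L K) x ∈ FK)
  (hs : coeffMap (algebraMap L K) sL = sK)

@[simp]
theorem coe_up (x : kummerField L e FL sL) :
    ((up e hF hs x : kummerField K e FK sK) : LaurentSeries K)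
      = coeffMap (algebraMap L K) (x : LaurentSeries L) := rfl

theorem up_sEl : up e hF hs (sEl L e FL sL) = sEl K e FK sK :=
  Subtype.ext hs

theorem up_inclBase (x : FL) :
    up e hF hs (inclBase L e FL sL x) = inclBase K e FK sK (upBase hF x) :=
  Subtype.ext (Fermat.Agent.S18.Cusp.Graded.coeffMap_qExpand _ _)

theorem up_algebraMap (c : L) :
    up e hF hs (algebraMap L (kummerField L e FL sL) c)
      = algebraMap K (kummerField K e FK sK) (algebraMap L K c) :=
  Subtype.ext (coeffMap_algebraMap_up c)

/-- the `F'_L`-algebra structure of `F'_K` (use with `letI`). -/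
@[reducible] def algUp : Algebra (kummerField L e FL sL) (kummerField K e FK sK) :=
  (up e hF hs).toAlgebra

variable (L FK sK) in
/-- the `L`-algebra structure of `F'_K` (use with `letI`). -/
@[reducible] def algL : Algebra L (kummerField K e FK sK) :=
  ((algebraMap K (kummerField K e FK sK)).comp (algebraMap L K)).toAlgebra

variable (L FK sK) in
theorem isScalarTower_algL :
    letI := algL L e FK sK
    IsScalarTower L K (kummerField K e FK sK) :=
  letI := algL L e FK sK
  IsScalarTower.of_algebraMap_eq' rfl

theorem isScalarTower_algUp :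
    letI := algL L e FK sK
    letI := algUp e hF hs
    IsScalarTower L (kummerField L e FL sL) (kummerField K e FK sK) :=
  letI := algL L e FK sK
  letI := algUp e hF hs
  IsScalarTower.of_algebraMap_eq fun c => (up_algebraMap e hF hs c).symm

theorem algebraMap_algUp (x : kummerField L e FL sL) :
    letI := algUp e hF hs
    algebraMap (kummerField L e FL sL) (kummerField K e FK sK) x = up e hF hs x := rfl

theorem algebraMap_algUp_sEl :
    letI := algUp e hF hs
    algebraMap (kummerField L e FL sL) (kummerField K e FK sK) (sEl L e FL sL)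
      = sEl K e FK sK :=
  up_sEl e hF hs

end BaseChange

end Fermat.Agent.S18.Cusp.KummerField
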