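import Mathlib
import Fermat.Agent.S18.Cusp.GaussQExpand
import Fermat.Agent.S18.Cusp.KummerField
import Fermat.Agent.S18.Inst.Bundle

/-!
# S18 (CUSP, CU8a): the INST bundle `CoordData` for the Kummer cover `F' = F(q'ᵉ)(s)`

`F ⊆ L((q))` an intermediate field all of whose nonzero elements are Gauss-scalable for the
valuation subring `A` of `L`; `s ∈ L((q'))` a Gauss unit, homogeneous of degree `1`, with
`sᵉ = u(q'ᵉ)`, `u ∈ F`; `F' := kummerField L e F s` (helper29), `φ' := F'.val`.

* `scalable_kummer : Scalable A φ'`, `O' := gaussSubring (scalable_kummer ..)`;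
* `sEl_mem`, `resMap_sEl : resMap .. sEl = s̄`, `transcendental_sbar`;
* `resIndep_kummer` : a residually independent family `b` of `F` over `K₀` gives the residually
  independent family `b i * sᵏ` of `F'` over `K₀' = K₀.map inclBase`; `basis` version and
  `eq_of_comap_eq_kummer` (**huniq0**);
* `coordData_kummer : CoordData A π O' sEl`.
-/

set_option autoImplicit false
set_option linter.unusedSectionVars false
set_option linter.style.haveILetI false

noncomputable section

open HahnSeries ModularCurve IntermediateField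

namespace Fermat.Agent.S18.Cusp.KummerCoord

open Fermat.Agent.S18.Cusp.Graded Fermat.Agent.S18.Cusp.Kummer Fermat.Agent.S18.Gauss.Basic
open Fermat.Agent.S18.Cusp.GaussKummer Fermat.Agent.S18.Cusp.KummerField
open Fermat.Agent.S18.ValExt.UniqueOfResidue

variable {L : Type*} [Field L] {A : ValuationSubring L} {e : ℕ} [NeZero e]
  {F : IntermediateField L (LaurentSeries L)} {s : LaurentSeries L}

section Scalable

variable (hφ : Scalable A (F.val : F →+* LaurentSeries L))
include hφ

omit [NeZero e] in
theorem zero_or_scalableElt {y : LaurentSeries L} (hy : y ∈ F) : y = 0 ∨ ScalableElt A y := by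
  by_cases h0 : y = 0
  · exact Or.inl h0
  · exact Or.inr (hφ ⟨y, hy⟩ fun h => h0 (congrArg Subtype.val h))

/-- `hφ0` for `F₀ = base0 L e F`. -/
theorem scalable_base0 :
    Scalable A ((base0 L e F).subtype : base0 L e F →+* LaurentSeries L) := by
  rintro ⟨x, hx⟩ hx0
  obtain ⟨y, hy, rfl⟩ := (mem_base0_iff L e F).mp hx
  rcases zero_or_scalableElt hφ hy with rfl | hys
  · exact absurd (Subtype.ext (by simp)) hx0
  · exact scalableElt_qExpand A e hys

variable (h : KummerData e (base0 L e F) s) (hs : GaussUnit A s)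
include h hs

theorem coord_mem_base0 {x : LaurentSeries L} (hx : x ∈ kummerField L e F s) (k : ℤ) :
    coord e s k x ∈ base0 L e F :=
  h.mem_adjoin_iff.mp ((mem_kummerField_iff_mem_adjoin L e F s).mp hx) k

/-- **the Kummer field is Gauss-scalable.** -/
theorem scalable_kummer :
    Scalable A ((kummerField L e F s).val : kummerField L e F s →+* LaurentSeries L) := by
  intro x hx0
  refine scalableElt_of_coord_mem h (scalable_base0 hφ) hs _ (coord_mem_base0 hφ h hs x.2) ?_
  intro h0
  exact hx0 (Subtype.ext h0)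

omit hφ h hs in
theorem hconst_kummer (c : L) :
    ((kummerField L e F s).val : kummerField L e F s →+* LaurentSeries L)
      (algebraMap L (kummerField L e F s) c) = HahnSeries.C c := by
  show algebraMap L (LaurentSeries L) c = HahnSeries.C c
  rw [algebraMap_laurentSeries_eq_single]
  rfl

theorem sEl_mem : sEl L e F s ∈ gaussSubring (scalable_kummer hφ h hs) := hs.mem

theorem resMap_sEl :
    resMap (scalable_kummer hφ h hs) ⟨sEl L e F s, sEl_mem hφ h hs⟩ = sbar hs := by
  rw [resMap_eq_resT, sbar_eq_resT]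
  rfl

omit h in
/-- `s̄` is transcendental over `κ` as soon as the residue of `u`, `sᵉ = u(q'ᵉ)`, is. -/
theorem transcendental_sbar {u : LaurentSeries L} (hu : u ∈ F) (hsu : s ^ e = qExpand L e u)
    (hutr : Transcendental (IsLocalRing.ResidueField A) (resT A u)) :
    Transcendental (IsLocalRing.ResidueField A) (sbar hs) := by
  have hu0 : u ≠ 0 := by
    rintro rfl
    rw [resT_zero] at hutr
    exact hutr isAlgebraic_zero
  have hus : ScalableElt A u := (zero_or_scalableElt hφ hu).resolve_left hu0
  have hpow : sbar hs ^ e = qExpandAlgHomC (IsLocalRing.ResidueField A) e (resT A u) := by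
    rw [sbar_eq_resT, ← resT_pow A hs.mem, hsu, resT_qExpand A e hus]
    rfl
  intro halg
  have h1 : IsAlgebraic (IsLocalRing.ResidueField A) (sbar hs ^ e) := halg.pow e
  rw [hpow] at h1
  exact hutr ((isAlgebraic_algHom_iff (qExpandAlgHomC (IsLocalRing.ResidueField A) e)
    (qExpand_injective (R := IsLocalRing.ResidueField A) e)).mp h1)

end Scalable

section Indep

variable (hφ : Scalable A (F.val : F →+* LaurentSeries L))
  (h : KummerData e (base0 L e F) s) (hs : GaussUnit A s)

variable (e s) in
/-- the image of an intermediate field `K₀` of `F` in `F'`. -/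
def mapK (K₀ : IntermediateField L F) : IntermediateField L (kummerField L e F s) :=
  K₀.map (inclBase L e F s)

variable (e s) in
/-- the family `b i * sᵏ` of `F'`. -/
def famK {ι : Type*} (b : ι → F) : ι × Fin e → kummerField L e F s :=
  fun p => inclBase L e F s (b p.1) * sEl L e F s ^ (p.2 : ℕ)

theorem coe_famK {ι : Type*} (b : ι → F) (p : ι × Fin e) :
    ((famK e s b p : kummerField L e F s) : LaurentSeries L)
      = qExpand L e (b p.1 : LaurentSeries L) * s ^ (p.2 : ℕ) := rfl

/-- the subfield of `L((q))` underlying `K₀`. -/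
def subK (K₀ : IntermediateField L F) : Subfield (LaurentSeries L) :=
  K₀.toSubfield.map (F.val : F →+* LaurentSeries L)

theorem mem_subK {K₀ : IntermediateField L F} {z : LaurentSeries L} :
    z ∈ subK K₀ ↔ ∃ x : F, x ∈ K₀ ∧ (x : LaurentSeries L) = z := by
  unfold subK
  rw [Subfield.mem_map]
  rfl

variable {K₀ : IntermediateField L F} {ι : Type*} [Fintype ι] {b : ι → F}

include hφ h hs in
/-- **(K3) for the Kummer field**: `b i * sᵏ` is residually independent over `K₀`. -/
theorem resIndep_kummer (hb : ResIndep (F := K₀) (gaussSubring hφ) b) :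
    ResIndep (F := mapK e s K₀) (gaussSubring (scalable_kummer hφ h hs)) (famK e s b) := by
  have hb0 : ResIndepElt A (subK K₀) fun i => (F.val : F →+* LaurentSeries L) (b i) := by
    refine resIndepElt_of_resIndep hφ (subK K₀) ?_ hb
    intro z hz
    obtain ⟨x, hx, rfl⟩ := mem_subK.mp hz
    exact ⟨⟨x, hx⟩, rfl⟩
  have hsc : ∀ z ∈ subK K₀, z = 0 ∨ ScalableElt A z := by
    intro z hz
    obtain ⟨x, -, rfl⟩ := mem_subK.mp hz
    exact zero_or_scalableElt hφ x.2
  have hb1 := resIndepElt_qExpand e hsc hb0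
  have hE : (subK K₀).map (qExpand L e) ≤ base0 L e F := by
    intro z hz
    obtain ⟨w, hw, rfl⟩ := Subfield.mem_map.mp hz
    obtain ⟨x, -, rfl⟩ := mem_subK.mp hw
    exact (mem_base0_iff L e F).mpr ⟨x, x.2, rfl⟩
  have hb2 := resIndepElt_mul_pow h (scalable_base0 hφ) hs hE
    (fun i => (mem_base0_iff L e F).mpr ⟨_, (b i).2, rfl⟩) hb1
  refine resIndep_of_resIndepElt (scalable_kummer hφ h hs) ((subK K₀).map (qExpand L e)) ?_ hb2
  rintro ⟨c, x, hx, rfl⟩
  exact Subfield.mem_map.mpr ⟨_, mem_subK.mpr ⟨x, hx, rfl⟩, rfl⟩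

include hφ h hs in
/-- the family `b i * sᵏ` spans `F'` over `K₀' = mapK K₀`. -/
theorem span_famK (hb : ResIndep (F := K₀) (gaussSubring hφ) b) [FiniteDimensional K₀ F]
    (hcard : Fintype.card ι = Module.finrank K₀ F) :
    ⊤ ≤ Submodule.span (mapK e s K₀) (Set.range (famK e s b)) := by
  rintro x -
  have hy : ∀ k : Fin e, ∃ y : F, qExpand L e (y : LaurentSeries L)
      = coord e s ((k : ℕ) : ℤ) (x : LaurentSeries L) := by
    intro k
    obtain ⟨y, hy, hyq⟩ := (mem_base0_iff L e F).mp (coord_mem_base0 hφ h hs x.2 ((k : ℕ) : ℤ))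
    exact ⟨⟨y, hy⟩, hyq⟩
  choose y hyq using hy
  have hrep : ∀ k : Fin e, ∃ a : ι → K₀, ∑ i, a i • b i = y k :=
    fun k => hb.exists_repr hcard (y k)
  choose c hc using hrep
  have hcmem : ∀ p : ι × Fin e, inclBase L e F s (c p.2 p.1 : F) ∈ mapK e s K₀ :=
    fun p => ⟨_, (c p.2 p.1).2, rfl⟩
  have claim : x = ∑ p : ι × Fin e,
      (⟨inclBase L e F s (c p.2 p.1 : F), hcmem p⟩ : mapK e s K₀) • famK e s b p := by
    apply Subtype.ext
    have hcoe : ∀ z : kummerField L e F s,
        (z : LaurentSeries L) = (kummerField L e F s).val z := fun _ => rfl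
    rw [hcoe (∑ p : ι × Fin e, _), map_sum, Fintype.sum_prod_type_right]
    rw [← h.sum_coord (x : LaurentSeries L),
      ← Fin.sum_univ_eq_sum_range (fun k => coord e s (k : ℤ) (x : LaurentSeries L) * s ^ k) e]
    refine Finset.sum_congr rfl fun k _ => ?_
    rw [← hyq k, ← hc k]
    have h1 : ((∑ i, c k i • b i : F) : LaurentSeries L)
        = ∑ i, ((c k i : F) : LaurentSeries L) * (b i : LaurentSeries L) := by
      have hcoeF : ∀ z : F, (z : LaurentSeries L) = F.val z := fun _ => rfl
      rw [hcoeF (∑ i, c k i • b i), map_sum]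
      refine Finset.sum_congr rfl fun i _ => ?_
      rw [Algebra.smul_def, map_mul]
      rfl
    rw [h1, map_sum, Finset.sum_mul]
    refine Finset.sum_congr rfl fun i _ => ?_
    rw [Algebra.smul_def, map_mul, map_mul]
    show _ = qExpand L e ((c k i : F) : LaurentSeries L)
      * (qExpand L e (b i : LaurentSeries L) * s ^ (k : ℕ))
    ring
  rw [claim]
  exact Submodule.sum_mem _ fun p _ => Submodule.smul_mem _ _ (Submodule.subset_span ⟨p, rfl⟩)

end Indep

section Uniq

variable (hφ : Scalable A (F.val : F →+* LaurentSeries L))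
  (h : KummerData e (base0 L e F) s) (hs : GaussUnit A s)
  {K₀ : IntermediateField L F} {ι : Type*} [Fintype ι] {b : ι → F}

include hφ h hs in
/-- `b i * sᵏ` is a basis of `F'` over `K₀'`. -/
theorem exists_basis_famK (hb : ResIndep (F := K₀) (gaussSubring hφ) b) [FiniteDimensional K₀ F]
    (hcard : Fintype.card ι = Module.finrank K₀ F) :
    ∃ B : Module.Basis (ι × Fin e) (mapK e s K₀) (kummerField L e F s), ⇑B = famK e s b :=
  ⟨Module.Basis.mk (resIndep_kummer hφ h hs hb).linearIndependent (span_famK hφ h hs hb hcard),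
    Module.Basis.coe_mk _ _⟩

include hφ h hs in
theorem finiteDimensional_mapK (hb : ResIndep (F := K₀) (gaussSubring hφ) b)
    [FiniteDimensional K₀ F] (hcard : Fintype.card ι = Module.finrank K₀ F) :
    FiniteDimensional (mapK e s K₀) (kummerField L e F s) := by
  obtain ⟨B, -⟩ := exists_basis_famK hφ h hs hb hcard
  exact Module.Finite.of_basis B

include hφ h hs in
/-- `[F' : K₀'] = e [F : K₀]`. -/
theorem finrank_mapK (hb : ResIndep (F := K₀) (gaussSubring hφ) b)
    [FiniteDimensional K₀ F] (hcard : Fintype.card ι = Module.finrank K₀ F) :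
    Module.finrank (mapK e s K₀) (kummerField L e F s) = Module.finrank K₀ F * e := by
  obtain ⟨B, -⟩ := exists_basis_famK hφ h hs hb hcard
  rw [Module.finrank_eq_card_basis B, Fintype.card_prod, Fintype.card_fin, hcard]

include hφ h hs in
/-- **huniq0 for the Kummer cover**: the Gauss valuation subring of `F'` is the unique valuation
subring of `F'` with its trace on `K₀' = mapK K₀`. -/
theorem eq_of_comap_eq_kummer (hb : ResIndep (F := K₀) (gaussSubring hφ) b)
    [FiniteDimensional K₀ F] (hcard : Fintype.card ι = Module.finrank K₀ F)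
    (O'' : ValuationSubring (kummerField L e F s))
    (hO'' : O''.comap (algebraMap (mapK e s K₀) (kummerField L e F s))
      = (gaussSubring (scalable_kummer hφ h hs)).comap
          (algebraMap (mapK e s K₀) (kummerField L e F s))) :
    O'' = gaussSubring (scalable_kummer hφ h hs) := by
  obtain ⟨B, -⟩ := exists_basis_famK hφ h hs hb hcard
  haveI : FiniteDimensional (mapK e s K₀) (kummerField L e F s) := Module.Finite.of_basis B
  refine (resIndep_kummer hφ h hs hb).eq_of_comap_eq ?_ O'' hO''
  rw [Module.finrank_eq_card_basis B]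

/-- `K₀' ≤ L(s)` if `K₀ ≤ L(u)`, `sᵉ = u(q'ᵉ)`. -/
theorem mapK_le {u : LaurentSeries L} (hu : u ∈ F) (hsu : s ^ e = qExpand L e u)
    (hK₀ : K₀ ≤ L⟮(⟨u, hu⟩ : F)⟯) : mapK e s K₀ ≤ L⟮sEl L e F s⟯ := by
  have h1 : mapK e s K₀ ≤ (L⟮(⟨u, hu⟩ : F)⟯).map (inclBase L e F s) :=
    IntermediateField.map_mono _ hK₀
  refine h1.trans ?_
  rw [adjoin_map, Set.image_singleton, adjoin_simple_le_iff, ← sEl_pow hu hsu]
  exact pow_mem (mem_adjoin_simple_self L _) e

include hφ h hs in
/-- **the INST bundle for the Kummer cover.** -/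
theorem coordData_kummer [IsDiscreteValuationRing A] {π : A} (hπ : Irreducible π)
    {u : LaurentSeries L} (hu : u ∈ F) (hsu : s ^ e = qExpand L e u)
    (hutr : Transcendental (IsLocalRing.ResidueField A) (resT A u))
    (hK₀ : K₀ ≤ L⟮(⟨u, hu⟩ : F)⟯)
    (hb : ResIndep (F := K₀) (gaussSubring hφ) b) [FiniteDimensional K₀ F]
    (hcard : Fintype.card ι = Module.finrank K₀ F) :
    Fermat.Agent.S18.Inst.Bundle.CoordData A π (gaussSubring (scalable_kummer hφ h hs))
      (sEl L e F s) := by
  haveI := finiteDimensional_mapK hφ h hs hb hcard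
  refine Fermat.Agent.S18.Inst.Bundle.coordData_of_gauss (hconst_kummer (e := e) (F := F) (s := s))
    (scalable_kummer hφ h hs) hπ (sEl_mem hφ h hs) ?_ (mapK_le hu hsu hK₀)
    (eq_of_comap_eq_kummer hφ h hs hb hcard)
  rw [resMap_sEl hφ h hs]
  exact transcendental_sbar hφ hs hu hsu hutr

end Uniq

end Fermat.Agent.S18.Cusp.KummerCoord
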