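import Mathlib
import Fermat.Agent.S18.Cusp.Kummer

set_option autoImplicit false
set_option linter.unusedSectionVars false
set_option linter.style.haveILetI false

/-!
# S18 (CUSP, CU9): the degree-`0` component preserves integrality

Setting of `Cusp/Kummer.lean`: `F₀ ⊆ L((q'))` a subfield of degree-`0` elements, `s` homogeneous of
degree `1`, `sᵉ ∈ F₀`.  For `x ∈ F₀(s)`: `Tr_{F₀(s)/F₀}(x) = e · x₀` with `x₀ = comp e 0 x` the
degree-`0` component.  Hence if `x` is integral over a subring `C ⊆ F₀` in which `e` is invertible,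
so is `x₀` (`Algebra.isIntegral_trace`).  This discharges hypothesis `hprB` of `Cusp/Descent0.lean`.
-/

noncomputable section

open HahnSeries ModularCurve IntermediateField

namespace Fermat.Agent.S18.Cusp.TraceCoord

open Fermat.Agent.S18.Cusp.Graded Fermat.Agent.S18.Cusp.Kummer

variable {L : Type*} [Field L] {e : ℕ} [NeZero e] {F0 : Subfield (LaurentSeries L)}
  {s : LaurentSeries L}

/-- the generator as an element of `F₀(s)`. -/
def gen (F0 : Subfield (LaurentSeries L)) (s : LaurentSeries L) :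
    (F0⟮s⟯ : IntermediateField F0 (LaurentSeries L)) := ⟨s, mem_adjoin_simple_self _ s⟩

/-- the family `1, s, …, s^(e-1)`. -/
def powFam (e : ℕ) (F0 : Subfield (LaurentSeries L)) (s : LaurentSeries L) :
    Fin e → (F0⟮s⟯ : IntermediateField F0 (LaurentSeries L)) := fun k => gen F0 s ^ (k : ℕ)

theorem coe_powFam (k : Fin e) : ((powFam e F0 s k : F0⟮s⟯) : LaurentSeries L) = s ^ (k : ℕ) := by
  unfold powFam gen
  rw [IntermediateField.coe_pow]

theorem coe_sum_smul (g : Fin e → F0) :
    ((∑ i, g i • powFam e F0 s i : F0⟮s⟯) : LaurentSeries L)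
      = ∑ k ∈ Finset.range e, (if hk : k < e then ((g ⟨k, hk⟩ : F0) : LaurentSeries L) else 0)
          * s ^ k := by
  rw [AddSubmonoidClass.coe_finsetSum]
  rw [← Fin.sum_univ_eq_sum_range
    (fun k => (if hk : k < e then ((g ⟨k, hk⟩ : F0) : LaurentSeries L) else 0) * s ^ k) e]
  apply Finset.sum_congr rfl
  intro i _
  rw [dif_pos i.2]
  rw [IntermediateField.coe_smul, coe_powFam]
  rfl

variable (h : KummerData e F0 s)
include h

theorem linearIndependent_powFam : LinearIndependent F0 (powFam e F0 s) := by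
  rw [Fintype.linearIndependent_iff]
  intro g hg i
  have h1 : ((∑ i, g i • powFam e F0 s i : F0⟮s⟯) : LaurentSeries L) = 0 := by
    rw [hg]; rfl
  rw [coe_sum_smul] at h1
  have ha : ∀ k ∈ Finset.range e,
      (if hk : k < e then ((g ⟨k, hk⟩ : F0) : LaurentSeries L) else 0) ∈ F0 := by
    intro k hk
    rw [dif_pos (Finset.mem_range.mp hk)]
    exact (g _).2
  have h2 := h.eq_zero_of_sum_mul_pow_eq_zero ha h1 (j := (i : ℕ)) (Finset.mem_range.mpr i.2)
  rw [dif_pos i.2] at h2
  exact Subtype.ext h2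

/-- the coordinates of `x ∈ F₀(s)` as elements of `F₀`. -/
def coordF (x : (F0⟮s⟯ : IntermediateField F0 (LaurentSeries L))) (k : Fin e) : F0 :=
  ⟨coord e s ((k : ℕ) : ℤ) (x : LaurentSeries L), h.mem_adjoin_iff.mp x.2 _⟩

theorem sum_coordF (x : (F0⟮s⟯ : IntermediateField F0 (LaurentSeries L))) :
    ∑ i, coordF h x i • powFam e F0 s i = x := by
  apply Subtype.ext
  rw [AddSubmonoidClass.coe_finsetSum]
  conv_rhs => rw [← h.sum_coord (x : LaurentSeries L)]
  rw [← Fin.sum_univ_eq_sum_range
    (fun k => coord e s (k : ℤ) (x : LaurentSeries L) * s ^ k) e]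
  apply Finset.sum_congr rfl
  intro i _
  rw [IntermediateField.coe_smul, coe_powFam]
  rfl

theorem span_powFam : ⊤ ≤ Submodule.span F0 (Set.range (powFam e F0 s)) := by
  intro x _
  rw [← sum_coordF h x]
  refine Submodule.sum_mem _ fun i _ => Submodule.smul_mem _ _ (Submodule.subset_span ⟨i, rfl⟩)

/-- the basis `1, s, …, s^(e-1)` of `F₀(s)` over `F₀`. -/
def powBasis : Module.Basis (Fin e) F0 (F0⟮s⟯ : IntermediateField F0 (LaurentSeries L)) :=
  Module.Basis.mk (linearIndependent_powFam h) (span_powFam h)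

theorem powBasis_apply (k : Fin e) : powBasis h k = powFam e F0 s k := by
  unfold powBasis
  rw [Module.Basis.mk_apply]

theorem powFam_mul (k j : Fin e) :
    powFam e F0 s k * powFam e F0 s j =
      if hkj : (k : ℕ) + j < e then powFam e F0 s ⟨(k : ℕ) + j, hkj⟩
      else (⟨s ^ e, h.pow_mem⟩ : F0) • powFam e F0 s ⟨(k : ℕ) + j - e, by omega⟩ := by
  apply Subtype.ext
  split_ifs with hkj
  · rw [IntermediateField.coe_mul, coe_powFam, coe_powFam, coe_powFam, ← _root_.pow_add]
  · rw [IntermediateField.coe_mul, IntermediateField.coe_smul, coe_powFam, coe_powFam, coe_powFam,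
      ← _root_.pow_add]
    show s ^ ((k : ℕ) + j) = s ^ e * s ^ ((k : ℕ) + j - e)
    rw [← _root_.pow_add]
    congr 1
    omega

theorem trace_powFam_of_ne_zero (k : Fin e) (hk : (k : ℕ) ≠ 0) :
    Algebra.trace F0 (F0⟮s⟯ : IntermediateField F0 (LaurentSeries L)) (powFam e F0 s k) = 0 := by
  classical
  rw [Algebra.trace_eq_matrix_trace (powBasis h), Matrix.trace]
  apply Finset.sum_eq_zero
  intro j _
  rw [Matrix.diag_apply, Algebra.leftMulMatrix_eq_repr_mul, powBasis_apply, powFam_mul h]
  split_ifs with hkj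
  · rw [← powBasis_apply h, Module.Basis.repr_self, Finsupp.single_apply, if_neg]
    intro heq
    have := congrArg Fin.val heq
    simp only [] at this
    omega
  · rw [← powBasis_apply h, map_smul, Module.Basis.repr_self, Finsupp.smul_single,
      Finsupp.single_apply, if_neg]
    intro heq
    have := congrArg Fin.val heq
    simp only [] at this
    have hk' := k.2
    omega

theorem trace_powFam_zero :
    Algebra.trace F0 (F0⟮s⟯ : IntermediateField F0 (LaurentSeries L))
      (powFam e F0 s ⟨0, Nat.pos_of_ne_zero (NeZero.ne e)⟩) = (e : F0) := by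
  have h1 : powFam e F0 s ⟨0, Nat.pos_of_ne_zero (NeZero.ne e)⟩ = 1 := by
    unfold powFam
    simp
  have h2 : (1 : (F0⟮s⟯ : IntermediateField F0 (LaurentSeries L)))
      = algebraMap F0 (F0⟮s⟯ : IntermediateField F0 (LaurentSeries L)) 1 := by rw [map_one]
  rw [h1, h2, Algebra.trace_algebraMap_of_basis (powBasis h)]
  simp

/-- **`Tr(x) = e · x₀`.** -/
theorem trace_eq (x : (F0⟮s⟯ : IntermediateField F0 (LaurentSeries L))) :
    Algebra.trace F0 (F0⟮s⟯ : IntermediateField F0 (LaurentSeries L)) x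
      = (e : F0) * coordF h x ⟨0, Nat.pos_of_ne_zero (NeZero.ne e)⟩ := by
  conv_lhs => rw [← sum_coordF h x]
  rw [map_sum]
  rw [Finset.sum_eq_single (⟨0, Nat.pos_of_ne_zero (NeZero.ne e)⟩ : Fin e)]
  · rw [map_smul, trace_powFam_zero h, smul_eq_mul, mul_comm]
  · intro k _ hk
    rw [map_smul, trace_powFam_of_ne_zero h k, smul_zero]
    intro hk0
    apply hk
    exact Fin.ext hk0
  · intro hnot
    exact absurd (Finset.mem_univ _) hnot

/-- **CU9.** The degree-`0` component of an element of `F₀(s)` integral over a subring `C ⊆ F₀` in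
which `e` is invertible is again integral over `C`. -/
theorem isIntegral_comp_zero (C : Subring (LaurentSeries L)) (hC : ∀ c ∈ C, c ∈ F0)
    (einv : LaurentSeries L) (heinv : einv ∈ C) (he : einv * (e : LaurentSeries L) = 1)
    {x : LaurentSeries L} (hx : x ∈ (F0⟮s⟯ : IntermediateField F0 (LaurentSeries L)))
    (hint : IsIntegral C x) : IsIntegral C (comp e 0 x) := by
  -- algebra structures
  let ι0 : C →+* F0 := RingHom.codRestrict C.subtype F0 (fun c => hC c c.2)
  letI aC0 : Algebra C F0 := ι0.toAlgebra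
  letI aC' : Algebra C (F0⟮s⟯ : IntermediateField F0 (LaurentSeries L)) :=
    ((algebraMap F0 (F0⟮s⟯ : IntermediateField F0 (LaurentSeries L))).comp ι0).toAlgebra
  haveI tow : IsScalarTower C F0 (F0⟮s⟯ : IntermediateField F0 (LaurentSeries L)) :=
    IsScalarTower.of_algebraMap_eq (fun _ => rfl)
  haveI : FiniteDimensional F0 (F0⟮s⟯ : IntermediateField F0 (LaurentSeries L)) :=
    Module.Basis.finiteDimensional_of_finite (powBasis h)
  -- transfer integrality to `F₀(s)`
  obtain ⟨p, hp, hpx⟩ := hint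
  have hx' : IsIntegral C (⟨x, hx⟩ : (F0⟮s⟯ : IntermediateField F0 (LaurentSeries L))) := by
    refine ⟨p, hp, ?_⟩
    apply Subtype.ext
    have hcomp : ((F0⟮s⟯ : IntermediateField F0 (LaurentSeries L)).val.toRingHom).comp
        (algebraMap C (F0⟮s⟯ : IntermediateField F0 (LaurentSeries L)))
        = algebraMap C (LaurentSeries L) := by
      ext c; rfl
    have := Polynomial.hom_eval₂ p (algebraMap C (F0⟮s⟯ : IntermediateField F0 (LaurentSeries L)))
      ((F0⟮s⟯ : IntermediateField F0 (LaurentSeries L)).val.toRingHom) ⟨x, hx⟩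
    rw [hcomp] at this
    change (F0⟮s⟯ : IntermediateField F0 (LaurentSeries L)).val.toRingHom _ = _
    rw [this]
    exact hpx
  have htr := Algebra.isIntegral_trace (R := C) (L := F0)
    (F := (F0⟮s⟯ : IntermediateField F0 (LaurentSeries L))) hx'
  rw [trace_eq h] at htr
  -- divide by `e`
  have hc0 : IsIntegral C (coordF h ⟨x, hx⟩ ⟨0, Nat.pos_of_ne_zero (NeZero.ne e)⟩) := by
    have h1 : coordF h ⟨x, hx⟩ ⟨0, Nat.pos_of_ne_zero (NeZero.ne e)⟩
        = algebraMap C F0 ⟨einv, heinv⟩ *
          ((e : F0) * coordF h ⟨x, hx⟩ ⟨0, Nat.pos_of_ne_zero (NeZero.ne e)⟩) := by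
      rw [← mul_assoc]
      have : algebraMap C F0 ⟨einv, heinv⟩ * (e : F0) = 1 := by
        apply Subtype.ext
        show einv * ((e : F0) : LaurentSeries L) = 1
        rw [← he]
        congr 1
      rw [this, one_mul]
    rw [h1]
    exact IsIntegral.mul isIntegral_algebraMap htr
  -- back to `L((q'))`
  obtain ⟨p0, hp0, hpx0⟩ := hc0
  refine ⟨p0, hp0, ?_⟩
  have hcomp0 : (F0.subtype).comp (algebraMap C F0) = algebraMap C (LaurentSeries L) := by
    ext c; rfl
  have := Polynomial.hom_eval₂ p0 (algebraMap C F0) F0.subtype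
    (coordF h ⟨x, hx⟩ ⟨0, Nat.pos_of_ne_zero (NeZero.ne e)⟩)
  rw [hcomp0, hpx0, map_zero] at this
  have hco : F0.subtype (coordF h ⟨x, hx⟩ ⟨0, Nat.pos_of_ne_zero (NeZero.ne e)⟩) = comp e 0 x := by
    show coord e s ((0 : ℕ) : ℤ) x = comp e 0 x
    unfold coord
    simp
  rw [hco] at this
  exact this.symm

/-- the degree-`0` component of an element of `F₀(s)` lies in `F₀`. -/
theorem comp_zero_mem {x : LaurentSeries L}
    (hx : x ∈ (F0⟮s⟯ : IntermediateField F0 (LaurentSeries L))) : comp e 0 x ∈ F0 := by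
  have := h.mem_adjoin_iff.mp hx 0
  unfold coord at this
  simpa using this

/-- the degree-`0` component is the identity on `F₀`. -/
theorem comp_zero_of_mem {x : LaurentSeries L} (hx : x ∈ F0) : comp e 0 x = x :=
  (h.homog0 x hx).comp_eq

/-- the degree-`0` component as an additive endomorphism of `L((q'))` (the `pr` of
`Cusp/Descent0.lean`). -/
theorem compHom_zero_apply (x : LaurentSeries L) : compHom e 0 x = comp e 0 x := rfl

end Fermat.Agent.S18.Cusp.TraceCoord
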