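/-
S18 (project G), block CUSP, leaf (K-C) (helper19): **the degree-`0` projection `pr` on the Kummer
field `F' = kummerField L e F s`**, as an additive endomorphism of the TYPE `↥F'`, together with
the four hypotheses `hprF`, `hprB`, `hpr_id`, `hred` of `Cusp/TheoremN.hloc_of_kummer` in their
exact shapes, for `ι := inclBase L e F s` (`x ↦ x(q'ᵉ)`) and the generator `sEl L e F s`.

* `pr h : ↥F' →+ ↥F'`, `coe_pr : (pr h y : L((q'))) = comp e 0 y`;
* `exists_inclBase_eq_pr` / `hprF` : `pr y = ι x` for some `x : F` (every `y`);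
* `pr_inclBase` / `hpr_id` : `pr (ι x) = ι x`;
* `hprB` : for any `R` with `[Algebra R L] [Algebra R F'] [IsScalarTower R L F']` in which `e` is
  a unit: `y` integral over `R[s]` ⇒ `pr y` integral over `R[s]`
  (`R[s]` is integral over `R[sᵉ] ⊆ F(q'ᵉ)`, and `Tr_{F'/F(q'ᵉ)} = e · pr` preserves integrality:
  helper27's `TraceCoord.isIntegral_comp_zero`);
* `hred` : for `O' := gaussSubring (scalable_kummer hφ h hs)` (helper3's `KummerCoord`) and ANY
  `ρ' : O' →+* E'` whose kernel is the maximal ideal (`ρ' x = 0 ↔ O'.valuation x < 1`):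
  `ρ' z = 0 ⇒ pr z ∈ O' ∧ ρ' (pr z) = 0` (helper3's (K1) `mem_gaussRing_iff_coord` and (K2)
  `coord_resT`); `hred'` the same for an abstract `O'` given pointwise.

Abstract tools (Mathlib only): `isIntegral_adjoin_singleton_pow`, `isIntegral_of_subalgebra_le`,
`isIntegral_map_toSubring`, `isIntegral_of_map_toSubring`.
-/
import Mathlib
import Fermat.Agent.S18.Cusp.TraceCoord
import Fermat.Agent.S18.Cusp.KummerCoord

set_option autoImplicit false
set_option linter.unusedSectionVars false
set_option linter.unusedVariables false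
set_option linter.style.haveILetI false

noncomputable section

open ModularCurve IntermediateField Polynomial

namespace Fermat.Agent.S18.Cusp.Coord0

/-! ## Abstract tools (Mathlib only) -/

section Tools

variable {R F' : Type*} [CommRing R] [CommRing F'] [Algebra R F']

/-- integrality over a smaller subalgebra implies integrality over a larger one. -/
theorem isIntegral_of_subalgebra_le {A0 A1 : Subalgebra R F'} (hle : A0 ≤ A1) {x : F'}
    (hx : IsIntegral A0 x) : IsIntegral A1 x := by
  obtain ⟨p, hp, hpx⟩ := hx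
  refine ⟨p.map (Subalgebra.inclusion hle).toRingHom, hp.map _, ?_⟩
  rw [eval₂_map]
  have hcomp : (algebraMap A1 F').comp (Subalgebra.inclusion hle).toRingHom = algebraMap A0 F' := by
    ext y; rfl
  rw [hcomp]; exact hpx

/-- integrality over `R[s]` implies integrality over `R[s ^ e]` (`e ≠ 0`). -/
theorem isIntegral_adjoin_singleton_pow (s : F') (e : ℕ) (he : e ≠ 0) {x : F'}
    (hx : IsIntegral (Algebra.adjoin R {s}) x) :
    IsIntegral (Algebra.adjoin R {s ^ e}) x := by
  set A0 : Subalgebra R F' := Algebra.adjoin R {s ^ e} with hA0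
  set A1 : Subalgebra R F' := Algebra.adjoin R {s} with hA1
  have hs : IsIntegral A0 s := by
    refine ⟨X ^ e - Polynomial.C (⟨s ^ e, Algebra.subset_adjoin (Set.mem_singleton _)⟩ : A0),
      monic_X_pow_sub_C _ he, ?_⟩
    rw [eval₂_sub, eval₂_pow, eval₂_X, eval₂_C]
    exact sub_self _
  have hA1int : ∀ y ∈ A1, IsIntegral A0 y := by
    intro y hy
    induction hy using Algebra.adjoin_induction with
    | mem z hz => rw [Set.mem_singleton_iff] at hz; rw [hz]; exact hs
    | algebraMap r =>
      have : algebraMap R F' r = algebraMap A0 F' (algebraMap R A0 r) := rfl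
      rw [this]
      exact isIntegral_algebraMap
    | add a b _ _ ha hb => exact ha.add hb
    | mul a b _ _ ha hb => exact ha.mul hb
  obtain ⟨p, hp, hpx⟩ := hx
  let IC : Subalgebra A0 F' := integralClosure A0 F'
  let j : A1 →+* IC :=
    { toFun := fun y => ⟨(y : F'), hA1int _ y.2⟩
      map_one' := rfl
      map_mul' := fun _ _ => rfl
      map_zero' := rfl
      map_add' := fun _ _ => rfl }
  have hxIC : IsIntegral IC x := by
    refine ⟨p.map j, hp.map j, ?_⟩
    rw [eval₂_map]
    have hcomp : (algebraMap IC F').comp j = algebraMap A1 F' := by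
      ext y; rfl
    rw [hcomp]; exact hpx
  obtain ⟨y, hy⟩ := IsIntegrallyClosedIn.isIntegral_iff.mp hxIC
  rw [← hy]
  exact y.2

variable {T : Type*} [CommRing T] (φ : F' →+* T) (A0 : Subalgebra R F')

/-- the comparison map `A0 → φ(A0)`. -/
def toMap : A0 →+* (A0.toSubring.map φ) :=
  (φ.comp A0.toSubring.subtype).codRestrict (A0.toSubring.map φ) (fun a => ⟨a, a.2, rfl⟩)

theorem toMap_surjective : Function.Surjective (toMap φ A0) := by
  rintro ⟨_, a, ha, rfl⟩
  exact ⟨⟨a, ha⟩, rfl⟩

theorem toMap_injective (hφ : Function.Injective φ) : Function.Injective (toMap φ A0) := by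
  intro a b hab
  apply Subtype.ext
  apply hφ
  exact congrArg Subtype.val hab

theorem algebraMap_comp_toMap :
    (algebraMap (A0.toSubring.map φ) T).comp (toMap φ A0) = φ.comp (algebraMap A0 F') := by
  ext a; rfl

/-- transport of integrality along a ring homomorphism, subring form. -/
theorem isIntegral_map_toSubring {y : F'} (hy : IsIntegral A0 y) :
    IsIntegral (A0.toSubring.map φ) (φ y) := by
  obtain ⟨p, hp, hpy⟩ := hy
  refine ⟨p.map (toMap φ A0), hp.map _, ?_⟩
  rw [eval₂_map, algebraMap_comp_toMap, ← hom_eval₂, hpy, map_zero]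

/-- descent of integrality along an injective ring homomorphism, subring form. -/
theorem isIntegral_of_map_toSubring (hφ : Function.Injective φ) {w : F'}
    (hw : IsIntegral (A0.toSubring.map φ) (φ w)) : IsIntegral A0 w := by
  obtain ⟨p, hp, hpw⟩ := hw
  obtain ⟨p1, hp1⟩ := Polynomial.map_surjective (toMap φ A0) (toMap_surjective φ A0) p
  have hmon : p1.Monic := Polynomial.monic_of_injective (toMap_injective φ A0 hφ) (hp1 ▸ hp)
  refine ⟨p1, hmon, ?_⟩
  apply hφ
  rw [hom_eval₂, map_zero, ← algebraMap_comp_toMap, ← eval₂_map, hp1]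
  exact hpw

end Tools

/-! ## The degree-`0` projection on the Kummer field -/

open Fermat.Agent.S18.Cusp.Graded Fermat.Agent.S18.Cusp.Kummer Fermat.Agent.S18.Gauss.Basic
open Fermat.Agent.S18.Cusp.GaussKummer Fermat.Agent.S18.Cusp.KummerField
open Fermat.Agent.S18.Cusp.KummerCoord

variable {L : Type*} [Field L] {e : ℕ} [NeZero e]
  {F : IntermediateField L (LaurentSeries L)} {s : LaurentSeries L}

section Pr

variable (h : KummerData e (base0 L e F) s)
include h

theorem comp_zero_mem_base0 {x : LaurentSeries L} (hx : x ∈ kummerField L e F s) :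
    Graded.comp e 0 x ∈ base0 L e F :=
  TraceCoord.comp_zero_mem h ((mem_kummerField_iff_mem_adjoin L e F s).mp hx)

theorem comp_zero_mem_kummerField {x : LaurentSeries L} (hx : x ∈ kummerField L e F s) :
    Graded.comp e 0 x ∈ kummerField L e F s :=
  base_le_kummerField L e F s (comp_zero_mem_base0 h hx)

/-- **the degree-`0` projection** `pr : F' →+ F'`. -/
def pr : ↥(kummerField L e F s) →+ ↥(kummerField L e F s) where
  toFun y := ⟨Graded.comp e 0 (y : LaurentSeries L), comp_zero_mem_kummerField h y.2⟩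
  map_zero' := Subtype.ext (by
    show Graded.comp e 0 (0 : LaurentSeries L) = 0
    exact Graded.comp_zero 0)
  map_add' a b := Subtype.ext (by
    show Graded.comp e 0 ((a : LaurentSeries L) + (b : LaurentSeries L))
      = Graded.comp e 0 (a : LaurentSeries L) + Graded.comp e 0 (b : LaurentSeries L)
    exact Graded.comp_add 0 _ _)

@[simp]
theorem coe_pr (y : ↥(kummerField L e F s)) :
    ((pr h y : ↥(kummerField L e F s)) : LaurentSeries L) = Graded.comp e 0 (y : LaurentSeries L) := rfl

theorem coe_pr_eq_coord (y : ↥(kummerField L e F s)) :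
    ((pr h y : ↥(kummerField L e F s)) : LaurentSeries L)
      = coord e s ((0 : ℕ) : ℤ) (y : LaurentSeries L) := by
  rw [coe_pr]
  unfold coord
  simp

/-- every `pr y` comes from `F`. -/
theorem exists_inclBase_eq_pr (y : ↥(kummerField L e F s)) :
    ∃ x : ↥F, inclBase L e F s x = pr h y := by
  obtain ⟨x, hx, hxy⟩ := (mem_base0_iff L e F).mp (comp_zero_mem_base0 h y.2)
  exact ⟨⟨x, hx⟩, Subtype.ext hxy⟩

/-- `pr` is the identity on the image of `F`. -/
theorem pr_inclBase (x : ↥F) : pr h (inclBase L e F s x) = inclBase L e F s x := by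
  apply Subtype.ext
  rw [coe_pr]
  exact TraceCoord.comp_zero_of_mem h
    ((mem_base0_iff L e F).mpr ⟨x, x.2, rfl⟩)

/-- `pr` is idempotent. -/
theorem pr_pr (y : ↥(kummerField L e F s)) : pr h (pr h y) = pr h y := by
  obtain ⟨x, hx⟩ := exists_inclBase_eq_pr h y
  rw [← hx, pr_inclBase]

/-- **`hprF`** of `TheoremN.hloc_of_kummer` (`ι := (inclBase L e F s).toRingHom`). -/
theorem hprF {R : Type*} [CommRing R] [Algebra R ↥(kummerField L e F s)] :
    ∀ y : ↥(kummerField L e F s), IsIntegral (Algebra.adjoin R {sEl L e F s}) y →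
      ∃ x : ↥F, (inclBase L e F s).toRingHom x = pr h y :=
  fun y _ => exists_inclBase_eq_pr h y

/-- **`hpr_id`** of `TheoremN.hloc_of_kummer` (`ι := (inclBase L e F s).toRingHom`). -/
theorem hpr_id : ∀ x : ↥F, pr h ((inclBase L e F s).toRingHom x) = (inclBase L e F s).toRingHom x :=
  fun x => pr_inclBase h x

end Pr

/-! ## `hprB`: `pr` preserves integrality over `R[s]` -/

section Integral

variable (h : KummerData e (base0 L e F) s)
  {R : Type*} [CommRing R] [Algebra R L] [Algebra R ↥(kummerField L e F s)]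
  [IsScalarTower R L ↥(kummerField L e F s)]

theorem coe_algebraMap_R (r : R) :
    ((algebraMap R ↥(kummerField L e F s) r : ↥(kummerField L e F s)) : LaurentSeries L)
      = algebraMap L (LaurentSeries L) (algebraMap R L r) := by
  rw [IsScalarTower.algebraMap_apply R L ↥(kummerField L e F s)]
  rfl

include h in
/-- the image of `R[sᵉ]` in `L((q'))` lies in `F(q'ᵉ)`. -/
theorem map_adjoin_pow_le (c : LaurentSeries L)
    (hc : c ∈ (Algebra.adjoin R {sEl L e F s ^ e}).toSubring.map
      ((kummerField L e F s).val : ↥(kummerField L e F s) →+* LaurentSeries L)) :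
    c ∈ base0 L e F := by
  obtain ⟨a, ha, rfl⟩ := hc
  change a ∈ Algebra.adjoin R {sEl L e F s ^ e} at ha
  induction ha using Algebra.adjoin_induction with
  | mem z hz =>
    rw [Set.mem_singleton_iff] at hz
    rw [hz]
    show ((sEl L e F s ^ e : ↥(kummerField L e F s)) : LaurentSeries L) ∈ base0 L e F
    rw [IntermediateField.coe_pow, coe_sEl]
    exact h.pow_mem
  | algebraMap r =>
    show ((algebraMap R ↥(kummerField L e F s) r : ↥(kummerField L e F s)) : LaurentSeries L)
      ∈ base0 L e F
    rw [coe_algebraMap_R]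
    exact (base L e F).algebraMap_mem _
  | add a b _ _ ha hb =>
    rw [map_add]
    exact (base0 L e F).add_mem ha hb
  | mul a b _ _ ha hb =>
    rw [map_mul]
    exact (base0 L e F).mul_mem ha hb

include h in
/-- **`pr` preserves integrality over `R[sᵉ]`.** -/
theorem isIntegral_pr_adjoin_pow (he : IsUnit ((e : ℕ) : R)) (y : ↥(kummerField L e F s))
    (hy : IsIntegral (Algebra.adjoin R {sEl L e F s ^ e}) y) :
    IsIntegral (Algebra.adjoin R {sEl L e F s ^ e}) (pr h y) := by
  set φ' : ↥(kummerField L e F s) →+* LaurentSeries L :=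
    ((kummerField L e F s).val : ↥(kummerField L e F s) →+* LaurentSeries L) with hφ'
  have hφ'inj : Function.Injective φ' := Subtype.val_injective
  set A0 : Subalgebra R ↥(kummerField L e F s) := Algebra.adjoin R {sEl L e F s ^ e} with hA0
  apply isIntegral_of_map_toSubring φ' A0 hφ'inj
  obtain ⟨u, hu⟩ := he.exists_left_inv
  have heinv : φ' (algebraMap R ↥(kummerField L e F s) u) ∈ A0.toSubring.map φ' :=
    ⟨_, A0.algebraMap_mem u, rfl⟩
  have he1 : φ' (algebraMap R ↥(kummerField L e F s) u) * ((e : ℕ) : LaurentSeries L) = 1 := by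
    have h1 : ((e : ℕ) : LaurentSeries L)
        = φ' (algebraMap R ↥(kummerField L e F s) ((e : ℕ) : R)) := by
      rw [map_natCast, map_natCast]
    rw [h1, ← map_mul, ← map_mul, hu, map_one, map_one]
  exact TraceCoord.isIntegral_comp_zero h (A0.toSubring.map φ') (map_adjoin_pow_le h) _ heinv he1
    ((mem_kummerField_iff_mem_adjoin L e F s).mp y.2) (isIntegral_map_toSubring φ' A0 hy)

include h in
/-- **`hprB`** of `TheoremN.hloc_of_kummer`: `pr` preserves integrality over `R[s]`
(`e` invertible in `R`). -/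
theorem hprB (he : IsUnit ((e : ℕ) : R)) :
    ∀ y : ↥(kummerField L e F s), IsIntegral (Algebra.adjoin R {sEl L e F s}) y →
      IsIntegral (Algebra.adjoin R {sEl L e F s}) (pr h y) := by
  intro y hy
  have h1 := isIntegral_adjoin_singleton_pow (R := R) (sEl L e F s) e (NeZero.ne e) hy
  have h2 := isIntegral_pr_adjoin_pow h he y h1
  refine isIntegral_of_subalgebra_le ?_ h2
  refine Algebra.adjoin_le ?_
  intro z hz
  rw [Set.mem_singleton_iff] at hz
  rw [hz]
  exact Subalgebra.pow_mem _ (Algebra.subset_adjoin (Set.mem_singleton _)) e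

end Integral

/-! ## `hred`: `pr` preserves `O'` and the kernel of the reduction -/

section Red

variable {A : ValuationSubring L}
  (hφ : Scalable A (F.val : ↥F →+* LaurentSeries L))
  (h : KummerData e (base0 L e F) s) (hs : GaussUnit A s)

include hφ h hs in
/-- `pr` preserves Gauss integrality, and commutes with the total residue. -/
theorem comp_zero_mem_gaussRing {x : LaurentSeries L} (hx : x ∈ kummerField L e F s)
    (hxm : x ∈ gaussRing A) :
    Graded.comp e 0 x ∈ gaussRing A ∧
      resT A (Graded.comp e 0 x) = Graded.comp e 0 (resT A x) := by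
  have hpos : 0 ∈ Finset.range e := Finset.mem_range.mpr (Nat.pos_of_ne_zero (NeZero.ne e))
  have hc : ∀ k : ℤ, coord e s k x ∈ base0 L e F := coord_mem_base0 hφ h hs hx
  have h0 : ∀ (t : LaurentSeries L) (z : LaurentSeries L),
      coord e t ((0 : ℕ) : ℤ) z = Graded.comp e 0 z := by
    intro t z
    unfold coord
    simp
  have hK : ∀ (z : LaurentSeries (IsLocalRing.ResidueField A)),
      coord e (sbar hs) ((0 : ℕ) : ℤ) z = Graded.comp e 0 z := by
    intro z
    unfold coord
    simp
  have h1 := (mem_gaussRing_iff_coord h (scalable_base0 hφ) hs x hc).mp hxm 0 hpos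
  have h2 := coord_resT h (scalable_base0 hφ) hs x hc hxm hpos
  rw [h0] at h1
  rw [h0, hK] at h2
  exact ⟨h1, h2.symm⟩

include hφ h hs in
/-- `pr` preserves the Gauss valuation subring `O'` of the Kummer field. -/
theorem pr_mem_gaussSubring {z : ↥(kummerField L e F s)}
    (hz : z ∈ gaussSubring (scalable_kummer hφ h hs)) :
    pr h z ∈ gaussSubring (scalable_kummer hφ h hs) :=
  (comp_zero_mem_gaussRing hφ h hs z.2 hz).1

include hφ h hs in
/-- `pr` commutes with the residue map of `O'`. -/
theorem resMap_pr (z : ↥(kummerField L e F s))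
    (hz : z ∈ gaussSubring (scalable_kummer hφ h hs)) :
    resMap (scalable_kummer hφ h hs) ⟨pr h z, pr_mem_gaussSubring hφ h hs hz⟩
      = Graded.comp e 0 (resMap (scalable_kummer hφ h hs) ⟨z, hz⟩) := by
  rw [resMap_eq_resT, resMap_eq_resT]
  exact (comp_zero_mem_gaussRing hφ h hs z.2 hz).2

include hφ h hs in
/-- **`hred`** of `TheoremN.hloc_of_kummer`, for `O' := gaussSubring (scalable_kummer hφ h hs)`
and any `ρ'` on `O'` whose kernel is the maximal ideal. -/
theorem hred {E' : Type*} [Field E']
    (ρ' : ↥(gaussSubring (scalable_kummer hφ h hs)) →+* E')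
    (hρ'ker : ∀ x : ↥(gaussSubring (scalable_kummer hφ h hs)),
      ρ' x = 0 ↔ (gaussSubring (scalable_kummer hφ h hs)).valuation
        (x : ↥(kummerField L e F s)) < 1) :
    ∀ (z : ↥(kummerField L e F s)) (hz : z ∈ gaussSubring (scalable_kummer hφ h hs)),
      ρ' ⟨z, hz⟩ = 0 →
      ∃ hz' : pr h z ∈ gaussSubring (scalable_kummer hφ h hs), ρ' ⟨pr h z, hz'⟩ = 0 := by
  intro z hz hρz
  refine ⟨pr_mem_gaussSubring hφ h hs hz, ?_⟩
  have key : ∀ x : ↥(gaussSubring (scalable_kummer hφ h hs)),
      ρ' x = 0 ↔ resMap (scalable_kummer hφ h hs) x = 0 := by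
    intro x
    rw [hρ'ker, resMap_eq_zero_iff, ← ValuationSubring.valuation_lt_one_iff]
  rw [key] at hρz ⊢
  rw [resMap_pr hφ h hs z hz, hρz]
  exact Graded.comp_zero 0

include hφ h hs in
/-- **`hred`** for an abstract `O'` with the same elements as the Gauss valuation subring. -/
theorem hred' (O' : ValuationSubring ↥(kummerField L e F s))
    (hO' : ∀ x : ↥(kummerField L e F s), x ∈ O' ↔ (x : LaurentSeries L) ∈ gaussRing A)
    {E' : Type*} [Field E'] (ρ' : ↥O' →+* E')
    (hρ'ker : ∀ x : ↥O', ρ' x = 0 ↔ O'.valuation (x : ↥(kummerField L e F s)) < 1) :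
    ∀ (z : ↥(kummerField L e F s)) (hz : z ∈ O'),
      ρ' ⟨z, hz⟩ = 0 → ∃ hz' : pr h z ∈ O', ρ' ⟨pr h z, hz'⟩ = 0 := by
  have hOO : O' = gaussSubring (scalable_kummer hφ h hs) := by
    ext x
    rw [hO']
    rfl
  subst hOO
  exact hred hφ h hs ρ' hρ'ker

end Red

end Fermat.Agent.S18.Cusp.Coord0
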