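/-
S18 (project G), block CUSP, leaf (K-C2) (helper19; file `Cusp/Coord0Alg.lean`): complement of `Cusp/Coord0.lean` for the
second normalisation (N2) of the CUSP contract: the chart coordinate upstairs is `c := (sEl)⁻¹`
(`cᵉ = ι (τ - a)`), so `hprF`/`hprB` of `TheoremN.hloc_of_kummer` are needed for `R[c]`.

* `isIntegral_pr_adjoin` : for any `d : F'` lying in `F(q'ᵉ)`, `pr` preserves integrality over
  `R[d]` (`e` a unit of `R`);
* `hprB_of_pow_mem` : for any `c : F'` with `cᵉ ∈ F(q'ᵉ)`, `pr` preserves integrality over `R[c]`;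
* `hprB_inv`, `hprF_inv` : the case `c = (sEl L e F s)⁻¹`;
* `hprF_alg`, `hprF_inv_alg`, `hpr_id_alg`, `hprF_of` : the same statements as in `Coord0` with
  `ι` spelled `inclBase L e F s` (the `AlgHom` application, as in `Cusp/KummerGaussHloc.lean`);
* `hprB_val`, `hprB_inv_val` : `R = ↥A` for a valuation subring `A` of `L` (the `IsScalarTower`
  instance, slow to synthesize, is provided inside).
-/
import Mathlib
import Fermat.Agent.S18.Cusp.Coord0

set_option autoImplicit false
set_option linter.unusedSectionVars false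
set_option linter.unusedVariables false
set_option linter.style.haveILetI false

noncomputable section

open ModularCurve IntermediateField Polynomial

namespace Fermat.Agent.S18.Cusp.Coord0

open Fermat.Agent.S18.Cusp.Graded Fermat.Agent.S18.Cusp.Kummer Fermat.Agent.S18.Gauss.Basic
open Fermat.Agent.S18.Cusp.GaussKummer Fermat.Agent.S18.Cusp.KummerField
open Fermat.Agent.S18.Cusp.KummerCoord

variable {L : Type*} [Field L] {e : ℕ} [NeZero e]
  {F : IntermediateField L (LaurentSeries L)} {s : LaurentSeries L}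

section Integral

variable (h : KummerData e (base0 L e F) s)
  {R : Type*} [CommRing R] [Algebra R L] [Algebra R ↥(kummerField L e F s)]
  [IsScalarTower R L ↥(kummerField L e F s)]

/-- the image of `R[d]` in `L((q'))` lies in `F(q'ᵉ)` as soon as `d` does. -/
theorem map_adjoin_le_base0 (d : ↥(kummerField L e F s))
    (hd : (d : LaurentSeries L) ∈ base0 L e F) (c : LaurentSeries L)
    (hc : c ∈ (Algebra.adjoin R {d}).toSubring.map
      ((kummerField L e F s).val : ↥(kummerField L e F s) →+* LaurentSeries L)) :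
    c ∈ base0 L e F := by
  obtain ⟨a, ha, rfl⟩ := hc
  change a ∈ Algebra.adjoin R {d} at ha
  induction ha using Algebra.adjoin_induction with
  | mem z hz =>
    rw [Set.mem_singleton_iff] at hz
    rw [hz]
    exact hd
  | algebraMap r =>
    show ((algebraMap R ↥(kummerField L e F s) r : ↥(kummerField L e F s)) : LaurentSeries L)
      ∈ base0 L e F
    rw [coe_algebraMap_R]
    exact (base L e F).algebraMap_mem _
  | add a b _ _ ha hb =>
    rw [map_add]
    exact (base0 L e F).add_mem ha hb
  | mul a b _ _ ha hb =>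
    rw [map_mul]
    exact (base0 L e F).mul_mem ha hb

include h in
/-- **`pr` preserves integrality over `R[d]`, `d ∈ F(q'ᵉ)`.** -/
theorem isIntegral_pr_adjoin (he : IsUnit ((e : ℕ) : R)) (d : ↥(kummerField L e F s))
    (hd : (d : LaurentSeries L) ∈ base0 L e F) (y : ↥(kummerField L e F s))
    (hy : IsIntegral (Algebra.adjoin R {d}) y) :
    IsIntegral (Algebra.adjoin R {d}) (pr h y) := by
  set φ' : ↥(kummerField L e F s) →+* LaurentSeries L :=
    ((kummerField L e F s).val : ↥(kummerField L e F s) →+* LaurentSeries L) with hφ'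
  have hφ'inj : Function.Injective φ' := Subtype.val_injective
  set A0 : Subalgebra R ↥(kummerField L e F s) := Algebra.adjoin R {d} with hA0
  apply isIntegral_of_map_toSubring φ' A0 hφ'inj
  obtain ⟨u, hu⟩ := he.exists_left_inv
  have heinv : φ' (algebraMap R ↥(kummerField L e F s) u) ∈ A0.toSubring.map φ' :=
    ⟨_, A0.algebraMap_mem u, rfl⟩
  have he1 : φ' (algebraMap R ↥(kummerField L e F s) u) * ((e : ℕ) : LaurentSeries L) = 1 := by
    have h1 : ((e : ℕ) : LaurentSeries L)
        = φ' (algebraMap R ↥(kummerField L e F s) ((e : ℕ) : R)) := by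
      rw [map_natCast, map_natCast]
    rw [h1, ← map_mul, ← map_mul, hu, map_one, map_one]
  exact TraceCoord.isIntegral_comp_zero h (A0.toSubring.map φ') (map_adjoin_le_base0 d hd) _
    heinv he1 ((mem_kummerField_iff_mem_adjoin L e F s).mp y.2)
    (isIntegral_map_toSubring φ' A0 hy)

include h in
/-- **`hprB` for any coordinate `c` with `cᵉ ∈ F(q'ᵉ)`.** -/
theorem hprB_of_pow_mem (he : IsUnit ((e : ℕ) : R)) (c : ↥(kummerField L e F s))
    (hc : (c : LaurentSeries L) ^ e ∈ base0 L e F) :
    ∀ y : ↥(kummerField L e F s), IsIntegral (Algebra.adjoin R {c}) y →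
      IsIntegral (Algebra.adjoin R {c}) (pr h y) := by
  intro y hy
  have h1 := isIntegral_adjoin_singleton_pow (R := R) c e (NeZero.ne e) hy
  have hd : ((c ^ e : ↥(kummerField L e F s)) : LaurentSeries L) ∈ base0 L e F := by
    rw [IntermediateField.coe_pow]
    exact hc
  have h2 := isIntegral_pr_adjoin h he (c ^ e) hd y h1
  refine isIntegral_of_subalgebra_le ?_ h2
  refine Algebra.adjoin_le ?_
  intro z hz
  rw [Set.mem_singleton_iff] at hz
  rw [hz]
  exact Subalgebra.pow_mem _ (Algebra.subset_adjoin (Set.mem_singleton _)) e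

include h in
/-- **`hprB`** for the coordinate `c = (sEl)⁻¹` (normalisation (N2)). -/
theorem hprB_inv (he : IsUnit ((e : ℕ) : R)) :
    ∀ y : ↥(kummerField L e F s), IsIntegral (Algebra.adjoin R {(sEl L e F s)⁻¹}) y →
      IsIntegral (Algebra.adjoin R {(sEl L e F s)⁻¹}) (pr h y) := by
  refine hprB_of_pow_mem h he _ ?_
  rw [IntermediateField.coe_inv, coe_sEl, inv_pow]
  exact (base0 L e F).inv_mem h.pow_mem

include h in
/-- **`hprF`** for any coordinate `c`, `ι` spelled as the `AlgHom` application. -/
theorem hprF_of {R' : Type*} [CommRing R'] [Algebra R' ↥(kummerField L e F s)]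
    (c : ↥(kummerField L e F s)) :
    ∀ y : ↥(kummerField L e F s), IsIntegral (Algebra.adjoin R' {c}) y →
      ∃ x : ↥F, inclBase L e F s x = pr h y :=
  fun y _ => exists_inclBase_eq_pr h y

include h in
/-- **`hprF`**, `c = sEl`, `AlgHom` spelling. -/
theorem hprF_alg {R' : Type*} [CommRing R'] [Algebra R' ↥(kummerField L e F s)] :
    ∀ y : ↥(kummerField L e F s), IsIntegral (Algebra.adjoin R' {sEl L e F s}) y →
      ∃ x : ↥F, inclBase L e F s x = pr h y :=
  hprF_of h _

include h in
/-- **`hprF`**, `c = (sEl)⁻¹`, `AlgHom` spelling. -/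
theorem hprF_inv_alg {R' : Type*} [CommRing R'] [Algebra R' ↥(kummerField L e F s)] :
    ∀ y : ↥(kummerField L e F s), IsIntegral (Algebra.adjoin R' {(sEl L e F s)⁻¹}) y →
      ∃ x : ↥F, inclBase L e F s x = pr h y :=
  hprF_of h _

include h in
/-- **`hprF`**, `c = (sEl)⁻¹`, `RingHom` spelling. -/
theorem hprF_inv {R' : Type*} [CommRing R'] [Algebra R' ↥(kummerField L e F s)] :
    ∀ y : ↥(kummerField L e F s), IsIntegral (Algebra.adjoin R' {(sEl L e F s)⁻¹}) y →
      ∃ x : ↥F, (inclBase L e F s).toRingHom x = pr h y :=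
  fun y _ => exists_inclBase_eq_pr h y

include h in
/-- **`hpr_id`**, `AlgHom` spelling. -/
theorem hpr_id_alg : ∀ x : ↥F, pr h (inclBase L e F s x) = inclBase L e F s x :=
  fun x => pr_inclBase h x

end Integral

/-! ## The case `R = ↥A`, `A` a valuation subring of `L` (no `IsScalarTower` side goal) -/

section Val

variable (h : KummerData e (base0 L e F) s) {A : ValuationSubring L}

theorem isScalarTower_val : IsScalarTower ↥A L ↥(kummerField L e F s) :=
  IsScalarTower.of_algebraMap_eq (fun _ => rfl)

include h in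
/-- **`hprB`**, `c = sEl`, `R = ↥A`. -/
theorem hprB_val (he : IsUnit ((e : ℕ) : ↥A)) :
    ∀ y : ↥(kummerField L e F s), IsIntegral (Algebra.adjoin ↥A {sEl L e F s}) y →
      IsIntegral (Algebra.adjoin ↥A {sEl L e F s}) (pr h y) :=
  haveI := isScalarTower_val (e := e) (F := F) (s := s) (A := A)
  hprB h he

include h in
/-- **`hprB`**, `c = (sEl)⁻¹`, `R = ↥A`. -/
theorem hprB_inv_val (he : IsUnit ((e : ℕ) : ↥A)) :
    ∀ y : ↥(kummerField L e F s), IsIntegral (Algebra.adjoin ↥A {(sEl L e F s)⁻¹}) y →
      IsIntegral (Algebra.adjoin ↥A {(sEl L e F s)⁻¹}) (pr h y) :=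
  haveI := isScalarTower_val (e := e) (F := F) (s := s) (A := A)
  hprB_inv h he

end Val

end Fermat.Agent.S18.Cusp.Coord0
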