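/-
S18 (project G), block CUSP, leaf CU4a (helper19): **degree and separability of a Kummer cover
over the new coordinate line**.

Abstract setting: fields `κ ⊆ F ⊆ F'` (`[Algebra κ F] [Algebra κ F'] [Algebra F F']` tower),
`t : F`, `s : F'` with `s ^ e = t`, `s` transcendental over `κ`, `[F' : F] = e`
(e.g. `1, s, …, s^(e-1)` an `F`-basis of `F'`).  Then

* `finrank_adjoin_eq` : `[F' : κ(s)] = [F : κ(t)]`;
* `isSeparable_adjoin` : if `F / κ(t)` is separable and `F' = F(s)`, then `F' / κ(s)` is separable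
  (no hypothesis on `e`).

Used twice in CUSP (helper27's design #1069): in characteristic `0` (`κ = L`) and on the residue
side (`κ` the residue field), for `F' = F(t^(1/e))`.

Mathlib + Haupt/DegreeOverT (helper4's Lüroth degree) only.
-/
import Mathlib
import Fermat.Agent.S18.Haupt.DegreeOverT

set_option autoImplicit false

namespace Fermat.Agent.S18.Cusp.KummerDegree

open Polynomial IntermediateField Module

variable {κ F F' : Type*} [Field κ] [Field F] [Field F'] [Algebra κ F] [Algebra κ F']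
  [Algebra F F'] [IsScalarTower κ F F']

/-- `[F' : κ(s^e)] = e * [F' : κ(s)]` for `s` transcendental over `κ`. -/
theorem finrank_adjoin_pow (s : F') (hst : Transcendental κ s) (e : ℕ) :
    finrank κ⟮s ^ e⟯ F' = e * finrank κ⟮s⟯ F' := by
  have h := Fermat.Agent.S18.Haupt.DegreeOverT.finrank_eq_mul (K := κ) (F := F') s (s ^ e) hst
    (X ^ e : κ[X]) 1 isCoprime_one_right one_ne_zero (by simp)
  rw [h]
  congr 1
  rw [natDegree_X_pow, natDegree_one]
  exact max_eq_left (Nat.zero_le e)

/-- the image of `κ(t)` in `F'` is `κ(ι t)`. -/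
theorem map_adjoin_simple (t : F) :
    (κ⟮t⟯).map (IsScalarTower.toAlgHom κ F F') = κ⟮algebraMap F F' t⟯ := by
  rw [adjoin_map, Set.image_singleton]
  rfl

/-- `[F' : κ(ι t)] = [F : κ(t)] * [F' : F]`. -/
theorem finrank_adjoin_algebraMap (t : F) :
    finrank κ⟮algebraMap F F' t⟯ F' = finrank κ⟮t⟯ F * finrank F F' := by
  set ι : F →ₐ[κ] F' := IsScalarTower.toAlgHom κ F F' with hι
  have hA : (κ⟮t⟯).map ι = κ⟮algebraMap F F' t⟯ := map_adjoin_simple t
  have hB : (⊤ : IntermediateField κ F).map ι = ι.fieldRange :=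
    (AlgHom.fieldRange_eq_map ι).symm
  have hle : κ⟮algebraMap F F' t⟯ ≤ ι.fieldRange := by
    rw [adjoin_simple_le_iff]
    exact ⟨t, rfl⟩
  have h1 : relfinrank κ⟮algebraMap F F' t⟯ ι.fieldRange = finrank κ⟮t⟯ F := by
    rw [← hA, ← hB, relfinrank_map_map, relfinrank_top_right]
  have h2 : relfinrank κ⟮algebraMap F F' t⟯ ι.fieldRange * finrank ι.fieldRange F'
      = finrank κ⟮algebraMap F F' t⟯ F' := relfinrank_mul_finrank_top hle
  have h3 : finrank ι.fieldRange F' = finrank F F' := by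
    symm
    refine Algebra.finrank_eq_of_equiv_equiv (AlgEquiv.ofInjectiveField ι).toRingEquiv
      (RingEquiv.refl F') ?_
    ext x
    rfl
  rw [← h2, h1, h3]

/-- **CU4a, degree.** `s ^ e = t`, `s` transcendental over `κ`, `[F' : F] = e ≠ 0`
⟹ `[F' : κ(s)] = [F : κ(t)]`. -/
theorem finrank_adjoin_eq (t : F) (s : F') (e : ℕ) (he : e ≠ 0)
    (hs : s ^ e = algebraMap F F' t) (hst : Transcendental κ s) (hfin : finrank F F' = e) :
    finrank κ⟮s⟯ F' = finrank κ⟮t⟯ F := by
  have h1 := finrank_adjoin_pow (κ := κ) s hst e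
  have h2 := finrank_adjoin_algebraMap (κ := κ) (F' := F') t
  rw [← hs, h1, hfin, mul_comm] at h2
  exact Nat.eq_of_mul_eq_mul_right (Nat.pos_of_ne_zero he) h2

/-- `[F' : F] = e` from a basis of powers of `s`. -/
theorem finrank_eq_of_powers (s : F') (e : ℕ)
    (hli : LinearIndependent F (fun k : Fin e => s ^ (k : ℕ)))
    (hspan : ⊤ ≤ Submodule.span F (Set.range fun k : Fin e => s ^ (k : ℕ))) :
    finrank F F' = e := by
  have := Module.finrank_eq_card_basis (Basis.mk hli hspan)
  simpa using this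

/-- **CU4a, separability.** If `F / κ(t)` is separable, `s ^ e = t` and `F' = F(s)`, then
`F' / κ(s)` is separable. -/
theorem isSeparable_adjoin (t : F) (s : F') (e : ℕ) (hs : s ^ e = algebraMap F F' t)
    [Algebra.IsSeparable κ⟮t⟯ F] (hgen : F⟮s⟯ = ⊤) :
    Algebra.IsSeparable κ⟮s⟯ F' := by
  rw [← separableClosure.eq_top_iff]
  -- the image of `κ(t)` lies in `κ(s)`
  have hmem : ∀ z : κ⟮t⟯, algebraMap F F' (z : F) ∈ κ⟮s⟯ := by
    intro z
    have h1 : algebraMap F F' (z : F) ∈ (κ⟮t⟯).map (IsScalarTower.toAlgHom κ F F') :=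
      ⟨(z : F), z.2, rfl⟩
    rw [map_adjoin_simple, ← hs] at h1
    have hle : κ⟮s ^ e⟯ ≤ κ⟮s⟯ := by
      rw [adjoin_simple_le_iff]
      exact pow_mem (mem_adjoin_simple_self κ s) e
    exact hle h1
  let ψ : κ⟮t⟯ →+* κ⟮s⟯ :=
    { toFun := fun z => ⟨algebraMap F F' (z : F), hmem z⟩
      map_one' := by ext; simp
      map_mul' := fun a b => by ext; simp
      map_zero' := by ext; simp
      map_add' := fun a b => by ext; simp }
  have hψ : ∀ z : κ⟮t⟯, algebraMap κ⟮s⟯ F' (ψ z) = algebraMap F F' (algebraMap κ⟮t⟯ F z) :=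
    fun z => rfl
  -- every element of the image of `F` is separable over `κ(s)`
  have hsepF : ∀ y : F, IsSeparable κ⟮s⟯ (algebraMap F F' y) := by
    intro y
    have hy : IsSeparable κ⟮t⟯ y := Algebra.IsSeparable.isSeparable κ⟮t⟯ y
    have hp : ((minpoly κ⟮t⟯ y).map ψ).Separable := Polynomial.Separable.map hy
    have hroot : aeval (algebraMap F F' y) ((minpoly κ⟮t⟯ y).map ψ) = 0 := by
      rw [aeval_def, eval₂_map]
      have hcomp : (algebraMap κ⟮s⟯ F').comp ψ = (algebraMap F F').comp (algebraMap κ⟮t⟯ F) := by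
        ext z; exact hψ z
      rw [hcomp, ← hom_eval₂, ← aeval_def, minpoly.aeval, map_zero]
    exact Polynomial.Separable.of_dvd hp (minpoly.dvd κ⟮s⟯ _ hroot)
  -- the separable closure contains `F` and `s`, hence `F(s) = ⊤`
  rw [eq_top_iff]
  intro x _
  have hx : x ∈ F⟮s⟯ := by rw [hgen]; trivial
  have hsub : (F⟮s⟯).toSubfield ≤ (separableClosure κ⟮s⟯ F').toSubfield := by
    rw [adjoin_toSubfield, Subfield.closure_le]
    rintro z (⟨y, rfl⟩ | hz)
    · exact mem_separableClosure_iff.mpr (hsepF y)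
    · rw [Set.mem_singleton_iff] at hz
      rw [hz]
      have : s = algebraMap κ⟮s⟯ F' ⟨s, mem_adjoin_simple_self κ s⟩ := rfl
      rw [this]
      exact (separableClosure κ⟮s⟯ F').algebraMap_mem _
  exact hsub hx

end Fermat.Agent.S18.Cusp.KummerDegree
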