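import Mathlib
import Fermat.Agent.S18.ConstExt.Core

/-!
# S18, leaf (CU3), local core: Kummer extensions of discrete valuation rings

Mathlib only (plus the abstract lemmas of `ConstExt/Core`).

* `exists_zpow_mul_unit_of_ringHom`: `O1 ⊆ F1` a discrete valuation subring, `O2 ⊆ F2` a valuation
  subring over it, `B0` a finite formally unramified `O1`-algebra mapping to `O2` whose image
  generates `F2` (as fractions with denominators in `O1`): the uniformiser of `O1` is a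
  uniformiser of `O2`.
* `kummer_unit`: the case `F2 = F1(s)`, `s ^ e = t` with `t`, `e` units of `O1`.
* `eisenstein`: the case `F2 = F1(s)`, `s ^ b = ϖ` a uniformiser of `O1`: `s` is a uniformiser
  of `O2`.
-/

set_option autoImplicit false

open Polynomial IsLocalRing

namespace Fermat.Agent.S18.Cusp.KummerLocal

open Fermat.Agent.S18.ConstExt

section Pair

variable {R : Type*} [CommRing R]

/-- The standard etale pair `(X^e - t, 1)` for units `t`, `e` of `R`. -/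
noncomputable def kummerPair (e : ℕ) (he0 : e ≠ 0) (t : R) (he : IsUnit (e : R)) (ht : IsUnit t) :
    StandardEtalePair R where
  f := X ^ e - C t
  monic_f := monic_X_pow_sub_C t he0
  g := 1
  cond := by
    obtain ⟨u, hu⟩ := he
    obtain ⟨w, hw⟩ := ht
    refine ⟨C ((u⁻¹ : Rˣ) : R) * C ((w⁻¹ : Rˣ) : R) * X, - C ((w⁻¹ : Rˣ) : R), 0, ?_⟩
    obtain ⟨k, rfl⟩ : ∃ k, e = k + 1 := ⟨e - 1, by omega⟩
    have h1 : (C ((k + 1 : ℕ) : R) : R[X]) * C ((u⁻¹ : Rˣ) : R) = 1 := by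
      rw [← C_mul, ← hu, Units.mul_inv, C_1]
    have h2 : (C t : R[X]) * C ((w⁻¹ : Rˣ) : R) = 1 := by
      rw [← C_mul, ← hw, Units.mul_inv, C_1]
    have hd : derivative (X ^ (k + 1) - C t : R[X]) = C ((k + 1 : ℕ) : R) * X ^ k := by
      simp
    rw [hd, pow_zero]
    linear_combination (X ^ (k + 1) * C ((w⁻¹ : Rˣ) : R)) * h1 + h2

end Pair

section General

variable {F1 F2 : Type*} [Field F1] [Field F2] [Algebra F1 F2]

theorem algebraMap_mem_of_comap_eq (O1 : ValuationSubring F1) (O2 : ValuationSubring F2)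
    (hcomap : O2.comap (algebraMap F1 F2) = O1) (r : O1) : algebraMap F1 F2 (r : F1) ∈ O2 := by
  rw [← ValuationSubring.mem_comap, hcomap]; exact r.2

theorem isLocalHom_liftHom (O1 : ValuationSubring F1) (O2 : ValuationSubring F2)
    (hcomap : O2.comap (algebraMap F1 F2) = O1) :
    IsLocalHom (Core.liftHom O1 O2 (algebraMap_mem_of_comap_eq O1 O2 hcomap)) := by
  constructor
  intro r hr
  obtain ⟨y, hy⟩ := isUnit_iff_exists_inv.mp hr
  have hy' : algebraMap F1 F2 (r : F1) * (y : F2) = 1 := congrArg Subtype.val hy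
  have hr0 : (r : F1) ≠ 0 := by
    intro h0
    rw [h0, map_zero, zero_mul] at hy'
    exact zero_ne_one hy'
  have hyr : (y : F2) = algebraMap F1 F2 (r : F1)⁻¹ := by
    rw [map_inv₀]
    exact eq_inv_of_mul_eq_one_right hy'
  have hri : (r : F1)⁻¹ ∈ O1 := by
    have h1 : (r : F1)⁻¹ ∈ O2.comap (algebraMap F1 F2) := by
      rw [ValuationSubring.mem_comap, ← hyr]
      exact y.2
    rwa [hcomap] at h1
  exact isUnit_iff_exists_inv.mpr ⟨⟨_, hri⟩, Subtype.ext (mul_inv_cancel₀ hr0)⟩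

/-- From `φ r * x = φ ϖ ^ n * u` to `x = φ ϖ ^ n' * u'`. -/
theorem zpow_mul_unit_of_mul_eq (O1 : ValuationSubring F1) [IsDiscreteValuationRing O1]
    (O2 : ValuationSubring F2) (hcomap : O2.comap (algebraMap F1 F2) = O1)
    (ϖ : O1) (hϖ : Irreducible ϖ) (x : F2) (r : O1) (hr : r ≠ 0) (n : ℕ) (u : O2ˣ)
    (hu' : algebraMap F1 F2 (r : F1) * x = algebraMap F1 F2 (ϖ : F1) ^ n * ((u : O2) : F2)) :
    ∃ (n : ℤ) (u : F2), u ∈ O2 ∧ u⁻¹ ∈ O2 ∧ x = algebraMap F1 F2 (ϖ : F1) ^ n * u := by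
  have hO1 := algebraMap_mem_of_comap_eq O1 O2 hcomap
  obtain ⟨j, w, hw⟩ := IsDiscreteValuationRing.eq_unit_mul_pow_irreducible hr hϖ
  have hw' : (r : F1) = ((w : O1) : F1) * (ϖ : F1) ^ j := by
    rw [hw]; rfl
  have hwinv : ((w : O1) : F1) * (((w⁻¹ : O1ˣ) : O1) : F1) = 1 :=
    congrArg (Subtype.val) (Units.mul_inv w)
  have huinv : ((u : O2) : F2) * (((u⁻¹ : O2ˣ) : O2) : F2) = 1 :=
    congrArg (Subtype.val) (Units.mul_inv u)
  have hw0 : ((w : O1) : F1) ≠ 0 := left_ne_zero_of_mul_eq_one hwinv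
  have hu0 : ((u : O2) : F2) ≠ 0 := left_ne_zero_of_mul_eq_one huinv
  have hϖ0 : (ϖ : F1) ≠ 0 := fun h => hϖ.ne_zero (Subtype.ext h)
  have hφϖ0 : algebraMap F1 F2 (ϖ : F1) ≠ 0 := (_root_.map_ne_zero _).2 hϖ0
  have hφw0 : algebraMap F1 F2 ((w : O1) : F1) ≠ 0 := (_root_.map_ne_zero _).2 hw0
  refine ⟨(n : ℤ) - j, (u : O2) * algebraMap F1 F2 (((w⁻¹ : O1ˣ) : O1) : F1), ?_, ?_, ?_⟩
  · exact O2.mul_mem _ _ u.1.2 (hO1 _)
  · have : ((u : O2) * algebraMap F1 F2 (((w⁻¹ : O1ˣ) : O1) : F1))⁻¹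
        = (((u⁻¹ : O2ˣ) : O2) : F2) * algebraMap F1 F2 ((w : O1) : F1) := by
      rw [mul_inv, ← map_inv₀]
      congr 1
      · exact inv_eq_of_mul_eq_one_right huinv
      · congr 1
        exact inv_eq_of_mul_eq_one_left hwinv
    rw [this]
    exact O2.mul_mem _ _ (u⁻¹).1.2 (hO1 _)
  · rw [hw', map_mul, map_pow] at hu'
    have hwi : algebraMap F1 F2 (((w⁻¹ : O1ˣ) : O1) : F1)
        = (algebraMap F1 F2 ((w : O1) : F1))⁻¹ := by
      rw [← map_inv₀]
      congr 1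
      exact (inv_eq_of_mul_eq_one_right hwinv).symm
    rw [hwi, zpow_sub₀ hφϖ0, zpow_natCast, zpow_natCast]
    field_simp
    linear_combination hu'

/-- **Unramified step.**  If `F2` is generated (as fractions with denominators in `O1`) by the
image of a finite formally unramified `O1`-algebra mapping into `O2`, then the uniformiser of
`O1` is a uniformiser of `O2`. -/
theorem exists_zpow_mul_unit_of_ringHom (O1 : ValuationSubring F1) [IsDiscreteValuationRing O1]
    (O2 : ValuationSubring F2) (hcomap : O2.comap (algebraMap F1 F2) = O1)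
    {B0 : Type*} [CommRing B0] [Algebra O1 B0] [Module.Finite O1 B0]
    [Algebra.FormallyUnramified O1 B0] (ψ : B0 →+* O2)
    (hψ : ∀ r : O1, ((ψ (algebraMap O1 B0 r) : O2) : F2) = algebraMap F1 F2 (r : F1))
    (hfrac : ∀ x : F2, ∃ r : O1, r ≠ 0 ∧ ∃ b : B0,
      ((ψ b : O2) : F2) = algebraMap F1 F2 (r : F1) * x)
    (ϖ : O1) (hϖ : Irreducible ϖ) (x : F2) (hx : x ≠ 0) :
    ∃ (n : ℤ) (u : F2), u ∈ O2 ∧ u⁻¹ ∈ O2 ∧ x = algebraMap F1 F2 (ϖ : F1) ^ n * u := by
  classical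
  have hO1 := algebraMap_mem_of_comap_eq O1 O2 hcomap
  let algRO : Algebra O1 O2 := (Core.liftHom O1 O2 hO1).toAlgebra
  have hloc : IsLocalHom (algebraMap O1 O2) := isLocalHom_liftHom O1 O2 hcomap
  let ψ' : B0 →ₐ[O1] O2 := { ψ with commutes' := fun r => Subtype.ext (hψ r) }
  have : Algebra.FormallyUnramified O1 ψ'.range :=
    Algebra.FormallyUnramified.of_surjective ψ'.rangeRestrict (AlgHom.rangeRestrict_surjective _)
  have : Module.Finite O1 ψ'.range :=
    Module.Finite.of_surjective ψ'.rangeRestrict.toLinearMap (AlgHom.rangeRestrict_surjective _)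
  obtain ⟨r, hr, b, hb⟩ := hfrac x
  have hr0 : (r : F1) ≠ 0 := fun h => hr (Subtype.ext h)
  have hb0 : (⟨ψ' b, ⟨b, rfl⟩⟩ : ψ'.range) ≠ 0 := by
    intro h0
    have h1 : ((ψ b : O2) : F2) = 0 := by
      have := congrArg (fun z : ψ'.range => ((z : O2) : F2)) h0
      exact this
    rw [hb] at h1
    exact mul_ne_zero ((_root_.map_ne_zero (algebraMap F1 F2)).2 hr0) hx h1
  obtain ⟨n, u, hu⟩ := Core.exists_pow_mul_unit_of_formallyUnramified (R := O1)
    (B := ψ'.range) (O := O2) ϖ hϖ ⟨ψ' b, ⟨b, rfl⟩⟩ hb0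
  have hu' : algebraMap F1 F2 (r : F1) * x
      = algebraMap F1 F2 (ϖ : F1) ^ n * ((u : O2) : F2) := by
    rw [← hb]
    have := congrArg (fun z : O2 => (z : F2)) hu
    exact this
  exact zpow_mul_unit_of_mul_eq O1 O2 hcomap ϖ hϖ x r hr n u hu'

end General

section Kummer

variable {F1 F2 : Type*} [Field F1] [Field F2] [Algebra F1 F2]

/-- Elements of `F1[s]` are fractions `aeval s' p' / r` with `p' ∈ O1[X]`, `r ∈ O1`. -/
theorem exists_aeval_eq_mul (O1 : ValuationSubring F1) (O2 : ValuationSubring F2)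
    (hcomap : O2.comap (algebraMap F1 F2) = O1) (s : F2) (hs : s ∈ O2)
    (hgen : Algebra.adjoin F1 {s} = ⊤) (x : F2) :
    letI : Algebra O1 O2 :=
      (Core.liftHom O1 O2 (algebraMap_mem_of_comap_eq O1 O2 hcomap)).toAlgebra
    ∃ r : O1, r ≠ 0 ∧ ∃ p' : O1[X],
      ((aeval (⟨s, hs⟩ : O2) p' : O2) : F2) = algebraMap F1 F2 (r : F1) * x := by
  classical
  let _ : Algebra O1 O2 :=
    (Core.liftHom O1 O2 (algebraMap_mem_of_comap_eq O1 O2 hcomap)).toAlgebra
  have hx : x ∈ Algebra.adjoin F1 {s} := by rw [hgen]; trivial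
  rw [Algebra.adjoin_singleton_eq_range_aeval] at hx
  obtain ⟨p, rfl⟩ := hx
  obtain ⟨r, hrM, hr⟩ := IsLocalization.integerNormalization_spec (nonZeroDivisors O1) p
  refine ⟨r, nonZeroDivisors.ne_zero hrM,
    IsLocalization.integerNormalization (nonZeroDivisors O1) p, ?_⟩
  have hcomm : (algebraMap F1 F2).comp (algebraMap O1 F1) = O2.subtype.comp (algebraMap O1 O2) :=
    rfl
  have h1 := Polynomial.map_aeval_eq_aeval_map hcomm
    (IsLocalization.integerNormalization (nonZeroDivisors O1) p) (⟨s, hs⟩ : O2)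
  have h2 : ((aeval (⟨s, hs⟩ : O2) (IsLocalization.integerNormalization (nonZeroDivisors O1) p)
      : O2) : F2) = O2.subtype (aeval (⟨s, hs⟩ : O2)
        (IsLocalization.integerNormalization (nonZeroDivisors O1) p)) := rfl
  have h3 : r • p = C (r : F1) * p := by
    rw [Algebra.smul_def]
    rfl
  rw [h2, h1, hr, h3, map_mul, aeval_C]
  rfl

/-- A root of a unit lies in the valuation subring. -/
theorem mem_of_pow_mem (O2 : ValuationSubring F2) (s : F2) (e : ℕ) (he0 : e ≠ 0)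
    (h : s ^ e ∈ O2) : s ∈ O2 := by
  rcases O2.mem_or_inv_mem s with h1 | h1
  · exact h1
  · rcases eq_or_ne s 0 with rfl | hs0
    · exact O2.zero_mem
    obtain ⟨k, rfl⟩ : ∃ k, e = k + 1 := ⟨e - 1, by omega⟩
    have : s = s ^ (k + 1) * s⁻¹ ^ k := by
      rw [pow_succ, inv_pow, mul_assoc, mul_comm s, ← mul_assoc,
        mul_inv_cancel₀ (pow_ne_zero k hs0), one_mul]
    rw [this]
    exact O2.mul_mem _ _ h (pow_mem h1 k)

set_option maxHeartbeats 800000 in
/-- **Kummer, unit case.**  `F2 = F1[s]`, `s ^ e = t` with `t` and `e` units of the discrete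
valuation subring `O1`; then for every valuation subring `O2` of `F2` over `O1` the uniformiser
of `O1` is a uniformiser of `O2`. -/
theorem kummer_unit (O1 : ValuationSubring F1) [IsDiscreteValuationRing O1]
    (O2 : ValuationSubring F2) (hcomap : O2.comap (algebraMap F1 F2) = O1)
    (e : ℕ) (he0 : (e : F1) ≠ 0) (hei : ((e : F1))⁻¹ ∈ O1)
    (t : F1) (ht0 : t ≠ 0) (ht : t ∈ O1) (hti : t⁻¹ ∈ O1)
    (s : F2) (hs : s ^ e = algebraMap F1 F2 t) (hgen : Algebra.adjoin F1 {s} = ⊤)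
    (ϖ : O1) (hϖ : Irreducible ϖ) (x : F2) (hx : x ≠ 0) :
    ∃ (n : ℤ) (u : F2), u ∈ O2 ∧ u⁻¹ ∈ O2 ∧ x = algebraMap F1 F2 (ϖ : F1) ^ n * u := by
  classical
  have hO1 := algebraMap_mem_of_comap_eq O1 O2 hcomap
  have hen : e ≠ 0 := by
    rintro rfl
    exact he0 (by simp)
  let algRO : Algebra O1 O2 := (Core.liftHom O1 O2 hO1).toAlgebra
  have hsmem : s ∈ O2 := by
    refine mem_of_pow_mem O2 s e hen ?_
    rw [hs]
    exact hO1 ⟨t, ht⟩
  -- units of `O1`
  have htU : IsUnit (⟨t, ht⟩ : O1) :=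
    isUnit_iff_exists_inv.mpr ⟨⟨t⁻¹, hti⟩, Subtype.ext (mul_inv_cancel₀ ht0)⟩
  have heU : IsUnit ((e : ℕ) : O1) := by
    refine isUnit_iff_exists_inv.mpr ⟨⟨(e : F1)⁻¹, hei⟩, Subtype.ext ?_⟩
    change ((e : O1) : F1) * (e : F1)⁻¹ = 1
    have : ((e : O1) : F1) = (e : F1) := map_natCast O1.subtype e
    rw [this, mul_inv_cancel₀ he0]
  let P : StandardEtalePair O1 := kummerPair e hen (⟨t, ht⟩ : O1) heU htU
  let B : Subalgebra O1 O2 := Algebra.adjoin O1 {(⟨s, hsmem⟩ : O2)}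
  let sB : B := ⟨⟨s, hsmem⟩, Algebra.self_mem_adjoin_singleton _ _⟩
  have hmap : P.HasMap sB := by
    refine ⟨?_, ?_⟩
    · change aeval sB (X ^ e - C (⟨t, ht⟩ : O1)) = 0
      rw [map_sub, map_pow, aeval_X, aeval_C]
      refine Subtype.ext (Subtype.ext ?_)
      change s ^ e - algebraMap F1 F2 t = 0
      rw [hs, sub_self]
    · change IsUnit (aeval sB (1 : O1[X]))
      rw [map_one]
      exact isUnit_one
  have hsurj : Function.Surjective (P.lift sB hmap) := by
    rintro ⟨b, hb⟩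
    have hb' : b ∈ Algebra.adjoin O1 {(⟨s, hsmem⟩ : O2)} := hb
    rw [Algebra.adjoin_singleton_eq_range_aeval] at hb'
    obtain ⟨p, rfl⟩ := hb'
    refine ⟨aeval P.X p, ?_⟩
    rw [← aeval_algHom_apply, P.lift_X]
    refine Subtype.ext ?_
    have := aeval_algHom_apply B.val sB p
    exact this.symm
  have : Algebra.FormallyUnramified O1 B :=
    Algebra.FormallyUnramified.of_surjective (P.lift sB hmap) hsurj
  have hint : IsIntegral O1 (⟨s, hsmem⟩ : O2) := by
    refine ⟨X ^ e - C (⟨t, ht⟩ : O1), monic_X_pow_sub_C _ hen, ?_⟩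
    rw [eval₂_sub, eval₂_pow, eval₂_X, eval₂_C]
    refine Subtype.ext ?_
    change s ^ e - algebraMap F1 F2 t = 0
    rw [hs, sub_self]
  have : Module.Finite O1 B := Module.Finite.iff_fg.mpr hint.fg_adjoin_singleton
  refine exists_zpow_mul_unit_of_ringHom O1 O2 hcomap (B0 := B) B.val.toRingHom (fun r => rfl)
    ?_ ϖ hϖ x hx
  intro y
  obtain ⟨r, hr, p', hp'⟩ := exists_aeval_eq_mul O1 O2 hcomap s hsmem hgen y
  refine ⟨r, hr, ⟨aeval (⟨s, hsmem⟩ : O2) p', ?_⟩, hp'⟩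
  change _ ∈ Algebra.adjoin O1 {(⟨s, hsmem⟩ : O2)}
  rw [Algebra.adjoin_singleton_eq_range_aeval]
  exact ⟨p', rfl⟩

end Kummer

section Eisenstein

variable {F1 F2 : Type*} [Field F1] [Field F2] [Algebra F1 F2]

/-- Reduction of `F1[s]` to sums `∑_{k<b} c_k s^k` when `s ^ b ∈ F1`. -/
theorem exists_sum_range_eq (p : F1) (b : ℕ) (hb : b ≠ 0) (s : F2)
    (hs : s ^ b = algebraMap F1 F2 p) (hgen : Algebra.adjoin F1 {s} = ⊤) (x : F2) :
    ∃ c : ℕ → F1, x = ∑ k ∈ Finset.range b, algebraMap F1 F2 (c k) * s ^ k := by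
  have hx : x ∈ Algebra.adjoin F1 {s} := by rw [hgen]; trivial
  rw [Algebra.adjoin_singleton_eq_range_aeval] at hx
  obtain ⟨q, rfl⟩ := hx
  have hmonic : (X ^ b - C p : F1[X]).Monic := monic_X_pow_sub_C p hb
  have hne1 : (X ^ b - C p : F1[X]) ≠ 1 := by
    intro h
    have h1 := congrArg natDegree h
    rw [natDegree_X_pow_sub_C, natDegree_one] at h1
    exact hb h1
  have hroot : aeval s (X ^ b - C p : F1[X]) = 0 := by
    rw [map_sub, map_pow, aeval_X, aeval_C, hs, sub_self]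
  have hmod : aeval s q = aeval s (q %ₘ (X ^ b - C p)) := by
    conv_lhs => rw [← modByMonic_add_div q (X ^ b - C p)]
    rw [map_add, map_mul, hroot, zero_mul, add_zero]
  have hdeg : (q %ₘ (X ^ b - C p)).natDegree < b := by
    have := natDegree_modByMonic_lt q hmonic hne1
    rwa [natDegree_X_pow_sub_C] at this
  refine ⟨fun k => (q %ₘ (X ^ b - C p)).coeff k, ?_⟩
  change aeval s q = _
  rw [hmod]
  conv_lhs => rw [as_sum_range_C_mul_X_pow' (q %ₘ (X ^ b - C p)) hdeg]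
  rw [map_sum]
  refine Finset.sum_congr rfl fun k _ => ?_
  rw [map_mul, aeval_C, map_pow, aeval_X]

set_option maxHeartbeats 800000 in
/-- **Eisenstein / totally ramified case.**  `F2 = F1[s]` with `s ^ b = p` a uniformiser of `O1`
(in the sense that every nonzero element of `F1` is `p ^ n * unit`): then for every valuation
subring `O2` of `F2` over `O1`, every nonzero element of `F2` is `s ^ N * unit`. -/
theorem eisenstein (O1 : ValuationSubring F1) (O2 : ValuationSubring F2)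
    (hcomap : O2.comap (algebraMap F1 F2) = O1)
    (p : F1) (hp : p ∈ O1) (hpinv : p⁻¹ ∉ O1)
    (hfac : ∀ c : F1, c ≠ 0 → ∃ (n : ℤ) (u : F1), u ∈ O1 ∧ u⁻¹ ∈ O1 ∧ c = p ^ n * u)
    (b : ℕ) (hb : b ≠ 0) (s : F2) (hs : s ^ b = algebraMap F1 F2 p)
    (hgen : Algebra.adjoin F1 {s} = ⊤) (x : F2) (hx : x ≠ 0) :
    ∃ (N : ℤ) (u : F2), u ∈ O2 ∧ u⁻¹ ∈ O2 ∧ x = s ^ N * u := by
  classical
  have hmem : ∀ y : F1, algebraMap F1 F2 y ∈ O2 ↔ y ∈ O1 := fun y => by
    rw [← hcomap, ValuationSubring.mem_comap]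
  have hp0 : p ≠ 0 := by
    rintro rfl
    exact hpinv (by simp [O1.zero_mem])
  have hs0 : s ≠ 0 := by
    rintro rfl
    rw [zero_pow hb] at hs
    exact hp0 ((_root_.map_eq_zero (algebraMap F1 F2)).1 hs.symm)
  set v := O2.valuation with hv
  -- units of `O1` have valuation one
  have hv1 : ∀ u : F1, u ∈ O1 → u⁻¹ ∈ O1 → u ≠ 0 → v (algebraMap F1 F2 u) = 1 := by
    intro u hu hui hu0
    have h1 : v (algebraMap F1 F2 u) ≤ 1 := (O2.valuation_le_one_iff _).2 ((hmem u).2 hu)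
    have h2 : v (algebraMap F1 F2 u⁻¹) ≤ 1 := (O2.valuation_le_one_iff _).2 ((hmem _).2 hui)
    rw [map_inv₀, map_inv₀] at h2
    have h0 : v (algebraMap F1 F2 u) ≠ 0 :=
      (Valuation.ne_zero_iff _).2 ((_root_.map_ne_zero (algebraMap F1 F2)).2 hu0)
    have h3 : 1 ≤ v (algebraMap F1 F2 u) := by
      rwa [inv_le_one₀ (zero_lt_iff.2 h0)] at h2
    exact le_antisymm h1 h3
  set γ := v s with hγ
  have hγ0 : 0 < γ := zero_lt_iff.2 ((Valuation.ne_zero_iff _).2 hs0)
  have hγb : γ ^ b = v (algebraMap F1 F2 p) := by rw [hγ, ← map_pow, hs]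
  have hvp : v (algebraMap F1 F2 p) < 1 := by
    have h1 : v (algebraMap F1 F2 p) ≤ 1 := (O2.valuation_le_one_iff _).2 ((hmem p).2 hp)
    refine lt_of_le_of_ne h1 fun h => hpinv ?_
    rw [← hmem, map_inv₀, ← O2.valuation_le_one_iff, map_inv₀, h, inv_one]
  have hγ1 : γ < 1 := by
    by_contra hge
    rw [not_lt] at hge
    have : 1 ≤ γ ^ b := one_le_pow₀ hge
    rw [hγb] at this
    exact absurd hvp (not_lt.2 this)
  have hanti : StrictAnti fun n : ℤ => γ ^ n := zpow_right_strictAnti₀ hγ0 hγ1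
  -- representation
  obtain ⟨c, hc⟩ := exists_sum_range_eq p b hb s hs hgen x
  -- exponents
  have hexp : ∀ k, c k ≠ 0 → ∃ n : ℤ, v (algebraMap F1 F2 (c k) * s ^ k) = γ ^ ((b : ℤ) * n + k) := by
    intro k hk
    obtain ⟨n, u, hu, hui, hcu⟩ := hfac (c k) hk
    have hu0 : u ≠ 0 := by
      rintro rfl
      rw [mul_zero] at hcu
      exact hk hcu
    refine ⟨n, ?_⟩
    rw [map_mul, hcu, map_mul, map_zpow₀, map_mul, map_zpow₀, hv1 u hu hui hu0, mul_one, ← hγb,
      map_pow, ← hγ, zpow_add₀ hγ0.ne', zpow_mul, zpow_natCast, zpow_natCast]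
  choose! nn hnn using hexp
  let E : ℕ → ℤ := fun k => (b : ℤ) * nn k + k
  let S : Finset ℕ := (Finset.range b).filter fun k => c k ≠ 0
  have hS : S.Nonempty := by
    by_contra hS
    rw [Finset.not_nonempty_iff_eq_empty] at hS
    apply hx
    rw [hc]
    refine Finset.sum_eq_zero fun k hk => ?_
    have : c k = 0 := by
      by_contra hck
      have : k ∈ S := Finset.mem_filter.2 ⟨hk, hck⟩
      rw [hS] at this
      exact absurd this (Finset.notMem_empty k)
    rw [this, map_zero, zero_mul]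
  obtain ⟨j, hjS, hjmin⟩ := Finset.exists_min_image S E hS
  have hjb : j ∈ Finset.range b := (Finset.mem_filter.1 hjS).1
  have hcj : c j ≠ 0 := (Finset.mem_filter.1 hjS).2
  have hvx : v x = γ ^ (E j) := by
    rw [hc, ← hnn j hcj]
    refine Valuation.map_sum_eq_of_lt v hjb ?_
    intro i hi
    rw [Finset.mem_sdiff, Finset.mem_singleton] at hi
    rw [hnn j hcj]
    by_cases hci : c i = 0
    · rw [hci, map_zero, zero_mul, map_zero]
      exact zpow_pos hγ0 _
    · rw [hnn i hci]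
      have hiS : i ∈ S := Finset.mem_filter.2 ⟨hi.1, hci⟩
      have hle : E j ≤ E i := hjmin i hiS
      have hne : E j ≠ E i := by
        intro heq
        apply hi.2
        have hi' : i < b := Finset.mem_range.1 hi.1
        have hj' : j < b := Finset.mem_range.1 hjb
        have h1 : (b : ℤ) * nn j + j = (b : ℤ) * nn i + i := heq
        have h2 : ((j : ℤ) - i) = (b : ℤ) * (nn i - nn j) := by linarith
        have h3 : (b : ℤ) ∣ (j : ℤ) - i := ⟨_, h2⟩
        have h4 : |(j : ℤ) - i| < b := by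
          rw [abs_lt]
          constructor <;> omega
        have h5 : (j : ℤ) - i = 0 := Int.eq_zero_of_abs_lt_dvd h3 h4
        omega
      exact hanti (lt_of_le_of_ne hle hne)
  refine ⟨E j, x * (s ^ (E j))⁻¹, ?_, ?_, ?_⟩
  · rw [← O2.valuation_le_one_iff, map_mul, map_inv₀, map_zpow₀, ← hv, hvx, ← hγ,
      mul_inv_cancel₀ (zpow_ne_zero _ hγ0.ne')]
  · rw [← O2.valuation_le_one_iff, map_inv₀, map_mul, map_inv₀, map_zpow₀, ← hv, hvx, ← hγ,
      mul_inv_cancel₀ (zpow_ne_zero _ hγ0.ne'), inv_one]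
  · field_simp

end Eisenstein

end Fermat.Agent.S18.Cusp.KummerLocal
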