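import Mathlib
import Fermat.Prelude.Def_AlgebraicCurve_DivisorPushPull
import Fermat.Agent.S24.FFDeriv
import Fermat.Agent.S18.ConstExt.Core
import Fermat.Agent.S18.Cusp.KummerLocal

/-!
# S18, leaf (CU3): Abhyankar's lemma for Kummer extensions of function fields (Prelude `Place`)

`F ⊆ F'` function fields over `K`, `F' = F[s]`, `s ^ e = t ∈ F`, `e ≠ 0` in `K`.  For a place
`P'` of `F'` with restriction `P = P'.restrict F`:

* `ord_sub_eq`: if `s0 ≠ 0` and `0 < ord_{P'} (s - s0)` then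
  `ord_{P'} (s - s0) = ord_P (t - s0 ^ e)` (the extension is unramified at `P'`);
* `ord_eq_one_of_dvd`: if `0 < ord_{P'} s` and `ord_P t ∣ e` then `ord_{P'} s = 1`;
* `ord_inv_eq_one_of_dvd`: the same at poles.

All proofs are local (no degree count, `K` need not be algebraically closed).
-/

set_option autoImplicit false

open AlgebraicCurve
open scoped IntermediateField

namespace Fermat.Agent.S18.Cusp.Unramified

open Fermat.Agent.S18.ConstExt Fermat.Agent.S18.Cusp.KummerLocal Fermat.Agent.S24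

variable {K F F' : Type*} [Field K] [Field F] [Field F'] [Algebra K F] [Algebra K F']
  [Algebra F F'] [IsScalarTower K F F'] [Algebra.IsIntegral F F']

/-- If the uniformiser of `P = P'.restrict F` stays a uniformiser of `P'` then `ord` is preserved. -/
theorem ord_algebraMap_eq_of_factorization (P' : Place K F')
    (ϖ : (P'.restrict F).toValuationSubring) (hϖ : Irreducible ϖ)
    (hfac : ∀ x : F', x ≠ 0 → ∃ (n : ℤ) (u : F'), u ∈ P'.toValuationSubring ∧
      u⁻¹ ∈ P'.toValuationSubring ∧ x = algebraMap F F' (ϖ : F) ^ n * u) (y : F) :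
    P'.ord (algebraMap F F' y) = (P'.restrict F).ord y := by
  rcases eq_or_ne y 0 with rfl | hy
  · simp
  have hmem : ∀ z : F, algebraMap F F' z ∈ P'.toValuationSubring ↔
      z ∈ (P'.restrict F).toValuationSubring := fun z => Iff.rfl
  have hϖ0 : (ϖ : F) ≠ 0 := fun h => hϖ.ne_zero (Subtype.ext h)
  have hpmem : algebraMap F F' (ϖ : F) ∈ P'.toValuationSubring := (hmem _).2 ϖ.2
  have hpinv : (algebraMap F F' (ϖ : F))⁻¹ ∉ P'.toValuationSubring := by
    rw [← map_inv₀, hmem]
    intro hmem'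
    exact hϖ.not_isUnit (isUnit_iff_exists_inv.mpr ⟨⟨_, hmem'⟩, Subtype.ext (mul_inv_cancel₀ hϖ0)⟩)
  obtain ⟨hirr, -, -⟩ := Core.irreducible_and_isPrincipalIdealRing_of_factorization
    P'.toValuationSubring (algebraMap F F' (ϖ : F)) hpmem hpinv hfac
  obtain ⟨u, hu⟩ := (P'.restrict F).exists_unit_mul_zpow hy hϖ
  have hu1 : ((u : (P'.restrict F).toValuationSubring) : F)
      * (((u⁻¹ : (P'.restrict F).toValuationSubringˣ) : (P'.restrict F).toValuationSubring) : F)
        = 1 := congrArg Subtype.val (Units.mul_inv u)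
  have hu2 : (((u⁻¹ : (P'.restrict F).toValuationSubringˣ) :
      (P'.restrict F).toValuationSubring) : F)
      * ((u : (P'.restrict F).toValuationSubring) : F) = 1 :=
    congrArg Subtype.val (Units.inv_mul u)
  let u' : P'.toValuationSubringˣ :=
    ⟨⟨algebraMap F F' ((u : (P'.restrict F).toValuationSubring) : F),
        (hmem _).2 (u : (P'.restrict F).toValuationSubring).2⟩,
      ⟨algebraMap F F' (((u⁻¹ : (P'.restrict F).toValuationSubringˣ) :
        (P'.restrict F).toValuationSubring) : F),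
        (hmem _).2 ((u⁻¹ : (P'.restrict F).toValuationSubringˣ) :
          (P'.restrict F).toValuationSubring).2⟩,
      Subtype.ext (by
        change algebraMap F F' _ * algebraMap F F' _ = 1
        rw [← map_mul, hu1, map_one]),
      Subtype.ext (by
        change algebraMap F F' _ * algebraMap F F' _ = 1
        rw [← map_mul, hu2, map_one])⟩
  have hux : algebraMap F F' y
      = ((u' : P'.toValuationSubring) : F')
        * ((⟨algebraMap F F' (ϖ : F), hpmem⟩ : P'.toValuationSubring) : F')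
            ^ ((P'.restrict F).ord y) := by
    conv_lhs => rw [hu]
    rw [map_mul, map_zpow₀]
  rw [hux]
  exact P'.ord_unit_smul_zpow u' hirr _

section Geometric

variable (v : Place K F')

theorem geZ_pow {a : F'} (ha : FFDeriv.GeZ v a 0) (n : ℕ) : FFDeriv.GeZ v (a ^ n) 0 :=
  FFDeriv.geZ_of_mem (pow_mem ha.mem n)

/-- `x ≡ a` at `v` implies `x ^ n ≡ a ^ n`. -/
theorem geZ_pow_sub_pow {x a : F'} (hx : FFDeriv.GeZ v x 0) (ha : FFDeriv.GeZ v a 0)
    (hd : FFDeriv.GeZ v (x - a) 1) (n : ℕ) : FFDeriv.GeZ v (x ^ n - a ^ n) 1 := by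
  induction n with
  | zero => simpa using FFDeriv.geZ_zero (v := v) 1
  | succ n ih =>
    have h : x ^ (n + 1) - a ^ (n + 1) = x * (x ^ n - a ^ n) + a ^ n * (x - a) := by ring
    rw [h]
    have h1 : FFDeriv.GeZ v (x * (x ^ n - a ^ n)) 1 := by
      have := hx.mul ih
      simpa using this
    have h2 : FFDeriv.GeZ v (a ^ n * (x - a)) 1 := by
      have := (geZ_pow v ha n).mul hd
      simpa using this
    exact h1.add h2

/-- If `0 < ord (x - a)` for a nonzero constant `a` and `e ≠ 0` in `K`, then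
`ord (x ^ e - a ^ e) = ord (x - a)`. -/
theorem ord_pow_sub_pow (x : F') (a : K) (ha : a ≠ 0) (e : ℕ) (he : (e : K) ≠ 0)
    (hpos : 0 < v.ord (x - algebraMap K F' a)) :
    v.ord (x ^ e - algebraMap K F' a ^ e) = v.ord (x - algebraMap K F' a) := by
  classical
  set A : F' := algebraMap K F' a with hA
  have hd0 : x - A ≠ 0 := by
    intro h0
    rw [h0, Place.ord_zero] at hpos
    exact lt_irrefl _ hpos
  have hdG : FFDeriv.GeZ v (x - A) 1 := Or.inr (by omega)
  have hAG : FFDeriv.GeZ v A 0 := FFDeriv.geZ_of_mem (v.algebraMap_mem' a)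
  have hxG : FFDeriv.GeZ v x 0 := by
    have : x = (x - A) + A := by ring
    rw [this]
    exact (hdG.mono (by norm_num)).add hAG
  -- the cofactor
  set h : F' := ∑ i ∈ Finset.range e, x ^ i * A ^ (e - 1 - i) with hh
  have hmul : h * (x - A) = x ^ e - A ^ e := by
    rw [hh]
    exact (Commute.all x A).geom_sum₂_mul e
  -- the constant term of the cofactor
  set c : F' := algebraMap K F' ((e : K) * a ^ (e - 1)) with hc
  have hc0 : (e : K) * a ^ (e - 1) ≠ 0 := mul_ne_zero he (pow_ne_zero _ ha)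
  have hcF : c ≠ 0 := (map_ne_zero (algebraMap K F')).2 hc0
  have hcord : v.ord c = 0 := FFDeriv.ord_algebraMap v _
  have hsumA : ∑ i ∈ Finset.range e, A ^ i * A ^ (e - 1 - i) = c := by
    have : ∀ i ∈ Finset.range e, A ^ i * A ^ (e - 1 - i) = A ^ (e - 1) := by
      intro i hi
      rw [← pow_add]
      congr 1
      have := Finset.mem_range.1 hi
      omega
    rw [Finset.sum_congr rfl this, Finset.sum_const, Finset.card_range, hc, map_mul, map_pow,
      map_natCast, nsmul_eq_mul]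
  have hdiff : FFDeriv.GeZ v (h - c) 1 := by
    rw [← hsumA, hh, ← Finset.sum_sub_distrib]
    refine FFDeriv.GeZ.sum _ _ fun i _ => ?_
    have : x ^ i * A ^ (e - 1 - i) - A ^ i * A ^ (e - 1 - i)
        = (x ^ i - A ^ i) * A ^ (e - 1 - i) := by ring
    rw [this]
    have := (geZ_pow_sub_pow v hxG hAG hdG i).mul (geZ_pow v hAG (e - 1 - i))
    simpa using this
  have hhord : h ≠ 0 ∧ v.ord h = 0 := by
    have h1 := FFDeriv.ord_add_of_geZ (v := v) hcF hdiff (by rw [hcord]; norm_num)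
    have h2 : c + (h - c) = h := by ring
    rw [h2, hcord] at h1
    exact h1
  rw [← hmul, v.ord_mul hhord.1 hd0, hhord.2, zero_add]

end Geometric

section Helpers

theorem zpow_mem_of_mem_of_inv_mem {E : Type*} [Field E] (O : ValuationSubring E) {w : E}
    (hw : w ∈ O) (hwi : w⁻¹ ∈ O) (n : ℤ) : w ^ n ∈ O := by
  rcases Int.eq_nat_or_neg n with ⟨k, rfl | rfl⟩
  · rw [zpow_natCast]; exact pow_mem hw k
  · rw [zpow_neg, zpow_natCast, ← inv_pow]; exact pow_mem hwi k

omit [IsScalarTower K F F'] [Algebra.IsIntegral F F'] [Algebra K F] [Algebra K F'] in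
/-- Generation is inherited by intermediate fields. -/
theorem adjoin_eq_top_of_tower (E : IntermediateField F F') (s : F')
    (hgen : Algebra.adjoin F {s} = ⊤) : Algebra.adjoin E {s} = ⊤ := by
  rw [eq_top_iff]
  intro x _
  have hx : x ∈ Algebra.adjoin F {s} := by rw [hgen]; trivial
  rw [Algebra.adjoin_singleton_eq_range_aeval] at hx ⊢
  obtain ⟨q, rfl⟩ := hx
  exact ⟨q.map (algebraMap F E), Polynomial.aeval_map_algebraMap E s q⟩

omit [IsScalarTower K F F'] [Algebra K F] [Algebra K F'] in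
/-- `F⟮ω⟯` is generated by `ω` as an algebra (inside the subtype). -/
theorem adjoin_gen_eq_top (ω : F') :
    Algebra.adjoin F {(⟨ω, IntermediateField.mem_adjoin_simple_self F ω⟩ : F⟮ω⟯)} = ⊤ := by
  rw [eq_top_iff]
  rintro ⟨y, hy⟩ -
  have hω : IsAlgebraic F ω := (Algebra.IsIntegral.isIntegral (R := F) ω).isAlgebraic
  have h1 : y ∈ (F⟮ω⟯).toSubalgebra := hy
  rw [IntermediateField.adjoin_simple_toSubalgebra_of_isAlgebraic hω,
    Algebra.adjoin_singleton_eq_range_aeval] at h1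
  obtain ⟨q, hq⟩ := h1
  rw [Algebra.adjoin_singleton_eq_range_aeval]
  refine ⟨q, Subtype.ext ?_⟩
  have := Polynomial.aeval_algHom_apply (F⟮ω⟯).val
    (⟨ω, IntermediateField.mem_adjoin_simple_self F ω⟩ : F⟮ω⟯) q
  change ((Polynomial.aeval _ q : F⟮ω⟯) : F') = y
  rw [← hq]
  exact this.symm

end Helpers

section Main

variable (t : F) (s : F') (e : ℕ) (he : (e : K) ≠ 0) (hs : s ^ e = algebraMap F F' t)
  (hgen : Algebra.adjoin F {s} = ⊤)

include he hs hgen

/-- **Unit case: the Kummer extension is unramified where `t` is a unit.**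
If `s ≠ 0` and `ord_{P'} s = 0`, then `ord_{P'} ∘ algebraMap = ord_P` on `F`
(`P = P'.restrict F`). -/
theorem ord_algebraMap_eq_of_ord_eq_zero (P' : Place K F') (hs0 : s ≠ 0) (h0 : P'.ord s = 0)
    (y : F) : P'.ord (algebraMap F F' y) = (P'.restrict F).ord y := by
  have hen : e ≠ 0 := by
    rintro rfl
    exact he (by simp)
  have ht0 : t ≠ 0 := by
    rintro rfl
    rw [map_zero] at hs
    exact hs0 (pow_eq_zero_iff hen |>.1 hs)
  -- `t` is a unit at `P`
  have hordt : P'.ord (algebraMap F F' t) = 0 := by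
    rw [← hs, FFDeriv.ord_pow, h0, mul_zero]
  have htmem : t ∈ (P'.restrict F).toValuationSubring := by
    change algebraMap F F' t ∈ P'.toValuationSubring
    exact FFDeriv.mem_of_ord_nonneg P' (by rw [hordt])
  have htimem : t⁻¹ ∈ (P'.restrict F).toValuationSubring := by
    change algebraMap F F' t⁻¹ ∈ P'.toValuationSubring
    refine FFDeriv.mem_of_ord_nonneg P' ?_
    rw [map_inv₀, Place.ord_inv, hordt, neg_zero]
  -- `e` is a unit at `P`
  have heF : (e : F) ≠ 0 := by
    have : (e : F) = algebraMap K F (e : K) := (map_natCast (algebraMap K F) e).symm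
    rw [this]
    exact (map_ne_zero (algebraMap K F)).2 he
  have hei : ((e : F))⁻¹ ∈ (P'.restrict F).toValuationSubring := by
    have : ((e : F))⁻¹ = algebraMap K F ((e : K))⁻¹ := by
      rw [map_inv₀, map_natCast]
    rw [this]
    exact (P'.restrict F).algebraMap_mem' _
  obtain ⟨ϖ, hϖ⟩ := IsDiscreteValuationRing.exists_irreducible (P'.restrict F).toValuationSubring
  refine ord_algebraMap_eq_of_factorization P' ϖ hϖ (fun x hx => ?_) y
  exact kummer_unit (P'.restrict F).toValuationSubring P'.toValuationSubring rfl e heF hei t ht0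
    htmem htimem s hs hgen ϖ hϖ x hx

/-- **CU3 (i).**  If `s0 ≠ 0` and `0 < ord_{P'} (s - s0)` then
`ord_{P'} (s - s0) = ord_P (t - s0 ^ e)` for `P = P'.restrict F`. -/
theorem ord_sub_eq (P' : Place K F') (s0 : K) (hs0 : s0 ≠ 0)
    (h : 0 < P'.ord (s - algebraMap K F' s0)) :
    P'.ord (s - algebraMap K F' s0) = (P'.restrict F).ord (t - algebraMap K F (s0 ^ e)) := by
  -- `s` is a unit at `P'`
  have hA0 : algebraMap K F' s0 ≠ 0 := (map_ne_zero (algebraMap K F')).2 hs0
  have hdG : FFDeriv.GeZ P' (s - algebraMap K F' s0) 1 := Or.inr (by omega)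
  have hsord := FFDeriv.ord_add_of_geZ (v := P') hA0 hdG
    (by rw [FFDeriv.ord_algebraMap]; norm_num)
  have hsum : algebraMap K F' s0 + (s - algebraMap K F' s0) = s := by ring
  rw [hsum, FFDeriv.ord_algebraMap] at hsord
  rw [← ord_algebraMap_eq_of_ord_eq_zero t s e he hs hgen P' hsord.1 hsord.2, map_sub, ← hs,
    ← IsScalarTower.algebraMap_apply, map_pow]
  exact (ord_pow_sub_pow P' s s0 hs0 e he h).symm

/-- **CU3 (i), corollary.**  If every zero of `t - s0 ^ e` on `F` is simple then every zero of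
`s - s0` on `F'` is simple. -/
theorem ord_sub_eq_one (s0 : K) (hs0 : s0 ≠ 0)
    (hF : ∀ P : Place K F, 0 < P.ord (t - algebraMap K F (s0 ^ e)) →
      P.ord (t - algebraMap K F (s0 ^ e)) = 1)
    (P' : Place K F') (h : 0 < P'.ord (s - algebraMap K F' s0)) :
    P'.ord (s - algebraMap K F' s0) = 1 := by
  have h1 := ord_sub_eq t s e he hs hgen P' s0 hs0 h
  rw [h1]
  exact hF _ (h1 ▸ h)

set_option maxHeartbeats 1600000 in
/-- **CU3 (ii), Abhyankar.**  If `0 < ord_{P'} s` and `ord_P t ∣ e` (`P = P'.restrict F`) then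
`s` is a uniformiser at `P'`. -/
theorem ord_eq_one_of_dvd (P' : Place K F') (h : 0 < P'.ord s)
    (hdvd : (P'.restrict F).ord t ∣ (e : ℤ)) : P'.ord s = 1 := by
  classical
  have hen : e ≠ 0 := by
    rintro rfl
    exact he (by simp)
  have hs0 : s ≠ 0 := by
    rintro rfl
    rw [Place.ord_zero] at h
    exact lt_irrefl _ h
  have ht0 : t ≠ 0 := by
    rintro rfl
    rw [map_zero] at hs
    exact hs0 (pow_eq_zero_iff hen |>.1 hs)
  -- `a := ord_P t > 0`
  have hordt : P'.ord (algebraMap F F' t) = e * P'.ord s := by rw [← hs, FFDeriv.ord_pow]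
  have hres : P'.ord (algebraMap F F' t)
      = (Place.ramificationIndex (F := F) P' : ℤ) * (P'.restrict F).ord t := P'.ord_restrict t
  have hapos : 0 < (P'.restrict F).ord t := by
    have h1 : 0 < (e : ℤ) * P'.ord s := mul_pos (by exact_mod_cast Nat.pos_of_ne_zero hen) h
    rw [← hordt, hres] at h1
    by_contra hle
    rw [not_lt] at hle
    have : (Place.ramificationIndex (F := F) P' : ℤ) * (P'.restrict F).ord t ≤ 0 :=
      mul_nonpos_of_nonneg_of_nonpos (by exact_mod_cast Nat.zero_le _) hle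
    omega
  obtain ⟨b', hb'⟩ := hdvd
  obtain ⟨a, ha⟩ := Int.eq_ofNat_of_zero_le hapos.le
  have hb'pos : 0 < b' := by
    have h1 : 0 < (e : ℤ) := by exact_mod_cast Nat.pos_of_ne_zero hen
    rw [hb'] at h1
    rcases lt_trichotomy b' 0 with hlt | heq | hgt
    · exact absurd h1 (not_lt.2 (mul_nonpos_of_nonneg_of_nonpos hapos.le hlt.le))
    · rw [heq, mul_zero] at h1; exact absurd h1 (lt_irrefl _)
    · exact hgt
  obtain ⟨b, hb⟩ := Int.eq_ofNat_of_zero_le hb'pos.le
  have hab : e = a * b := by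
    have : (e : ℤ) = (a : ℤ) * (b : ℤ) := by rw [hb', ha, hb]
    exact_mod_cast this
  have ha0 : a ≠ 0 := by
    rintro rfl
    rw [ha] at hapos
    exact lt_irrefl _ hapos
  have hb0 : b ≠ 0 := by
    rintro rfl
    rw [hb] at hb'pos
    exact lt_irrefl _ hb'pos
  have haK : (a : K) ≠ 0 := by
    intro h0
    apply he
    rw [hab, Nat.cast_mul, h0, zero_mul]
  -- uniformiser of `P` and the unit part of `t`
  obtain ⟨ϖ, hϖ⟩ := IsDiscreteValuationRing.exists_irreducible (P'.restrict F).toValuationSubring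
  obtain ⟨u0, hu0⟩ := (P'.restrict F).exists_unit_mul_zpow ht0 hϖ
  rw [ha, zpow_natCast] at hu0
  have hϖ0 : (ϖ : F) ≠ 0 := fun h => hϖ.ne_zero (Subtype.ext h)
  have hφϖ0 : algebraMap F F' (ϖ : F) ≠ 0 := (map_ne_zero _).2 hϖ0
  have hu0inv : ((u0 : (P'.restrict F).toValuationSubring) : F)
      * (((u0⁻¹ : (P'.restrict F).toValuationSubringˣ) : (P'.restrict F).toValuationSubring) : F)
        = 1 := congrArg Subtype.val (Units.mul_inv u0)
  have hu00 : ((u0 : (P'.restrict F).toValuationSubring) : F) ≠ 0 :=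
    left_ne_zero_of_mul_eq_one hu0inv
  have hu0i : (((u0 : (P'.restrict F).toValuationSubring) : F))⁻¹
      ∈ (P'.restrict F).toValuationSubring := by
    rw [inv_eq_of_mul_eq_one_right hu0inv]
    exact SetLike.coe_mem _
  -- `ω := s ^ b / ϖ`, `ω ^ a = u0`
  set ω : F' := s ^ b * (algebraMap F F' (ϖ : F))⁻¹ with hω
  have hωa : ω ^ a = algebraMap F F' ((u0 : (P'.restrict F).toValuationSubring) : F) := by
    rw [hω, mul_pow, ← pow_mul, mul_comm b a, ← hab, hs, hu0, map_mul, map_pow, inv_pow,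
      mul_assoc, mul_inv_cancel₀ (pow_ne_zero _ hφϖ0), mul_one]
  -- the intermediate field `F'' = F(ω)`
  let ω'' : F⟮ω⟯ := ⟨ω, IntermediateField.mem_adjoin_simple_self F ω⟩
  let O'' : ValuationSubring F⟮ω⟯ := P'.toValuationSubring.comap (algebraMap F⟮ω⟯ F')
  have hcomap1 : O''.comap (algebraMap F F⟮ω⟯) = (P'.restrict F).toValuationSubring := rfl
  have hω''a : ω'' ^ a
      = algebraMap F F⟮ω⟯ ((u0 : (P'.restrict F).toValuationSubring) : F) :=
    Subtype.ext hωa
  have haF : (a : F) ≠ 0 := by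
    have : (a : F) = algebraMap K F (a : K) := (map_natCast (algebraMap K F) a).symm
    rw [this]
    exact (map_ne_zero (algebraMap K F)).2 haK
  have hai : ((a : F))⁻¹ ∈ (P'.restrict F).toValuationSubring := by
    have : ((a : F))⁻¹ = algebraMap K F ((a : K))⁻¹ := by
      rw [map_inv₀, map_natCast]
    rw [this]
    exact (P'.restrict F).algebraMap_mem' _
  have hfac1 := kummer_unit (P'.restrict F).toValuationSubring O'' hcomap1 a haF hai
    ((u0 : (P'.restrict F).toValuationSubring) : F) hu00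
    (u0 : (P'.restrict F).toValuationSubring).2 hu0i ω'' hω''a (adjoin_gen_eq_top ω) ϖ hϖ
  -- `ω''` is a unit of `O''`
  have hmem1 : ∀ z : F, algebraMap F F⟮ω⟯ z ∈ O'' ↔ z ∈ (P'.restrict F).toValuationSubring :=
    fun z => Iff.rfl
  have hω''mem : ω'' ∈ O'' := by
    refine mem_of_pow_mem O'' ω'' a ha0 ?_
    rw [hω''a]
    exact (hmem1 _).2 (SetLike.coe_mem _)
  have hω''imem : ω''⁻¹ ∈ O'' := by
    refine mem_of_pow_mem O'' ω''⁻¹ a ha0 ?_
    rw [inv_pow, hω''a, ← map_inv₀]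
    exact (hmem1 _).2 hu0i
  -- the uniformiser `p := ϖ * ω''` of `O''`
  set p : F⟮ω⟯ := algebraMap F F⟮ω⟯ (ϖ : F) * ω'' with hp
  have hω''0 : ω'' ≠ 0 := by
    intro h0
    have h1 : ω'' ^ a = 0 := by rw [h0, zero_pow ha0]
    rw [hω''a] at h1
    exact hu00 ((map_eq_zero (algebraMap F F⟮ω⟯)).1 h1)
  have hφ''ϖ0 : algebraMap F F⟮ω⟯ (ϖ : F) ≠ 0 := (map_ne_zero _).2 hϖ0
  have hpmem : p ∈ O'' := O''.mul_mem _ _ ((hmem1 _).2 ϖ.2) hω''mem
  have hpinv : p⁻¹ ∉ O'' := by
    intro hcon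
    have h1 : (algebraMap F F⟮ω⟯ (ϖ : F))⁻¹ = p⁻¹ * ω'' := by
      rw [hp, mul_inv, mul_assoc, inv_mul_cancel₀ hω''0, mul_one]
    have h2 : (algebraMap F F⟮ω⟯ (ϖ : F))⁻¹ ∈ O'' := by
      rw [h1]; exact O''.mul_mem _ _ hcon hω''mem
    rw [← map_inv₀, hmem1] at h2
    exact hϖ.not_isUnit (isUnit_iff_exists_inv.mpr ⟨⟨_, h2⟩, Subtype.ext (mul_inv_cancel₀ hϖ0)⟩)
  have hfac2 : ∀ c : F⟮ω⟯, c ≠ 0 → ∃ (n : ℤ) (u : F⟮ω⟯), u ∈ O'' ∧ u⁻¹ ∈ O'' ∧ c = p ^ n * u := by
    intro c hc
    obtain ⟨n, u, hu, hui, hcu⟩ := hfac1 c hc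
    refine ⟨n, ω'' ^ (-n) * u, ?_, ?_, ?_⟩
    · exact O''.mul_mem _ _ (zpow_mem_of_mem_of_inv_mem O'' hω''mem hω''imem _) hu
    · rw [mul_inv, ← zpow_neg, neg_neg]
      exact O''.mul_mem _ _ (zpow_mem_of_mem_of_inv_mem O'' hω''mem hω''imem _) hui
    · rw [hcu, hp, mul_zpow, mul_assoc, ← mul_assoc (ω'' ^ n), ← zpow_add₀ hω''0, add_neg_cancel,
        zpow_zero, one_mul]
  -- Eisenstein step
  have hs'' : s ^ b = algebraMap F⟮ω⟯ F' p := by
    rw [hp, map_mul, ← IsScalarTower.algebraMap_apply]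
    change s ^ b = algebraMap F F' (ϖ : F) * ω
    rw [hω, mul_comm (s ^ b), ← mul_assoc, mul_inv_cancel₀ hφϖ0, one_mul]
  have hfac3 := eisenstein O'' P'.toValuationSubring rfl p hpmem hpinv hfac2 b hb0 s hs''
    (adjoin_eq_top_of_tower F⟮ω⟯ s hgen)
  -- conclusion: `s` is irreducible in `O'`
  have hsmem : s ∈ P'.toValuationSubring := FFDeriv.mem_of_ord_nonneg P' h.le
  have hsinv : s⁻¹ ∉ P'.toValuationSubring := by
    intro hcon
    have := FFDeriv.ord_nonneg_of_mem P' hcon
    rw [Place.ord_inv] at this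
    omega
  obtain ⟨hirr, -, -⟩ := Core.irreducible_and_isPrincipalIdealRing_of_factorization
    P'.toValuationSubring s hsmem hsinv hfac3
  exact P'.ord_coe_irreducible hirr

/-- **CU3 (ii) at poles.**  If `ord_{P'} s < 0` and `ord_P t ∣ e` then `ord_{P'} s = -1`. -/
theorem ord_eq_neg_one_of_dvd (P' : Place K F') (h : P'.ord s < 0)
    (hdvd : (P'.restrict F).ord t ∣ (e : ℤ)) : P'.ord s = -1 := by
  have hs' : s⁻¹ ^ e = algebraMap F F' t⁻¹ := by rw [inv_pow, hs, map_inv₀]
  have hgen' : Algebra.adjoin F {s⁻¹} = ⊤ := by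
    rw [eq_top_iff, ← hgen]
    refine Algebra.adjoin_le ?_
    intro x hx
    rw [Set.mem_singleton_iff] at hx
    rw [hx]
    have hmem : s⁻¹ ∈ Algebra.adjoin F {s⁻¹} := Algebra.self_mem_adjoin_singleton F _
    have halg : IsAlgebraic F (s⁻¹) := (Algebra.IsIntegral.isIntegral (R := F) s⁻¹).isAlgebraic
    have := (Algebra.adjoin F {s⁻¹}).inv_mem_of_algebraic (x := ⟨s⁻¹, hmem⟩) halg
    simpa using this
  have h1 : 0 < P'.ord s⁻¹ := by rw [Place.ord_inv]; omega
  have h2 : (P'.restrict F).ord t⁻¹ ∣ (e : ℤ) := by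
    rw [Place.ord_inv]; exact (neg_dvd).2 hdvd
  have h3 := ord_eq_one_of_dvd t⁻¹ s⁻¹ e he hs' hgen' P' h1 h2
  rw [Place.ord_inv] at h3
  omega

end Main

end Fermat.Agent.S18.Cusp.Unramified
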