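import Mathlib
import Fermat.Agent.S18.Purity.ChartNormal
import Fermat.Agent.S18.Purity.CharZeroInst
import Fermat.Agent.S18.Cusp.KummerDegree
import Fermat.Agent.S18.Cusp.Unramified

/-!
# S18 (CUSP, CU8): the hypotheses of block A (`Purity/ChartNormal.chart_package`) for the Kummer
cover `(F', s, O', ρ', E', c')`, `sᵉ = t`

Abstract form.  Downstairs: the data `(R, L, F, t, O, ρ, E)` of `chart_package`.  Upstairs: a field
`F' ⊇ F` with `s : F'`, `sᵉ = t`, `[F' : F] = e`, a valuation subring `O'` of `F'` over `O` with a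
residue map `ρ' : O' → E'` onto a field `E' ⊇ E`, `[E' : E] = e`, `E' = E(ρ' s)`.

* `d5_kummer` : (D5') for the geometric Kummer cover from (D5) + tameness downstairs (CU3);
* `transcendental_of_pow`, `algebraMap_mem_of_comap`, `valuation_algebraMap_lt_one`,
  `transcendental_res`, `htbar_of_transcendental`, `res_algebraMap` : the elementary hypotheses;
* `finrank_kummer`, `finrank_res_kummer`, `isSeparable_res_kummer` : degrees and separability (CU4a);
* `h2_kummer` : (H2) upstairs from `CharZeroInst.h2_elementwise` + `d5_kummer`;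
* `chart_package_kummer` : the conclusion of `chart_package` for `(F', s, O', ρ', E', g(Xᵉ))`.
-/

set_option autoImplicit false
set_option linter.style.haveILetI false
set_option linter.unusedSectionVars false
set_option linter.unusedVariables false

namespace Fermat.Agent.S18.Cusp.KummerInst

open Polynomial IntermediateField AlgebraicCurve

section D5

variable {K Fb Fb' : Type*} [Field K] [Field Fb] [Field Fb'] [Algebra K Fb] [Algebra K Fb']
  [Algebra Fb Fb'] [IsScalarTower K Fb Fb'] [Algebra.IsIntegral Fb Fb']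

/-- **(D5') for the Kummer cover.**  Downstairs: `ord_P (t - t₀) = 1` at the zeros of `t - t₀` for
`t₀ ≠ 0`, `g(t₀) ≠ 0`, and tameness `ord_P t ∣ e` at the zeros of `t`.  Upstairs (`sᵉ = t`):
`ord_{P'} (s - s₀) = 1` at the zeros of `s - s₀` whenever `g(s₀ᵉ) ≠ 0` — including `s₀ = 0`. -/
theorem d5_kummer (tb : Fb) (sb : Fb') (e : ℕ) (he : (e : K) ≠ 0)
    (hs : sb ^ e = algebraMap Fb Fb' tb) (hgen : Algebra.adjoin Fb {sb} = ⊤) (g : K[X])
    (D5 : ∀ (v : Place K Fb) (t0 : K), t0 ≠ 0 → g.eval t0 ≠ 0 →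
      0 < v.ord (tb - algebraMap K Fb t0) → v.ord (tb - algebraMap K Fb t0) = 1)
    (htame : ∀ v : Place K Fb, 0 < v.ord tb → v.ord tb ∣ (e : ℤ))
    (v : Place K Fb') (s0 : K) (hg : g.eval (s0 ^ e) ≠ 0)
    (hv : 0 < v.ord (sb - algebraMap K Fb' s0)) :
    v.ord (sb - algebraMap K Fb' s0) = 1 := by
  rcases eq_or_ne s0 0 with rfl | hs0
  · rw [map_zero, sub_zero] at hv ⊢
    refine Unramified.ord_eq_one_of_dvd tb sb e he hs hgen v hv (htame _ ?_)
    have h1 : v.ord (algebraMap Fb Fb' tb) = (e : ℤ) * v.ord sb := by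
      rw [← hs, Fermat.Agent.S24.FFDeriv.ord_pow]
    have h2 := v.ord_restrict (F := Fb) tb
    have hepos : (0 : ℤ) < e := by
      have : e ≠ 0 := fun h => he (by rw [h, Nat.cast_zero])
      exact_mod_cast Nat.pos_of_ne_zero this
    have h3 : 0 < v.ord (algebraMap Fb Fb' tb) := by rw [h1]; exact mul_pos hepos hv
    rw [h2] at h3
    have h4 : (0 : ℤ) < (Place.ramificationIndex (F := Fb) v : ℤ) := by
      exact_mod_cast v.ramificationIndex_pos (F := Fb)
    rcases lt_trichotomy 0 ((v.restrict Fb).ord tb) with h5 | h5 | h5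
    · exact h5
    · rw [← h5, mul_zero] at h3; exact absurd h3 (lt_irrefl _)
    · exact absurd h3 (not_lt.mpr (mul_nonpos_of_nonneg_of_nonpos h4.le h5.le))
  · exact Unramified.ord_sub_eq_one tb sb e he hs hgen s0 hs0
      (fun P hP => D5 P (s0 ^ e) (pow_ne_zero e hs0) hg hP) v hv

end D5

section Elementary

/-- the tower `R → F → F'` from the towers through `L`. -/
theorem isScalarTower_base (R L F F' : Type*) [CommRing R] [Field L] [Algebra R L]
    [Field F] [Algebra L F] [Algebra R F] [IsScalarTower R L F]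
    [Field F'] [Algebra L F'] [Algebra R F'] [IsScalarTower R L F']
    [Algebra F F'] [IsScalarTower L F F'] : IsScalarTower R F F' := by
  refine IsScalarTower.of_algebraMap_eq fun r => ?_
  rw [IsScalarTower.algebraMap_apply R L F', IsScalarTower.algebraMap_apply L F F',
    ← IsScalarTower.algebraMap_apply R L F]

variable {R L F F' : Type*} [CommRing R] [Field L] [Algebra R L]
  [Field F] [Algebra L F] [Algebra R F] [IsScalarTower R L F]
  [Field F'] [Algebra L F'] [Algebra R F'] [IsScalarTower R L F']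
  [Algebra F F'] [IsScalarTower L F F']

include L in
/-- `s` is transcendental over `R` as soon as `sᵉ = t` is. -/
theorem transcendental_of_pow [IsDomain R] {t : F} {s : F'} {e : ℕ} (ht : Transcendental R t)
    (hs : s ^ e = algebraMap F F' t) : Transcendental R s := by
  haveI := isScalarTower_base R L F F'
  intro halg
  apply ht
  have h1 : IsAlgebraic R (algebraMap F F' t) := hs ▸ halg.pow e
  exact (isAlgebraic_algebraMap_iff (algebraMap F F').injective).mp h1

theorem valuation_lt_one_iff_inv_notMem {E : Type*} [Field E] (O : ValuationSubring E) {x : E}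
    (hx : x ≠ 0) : O.valuation x < 1 ↔ x⁻¹ ∉ O := by
  rw [← O.valuation_le_one_iff, map_inv₀, not_le]
  have h0 : 0 < O.valuation x := zero_lt_iff.mpr ((_root_.map_ne_zero _).mpr hx)
  exact (one_lt_inv₀ h0).symm

variable {O : ValuationSubring F} {O' : ValuationSubring F'}

theorem mem_iff_of_comap (hcomap : O'.comap (algebraMap F F') = O) (x : F) :
    algebraMap F F' x ∈ O' ↔ x ∈ O := by
  rw [← hcomap]; rfl

theorem valuation_algebraMap_lt_one_iff (hcomap : O'.comap (algebraMap F F') = O) (x : F) :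
    O'.valuation (algebraMap F F' x) < 1 ↔ O.valuation x < 1 := by
  rcases eq_or_ne x 0 with rfl | hx
  · simp
  · rw [valuation_lt_one_iff_inv_notMem O hx,
      valuation_lt_one_iff_inv_notMem O' ((_root_.map_ne_zero _).mpr hx), ← map_inv₀,
      mem_iff_of_comap hcomap]

include L in
theorem algebraMap_mem_of_comap (hcomap : O'.comap (algebraMap F F') = O)
    (hRO : ∀ r : R, algebraMap R F r ∈ O) (r : R) : algebraMap R F' r ∈ O' := by
  haveI := isScalarTower_base R L F F'
  rw [IsScalarTower.algebraMap_apply R F F', mem_iff_of_comap hcomap]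
  exact hRO r

include L in
theorem valuation_algebraMap_lt_one (hcomap : O'.comap (algebraMap F F') = O) {π : R}
    (hπO : O.valuation (algebraMap R F π) < 1) : O'.valuation (algebraMap R F' π) < 1 := by
  haveI := isScalarTower_base R L F F'
  rw [IsScalarTower.algebraMap_apply R F F', valuation_algebraMap_lt_one_iff hcomap]
  exact hπO

end Elementary

section Residue

variable {R F E : Type*} [CommRing R] [IsLocalRing R] [Field F] [Algebra R F]
  [Field E] [Algebra (IsLocalRing.ResidueField R) E]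
  (t : F) (O : ValuationSubring F)
  (hRO : ∀ r : R, algebraMap R F r ∈ O) (htO : t ∈ O) (ρ : O →+* E)
  (hρR : ∀ r : R, ρ ⟨algebraMap R F r, hRO r⟩ =
    algebraMap (IsLocalRing.ResidueField R) E (IsLocalRing.residue R r))

include hρR in
/-- the residue of `p(t)` is `p̄(t̄)`. -/
theorem res_aeval (p : R[X]) :
    ρ ⟨aeval t p, Purity.Chart.aeval_mem_O t O hRO htO p⟩ =
      aeval (ρ ⟨t, htO⟩) (p.map (IsLocalRing.residue R)) := by
  let φ : R[X] →+* O := ((aeval t : R[X] →ₐ[R] F) : R[X] →+* F).codRestrict O.toSubring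
    (fun p => Purity.Chart.aeval_mem_O t O hRO htO p)
  have hφ : ∀ p : R[X], φ p = ⟨aeval t p, Purity.Chart.aeval_mem_O t O hRO htO p⟩ := fun _ => rfl
  have key : ρ.comp φ = ((aeval (ρ ⟨t, htO⟩) : (IsLocalRing.ResidueField R)[X] →ₐ[_] E) :
      (IsLocalRing.ResidueField R)[X] →+* E).comp (mapRingHom (IsLocalRing.residue R)) := by
    refine Polynomial.ringHom_ext (fun a => ?_) ?_
    · simp only [RingHom.comp_apply, hφ, coe_mapRingHom, map_C, RingHom.coe_coe, aeval_C]
      exact hρR a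
    · simp only [RingHom.comp_apply, hφ, coe_mapRingHom, map_X, RingHom.coe_coe, aeval_X]
  have := RingHom.congr_fun key p
  simpa only [RingHom.comp_apply, hφ, coe_mapRingHom, RingHom.coe_coe] using this

variable (hρker : ∀ x : O, ρ x = 0 ↔ O.valuation (x : F) < 1)

include hρR hρker in
/-- (htbar) from the transcendence of `t̄`. -/
theorem htbar_of_transcendental {π : R} (hπmax : IsLocalRing.maximalIdeal R = Ideal.span {π})
    (htr : Transcendental (IsLocalRing.ResidueField R) (ρ ⟨t, htO⟩)) (p : R[X])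
    (hp : O.valuation (aeval t p) < 1) (i : ℕ) : π ∣ p.coeff i := by
  have h1 : ρ ⟨aeval t p, Purity.Chart.aeval_mem_O t O hRO htO p⟩ = 0 := (hρker _).mpr hp
  rw [res_aeval t O hRO htO ρ hρR] at h1
  have h2 : p.map (IsLocalRing.residue R) = 0 := by
    by_contra hne
    exact htr ⟨_, hne, h1⟩
  have h3 : IsLocalRing.residue R (p.coeff i) = 0 := by
    rw [← coeff_map, h2, coeff_zero]
  rw [IsLocalRing.residue_eq_zero_iff, hπmax, Ideal.mem_span_singleton] at h3
  exact h3

include hρR hρker in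
/-- the transcendence of `t̄` from (htbar). -/
theorem transcendental_of_htbar {π : R} (hπnu : ¬ IsUnit π)
    (htbar : ∀ p : R[X], O.valuation (aeval t p) < 1 → ∀ i, π ∣ p.coeff i) :
    Transcendental (IsLocalRing.ResidueField R) (ρ ⟨t, htO⟩) := by
  rintro ⟨q, hq0, hq⟩
  obtain ⟨p, rfl⟩ := Polynomial.map_surjective (IsLocalRing.residue R)
    IsLocalRing.residue_surjective q
  rw [← res_aeval t O hRO htO ρ hρR, hρker] at hq
  apply hq0
  ext i
  rw [coeff_map, coeff_zero, IsLocalRing.residue_eq_zero_iff]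
  obtain ⟨r, hr⟩ := htbar p hq i
  rw [hr]
  exact Ideal.mul_mem_right _ _ ((IsLocalRing.mem_maximalIdeal _).mpr hπnu)

end Residue

section H2

/-- **(H2) for the Kummer cover** `(F', s, c' = g(Xᵉ))`: `CharZeroInst.h2_elementwise` fed with
`d5_kummer`.  `Fb`, `Fb'` are the geometric function fields (over the algebraically closed `kb`)
downstairs and upstairs, `tb : Fb` the coordinate downstairs. -/
theorem h2_kummer {R L F' : Type*} [CommRing R] [IsDomain R] [IsDiscreteValuationRing R]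
    (π : R) (hπ : Irreducible π) [Field L] [CharZero L] [Algebra R L] [IsFractionRing R L]
    [Field F'] [Algebra L F'] [Algebra R F'] [IsScalarTower R L F']
    (s : F') (hst : Transcendental L s) [FiniteDimensional L⟮s⟯ F'] (e : ℕ) (he0 : e ≠ 0)
    {kb Fb Fb' : Type*} [Field kb] [IsAlgClosed kb] [Algebra L kb] [Algebra.IsAlgebraic L kb]
    [Field Fb] [Algebra kb Fb] [Field Fb'] [Algebra kb Fb'] [Algebra Fb Fb']
    [IsScalarTower kb Fb Fb'] [Algebra.IsIntegral Fb Fb']
    [Algebra F' Fb'] [Algebra L Fb'] [IsScalarTower L F' Fb'] [IsScalarTower L kb Fb']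
    (tb : Fb) (hsb : (algebraMap F' Fb' s) ^ e = algebraMap Fb Fb' tb)
    (hgenb : Algebra.adjoin Fb {algebraMap F' Fb' s} = ⊤)
    (htrb : Transcendental kb (algebraMap F' Fb' s))
    (hfinb : FiniteDimensional kb⟮algebraMap F' Fb' s⟯ Fb')
    (g c' : R[X]) (hg0 : g ≠ 0) (hc' : c' = g.comp (X ^ e))
    (D5 : ∀ (v : Place kb Fb) (t0 : kb), t0 ≠ 0 → aeval t0 (g.map (algebraMap R L)) ≠ 0 →
      0 < v.ord (tb - algebraMap kb Fb t0) → v.ord (tb - algebraMap kb Fb t0) = 1)
    (htame : ∀ v : Place kb Fb, 0 < v.ord tb → v.ord tb ∣ (e : ℤ))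
    (x : F')
    (hx : ∀ y : F', IsIntegral (Algebra.adjoin R {s}) y → ∃ (m : ℕ) (p : R[X]),
      (algebraMap R F' π * aeval s c') ^ m *
        algebraMap L⟮s⟯ F' (Algebra.trace L⟮s⟯ F' (x * y)) = aeval s p) :
    ∃ m : ℕ, IsIntegral (Algebra.adjoin R {s}) ((algebraMap R F' π * aeval s c') ^ m * x) := by
  haveI : CharZero kb := charZero_of_injective_algebraMap (algebraMap L kb).injective
  have he : ((e : ℕ) : kb) ≠ 0 := Nat.cast_ne_zero.mpr he0
  have hc0 : c' ≠ 0 := by
    rw [hc']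
    intro h0
    rcases Polynomial.comp_eq_zero_iff.mp h0 with h | ⟨-, h⟩
    · exact hg0 h
    · have h1 := congrArg Polynomial.natDegree h
      rw [natDegree_X_pow, natDegree_C] at h1
      exact he0 h1
  refine Purity.CharZeroInst.h2_elementwise π hπ s hst c' hc0 (kb := kb) (Fb := Fb') htrb hfinb
    ?_ x hx
  intro v s0 hc hv
  refine d5_kummer tb (algebraMap F' Fb' s) e he hsb hgenb
    ((g.map (algebraMap R L)).map (algebraMap L kb)) ?_ htame v s0 ?_ hv
  · intro w t0 ht0 hgt0 hw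
    refine D5 w t0 ht0 ?_ hw
    rwa [eval_map_algebraMap] at hgt0
  · rw [eval_map_algebraMap]
    rw [hc', Polynomial.map_comp, Polynomial.map_pow, map_X, aeval_comp, map_pow, aeval_X] at hc
    exact hc

end H2

section Main

open Purity.Chart

variable {R L F E F' E' : Type*} [CommRing R] [IsDomain R] [IsDiscreteValuationRing R]
  [Field L] [Algebra R L] [IsFractionRing R L] [CharZero L]
  [Field F] [Algebra L F] [Algebra R F] [IsScalarTower R L F]
  [Field F'] [Algebra L F'] [Algebra R F'] [IsScalarTower R L F']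
  [Algebra F F'] [IsScalarTower L F F']
  [Field E] [Algebra (IsLocalRing.ResidueField R) E]
  [Field E'] [Algebra (IsLocalRing.ResidueField R) E'] [Algebra E E']
  [IsScalarTower (IsLocalRing.ResidueField R) E E']

/-- `s̄ᵉ = t̄`. -/
theorem res_pow_eq {t : F} {s : F'} {e : ℕ} {O : ValuationSubring F} {O' : ValuationSubring F'}
    (htO : t ∈ O) (hsO' : s ∈ O') (hs : s ^ e = algebraMap F F' t)
    (ρ : O →+* E) (ρ' : O' →+* E')
    (hρ'ρ : ∀ (x : F) (hx : x ∈ O) (hx' : algebraMap F F' x ∈ O'),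
      ρ' ⟨algebraMap F F' x, hx'⟩ = algebraMap E E' (ρ ⟨x, hx⟩)) :
    ρ' ⟨s, hsO'⟩ ^ e = algebraMap E E' (ρ ⟨t, htO⟩) := by
  have hmem : algebraMap F F' t ∈ O' := hs ▸ pow_mem hsO' e
  rw [← hρ'ρ t htO hmem, ← map_pow]
  congr 1
  exact Subtype.ext hs

/-- `s̄` is transcendental over `κ` as soon as `t̄` is. -/
theorem transcendental_res_kummer {t : F} {s : F'} {e : ℕ} {O : ValuationSubring F}
    {O' : ValuationSubring F'} (htO : t ∈ O) (hsO' : s ∈ O') (hs : s ^ e = algebraMap F F' t)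
    (ρ : O →+* E) (ρ' : O' →+* E')
    (hρ'ρ : ∀ (x : F) (hx : x ∈ O) (hx' : algebraMap F F' x ∈ O'),
      ρ' ⟨algebraMap F F' x, hx'⟩ = algebraMap E E' (ρ ⟨x, hx⟩))
    (htr : Transcendental (IsLocalRing.ResidueField R) (ρ ⟨t, htO⟩)) :
    Transcendental (IsLocalRing.ResidueField R) (ρ' ⟨s, hsO'⟩) := by
  intro halg
  apply htr
  have h1 : IsAlgebraic (IsLocalRing.ResidueField R) (algebraMap E E' (ρ ⟨t, htO⟩)) :=
    res_pow_eq htO hsO' hs ρ ρ' hρ'ρ ▸ halg.pow e
  exact (isAlgebraic_algebraMap_iff (algebraMap E E').injective).mp h1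

/-- **CU8.**  The conclusion of `ChartNormal.chart_package` for the Kummer cover
`(F', s, O', ρ', E', c')`, `c' = g(Xᵉ)`. -/
theorem chart_package_kummer
    (π : R) (t : F) (s : F') (e : ℕ) (he0 : e ≠ 0)
    (O : ValuationSubring F) (O' : ValuationSubring F')
    -- downstairs
    (hπ : Irreducible π) (ht : Transcendental R t)
    (hRO : ∀ r : R, algebraMap R F r ∈ O) (htO : t ∈ O)
    (htbar : ∀ p : R[X], O.valuation (aeval t p) < 1 → ∀ i, π ∣ p.coeff i)
    [FiniteDimensional L⟮t⟯ F] (n : ℕ) (hn : Module.finrank L⟮t⟯ F = n)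
    (ρ : O →+* E)
    (hρker : ∀ x : O, ρ x = 0 ↔ O.valuation (x : F) < 1)
    (hρR : ∀ r : R, ρ ⟨algebraMap R F r, hRO r⟩ =
      algebraMap (IsLocalRing.ResidueField R) E (IsLocalRing.residue R r))
    (hnb : Module.finrank (IsLocalRing.ResidueField R)⟮ρ ⟨t, htO⟩⟯ E = n)
    [Algebra.IsSeparable (IsLocalRing.ResidueField R)⟮ρ ⟨t, htO⟩⟯ E]
    -- the Kummer cover
    (hs : s ^ e = algebraMap F F' t) (hdeg : Module.finrank F F' = e)
    (hRO' : ∀ r : R, algebraMap R F' r ∈ O') (hsO' : s ∈ O')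
    (hπO' : O'.valuation (algebraMap R F' π) < 1)
    (hgen' : ∀ x : F', O'.valuation x < 1 → ∃ y ∈ O', x = algebraMap R F' π * y)
    (huniq' : ∀ O'' : ValuationSubring F',
      O''.comap (algebraMap L⟮s⟯ F') = O'.comap (algebraMap L⟮s⟯ F') → O'' = O')
    (ρ' : O' →+* E') (hρ'surj : Function.Surjective ρ')
    (hρ'ker : ∀ x : O', ρ' x = 0 ↔ O'.valuation (x : F') < 1)
    (hρ'ρ : ∀ (x : F) (hx : x ∈ O) (hx' : algebraMap F F' x ∈ O'),
      ρ' ⟨algebraMap F F' x, hx'⟩ = algebraMap E E' (ρ ⟨x, hx⟩))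
    (hdegE : Module.finrank E E' = e) (hgenE : E⟮ρ' ⟨s, hsO'⟩⟯ = ⊤)
    -- the geometric side
    {kb Fb Fb' : Type*} [Field kb] [IsAlgClosed kb] [Algebra L kb] [Algebra.IsAlgebraic L kb]
    [Field Fb] [Algebra kb Fb] [Field Fb'] [Algebra kb Fb'] [Algebra Fb Fb']
    [IsScalarTower kb Fb Fb'] [Algebra.IsIntegral Fb Fb']
    [Algebra F' Fb'] [Algebra L Fb'] [IsScalarTower L F' Fb'] [IsScalarTower L kb Fb']
    (tb : Fb) (hsb : (algebraMap F' Fb' s) ^ e = algebraMap Fb Fb' tb)
    (hgenb : Algebra.adjoin Fb {algebraMap F' Fb' s} = ⊤)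
    (htrb : Transcendental kb (algebraMap F' Fb' s))
    (hfinb : FiniteDimensional kb⟮algebraMap F' Fb' s⟯ Fb')
    (g c' : R[X]) (hg0 : g ≠ 0) (hc' : c' = g.comp (X ^ e))
    (D5 : ∀ (v : Place kb Fb) (t0 : kb), t0 ≠ 0 → aeval t0 (g.map (algebraMap R L)) ≠ 0 →
      0 < v.ord (tb - algebraMap kb Fb t0) → v.ord (tb - algebraMap kb Fb t0) = 1)
    (htame : ∀ v : Place kb Fb, 0 < v.ord tb → v.ord tb ∣ (e : ℤ)) :
    IsNoetherianRing (Bt R s) ∧
    (∀ b : Bt R s, (b : F') ∈ O') ∧
    (∀ b : Bt R s, O'.valuation (b : F') < 1 → ∃ y : Bt R s, b = polyToBt s (C π) * y) ∧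
    (∃ k : ℕ, ∀ z : E',
      IsIntegral (Algebra.adjoin (IsLocalRing.ResidueField R) {ρ' ⟨s, hsO'⟩}) z →
      ∃ (y : Bt R s) (hy : (y : F') ∈ O'),
        ρ' ⟨aeval s c', aeval_mem_O s O' hRO' hsO' c'⟩ ^ k * z = ρ' ⟨(y : F'), hy⟩) ∧
    (∀ (𝔫 : Ideal (Bt R s)) [𝔫.IsMaximal], polyToBt s (C π) ∈ 𝔫 → polyToBt s c' ∉ 𝔫 →
      ∃ T : R[X], polyToBt s T ∈ 𝔫 ∧ ∀ x ∈ 𝔫, ∃ s', s' ∉ 𝔫 ∧
        s' * x ∈ Ideal.span {polyToBt s (C π), polyToBt s T}) := by
  haveI := isScalarTower_base R L F F'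
  have hπmax : IsLocalRing.maximalIdeal R = Ideal.span {π} := hπ.maximalIdeal_eq
  -- transcendence
  have ht' : Transcendental R s := transcendental_of_pow (L := L) ht hs
  have hLt : Transcendental L s := by
    intro halg
    exact ht' ((IsFractionRing.isAlgebraic_iff R L F').mpr halg)
  have htrE : Transcendental (IsLocalRing.ResidueField R) (ρ ⟨t, htO⟩) :=
    transcendental_of_htbar t O hRO htO ρ hρR hρker hπ.not_isUnit htbar
  have htrE' : Transcendental (IsLocalRing.ResidueField R) (ρ' ⟨s, hsO'⟩) :=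
    transcendental_res_kummer htO hsO' hs ρ ρ' hρ'ρ htrE
  -- `ρ'` on the constants
  have hρ'R : ∀ r : R, ρ' ⟨algebraMap R F' r, hRO' r⟩ =
      algebraMap (IsLocalRing.ResidueField R) E' (IsLocalRing.residue R r) := by
    intro r
    have hmem : algebraMap F F' (algebraMap R F r) ∈ O' := by
      rw [← IsScalarTower.algebraMap_apply R F F']; exact hRO' r
    have h1 : (⟨algebraMap R F' r, hRO' r⟩ : O') = ⟨algebraMap F F' (algebraMap R F r), hmem⟩ :=
      Subtype.ext (IsScalarTower.algebraMap_apply R F F' r)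
    rw [h1, hρ'ρ _ (hRO r) hmem, hρR, ← IsScalarTower.algebraMap_apply]
  -- (htbar) upstairs
  have htbar' : ∀ p : R[X], O'.valuation (aeval s p) < 1 → ∀ i, π ∣ p.coeff i :=
    htbar_of_transcendental s O' hRO' hsO' ρ' hρ'R hρ'ker hπmax htrE'
  -- degrees
  have hn' : Module.finrank L⟮s⟯ F' = n := by
    rw [KummerDegree.finrank_adjoin_eq (κ := L) t s e he0 hs hLt hdeg, hn]
  have hnpos : 0 < n := hn ▸ Module.finrank_pos
  haveI : FiniteDimensional L⟮s⟯ F' := Module.finite_of_finrank_pos (hn'.symm ▸ hnpos)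
  have hsE := res_pow_eq htO hsO' hs ρ ρ' hρ'ρ
  have hnb' : Module.finrank (IsLocalRing.ResidueField R)⟮ρ' ⟨s, hsO'⟩⟯ E' = n := by
    rw [KummerDegree.finrank_adjoin_eq (κ := IsLocalRing.ResidueField R) (ρ ⟨t, htO⟩)
      (ρ' ⟨s, hsO'⟩) e he0 hsE htrE' hdegE, hnb]
  haveI : Algebra.IsSeparable (IsLocalRing.ResidueField R)⟮ρ' ⟨s, hsO'⟩⟯ E' :=
    KummerDegree.isSeparable_adjoin (κ := IsLocalRing.ResidueField R) (ρ ⟨t, htO⟩)
      (ρ' ⟨s, hsO'⟩) e hsE hgenE
  -- (H2) upstairs
  have H2' := fun x => h2_kummer π hπ s hLt e he0 tb hsb hgenb htrb hfinb g c' hg0 hc' D5 htame x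
  exact Purity.ChartNormal.chart_package π s O' hπ ht' hRO' hsO' hπO' hgen' htbar' huniq' n hn'
    ρ' hρ'surj hρ'ker hρ'R hnb' c' H2'

end Main

end Fermat.Agent.S18.Cusp.KummerInst
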