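import Mathlib
import Fermat.Agent.S18.Purity.UnitDisc

/-!
# S18, block CUSP: gluing integral closedness over a finite principal open cover (Mathlib only)

Everything is stated in a localisation-free element form: "`D[1/g]` is integrally closed in `E`"
is spelled `∀ x : E, IsIntegral D x → ∃ k d, g ^ k * x = d`.

* `mem_range_of_cover` : if `g i` generate the unit ideal of `D` and for every `i` some power of
  `g i` multiplies `x : E` into the image of `D`, then `x` is in the image of `D`.
* `mem_range_of_isIntegral_of_cover`, `mem_range_of_isIntegral_of_pair` : (G1) integral closedness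
  in `E` glues over the cover `D(g i)`.
* `integralClosure_eq_bot_of_cover`, `isIntegrallyClosedIn_of_cover`,
  `isIntegrallyClosed_of_cover` : the same in Mathlib's bundled forms.
* `exists_pow_mul_eq_of_isIntegrallyClosedIn_away` : from a genuine localisation `D'` of `D` away
  from `g` which is integrally closed in `E` to the element form.
* `exists_mul_eq_of_discr_dvd` : producer for block A: `B` free over an integrally closed domain
  `P` with a basis whose discriminant divides `c`; then `c * x ∈ B` for every `x ∈ Frac B`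
  integral over `B`.
* `span_image_eq_top`, `span_prod_erase_eq_top` : the cover condition for the products
  `∏_{a₁ ≠ a} (X - a₁)` over finitely many distinct values (Lagrange interpolation).
* `isIntegrallyClosed_quotient_of_isIntegralElem` : "the image of `B` in the residue field `E` is
  integrally closed in `E`" ⇒ `IsIntegrallyClosed (B ⧸ span {π})` (with `E = Frac`).
-/

set_option autoImplicit false

namespace Fermat.Agent.S18.Cusp.Glue

open Polynomial

section Cover

variable {D E : Type*} [CommRing D] [CommRing E] [Algebra D E]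

/-- The conductor of `x : E` into the image of `D`, as an ideal of `D`. -/
def conductor (x : E) : Ideal D :=
  Submodule.comap (LinearMap.toSpanSingleton D E x) (LinearMap.range (Algebra.linearMap D E))

theorem mem_conductor {x : E} {d : D} :
    d ∈ conductor (D := D) x ↔ ∃ d' : D, algebraMap D E d * x = algebraMap D E d' := by
  unfold conductor
  rw [Submodule.mem_comap, LinearMap.mem_range]
  simp only [LinearMap.toSpanSingleton_apply, Algebra.linearMap_apply, Algebra.smul_def]
  constructor
  · rintro ⟨y, hy⟩; exact ⟨y, hy.symm⟩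
  · rintro ⟨y, hy⟩; exact ⟨y, hy.symm⟩

theorem conductor_eq_top_iff {x : E} :
    conductor (D := D) x = ⊤ ↔ x ∈ (algebraMap D E).range := by
  rw [Ideal.eq_top_iff_one, mem_conductor]
  simp only [map_one, one_mul, RingHom.mem_range]
  constructor
  · rintro ⟨d, hd⟩; exact ⟨d, hd.symm⟩
  · rintro ⟨d, hd⟩; exact ⟨d, hd.symm⟩

/-- If the `g i` generate the unit ideal and a power of each `g i` multiplies `x` into the image
of `D`, then `x` is in the image of `D`. -/
theorem mem_range_of_cover {ι : Type*} (g : ι → D) (hg : Ideal.span (Set.range g) = ⊤)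
    (x : E) (h : ∀ i, ∃ (k : ℕ) (d : D), algebraMap D E (g i) ^ k * x = algebraMap D E d) :
    x ∈ (algebraMap D E).range := by
  rw [← conductor_eq_top_iff, ← Ideal.radical_eq_top, ← top_le_iff, ← hg, Ideal.span_le]
  rintro _ ⟨i, rfl⟩
  obtain ⟨k, d, hd⟩ := h i
  exact ⟨k, mem_conductor.2 ⟨d, by rw [map_pow]; exact hd⟩⟩

/-- **(G1)** integral closedness in `E` glues over a finite principal open cover of `Spec D`
(element form). -/
theorem mem_range_of_isIntegral_of_cover {ι : Type*} (g : ι → D)
    (hg : Ideal.span (Set.range g) = ⊤)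
    (h : ∀ i, ∀ x : E, IsIntegral D x →
      ∃ (k : ℕ) (d : D), algebraMap D E (g i) ^ k * x = algebraMap D E d)
    (x : E) (hx : IsIntegral D x) : x ∈ (algebraMap D E).range :=
  mem_range_of_cover g hg x fun i => h i x hx

/-- **(G1)** for a cover by two principal opens, `a * g₁ + b * g₂ = 1`. -/
theorem mem_range_of_isIntegral_of_pair (g₁ g₂ a b : D) (hab : a * g₁ + b * g₂ = 1)
    (h₁ : ∀ x : E, IsIntegral D x →
      ∃ (k : ℕ) (d : D), algebraMap D E g₁ ^ k * x = algebraMap D E d)
    (h₂ : ∀ x : E, IsIntegral D x →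
      ∃ (k : ℕ) (d : D), algebraMap D E g₂ ^ k * x = algebraMap D E d)
    (x : E) (hx : IsIntegral D x) : x ∈ (algebraMap D E).range := by
  refine mem_range_of_cover (fun i : Bool => if i then g₁ else g₂) ?_ x ?_
  · rw [Ideal.eq_top_iff_one, ← hab]
    refine Ideal.add_mem _ (Ideal.mul_mem_left _ _ (Ideal.subset_span ⟨true, by simp⟩))
      (Ideal.mul_mem_left _ _ (Ideal.subset_span ⟨false, by simp⟩))
  · intro i
    cases i
    · simpa using h₂ x hx
    · simpa using h₁ x hx

theorem integralClosure_eq_bot_of_cover {ι : Type*} (g : ι → D)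
    (hg : Ideal.span (Set.range g) = ⊤)
    (h : ∀ i, ∀ x : E, IsIntegral D x →
      ∃ (k : ℕ) (d : D), algebraMap D E (g i) ^ k * x = algebraMap D E d) :
    integralClosure D E = ⊥ := by
  refine le_antisymm (fun x hx => ?_) bot_le
  obtain ⟨d, hd⟩ := mem_range_of_isIntegral_of_cover g hg h x hx
  exact Algebra.mem_bot.2 ⟨d, hd⟩

theorem isIntegrallyClosedIn_of_cover (hinj : Function.Injective (algebraMap D E))
    {ι : Type*} (g : ι → D) (hg : Ideal.span (Set.range g) = ⊤)
    (h : ∀ i, ∀ x : E, IsIntegral D x →
      ∃ (k : ℕ) (d : D), algebraMap D E (g i) ^ k * x = algebraMap D E d) :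
    IsIntegrallyClosedIn D E :=
  isIntegrallyClosedIn_iff.2 ⟨hinj, fun {x} hx => mem_range_of_isIntegral_of_cover g hg h x hx⟩

theorem isIntegrallyClosed_of_cover [IsDomain D] {K : Type*} [Field K] [Algebra D K]
    [IsFractionRing D K] {ι : Type*} (g : ι → D) (hg : Ideal.span (Set.range g) = ⊤)
    (h : ∀ i, ∀ x : K, IsIntegral D x →
      ∃ (k : ℕ) (d : D), algebraMap D K (g i) ^ k * x = algebraMap D K d) :
    IsIntegrallyClosed D :=
  (isIntegrallyClosed_iff K).2 fun {x} hx => mem_range_of_isIntegral_of_cover g hg h x hx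

/-- From a genuine localisation `D'` of `D` away from `g` that is integrally closed in `E` to
the element form used in (G1). -/
theorem exists_pow_mul_eq_of_isIntegrallyClosedIn_away (g : D) (D' : Type*) [CommRing D']
    [Algebra D D'] [Algebra D' E] [IsScalarTower D D' E] [IsLocalization.Away g D']
    (hcl : ∀ x : E, IsIntegral D' x → x ∈ (algebraMap D' E).range)
    (x : E) (hx : IsIntegral D x) :
    ∃ (k : ℕ) (d : D), algebraMap D E g ^ k * x = algebraMap D E d := by
  obtain ⟨y, rfl⟩ := hcl x hx.tower_top
  obtain ⟨⟨d, ⟨_, k, rfl⟩⟩, hd⟩ := IsLocalization.surj (Submonoid.powers g) y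
  refine ⟨k, d, ?_⟩
  simp only at hd
  rw [IsScalarTower.algebraMap_apply D D' E, IsScalarTower.algebraMap_apply D D' E d, ← hd,
    map_mul, map_pow, map_pow, mul_comm]

end Cover

section Discr

open scoped nonZeroDivisors
open Fermat.Agent.S18.Purity

variable {P B : Type*} [CommRing P] [IsDomain P] [IsIntegrallyClosed P] [CommRing B] [IsDomain B]
  [Algebra P B]
variable {ι : Type*} [Fintype ι] [DecidableEq ι]

/-- **Producer for block A.** `B` a domain, free over the integrally closed domain `P` on a basis
whose discriminant divides `c`. Then `c * x ∈ B` for every `x ∈ Frac B` integral over `B`. -/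
theorem exists_mul_eq_of_discr_dvd (b : Module.Basis ι P B) (c : P)
    (hd : Algebra.discr P b ∣ c) {E : Type*} [Field E] [Algebra B E] [IsFractionRing B E]
    {x : E} (hx : IsIntegral B x) :
    ∃ d : B, algebraMap B E (algebraMap P B c) * x = algebraMap B E d := by
  by_cases hc0 : c = 0
  · exact ⟨0, by simp [hc0]⟩
  have hdisc0 : Algebra.discr P b ≠ 0 := by
    rintro h0
    rw [h0, zero_dvd_iff] at hd
    exact hc0 hd
  have hfin : Module.Finite P B := Module.Finite.of_basis b
  have hinj : Function.Injective (algebraMap P B) := UnitDisc.algebraMap_injective_of_basis b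
  have hfaith : FaithfulSMul P B := (faithfulSMul_iff_algebraMap_injective P B).2 hinj
  let _ : Algebra P E := ((algebraMap B E).comp (algebraMap P B)).toAlgebra
  have : IsScalarTower P B E := IsScalarTower.of_algebraMap_eq fun _ => rfl
  have hfaithF : FaithfulSMul P E := (faithfulSMul_iff_algebraMap_injective P E).2 <| by
    rw [IsScalarTower.algebraMap_eq P B E]
    exact (IsFractionRing.injective B E).comp hinj
  let _ : Algebra (FractionRing P) E := FractionRing.liftAlgebra P E
  have : IsScalarTower P (FractionRing P) E := FractionRing.isScalarTower_liftAlgebra P E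
  have hint : Algebra.IsIntegral P B := Algebra.IsIntegral.of_finite P B
  have hloc : IsLocalization (Algebra.algebraMapSubmonoid B P⁰) E := inferInstance
  let bF : Module.Basis ι (FractionRing P) E :=
    b.localizationLocalization (FractionRing P) P⁰ E
  have hdisc : Algebra.discr (FractionRing P) bF =
      algebraMap P (FractionRing P) (Algebra.discr P b) :=
    Algebra.discr_localizationLocalization P P⁰ E b
  have hbF : ∀ i, IsIntegral P (bF i) := fun i => by
    rw [Module.Basis.localizationLocalization_apply]
    exact (hint.isIntegral (b i)).algebraMap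
  have hxP : IsIntegral P x := isIntegral_trans x hx
  have hne : Algebra.discr (FractionRing P) bF ≠ 0 := by
    rw [hdisc]
    exact fun h => hdisc0 ((IsFractionRing.injective P (FractionRing P)) (by rw [h, map_zero]))
  have hmem := UnitDisc.discr_smul_mem_span bF hbF hne hxP
  have hle : Submodule.span P (Set.range bF) ≤
      LinearMap.range (IsScalarTower.toAlgHom P B E).toLinearMap := by
    rw [Submodule.span_le]
    rintro _ ⟨i, rfl⟩
    exact ⟨b i, by simp [bF, Module.Basis.localizationLocalization_apply]⟩
  obtain ⟨e, rfl⟩ := hd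
  obtain ⟨y, hy⟩ := hle hmem
  refine ⟨algebraMap P B e * y, ?_⟩
  have hy' : algebraMap B E y = algebraMap P E (Algebra.discr P b) * x := by
    have : (IsScalarTower.toAlgHom P B E).toLinearMap y = algebraMap B E y := rfl
    rw [← this, hy, hdisc, Algebra.smul_def, ← IsScalarTower.algebraMap_apply]
  rw [map_mul (algebraMap B E) (algebraMap P B e) y, hy', IsScalarTower.algebraMap_apply P B E,
    map_mul (algebraMap P B), map_mul (algebraMap B E)]
  ring

/-- The same with a power of `c`, in the hypothesis shape of `mem_range_of_isIntegral_of_cover`. -/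
theorem exists_pow_mul_eq_of_discr_dvd_pow (b : Module.Basis ι P B) (c : P) (k : ℕ)
    (hd : Algebra.discr P b ∣ c ^ k) {E : Type*} [Field E] [Algebra B E] [IsFractionRing B E]
    (x : E) (hx : IsIntegral B x) :
    ∃ (k : ℕ) (d : B), algebraMap B E (algebraMap P B c) ^ k * x = algebraMap B E d := by
  obtain ⟨d, hd⟩ := exists_mul_eq_of_discr_dvd b (c ^ k) hd hx
  exact ⟨k, d, by rw [← hd, map_pow, map_pow]⟩

end Discr

section CoverPolys

/-- The cover condition is preserved by ring homomorphisms. -/
theorem span_image_eq_top {A D : Type*} [CommRing A] [CommRing D] (φ : A →+* D) {ι : Type*}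
    (g : ι → A) (hg : Ideal.span (Set.range g) = ⊤) :
    Ideal.span (Set.range fun i => φ (g i)) = ⊤ := by
  have h := Ideal.map_span φ (Set.range g)
  rw [hg, Ideal.map_top] at h
  rw [h, ← Set.range_comp]
  rfl

/-- **Lagrange cover.** For finitely many pairwise distinct values `v j` (`j ∈ s`, `s` nonempty)
in a field, the products `∏_{j ≠ i} (X - v j)` generate the unit ideal of `κ[X]`. -/
theorem span_prod_erase_eq_top {κ : Type*} [Field κ] {ι : Type*} [DecidableEq ι] (s : Finset ι)
    (hs : s.Nonempty) (v : ι → κ) (hv : Set.InjOn v s) :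
    Ideal.span (Set.range fun i : s => ∏ j ∈ s.erase (i : ι), (X - C (v j))) = ⊤ := by
  rw [Ideal.eq_top_iff_one, ← Lagrange.sum_basis hv hs]
  refine Ideal.sum_mem _ fun i hi => ?_
  have : Lagrange.basis s v i =
      (∏ j ∈ s.erase i, C (v i - v j)⁻¹) * ∏ j ∈ s.erase i, (X - C (v j)) := by
    unfold Lagrange.basis Lagrange.basisDivisor
    rw [Finset.prod_mul_distrib]
  rw [this]
  exact Ideal.mul_mem_left _ _ (Ideal.subset_span ⟨⟨i, hi⟩, rfl⟩)

/-- The Lagrange cover transported along a ring homomorphism `κ[X] →+* D`. -/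
theorem span_map_prod_erase_eq_top {κ D : Type*} [Field κ] [CommRing D] (φ : κ[X] →+* D)
    {ι : Type*} [DecidableEq ι] (s : Finset ι) (hs : s.Nonempty) (v : ι → κ)
    (hv : Set.InjOn v s) :
    Ideal.span (Set.range fun i : s => φ (∏ j ∈ s.erase (i : ι), (X - C (v j)))) = ⊤ :=
  span_image_eq_top φ _ (span_prod_erase_eq_top s hs v hv)

end CoverPolys

section Quotient

variable {B E : Type*} [CommRing B] [Field E]

/-- **Adapter.** `ρ : B → E` a ring homomorphism to a field with kernel `(π)` whose image has
fraction field `E`. If the image is integrally closed in `E` (instance-free form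
`RingHom.IsIntegralElem`), then `B ⧸ (π)` is an integrally closed domain. -/
theorem isIntegrallyClosed_quotient_of_isIntegralElem (π : B) (ρ : B →+* E)
    (hker : RingHom.ker ρ = Ideal.span {π})
    (hfrac : ∀ x : E, ∃ b h : B, ρ h ≠ 0 ∧ x * ρ h = ρ b)
    (hcl : ∀ x : E, ρ.IsIntegralElem x → x ∈ ρ.range) :
    IsDomain (B ⧸ Ideal.span {π}) ∧ IsIntegrallyClosed (B ⧸ Ideal.span {π}) := by
  have hle : ∀ a ∈ Ideal.span {π}, ρ a = 0 := fun a ha => by
    rw [← hker] at ha; exact ha
  let φ : B ⧸ Ideal.span {π} →+* E := Ideal.Quotient.lift _ ρ hle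
  have hφ : ∀ b, φ (Ideal.Quotient.mk _ b) = ρ b := fun b => Ideal.Quotient.lift_mk _ _ _
  have hφinj : Function.Injective φ := by
    rw [injective_iff_map_eq_zero]
    intro a ha
    obtain ⟨b, rfl⟩ := Ideal.Quotient.mk_surjective a
    rw [hφ] at ha
    rw [Ideal.Quotient.eq_zero_iff_mem, ← hker]
    exact ha
  have hdom : IsDomain (B ⧸ Ideal.span {π}) := hφinj.isDomain φ
  refine ⟨hdom, ?_⟩
  let _ : Algebra (B ⧸ Ideal.span {π}) E := φ.toAlgebra
  have hfaith : FaithfulSMul (B ⧸ Ideal.span {π}) E :=
    (faithfulSMul_iff_algebraMap_injective _ _).2 hφinj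
  have hFR : IsFractionRing (B ⧸ Ideal.span {π}) E := by
    refine IsFractionRing.of_field (B ⧸ Ideal.span {π}) E fun z => ?_
    obtain ⟨b, h, hh, hz⟩ := hfrac z
    refine ⟨Ideal.Quotient.mk _ b, Ideal.Quotient.mk _ h, ?_⟩
    change z = φ _ / φ _
    rw [hφ, hφ, eq_div_iff hh, hz]
  refine (isIntegrallyClosed_iff E).2 fun {x} hx => ?_
  have hxρ : ρ.IsIntegralElem x := by
    obtain ⟨p, hp, hpx⟩ := hx
    obtain ⟨q, hq, -, hqm⟩ := Polynomial.lifts_and_natDegree_eq_and_monic
      (Polynomial.mem_lifts_of_surjective Ideal.Quotient.mk_surjective p) hp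
    refine ⟨q, hqm, ?_⟩
    have : ρ = φ.comp (Ideal.Quotient.mk _) := by
      ext b; exact (hφ b).symm
    rw [this, ← Polynomial.eval₂_map, hq]
    exact hpx
  obtain ⟨b, hb⟩ := hcl x hxρ
  exact ⟨Ideal.Quotient.mk _ b, by change φ _ = x; rw [hφ, hb]⟩

end Quotient

end Fermat.Agent.S18.Cusp.Glue
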