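import Mathlib

/-!
# S18, block CUSP: bridge between the local two-generator form `(N_n)` and normality of `B/π`

`B` a Noetherian ring, `π ∈ B` with `B/π` a domain.

* `LocalGen π n` is the shape consumed by `Core/StartSection*` and produced by
  `Purity/EtalePointMem` and `Cusp/Abstract`:
  `∃ T ∈ n, ∀ x ∈ n, ∃ s ∉ n, s * x ∈ span {π, T}`.
* `isIntegrallyClosed_quotient` : `(N_n)` at every maximal `n ∋ π` ⟹ `B/π` integrally closed
  ("Theorem N" from the pointwise statements; used upstairs on the Kummer cover).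
* `localGen_of_isIntegrallyClosed` : `B/π` integrally closed of dimension `≤ 1` ⟹ `(N_n)` at every
  maximal `n ∋ π` (used downstairs after the descent).
* `localGen_of_isIntegral` : the same with `dim ≤ 1` coming from an integral algebra structure
  over a PID (`κ[t̄] → B/π`).
-/

set_option autoImplicit false

namespace Fermat.Agent.S18.Cusp.NormalBridge

open Ideal IsLocalRing

variable {B : Type*} [CommRing B]

/-- The two-generator local form `(N_n)`: `n B_n = (π, T) B_n` with `T ∈ n`, in element form. -/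
def LocalGen (π : B) (n : Ideal B) : Prop :=
  ∃ T ∈ n, ∀ x ∈ n, ∃ s, s ∉ n ∧ s * x ∈ Ideal.span {π, T}

theorem mk_pi_eq_zero (π : B) : Ideal.Quotient.mk (Ideal.span {π}) π = 0 :=
  Ideal.Quotient.eq_zero_iff_mem.mpr (Ideal.mem_span_singleton_self π)

/-- In the localisation of `B/π` at the image of `n`, the maximal ideal is generated by the image
of `T`. -/
theorem maximalIdeal_localization_eq_span (π : B) (m : Ideal (B ⧸ Ideal.span {π})) [m.IsPrime]
    (T : B) (hT : T ∈ m.comap (Ideal.Quotient.mk (Ideal.span {π})))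
    (hgen : ∀ x ∈ m.comap (Ideal.Quotient.mk (Ideal.span {π})),
      ∃ s, s ∉ m.comap (Ideal.Quotient.mk (Ideal.span {π})) ∧ s * x ∈ Ideal.span {π, T}) :
    maximalIdeal (Localization.AtPrime m) =
      Ideal.span {algebraMap (B ⧸ Ideal.span {π}) (Localization.AtPrime m)
        (Ideal.Quotient.mk (Ideal.span {π}) T)} := by
  set mk := Ideal.Quotient.mk (Ideal.span {π}) with hmk
  apply le_antisymm
  · intro y hy
    obtain ⟨a, s, rfl⟩ := IsLocalization.exists_mk'_eq m.primeCompl y
    have ha : a ∈ m := (IsLocalization.AtPrime.mk'_mem_maximal_iff (Localization.AtPrime m) m a s).mp hy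
    obtain ⟨x, rfl⟩ := Ideal.Quotient.mk_surjective a
    obtain ⟨s', hs', hx⟩ := hgen x ha
    rw [Ideal.mem_span_pair] at hx
    obtain ⟨c, d, hcd⟩ := hx
    have e1 : mk x * mk s' = mk d * mk T := by
      have := congrArg mk hcd
      rw [map_add, map_mul, map_mul, mk_pi_eq_zero, mul_zero, zero_add, map_mul] at this
      rw [this, mul_comm]
    have hs'm : mk s' ∉ m := fun hmem => hs' hmem
    have hu1 : IsUnit (algebraMap (B ⧸ Ideal.span {π}) (Localization.AtPrime m) (s : B ⧸ Ideal.span {π})) :=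
      IsLocalization.map_units _ s
    have hu2 : IsUnit (algebraMap (B ⧸ Ideal.span {π}) (Localization.AtPrime m) (mk s')) :=
      IsLocalization.map_units _ (⟨mk s', hs'm⟩ : m.primeCompl)
    rw [← Ideal.mul_unit_mem_iff_mem _ hu1, ← Ideal.mul_unit_mem_iff_mem _ hu2,
      IsLocalization.mk'_spec, ← map_mul, e1, map_mul]
    exact Ideal.mul_mem_left _ _ (Ideal.mem_span_singleton_self _)
  · rw [Ideal.span_singleton_le_iff_mem]
    exact (IsLocalization.AtPrime.to_map_mem_maximal_iff (Localization.AtPrime m) m _).mpr hT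

/-- **(N_n) everywhere ⟹ Theorem N.** If `B` is Noetherian, `B/π` is a domain and every maximal
ideal of `B` containing `π` has the two-generator local form, then `B/π` is integrally closed. -/
theorem isIntegrallyClosed_quotient [IsNoetherianRing B] (π : B)
    [IsDomain (B ⧸ Ideal.span {π})]
    (h : ∀ n : Ideal B, n.IsMaximal → π ∈ n → LocalGen π n) :
    IsIntegrallyClosed (B ⧸ Ideal.span {π}) := by
  apply IsIntegrallyClosed.of_localization_maximal
  intro m _ hm
  have hn : (m.comap (Ideal.Quotient.mk (Ideal.span {π}))).IsMaximal :=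
    Ideal.comap_isMaximal_of_surjective _ Ideal.Quotient.mk_surjective
  have hπn : π ∈ m.comap (Ideal.Quotient.mk (Ideal.span {π})) := by
    rw [Ideal.mem_comap, mk_pi_eq_zero]
    exact m.zero_mem
  obtain ⟨T, hT, hgen⟩ := h _ hn hπn
  have key := maximalIdeal_localization_eq_span π m T hT hgen
  have hprin : (maximalIdeal (Localization.AtPrime m)).IsPrincipal := ⟨⟨_, key⟩⟩
  have : IsPrincipalIdealRing (Localization.AtPrime m) :=
    ((tfae_of_isNoetherianRing_of_isLocalRing_of_isDomain
      (R := Localization.AtPrime m)).out 4 0).mp hprin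
  infer_instance

/-- **Theorem N ⟹ (N_n).** If `B/π` is a Dedekind domain (Noetherian, integrally closed domain of
dimension `≤ 1`), every maximal ideal `n ∋ π` of `B` has the two-generator local form, with ONE
multiplier `s` for all `x ∈ n`. -/
theorem exists_uniform_localGen (π : B) [IsDedekindDomain (B ⧸ Ideal.span {π})]
    (n : Ideal B) [hn : n.IsMaximal] (hπ : π ∈ n) :
    ∃ T ∈ n, ∃ s, s ∉ n ∧ ∀ x ∈ n, s * x ∈ Ideal.span {π, T} := by
  set mk := Ideal.Quotient.mk (Ideal.span {π}) with hmk
  have hker : Ideal.span {π} ≤ n := (Ideal.span_singleton_le_iff_mem (I := n)).mpr hπ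
  have hcomap : (n.map mk).comap mk = n := by
    rw [Ideal.comap_map_of_surjective mk Ideal.Quotient.mk_surjective]
    have : Ideal.comap mk ⊥ = Ideal.span {π} := by
      rw [← RingHom.ker_eq_comap_bot, Ideal.mk_ker]
    rw [this]
    exact sup_eq_left.mpr hker
  by_cases hbot : n.map mk = ⊥
  · -- `n = (π)`
    refine ⟨π, hπ, 1, fun h1 => hn.ne_top ((Ideal.eq_top_iff_one n).mpr h1), fun x hx => ?_⟩
    have hx' : mk x ∈ n.map mk := Ideal.mem_map_of_mem mk hx
    rw [hbot, Ideal.mem_bot, Ideal.Quotient.eq_zero_iff_mem] at hx'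
    rw [one_mul]
    exact Ideal.span_mono (by simp) hx'
  · have hmax : (n.map mk).IsMaximal := by
      rcases Ideal.map_eq_top_or_isMaximal_of_surjective mk Ideal.Quotient.mk_surjective hn with h | h
      · exfalso
        apply hn.ne_top
        rw [← hcomap, h, Ideal.comap_top]
      · exact h
    have hprime : (n.map mk).IsPrime := hmax.isPrime
    -- an element of `m ∖ m²`
    have hlt : (n.map mk) ^ 2 < n.map mk := by
      have := Ideal.pow_succ_lt_pow (P := n.map mk) hbot 1
      simpa using this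
    obtain ⟨Tb, hTb, hTb2⟩ := SetLike.exists_of_lt hlt
    obtain ⟨T, rfl⟩ := Ideal.Quotient.mk_surjective Tb
    have hTn : T ∈ n := by rw [← hcomap]; exact hTb
    -- `(Tb) = m * I`
    have hdvd : n.map mk ∣ Ideal.span {mk T} :=
      Ideal.dvd_iff_le.mpr ((Ideal.span_singleton_le_iff_mem (I := n.map mk)).mpr hTb)
    obtain ⟨I, hI⟩ := hdvd
    have hInot : ¬ I ≤ n.map mk := by
      intro hle
      apply hTb2
      have h2 : Ideal.span {mk T} ≤ (n.map mk) ^ 2 := by
        rw [hI, sq]
        exact Ideal.mul_mono_right hle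
      exact h2 (Ideal.mem_span_singleton_self _)
    obtain ⟨sb, hsbI, hsbm⟩ := SetLike.not_le_iff_exists.mp hInot
    obtain ⟨s, rfl⟩ := Ideal.Quotient.mk_surjective sb
    refine ⟨T, hTn, s, fun hs => hsbm (Ideal.mem_map_of_mem mk hs), fun x hx => ?_⟩
    have h1 : mk s * mk x ∈ Ideal.span {mk T} := by
      rw [hI, mul_comm (mk s)]
      exact Ideal.mul_mem_mul (Ideal.mem_map_of_mem mk hx) hsbI
    obtain ⟨db, hdb⟩ := Ideal.mem_span_singleton'.mp h1
    obtain ⟨d, rfl⟩ := Ideal.Quotient.mk_surjective db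
    have h2 : mk (s * x - d * T) = 0 := by
      rw [map_sub, map_mul, map_mul, hdb, sub_self]
    rw [Ideal.Quotient.eq_zero_iff_mem, Ideal.mem_span_singleton'] at h2
    obtain ⟨c, hc⟩ := h2
    rw [Ideal.mem_span_pair]
    exact ⟨c, d, by rw [hc]; ring⟩

/-- **Theorem N ⟹ (N_n)**, in the `LocalGen` shape. -/
theorem localGen_of_isDedekindDomain (π : B) [IsDedekindDomain (B ⧸ Ideal.span {π})]
    (n : Ideal B) [n.IsMaximal] (hπ : π ∈ n) : LocalGen π n := by
  obtain ⟨T, hT, s, hs, h⟩ := exists_uniform_localGen π n hπ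
  exact ⟨T, hT, fun x hx => ⟨s, hs, h x hx⟩⟩

/-- **Theorem N ⟹ (N_n)** from the three properties separately. -/
theorem localGen_of_isIntegrallyClosed [IsNoetherianRing B] (π : B)
    [IsDomain (B ⧸ Ideal.span {π})] [IsIntegrallyClosed (B ⧸ Ideal.span {π})]
    [Ring.DimensionLEOne (B ⧸ Ideal.span {π})]
    (n : Ideal B) [n.IsMaximal] (hπ : π ∈ n) : LocalGen π n := by
  have : IsDedekindDomain (B ⧸ Ideal.span {π}) :=
    { toIsDomain := inferInstance
      toIsDedekindRing := { } }
  exact localGen_of_isDedekindDomain π n hπ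

/-- **Theorem N ⟹ (N_n)**, with `dim ≤ 1` coming from an integral algebra structure over a ring of
dimension `≤ 1` (e.g. the PID `κ[X]`, acting through `X ↦ t̄`). -/
theorem localGen_of_isIntegral [IsNoetherianRing B] (π : B)
    [IsDomain (B ⧸ Ideal.span {π})] [IsIntegrallyClosed (B ⧸ Ideal.span {π})]
    (P : Type*) [CommRing P] [Nontrivial P] [Ring.DimensionLEOne P]
    [Algebra P (B ⧸ Ideal.span {π})] [Algebra.IsIntegral P (B ⧸ Ideal.span {π})]
    (n : Ideal B) [n.IsMaximal] (hπ : π ∈ n) : LocalGen π n := by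
  have : Ring.DimensionLEOne (B ⧸ Ideal.span {π}) :=
    Ring.DimensionLEOne.of_isIntegral P (B ⧸ Ideal.span {π})
  exact localGen_of_isIntegrallyClosed π n hπ

/-! ### The "image" form of Theorem N -/

section Range

variable {E : Type*} [Field E]

/-- The quotient `B/π` is a domain when `(π)` is the kernel of a ring hom to a field. -/
theorem isDomain_quotient_of_ker (π : B) (ρ : B →+* E) (hker : RingHom.ker ρ = Ideal.span {π}) :
    IsDomain (B ⧸ Ideal.span {π}) := by
  have : (Ideal.span {π}).IsPrime := hker ▸ RingHom.ker_isPrime ρ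
  exact Ideal.Quotient.isDomain _

/-- **Image form ⟹ quotient form.** If `ρ : B → E` (a field) has kernel `(π)` and every fraction
`ρ a / ρ b` which is integral over the image `ρ(B)` lies in `ρ(B)`, then `B/π` is integrally closed.
(In particular if `ρ(B)` is integrally closed in `E`.) -/
theorem isIntegrallyClosed_quotient_of_range (π : B) (ρ : B →+* E)
    (hker : RingHom.ker ρ = Ideal.span {π})
    (hN : ∀ a b : B, ρ b ≠ 0 → IsIntegral ρ.range (ρ a / ρ b) → ∃ c, ρ c = ρ a / ρ b) :
    @IsIntegrallyClosed (B ⧸ Ideal.span {π}) _ := by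
  have := isDomain_quotient_of_ker π ρ hker
  set Q := B ⧸ Ideal.span {π} with hQ
  -- the induced embedding `Q → E`
  let ρb : Q →+* E := Ideal.Quotient.lift (Ideal.span {π}) ρ (fun a ha => by
    rw [← hker] at ha; exact ha)
  have hρb : ∀ a, ρb (Ideal.Quotient.mk _ a) = ρ a := fun a => Ideal.Quotient.lift_mk _ _ _
  have hinj : Function.Injective ρb := by
    rw [injective_iff_map_eq_zero]
    intro q hq
    obtain ⟨a, rfl⟩ := Ideal.Quotient.mk_surjective q
    rw [hρb] at hq
    rw [Ideal.Quotient.eq_zero_iff_mem, ← hker]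
    exact hq
  let φ : FractionRing Q →+* E := IsFractionRing.lift hinj
  have hφ : ∀ q, φ (algebraMap Q (FractionRing Q) q) = ρb q := fun q =>
    IsFractionRing.lift_algebraMap hinj q
  rw [isIntegrallyClosed_iff (FractionRing Q)]
  intro x hx
  obtain ⟨qa, qb, hqb, rfl⟩ := IsFractionRing.div_surjective (A := Q) x
  obtain ⟨a, rfl⟩ := Ideal.Quotient.mk_surjective qa
  obtain ⟨b, rfl⟩ := Ideal.Quotient.mk_surjective qb
  have hb0 : ρ b ≠ 0 := by
    rw [← hρb]
    exact (map_ne_zero_iff ρb hinj).mpr (nonZeroDivisors.ne_zero hqb)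
  -- transport integrality to `E` over `ρ.range`
  let ψ : Q →+* ρ.range := ρb.codRestrict ρ.range (fun q => by
    obtain ⟨a, rfl⟩ := Ideal.Quotient.mk_surjective q
    rw [hρb]; exact ⟨a, rfl⟩)
  have hint : IsIntegral ρ.range (φ (algebraMap Q (FractionRing Q) (Ideal.Quotient.mk _ a) /
      algebraMap Q (FractionRing Q) (Ideal.Quotient.mk _ b))) := by
    refine IsIntegral.map_of_comp_eq ψ φ ?_ hx
    ext q
    simp only [RingHom.comp_apply]
    rw [hφ]
    rfl
  rw [map_div₀, hφ, hφ, hρb, hρb] at hint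
  obtain ⟨c, hc⟩ := hN a b hb0 hint
  refine ⟨Ideal.Quotient.mk _ c, ?_⟩
  apply φ.injective
  rw [hφ, hρb, hc, map_div₀, hφ, hφ, hρb, hρb]

/-- **Image form of Theorem N ⟹ (N_n)** at every maximal ideal containing `π`, with `dim ≤ 1`
coming from an integral algebra structure over a ring of dimension `≤ 1`. -/
theorem localGen_of_range [IsNoetherianRing B] (π : B) (ρ : B →+* E)
    (hker : RingHom.ker ρ = Ideal.span {π})
    (hN : ∀ a b : B, ρ b ≠ 0 → IsIntegral ρ.range (ρ a / ρ b) → ∃ c, ρ c = ρ a / ρ b)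
    (P : Type*) [CommRing P] [Nontrivial P] [Ring.DimensionLEOne P]
    [Algebra P (B ⧸ Ideal.span {π})] [Algebra.IsIntegral P (B ⧸ Ideal.span {π})]
    (n : Ideal B) [n.IsMaximal] (hπ : π ∈ n) : LocalGen π n := by
  have := isDomain_quotient_of_ker π ρ hker
  have := isIntegrallyClosed_quotient_of_range π ρ hker hN
  exact localGen_of_isIntegral π P n hπ

end Range

end Fermat.Agent.S18.Cusp.NormalBridge
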