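import Fermat.Agent.S18.Core.Charts
import Fermat.Agent.S18.Core.StarAbstract
import Fermat.Agent.S18.Cusp.NormalBridge
import Fermat.Agent.S18.Cusp.Glue

/-!
# S18, block CUSP (CU5, downstairs end): Theorem N in image form ⟹ `LocalOK` for the charts
-/

open Polynomial IntermediateField

namespace Fermat.Agent.S18.Cusp.ChartLocalOK

open Fermat.Agent.S18.Core.Charts Fermat.Agent.S18.Core

set_option linter.unusedSectionVars false
set_option linter.style.haveILetI false

variable {R L F : Type*} [CommRing R] [IsDomain R] [IsDiscreteValuationRing R]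
  [Field L] [Field F] [Algebra R L] [IsFractionRing R L] [Algebra L F] [Algebra R F]
  [IsScalarTower R L F] {π : R} {O : ValuationSubring F} {τ : F} {E : Type*} [Field E]

/-- `π` as an element of the chart `B0 R τ`. -/
noncomputable def piB0 (π : R) (τ : F) : ↥(B0 R τ) := ⟨algebraMap R F π, algebraMap_mem_B0 π⟩

/-- `τ` as an element of the chart `B0 R τ`. -/
noncomputable def tauB0 (R : Type*) [CommRing R] {F : Type*} [Field F] [Algebra R F] (τ : F) : ↥(B0 R τ) :=
  ⟨τ, tau_mem_B0⟩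

/-- the inclusion of the chart into the valuation ring -/
noncomputable def inclB0 (h : GoodCoord π O τ) : ↥(B0 R τ) →+* ↥O :=
  RingHom.codRestrict (B0 R τ).subtype O (fun x => B0_le h x.2)

/-- the residue map restricted to the chart `B0 R τ` -/
noncomputable def resB0 (h : GoodCoord π O τ) (ρ : ↥O →+* E) : ↥(B0 R τ) →+* E := ρ.comp (inclB0 h)

theorem resB0_apply (h : GoodCoord π O τ) (ρ : ↥O →+* E) (x : ↥(B0 R τ)) :
    resB0 h ρ x = ρ ⟨(x : F), B0_le h x.2⟩ := rfl

/-- the kernel of the residue map on the chart is `(π)` -/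
theorem ker_resB0 (h : GoodCoord π O τ) (K : IntermediateField L F) (hK : K = L⟮τ⟯)
    (halg : Algebra.IsAlgebraic K F)
    (huniq : ∀ O'' : ValuationSubring F,
      O''.comap (algebraMap K F) = O.comap (algebraMap K F) → O'' = O)
    (ρ : ↥O →+* E) (hρ : ∀ x : ↥O, ρ x = 0 ↔ O.valuation (x : F) < 1) :
    RingHom.ker (resB0 h ρ) = Ideal.span {piB0 π τ} := by
  ext x
  rw [RingHom.mem_ker, resB0_apply, hρ, Ideal.mem_span_singleton]
  constructor
  · intro hx
    obtain ⟨y, hyO, hy⟩ := h.exists_eq_mul _ hx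
    have hyB : y ∈ B0 R τ := sat_B0 h K hK halg huniq hyO (by rw [← hy]; exact x.2)
    exact ⟨⟨y, hyB⟩, Subtype.ext hy⟩
  · rintro ⟨y, rfl⟩
    exact h.lt_one_iff.mpr ⟨(y : F), B0_le h y.2, rfl⟩

/-- `R[X] → B0`, `X ↦ τ` -/
noncomputable def polyToB0 (R : Type*) [CommRing R] {F : Type*} [Field F] [Algebra R F] (τ : F) :
    R[X] →+* ↥(B0 R τ) :=
  RingHom.codRestrict ((aeval τ : R[X] →ₐ[R] F) : R[X] →+* F) (B0 R τ) (fun p => aeval_mem_B0 p)

/-- **Theorem N (image form) ⟹ (N_n)** at every maximal ideal of the chart `B0 R τ`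
containing `π`. -/
theorem localGen_B0 (h : GoodCoord π O τ) (K : IntermediateField L F) (hK : K = L⟮τ⟯)
    (halg : Algebra.IsAlgebraic K F)
    (huniq : ∀ O'' : ValuationSubring F,
      O''.comap (algebraMap K F) = O.comap (algebraMap K F) → O'' = O)
    [IsNoetherianRing ↥(B0 R τ)]
    (ρ : ↥O →+* E) (hρ : ∀ x : ↥O, ρ x = 0 ↔ O.valuation (x : F) < 1)
    (hN : ∀ a b : ↥(B0 R τ), resB0 h ρ b ≠ 0 →
      IsIntegral (resB0 h ρ).range (resB0 h ρ a / resB0 h ρ b) →
      ∃ c, resB0 h ρ c = resB0 h ρ a / resB0 h ρ b)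
    (n : Ideal ↥(B0 R τ)) [n.IsMaximal] (hπn : piB0 π τ ∈ n) :
    NormalBridge.LocalGen (piB0 π τ) n := by
  have hker := ker_resB0 h K hK halg huniq ρ hρ
  -- the residue field `κ = R/π`
  have hmax : (Ideal.span {π} : Ideal R).IsMaximal := by
    rw [← (IsDiscreteValuationRing.irreducible_iff_uniformizer π).mp h.irreducible]
    exact IsLocalRing.maximalIdeal.isMaximal R
  letI : Field (R ⧸ Ideal.span {π}) := Ideal.Quotient.field _
  -- `κ[X] → B0/π`
  let Q := ↥(B0 R τ) ⧸ Ideal.span {piB0 π τ}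
  let mkQ : ↥(B0 R τ) →+* Q := Ideal.Quotient.mk _
  let g0 : R →+* Q := mkQ.comp (RingHom.codRestrict (algebraMap R F) (B0 R τ)
    (fun r => algebraMap_mem_B0 r))
  have hg0 : ∀ a ∈ Ideal.span {π}, g0 a = 0 := by
    intro a ha
    obtain ⟨b, rfl⟩ := Ideal.mem_span_singleton.mp ha
    change mkQ _ = 0
    rw [Ideal.Quotient.eq_zero_iff_mem, Ideal.mem_span_singleton]
    exact ⟨⟨algebraMap R F b, algebraMap_mem_B0 b⟩, Subtype.ext (map_mul _ _ _)⟩
  let g : (R ⧸ Ideal.span {π}) →+* Q := Ideal.Quotient.lift _ g0 hg0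
  let φ : (R ⧸ Ideal.span {π})[X] →+* Q := Polynomial.eval₂RingHom g (mkQ (tauB0 R τ))
  letI : Algebra (R ⧸ Ideal.span {π})[X] Q := φ.toAlgebra
  let μ : R[X] →+* (R ⧸ Ideal.span {π})[X] := Polynomial.mapRingHom (Ideal.Quotient.mk _)
  have hcomp : φ.comp μ = mkQ.comp (polyToB0 R τ) := by
    refine Polynomial.ringHom_ext (fun r => ?_) ?_
    · change φ (Polynomial.map _ (C r)) = mkQ (polyToB0 R τ (C r))
      rw [Polynomial.map_C]
      change Polynomial.eval₂ g _ (C _) = _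
      rw [Polynomial.eval₂_C]
      change g0 r = _
      change mkQ _ = mkQ _
      congr 1
      apply Subtype.ext
      change algebraMap R F r = aeval τ (C r)
      rw [aeval_C]
    · change φ (Polynomial.map _ X) = mkQ (polyToB0 R τ X)
      rw [Polynomial.map_X]
      change Polynomial.eval₂ g _ X = _
      rw [Polynomial.eval₂_X]
      congr 1
      apply Subtype.ext
      change τ = aeval τ X
      rw [aeval_X]
  haveI : Algebra.IsIntegral (R ⧸ Ideal.span {π})[X] Q := by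
    refine ⟨fun z => ?_⟩
    obtain ⟨b, rfl⟩ := Ideal.Quotient.mk_surjective z
    obtain ⟨q, hq, hqb⟩ := (isIntegral_adjoin_iff τ (b : F)).mp (mem_B0.mp b.2)
    have hqB : Polynomial.eval₂ (polyToB0 R τ) b q = 0 := by
      apply Subtype.ext
      have := Polynomial.hom_eval₂ q (polyToB0 R τ) (B0 R τ).subtype b
      rw [Subring.coe_subtype] at this
      rw [this]
      exact hqb
    refine ⟨q.map μ, hq.map μ, ?_⟩
    change Polynomial.eval₂ φ (mkQ b) (q.map μ) = 0
    rw [Polynomial.eval₂_map, hcomp, ← Polynomial.hom_eval₂, hqB, map_zero]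
  exact NormalBridge.localGen_of_range (piB0 π τ) (resB0 h ρ) hker hN
    (R ⧸ Ideal.span {π})[X] n hπn

/-- **Theorem N (image form) ⟹ `LocalOK`** for the chart `B0 R τ`: the right disjunct holds at
every maximal ideal containing `π`, for every `f`. -/
theorem localOK_B0 (h : GoodCoord π O τ) (K : IntermediateField L F) (hK : K = L⟮τ⟯)
    (halg : Algebra.IsAlgebraic K F)
    (huniq : ∀ O'' : ValuationSubring F,
      O''.comap (algebraMap K F) = O.comap (algebraMap K F) → O'' = O)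
    [IsNoetherianRing ↥(B0 R τ)]
    (ρ : ↥O →+* E) (hρ : ∀ x : ↥O, ρ x = 0 ↔ O.valuation (x : F) < 1)
    (hN : ∀ a b : ↥(B0 R τ), resB0 h ρ b ≠ 0 →
      IsIntegral (resB0 h ρ).range (resB0 h ρ a / resB0 h ρ b) →
      ∃ c, resB0 h ρ c = resB0 h ρ a / resB0 h ρ b)
    (f : F) :
    StarAbstract.LocalOK (B0 R τ) ⟨algebraMap R F π, algebraMap_mem_B0 π⟩ f := by
  intro n hn hπn
  haveI := hn
  exact Or.inr (localGen_B0 h K hK halg huniq ρ hρ hN n hπn)

/-- the residue map restricted to the chart `B1 R τ = B0 R τ⁻¹` -/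
noncomputable def resB1 (h : GoodCoord π O τ) (ρ : ↥O →+* E) : ↥(B1 R τ) →+* E :=
  resB0 h.inv ρ

theorem resB1_apply (h : GoodCoord π O τ) (ρ : ↥O →+* E) (x : ↥(B1 R τ)) :
    resB1 h ρ x = ρ ⟨(x : F), B1_le h x.2⟩ := rfl

/-- the kernel of the residue map on the chart `B1 R τ` is `(π)` -/
theorem ker_resB1 (h : GoodCoord π O τ) (K : IntermediateField L F) (hK : K = L⟮τ⟯)
    (halg : Algebra.IsAlgebraic K F)
    (huniq : ∀ O'' : ValuationSubring F,
      O''.comap (algebraMap K F) = O.comap (algebraMap K F) → O'' = O)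
    (ρ : ↥O →+* E) (hρ : ∀ x : ↥O, ρ x = 0 ↔ O.valuation (x : F) < 1) :
    RingHom.ker (resB1 h ρ) =
      Ideal.span {(⟨algebraMap R F π, algebraMap_mem_B0 π⟩ : ↥(B1 R τ))} :=
  ker_resB0 h.inv K (hK.trans (adjoin_simple_inv τ).symm) halg huniq ρ hρ

/-- **Theorem N (image form) ⟹ (N_n)** at every maximal ideal of the chart `B1 R τ`
containing `π`. -/
theorem localGen_B1 (h : GoodCoord π O τ) (K : IntermediateField L F) (hK : K = L⟮τ⟯)
    (halg : Algebra.IsAlgebraic K F)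
    (huniq : ∀ O'' : ValuationSubring F,
      O''.comap (algebraMap K F) = O.comap (algebraMap K F) → O'' = O)
    [hnoeth : IsNoetherianRing ↥(B1 R τ)]
    (ρ : ↥O →+* E) (hρ : ∀ x : ↥O, ρ x = 0 ↔ O.valuation (x : F) < 1)
    (hN : ∀ a b : ↥(B1 R τ), resB1 h ρ b ≠ 0 →
      IsIntegral (resB1 h ρ).range (resB1 h ρ a / resB1 h ρ b) →
      ∃ c, resB1 h ρ c = resB1 h ρ a / resB1 h ρ b)
    (n : Ideal ↥(B1 R τ)) [hn : n.IsMaximal]
    (hπn : (⟨algebraMap R F π, algebraMap_mem_B0 π⟩ : ↥(B1 R τ)) ∈ n) :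
    NormalBridge.LocalGen (⟨algebraMap R F π, algebraMap_mem_B0 π⟩ : ↥(B1 R τ)) n := by
  haveI : IsNoetherianRing ↥(B0 R τ⁻¹) := hnoeth
  exact @localGen_B0 _ _ _ _ _ _ _ _ _ _ _ _ _ _ _ _ _ _ h.inv K
    (hK.trans (adjoin_simple_inv τ).symm) halg huniq _ ρ hρ hN n hn hπn

/-- **Theorem N (image form) ⟹ `LocalOK`** for the chart `B1 R τ`. -/
theorem localOK_B1 (h : GoodCoord π O τ) (K : IntermediateField L F) (hK : K = L⟮τ⟯)
    (halg : Algebra.IsAlgebraic K F)
    (huniq : ∀ O'' : ValuationSubring F,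
      O''.comap (algebraMap K F) = O.comap (algebraMap K F) → O'' = O)
    [hnoeth : IsNoetherianRing ↥(B1 R τ)]
    (ρ : ↥O →+* E) (hρ : ∀ x : ↥O, ρ x = 0 ↔ O.valuation (x : F) < 1)
    (hN : ∀ a b : ↥(B1 R τ), resB1 h ρ b ≠ 0 →
      IsIntegral (resB1 h ρ).range (resB1 h ρ a / resB1 h ρ b) →
      ∃ c, resB1 h ρ c = resB1 h ρ a / resB1 h ρ b)
    (f : F) :
    StarAbstract.LocalOK (B1 R τ) ⟨algebraMap R F π, algebraMap_mem_B0 π⟩ f := by
  haveI : IsNoetherianRing ↥(B0 R τ⁻¹) := hnoeth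
  exact localOK_B0 h.inv K (hK.trans (adjoin_simple_inv τ).symm) halg huniq ρ hρ hN f

/-! ### The cover form of the hypothesis `hN` -/

section Cover

variable {B : Type*} [CommRing B]

/-- **Cover form of Theorem N** (abstract): if the images of finitely many `g i` generate the
unit ideal of the image ring `r.range` and, for each `i`, a power of `r (g i)` multiplies every
element of `E` integral over `r.range` into `r.range`, then `r.range` is integrally closed
in `E` (in the quotient form used by `NormalBridge.localGen_of_range`). -/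
theorem hN_of_cover (r : B →+* E) {ι : Type*} (g : ι → B)
    (hg : Ideal.span (Set.range fun i => r.rangeRestrict (g i)) = ⊤)
    (hloc : ∀ i, ∀ z : E, IsIntegral r.range z → ∃ (k : ℕ) (b : B), r (g i) ^ k * z = r b) :
    ∀ a b : B, r b ≠ 0 → IsIntegral r.range (r a / r b) → ∃ c, r c = r a / r b := by
  intro a b _ hint
  have := Glue.mem_range_of_isIntegral_of_cover (D := r.range) (E := E)
    (fun i => r.rangeRestrict (g i)) hg
    (fun i z hz => by
      obtain ⟨k, b, hb⟩ := hloc i z hz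
      exact ⟨k, r.rangeRestrict b, hb⟩) (r a / r b) hint
  obtain ⟨⟨_, c, rfl⟩, hc⟩ := this
  exact ⟨c, hc⟩

/-- The cover condition from a partition of unity modulo `ker r`. -/
theorem span_rangeRestrict_eq_top (r : B →+* E) {ι : Type*} (g : ι → B) (s : Finset ι)
    (c : ι → B) (hc : r (∑ i ∈ s, c i * g i) = 1) :
    Ideal.span (Set.range fun i => r.rangeRestrict (g i)) = ⊤ := by
  rw [Ideal.eq_top_iff_one]
  have h1 : (1 : r.range) = ∑ i ∈ s, r.rangeRestrict (c i) * r.rangeRestrict (g i) := by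
    have h2 : r.rangeRestrict (∑ i ∈ s, c i * g i) = 1 := Subtype.ext hc
    rw [← h2, map_sum]
    exact Finset.sum_congr rfl fun i _ => map_mul _ _ _
  rw [h1]
  exact Ideal.sum_mem _ fun i _ => Ideal.mul_mem_left _ _ (Ideal.subset_span ⟨i, rfl⟩)

/-- The cover condition from a cover of `B` itself. -/
theorem span_rangeRestrict_eq_top_of_span (r : B →+* E) {ι : Type*} (g : ι → B)
    (hg : Ideal.span (Set.range g) = ⊤) :
    Ideal.span (Set.range fun i => r.rangeRestrict (g i)) = ⊤ :=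
  Glue.span_image_eq_top r.rangeRestrict g hg

end Cover

/-- **Cover form ⟹ `LocalOK`** for the chart `B0 R τ`. -/
theorem localOK_B0_of_cover (h : GoodCoord π O τ) (K : IntermediateField L F) (hK : K = L⟮τ⟯)
    (halg : Algebra.IsAlgebraic K F)
    (huniq : ∀ O'' : ValuationSubring F,
      O''.comap (algebraMap K F) = O.comap (algebraMap K F) → O'' = O)
    [IsNoetherianRing ↥(B0 R τ)]
    (ρ : ↥O →+* E) (hρ : ∀ x : ↥O, ρ x = 0 ↔ O.valuation (x : F) < 1)
    {ι : Type*} (g : ι → ↥(B0 R τ))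
    (hg : Ideal.span (Set.range fun i => (resB0 h ρ).rangeRestrict (g i)) = ⊤)
    (hloc : ∀ i, ∀ z : E, IsIntegral (resB0 h ρ).range z →
      ∃ (k : ℕ) (b : ↥(B0 R τ)), resB0 h ρ (g i) ^ k * z = resB0 h ρ b)
    (f : F) :
    StarAbstract.LocalOK (B0 R τ) ⟨algebraMap R F π, algebraMap_mem_B0 π⟩ f :=
  localOK_B0 h K hK halg huniq ρ hρ (hN_of_cover (resB0 h ρ) g hg hloc) f

/-- **Cover form ⟹ `LocalOK`** for the chart `B1 R τ`. -/
theorem localOK_B1_of_cover (h : GoodCoord π O τ) (K : IntermediateField L F) (hK : K = L⟮τ⟯)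
    (halg : Algebra.IsAlgebraic K F)
    (huniq : ∀ O'' : ValuationSubring F,
      O''.comap (algebraMap K F) = O.comap (algebraMap K F) → O'' = O)
    [IsNoetherianRing ↥(B1 R τ)]
    (ρ : ↥O →+* E) (hρ : ∀ x : ↥O, ρ x = 0 ↔ O.valuation (x : F) < 1)
    {ι : Type*} (g : ι → ↥(B1 R τ))
    (hg : Ideal.span (Set.range fun i => (resB1 h ρ).rangeRestrict (g i)) = ⊤)
    (hloc : ∀ i, ∀ z : E, IsIntegral (resB1 h ρ).range z →
      ∃ (k : ℕ) (b : ↥(B1 R τ)), resB1 h ρ (g i) ^ k * z = resB1 h ρ b)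
    (f : F) :
    StarAbstract.LocalOK (B1 R τ) ⟨algebraMap R F π, algebraMap_mem_B0 π⟩ f :=
  localOK_B1 h K hK halg huniq ρ hρ (hN_of_cover (resB1 h ρ) g hg hloc) f

end Fermat.Agent.S18.Cusp.ChartLocalOK
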