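/-
S18 (project G), block CUSP, leaf CU5-mid (helper9): **abstract assembly of THEOREM N at the cusp
values** (helper27's pipeline #1149 (2)).

(A) `hloc_of_kummer`: from the normality of the reduced Kummer chart upstairs away from `c'`
(the 4th conjunct of `Purity.ChartNormal.chart_package` at `(F', s, O', ρ', c')`, verbatim) and the
degree-0 projection `pr : F' → F'` (hypotheses as in `Cusp/Descent0`), to the hypothesis `hloc` of
`Cusp/ChartLocalOK.localOK_B0_of_cover` for the cover element `g = G(τ)` downstairs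
(`c'(s) = G(τ)`, `τ = P(s)` with `P` monic, e.g. `P = X ^ e + C a`).

(B) `hloc_B1_tau_inv`: the chart `{τ ≠ 0}`: if the image of `B0 = B^τ` is integrally closed in `E`,
then the image of `B1 = B^{1/τ}` is integrally closed away from `ū = τ̄⁻¹` (cover element `u = 1/τ`).

`mem_range_of_cover`: the full form of `ChartLocalOK.hN_of_cover` (every `z : E`, not only the
fractions), which produces the hypothesis `hN0` of (B) from the `hloc`'s of the chart `B0`.

Bridging lemmas between "integral over the image of the chart" and "integral over `κ[τ̄]`":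
`isIntegral_adjoin_of_isIntegral_range`, `isIntegral_range_of_isIntegral_adjoin`, `red_isIntegral`,
`isIntegral_adjoin_map`, `isIntegral_of_map` (descent of integrality along `τ = P(s)`).
-/
import Mathlib
import Fermat.Agent.S18.Core.Charts
import Fermat.Agent.S18.Purity.Chart
import Fermat.Agent.S18.Cusp.Glue
import Fermat.Agent.S18.Cusp.ChartLocalOK

set_option autoImplicit false
set_option linter.unusedSectionVars false
set_option linter.unusedVariables false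

namespace Fermat.Agent.S18.Cusp.TheoremN

open Polynomial
open Fermat.Agent.S18.Core.Charts Fermat.Agent.S18.Cusp.ChartLocalOK
open Fermat.Agent.S18.Purity.Chart (Bt)

/-! ### generic integrality tools -/

section Tools

/-- transitivity of integrality, containment form -/
theorem isIntegral_of_forall_isIntegral {A S E : Type*} [CommRing A] [CommRing S] [CommRing E]
    [Algebra A E] [Algebra S E] (hS : ∀ a : S, IsIntegral A (algebraMap S E a)) {x : E}
    (hx : IsIntegral S x) : IsIntegral A x := by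
  obtain ⟨p, hp, hpx⟩ := hx
  let IC : Subalgebra A E := integralClosure A E
  let j : S →+* IC := RingHom.codRestrict (algebraMap S E) IC hS
  have hxIC : IsIntegral IC x := by
    refine ⟨p.map j, hp.map j, ?_⟩
    rw [eval₂_map]
    have hcomp : (algebraMap IC E).comp j = algebraMap S E := by
      ext y; rfl
    rw [hcomp]; exact hpx
  obtain ⟨y, hy⟩ := IsIntegrallyClosedIn.isIntegral_iff.mp hxIC
  rw [← hy]
  exact y.2

variable {R F E κ : Type*} [CommRing R] [Field F] [Algebra R F] [Field E] [CommRing κ]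
  [Algebra κ E]

/-- the two ring homs `R[X] → E` agree: `ρ ∘ (p ↦ p(τ)) = (p̄ ↦ p̄(τ̄)) ∘ (reduction)`. -/
theorem red_aeval (f : R →+* κ) (O : ValuationSubring F) (ρ : O →+* E)
    (hRO : ∀ r : R, algebraMap R F r ∈ O)
    (hρR : ∀ r : R, ρ ⟨algebraMap R F r, hRO r⟩ = algebraMap κ E (f r))
    (τ : F) (hτO : τ ∈ O) (p : R[X]) (hp : aeval τ p ∈ O) :
    ρ ⟨aeval τ p, hp⟩ = aeval (ρ ⟨τ, hτO⟩) (p.map f) := by
  let φO : R[X] →+* O :=
    RingHom.codRestrict ((aeval τ : R[X] →ₐ[R] F) : R[X] →+* F) O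
      (fun p => Fermat.Agent.S18.Purity.Chart.aeval_mem_O τ O hRO hτO p)
  have h1 : ρ.comp φO =
      ((aeval (ρ ⟨τ, hτO⟩) : κ[X] →ₐ[κ] E) : κ[X] →+* E).comp (mapRingHom f) := by
    apply Polynomial.ringHom_ext
    · intro r
      show ρ (φO (C r)) = aeval (ρ ⟨τ, hτO⟩) ((C r).map f)
      rw [map_C, aeval_C, ← hρR r]
      congr 1
      apply Subtype.ext
      show aeval τ (C r) = algebraMap R F r
      rw [aeval_C]
    · show ρ (φO X) = aeval (ρ ⟨τ, hτO⟩) ((X : R[X]).map f)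
      rw [map_X, aeval_X]
      congr 1
      apply Subtype.ext
      show aeval τ (X : R[X]) = τ
      rw [aeval_X]
  have h2 := congrArg (fun g : R[X] →+* E => g p) h1
  exact h2

/-- **reduction of integrality**: `b` integral over `R[τ]` ⟹ `b̄` integral over `κ[τ̄]`. -/
theorem red_isIntegral (f : R →+* κ) (O : ValuationSubring F) (ρ : O →+* E)
    (hRO : ∀ r : R, algebraMap R F r ∈ O)
    (hρR : ∀ r : R, ρ ⟨algebraMap R F r, hRO r⟩ = algebraMap κ E (f r))
    (τ : F) (hτO : τ ∈ O) (b : F) (hbO : b ∈ O) (hb : IsIntegral (Algebra.adjoin R {τ}) b) :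
    IsIntegral (Algebra.adjoin κ {ρ ⟨τ, hτO⟩}) (ρ ⟨b, hbO⟩) := by
  rw [isIntegral_adjoin_iff] at hb ⊢
  obtain ⟨q, hq, hqb⟩ := hb
  let φO : R[X] →+* O :=
    RingHom.codRestrict ((aeval τ : R[X] →ₐ[R] F) : R[X] →+* F) O
      (fun p => Fermat.Agent.S18.Purity.Chart.aeval_mem_O τ O hRO hτO p)
  have h0 : eval₂ φO (⟨b, hbO⟩ : O) q = 0 := by
    apply Subtype.ext
    have := Polynomial.hom_eval₂ q φO O.subtype (⟨b, hbO⟩ : O)
    rw [show (O.subtype (eval₂ φO (⟨b, hbO⟩ : O) q) : F) = ((eval₂ φO (⟨b, hbO⟩ : O) q : O) : F)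
      from rfl] at this
    rw [this]
    exact hqb
  have h1 : ρ.comp φO =
      ((aeval (ρ ⟨τ, hτO⟩) : κ[X] →ₐ[κ] E) : κ[X] →+* E).comp (mapRingHom f) := by
    apply RingHom.ext
    intro p
    exact red_aeval f O ρ hRO hρR τ hτO p _
  refine ⟨q.map (mapRingHom f), hq.map _, ?_⟩
  rw [eval₂_map, ← h1, ← Polynomial.hom_eval₂, h0, map_zero]

/-- `ιE` maps `κ[t̄]`-integral elements to `κ[s̄]`-integral elements when `ιE t̄ = P̄(s̄)`. -/
theorem isIntegral_adjoin_map {E' : Type*} [Field E'] [Algebra κ E'] (ιE : E →+* E')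
    (hιE : ∀ x : κ, ιE (algebraMap κ E x) = algebraMap κ E' x)
    (tb : E) (sb : E') (Pb : κ[X]) (hPb : ιE tb = aeval sb Pb) {z : E}
    (hz : IsIntegral (Algebra.adjoin κ {tb}) z) :
    IsIntegral (Algebra.adjoin κ {sb}) (ιE z) := by
  rw [isIntegral_adjoin_iff] at hz ⊢
  obtain ⟨q, hq, hqz⟩ := hz
  have h1 : ιE.comp ((aeval tb : κ[X] →ₐ[κ] E) : κ[X] →+* E) =
      ((aeval sb : κ[X] →ₐ[κ] E') : κ[X] →+* E').comp (compRingHom Pb) := by
    apply Polynomial.ringHom_ext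
    · intro r
      show ιE (aeval tb (C r)) = aeval sb ((C r).comp Pb)
      rw [aeval_C, C_comp, aeval_C, hιE]
    · show ιE (aeval tb X) = aeval sb ((X : κ[X]).comp Pb)
      rw [aeval_X, X_comp, hPb]
  refine ⟨q.map (compRingHom Pb), hq.map _, ?_⟩
  rw [eval₂_map, ← h1, ← Polynomial.hom_eval₂, hqz, map_zero]

/-- **descent of integrality along `τ = P(s)`** (`P` monic, nonconstant): if `ι b` is integral
over `R[s]` then `b` is integral over `R[τ]`. -/
theorem isIntegral_of_map {F' : Type*} [Field F'] [Algebra R F'] (ι : F →+* F')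
    (hιR : ∀ r : R, ι (algebraMap R F r) = algebraMap R F' r)
    (τ : F) (s : F') (P : R[X]) (hP : P.Monic) (hP0 : P.natDegree ≠ 0) (hPs : ι τ = aeval s P)
    {b : F} (hb : IsIntegral (Algebra.adjoin R {s}) (ι b)) :
    IsIntegral (Algebra.adjoin R {τ}) b := by
  set A0 : Subalgebra R F' := Algebra.adjoin R {ι τ} with hA0
  -- `s` is integral over `A0 = R[P(s)]`
  have hτA0 : ι τ ∈ A0 := Algebra.subset_adjoin (Set.mem_singleton _)
  have hs : IsIntegral A0 s := by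
    have hm : (P.map (algebraMap R A0)).Monic := hP.map _
    have hnd : (P.map (algebraMap R A0)).natDegree = P.natDegree := hP.natDegree_map _
    have hdeg : (C (⟨ι τ, hτA0⟩ : A0)).degree < (P.map (algebraMap R A0)).degree := by
      apply lt_of_le_of_lt degree_C_le
      rw [degree_eq_natDegree hm.ne_zero, hnd]
      exact_mod_cast Nat.pos_of_ne_zero hP0
    refine ⟨P.map (algebraMap R A0) - C ⟨ι τ, hτA0⟩, hm.sub_of_left hdeg, ?_⟩
    rw [eval₂_sub, eval₂_C, eval₂_map, ← IsScalarTower.algebraMap_eq R A0 F', ← aeval_def, ← hPs]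
    exact sub_self _
  -- every element of `R[s]` is integral over `A0`
  have hA1int : ∀ y : Algebra.adjoin R {s}, IsIntegral A0 (algebraMap (Algebra.adjoin R {s}) F' y) := by
    rintro ⟨y, hy⟩
    show IsIntegral A0 y
    induction hy using Algebra.adjoin_induction with
    | mem z hz =>
      rw [Set.mem_singleton_iff] at hz; rw [hz]; exact hs
    | algebraMap r =>
      have : algebraMap R F' r = algebraMap A0 F' (algebraMap R A0 r) := rfl
      rw [this]
      exact isIntegral_algebraMap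
    | add a b _ _ ha hb => exact ha.add hb
    | mul a b _ _ ha hb => exact ha.mul hb
  have hb0 : IsIntegral A0 (ι b) := isIntegral_of_forall_isIntegral hA1int hb
  rw [isIntegral_adjoin_iff]
  obtain ⟨q, hq, hqb⟩ := (isIntegral_adjoin_iff (S := R) (ι τ) (ι b)).mp hb0
  have h1 : ((aeval (ι τ) : R[X] →ₐ[R] F') : R[X] →+* F') =
      ι.comp ((aeval τ : R[X] →ₐ[R] F) : R[X] →+* F) := by
    apply Polynomial.ringHom_ext
    · intro r
      show aeval (ι τ) (C r) = ι (aeval τ (C r))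
      rw [aeval_C, aeval_C, hιR]
    · show aeval (ι τ) (X : R[X]) = ι (aeval τ (X : R[X]))
      rw [aeval_X, aeval_X]
  refine ⟨q, hq, ?_⟩
  apply ι.injective
  rw [Polynomial.hom_eval₂, ← h1, hqb, map_zero]

end Tools

/-! ### the full cover form -/

section Cover

variable {B E : Type*} [CommRing B] [Field E]

/-- **Cover form of Theorem N, all of `E`**: under the hypotheses of `ChartLocalOK.hN_of_cover`,
EVERY `z : E` integral over `r.range` lies in `r.range`. -/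
theorem mem_range_of_cover (r : B →+* E) {ι : Type*} (g : ι → B)
    (hg : Ideal.span (Set.range fun i => r.rangeRestrict (g i)) = ⊤)
    (hloc : ∀ i, ∀ z : E, IsIntegral r.range z → ∃ (k : ℕ) (b : B), r (g i) ^ k * z = r b)
    (z : E) (hz : IsIntegral r.range z) : ∃ b : B, r b = z := by
  have := Glue.mem_range_of_isIntegral_of_cover (D := r.range) (E := E)
    (fun i => r.rangeRestrict (g i)) hg
    (fun i z hz => by
      obtain ⟨k, b, hb⟩ := hloc i z hz
      exact ⟨k, r.rangeRestrict b, hb⟩) z hz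
  obtain ⟨⟨_, c, rfl⟩, hc⟩ := this
  exact ⟨c, hc⟩

end Cover

/-! ### the charts -/

section Charts

variable {R L F : Type*} [CommRing R] [IsDomain R] [IsDiscreteValuationRing R]
  [Field L] [Field F] [Algebra R L] [IsFractionRing R L] [Algebra L F] [Algebra R F]
  [IsScalarTower R L F] {π : R} {O : ValuationSubring F} {τ : F} {E : Type*} [Field E]
  [Algebra (IsLocalRing.ResidueField R) E]

local notation "κ" => IsLocalRing.ResidueField R

/-- **(L1)** integral over the image of the chart `B0` ⟹ integral over `κ[τ̄]`. -/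
theorem isIntegral_adjoin_of_isIntegral_range (h : GoodCoord π O τ) (ρ : O →+* E)
    (hρR : ∀ r : R, ρ ⟨algebraMap R F r, h.algebraMap_mem r⟩ =
      algebraMap κ E (IsLocalRing.residue R r))
    {z : E} (hz : IsIntegral (resB0 h ρ).range z) :
    IsIntegral (Algebra.adjoin κ {ρ ⟨τ, h.tau_mem⟩}) z := by
  refine isIntegral_of_forall_isIntegral ?_ hz
  rintro ⟨_, b, rfl⟩
  show IsIntegral _ (resB0 h ρ b)
  rw [resB0_apply]
  exact red_isIntegral (IsLocalRing.residue R) O ρ h.algebraMap_mem hρR τ h.tau_mem (b : F)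
    (B0_le h b.2) (mem_B0.mp b.2)

/-- **(L1')** integral over `κ[τ̄]` ⟹ integral over the image of the chart `B0`. -/
theorem isIntegral_range_of_isIntegral_adjoin (h : GoodCoord π O τ) (ρ : O →+* E)
    (hρR : ∀ r : R, ρ ⟨algebraMap R F r, h.algebraMap_mem r⟩ =
      algebraMap κ E (IsLocalRing.residue R r))
    {z : E} (hz : IsIntegral (Algebra.adjoin κ {ρ ⟨τ, h.tau_mem⟩}) z) :
    IsIntegral (resB0 h ρ).range z := by
  obtain ⟨p, hp, hpz⟩ := hz
  have hle : ∀ a : Algebra.adjoin κ {ρ ⟨τ, h.tau_mem⟩}, (a : E) ∈ (resB0 h ρ).range := by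
    rintro ⟨a, ha⟩
    rw [Algebra.adjoin_singleton_eq_range_aeval] at ha
    obtain ⟨pb, rfl⟩ := ha
    obtain ⟨q, rfl⟩ := Polynomial.map_surjective (IsLocalRing.residue R)
      IsLocalRing.residue_surjective pb
    refine ⟨⟨aeval τ q, aeval_mem_B0 q⟩, ?_⟩
    rw [resB0_apply]
    exact red_aeval (IsLocalRing.residue R) O ρ h.algebraMap_mem hρR τ h.tau_mem q _
  let g : Algebra.adjoin κ {ρ ⟨τ, h.tau_mem⟩} →+* (resB0 h ρ).range :=
    RingHom.codRestrict (algebraMap (Algebra.adjoin κ {ρ ⟨τ, h.tau_mem⟩}) E) (resB0 h ρ).range hle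
  refine ⟨p.map g, hp.map g, ?_⟩
  rw [eval₂_map]
  exact hpz

/-- **(A) THEOREM N at a cusp value, descent from the Kummer cover.**
`hup` is the 4th conjunct of `Purity.ChartNormal.chart_package` at `(F', s, O', ρ', E', c')`,
verbatim; `pr` the degree-0 projection (hypotheses as in `Descent0`); `ι τ = P(s)` with `P` monic
nonconstant (`P = X ^ e + C a`); `c'(s) = ι (G(τ))`.  Conclusion: the hypothesis `hloc` of
`ChartLocalOK.localOK_B0_of_cover` for the cover element `g := ⟨G(τ), _⟩` (uniform exponent). -/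
theorem hloc_of_kummer (h : GoodCoord π O τ) (ρ : O →+* E) (hρsurj : Function.Surjective ρ)
    (hρR : ∀ r : R, ρ ⟨algebraMap R F r, h.algebraMap_mem r⟩ =
      algebraMap κ E (IsLocalRing.residue R r))
    {F' E' : Type*} [Field F'] [Field E'] [Algebra R F'] [Algebra κ E']
    (ι : F →+* F') (hιR : ∀ r : R, ι (algebraMap R F r) = algebraMap R F' r)
    (ιE : E →+* E') (hιE : ∀ x : κ, ιE (algebraMap κ E x) = algebraMap κ E' x)
    (O' : ValuationSubring F') (ρ' : O' →+* E')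
    (hιO : ∀ x : F, x ∈ O → ι x ∈ O')
    (hρ : ∀ (x : F) (hx : x ∈ O), ρ' ⟨ι x, hιO x hx⟩ = ιE (ρ ⟨x, hx⟩))
    (s : F') (hsO : s ∈ O') (P : R[X]) (hP : P.Monic) (hP0 : P.natDegree ≠ 0)
    (hPs : ι τ = aeval s P)
    (pr : F' →+ F')
    (hprF : ∀ y : F', IsIntegral (Algebra.adjoin R {s}) y → ∃ x : F, ι x = pr y)
    (hprB : ∀ y : F', IsIntegral (Algebra.adjoin R {s}) y →
      IsIntegral (Algebra.adjoin R {s}) (pr y))
    (hpr_id : ∀ x : F, pr (ι x) = ι x)
    (hred : ∀ (z : F') (hz : z ∈ O'), ρ' ⟨z, hz⟩ = 0 → ∃ hz' : pr z ∈ O', ρ' ⟨pr z, hz'⟩ = 0)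
    (c' G : R[X]) (hc : aeval s c' = ι (aeval τ G)) (hcO : aeval s c' ∈ O')
    (k : ℕ)
    (hup : ∀ z' : E', IsIntegral (Algebra.adjoin κ {ρ' ⟨s, hsO⟩}) z' →
      ∃ (y : Bt R s) (hy : (y : F') ∈ O'), ρ' ⟨aeval s c', hcO⟩ ^ k * z' = ρ' ⟨(y : F'), hy⟩)
    (z : E) (hz : IsIntegral (resB0 h ρ).range z) :
    ∃ b : ↥(B0 R τ), resB0 h ρ ⟨aeval τ G, aeval_mem_B0 G⟩ ^ k * z = resB0 h ρ b := by
  have hRO' : ∀ r : R, algebraMap R F' r ∈ O' := fun r => by
    rw [← hιR r]; exact hιO _ (h.algebraMap_mem r)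
  -- `Bt R s ⊆ O'`
  have hBtO : ∀ y : F', IsIntegral (Algebra.adjoin R {s}) y → y ∈ O' := fun y hy => by
    refine mem_of_isIntegral_of_le O' (fun a ha => ?_) hy
    induction ha using Algebra.adjoin_induction with
    | mem w hw => rw [Set.mem_singleton_iff] at hw; rw [hw]; exact hsO
    | algebraMap r => exact hRO' r
    | add a b _ _ ha hb => exact O'.add_mem _ _ ha hb
    | mul a b _ _ ha hb => exact O'.mul_mem _ _ ha hb
  -- `ιE z` is integral over `κ[s̄]`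
  have hz1 : IsIntegral (Algebra.adjoin κ {ρ ⟨τ, h.tau_mem⟩}) z :=
    isIntegral_adjoin_of_isIntegral_range h ρ hρR hz
  have hτ' : ιE (ρ ⟨τ, h.tau_mem⟩) =
      aeval (ρ' ⟨s, hsO⟩) (P.map (IsLocalRing.residue R)) := by
    rw [← hρ τ h.tau_mem]
    have hPO : aeval s P ∈ O' := Fermat.Agent.S18.Purity.Chart.aeval_mem_O s O' hRO' hsO P
    have h1 : (⟨ι τ, hιO τ h.tau_mem⟩ : O') = ⟨aeval s P, hPO⟩ := Subtype.ext hPs
    rw [h1]
    refine red_aeval (IsLocalRing.residue R) O' ρ' hRO' (fun r => ?_) s hsO P hPO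
    have h2 : (⟨algebraMap R F' r, hRO' r⟩ : O') =
        ⟨ι (algebraMap R F r), hιO _ (h.algebraMap_mem r)⟩ := Subtype.ext (hιR r).symm
    rw [h2, hρ _ (h.algebraMap_mem r), hρR r, hιE]
  have hz2 : IsIntegral (Algebra.adjoin κ {ρ' ⟨s, hsO⟩}) (ιE z) :=
    isIntegral_adjoin_map ιE hιE _ _ _ hτ' hz1
  obtain ⟨y, hyO, hy⟩ := hup (ιE z) hz2
  -- the cover element downstairs
  have hGO : aeval τ G ∈ O := B0_le h (aeval_mem_B0 G)
  have hcc : ρ' ⟨aeval s c', hcO⟩ = ιE (ρ ⟨aeval τ G, hGO⟩) := by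
    rw [← hρ _ hGO]
    congr 1
    exact Subtype.ext hc
  -- lift `ḡ^k z` to `x0 ∈ O`
  obtain ⟨⟨x0, hx0O⟩, hx0⟩ := hρsurj (ρ ⟨aeval τ G, hGO⟩ ^ k * z)
  have h1 : ρ' ⟨ι x0, hιO x0 hx0O⟩ = ρ' ⟨(y : F'), hyO⟩ := by
    rw [hρ x0 hx0O, hx0, map_mul, map_pow, ← hcc, hy]
  -- `y - ι x0` reduces to zero, hence so does its degree-0 component
  have hzO : (y : F') - ι x0 ∈ O' := sub_mem hyO (hιO x0 hx0O)
  have hz0 : ρ' ⟨(y : F') - ι x0, hzO⟩ = 0 := by
    have : (⟨(y : F') - ι x0, hzO⟩ : O') = ⟨(y : F'), hyO⟩ - ⟨ι x0, hιO x0 hx0O⟩ := rfl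
    rw [this, map_sub, h1, sub_self]
  obtain ⟨hprz, hprz0⟩ := hred _ hzO hz0
  obtain ⟨b, hb⟩ := hprF (y : F') y.2
  have hbB' : IsIntegral (Algebra.adjoin R {s}) (ι b) := hb ▸ hprB (y : F') y.2
  have hbB : b ∈ B0 R τ := mem_B0.mpr (isIntegral_of_map ι hιR τ s P hP hP0 hPs hbB')
  have hbO : b ∈ O := B0_le h hbB
  have hbO' : ι b ∈ O' := hιO b hbO
  have hpr_eq : pr ((y : F') - ι x0) = ι b - ι x0 := by
    rw [map_sub, hpr_id, hb]
  have h2 : ρ' ⟨ι b, hbO'⟩ = ρ' ⟨ι x0, hιO x0 hx0O⟩ := by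
    have h3 : (⟨pr ((y : F') - ι x0), hprz⟩ : O') = ⟨ι b, hbO'⟩ - ⟨ι x0, hιO x0 hx0O⟩ :=
      Subtype.ext hpr_eq
    rw [h3, map_sub, sub_eq_zero] at hprz0
    exact hprz0
  refine ⟨⟨b, hbB⟩, ?_⟩
  rw [resB0_apply, resB0_apply]
  apply ιE.injective
  rw [← hρ b hbO, h2, hρ x0 hx0O, hx0]

/-- **(B) the chart `{τ ≠ 0}` away from `ū = τ̄⁻¹`.**  If the image of `B0 = B^τ` is integrally
closed in `E` (`hN0`, from `mem_range_of_cover` for the chart `B0`), then for every `z : E`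
integral over the image of `B1 = B^{1/τ}` some `ū^k z` lies in the image of `B1`: the hypothesis
`hloc` of `ChartLocalOK.localOK_B1_of_cover` for the cover element `u := ⟨τ⁻¹, _⟩`. -/
theorem hloc_B1_tau_inv (h : GoodCoord π O τ) (ρ : O →+* E)
    (hρR : ∀ r : R, ρ ⟨algebraMap R F r, h.algebraMap_mem r⟩ =
      algebraMap κ E (IsLocalRing.residue R r))
    (hN0 : ∀ z : E, IsIntegral (resB0 h ρ).range z → ∃ b : ↥(B0 R τ), resB0 h ρ b = z)
    (z : E) (hz : IsIntegral (resB1 h ρ).range z) :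
    ∃ (k : ℕ) (b : ↥(B1 R τ)),
      resB1 h ρ ⟨τ⁻¹, tau_inv_mem_B1⟩ ^ k * z = resB1 h ρ b := by
  set tb : E := ρ ⟨τ, h.tau_mem⟩ with htb
  set ub : E := ρ ⟨τ⁻¹, h.inv.tau_mem⟩ with hub
  have htu : tb * ub = 1 := by
    rw [htb, hub, ← map_mul]
    have : (⟨τ, h.tau_mem⟩ : O) * ⟨τ⁻¹, h.inv.tau_mem⟩ = 1 :=
      Subtype.ext (mul_inv_cancel₀ h.tau_ne_zero)
    rw [this, map_one]
  have htb0 : tb ≠ 0 := left_ne_zero_of_mul_eq_one htu
  have hub_eq : ub = tb⁻¹ := eq_inv_of_mul_eq_one_right htu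
  -- `z` is integral over `κ[ū] ⊆ κ[t̄, t̄⁻¹]`
  have hz1 : IsIntegral (Algebra.adjoin κ {ub}) z :=
    isIntegral_adjoin_of_isIntegral_range h.inv ρ hρR hz
  have hz2 : IsIntegral (Algebra.adjoin κ {tb, tb⁻¹}) z := by
    refine isIntegral_of_le (fun a ha => ?_) hz1
    rw [hub_eq] at ha
    exact Algebra.adjoin_mono (by simp) ha
  obtain ⟨N, hN⟩ := exists_pow_mul_isIntegral (S := κ) tb htb0 hz2
  -- `t̄^N z` lies in the image of `B0`
  obtain ⟨b, hb⟩ := hN0 _ (isIntegral_range_of_isIntegral_adjoin h ρ hρR hN)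
  obtain ⟨M, hM⟩ := exists_pow_mul_mem_B1 (R := R) h.tau_ne_zero (B0_le_B01 b.2)
  -- `b1 := τ⁻¹^N * (τ⁻¹^M * b) ∈ B1`
  have hb1 : τ⁻¹ ^ N * (τ⁻¹ ^ M * (b : F)) ∈ B1 R τ :=
    (B1 R τ).mul_mem ((B1 R τ).pow_mem tau_inv_mem_B1 N) hM
  refine ⟨M, ⟨_, hb1⟩, ?_⟩
  rw [resB1_apply, resB1_apply]
  rw [resB0_apply] at hb
  have hbO : (b : F) ∈ O := B0_le h b.2
  have h1 : (⟨τ⁻¹ ^ N * (τ⁻¹ ^ M * (b : F)), B1_le h hb1⟩ : O) =
      ⟨τ⁻¹, h.inv.tau_mem⟩ ^ N * (⟨τ⁻¹, h.inv.tau_mem⟩ ^ M * ⟨(b : F), hbO⟩) :=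
    Subtype.ext rfl
  have h2 : (⟨τ⁻¹, B1_le h tau_inv_mem_B1⟩ : O) = ⟨τ⁻¹, h.inv.tau_mem⟩ := rfl
  rw [h1, h2, map_mul, map_mul, map_pow, map_pow, hb, ← hub]
  have h3 : ub ^ N * tb ^ N = 1 := by rw [← mul_pow, mul_comm, htu, one_pow]
  calc ub ^ M * z = ub ^ M * ((ub ^ N * tb ^ N) * z) := by rw [h3, one_mul]
    _ = ub ^ N * (ub ^ M * (tb ^ N * z)) := by ring

end Charts

end Fermat.Agent.S18.Cusp.TheoremN
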