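import Mathlib
import Fermat.Agent.S18.Cusp.KummerInst
import Fermat.Agent.S18.Cusp.TheoremN

/-!
# S18 (CUSP, CU5-top, abstract): THEOREM N at one cusp value from the Kummer cover

Composition of `KummerInst.chart_package_kummer` (block A for the Kummer cover `(F', s, c')`,
`sᵉ = τ - a`) with `TheoremN.hloc_of_kummer` (descent along the degree-0 projection):
the hypothesis `hloc` of `ChartLocalOK.localOK_B0_of_cover` for the cover element
`g(τ - a)` of the chart `B0 R τ`.

`τ` is the chart coordinate downstairs (`GoodCoord π O τ`), `a : R` the cusp value,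
`t := τ - a` the coordinate vanishing at the cusp value, `s : F'` with `sᵉ = t`,
`g : R[X]` the polynomial (in the coordinate `t`) whose roots are the other cusp values,
`c' := g(Xᵉ)`, `G := g(X - a)`, so that `c'(s) = g(t) = G(τ)`.
-/

set_option autoImplicit false
set_option linter.style.haveILetI false
set_option linter.unusedSectionVars false
set_option linter.unusedVariables false

namespace Fermat.Agent.S18.Cusp.KummerHloc

open Polynomial IntermediateField AlgebraicCurve
open Fermat.Agent.S18.Core.Charts Fermat.Agent.S18.Cusp.ChartLocalOK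
open Fermat.Agent.S18.Purity.Chart (Bt)

variable {R L F E F' E' : Type*} [CommRing R] [IsDomain R] [IsDiscreteValuationRing R]
  [Field L] [Algebra R L] [IsFractionRing R L] [CharZero L]
  [Field F] [Algebra L F] [Algebra R F] [IsScalarTower R L F]
  [Field F'] [Algebra L F'] [Algebra R F'] [IsScalarTower R L F']
  [Algebra F F'] [IsScalarTower L F F']
  [Field E] [Algebra (IsLocalRing.ResidueField R) E]
  [Field E'] [Algebra (IsLocalRing.ResidueField R) E'] [Algebra E E']
  [IsScalarTower (IsLocalRing.ResidueField R) E E']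

local notation "κ" => IsLocalRing.ResidueField R

/-- `g(X - a)` evaluated at `τ` is `g` evaluated at `τ - a`. -/
theorem aeval_comp_sub (τ : F) (a : R) (g : R[X]) :
    aeval τ (g.comp (X - C a)) = aeval (τ - algebraMap R F a) g := by
  rw [aeval_comp, map_sub, aeval_X, aeval_C]

/-- **THEOREM N at the cusp value `a` of the chart `B0 R τ`** (uniform exponent `k`). -/
theorem hloc_of_kummer_package
    {π : R} {O : ValuationSubring F} {τ : F} (h : GoodCoord π O τ)
    (a : R) (t : F) (ht_def : t = τ - algebraMap R F a)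
    (s : F') (e : ℕ) (he0 : e ≠ 0) (O' : ValuationSubring F')
    -- downstairs, in the coordinate `t = τ - a`
    (ht : Transcendental R t) (htO : t ∈ O)
    (htbar : ∀ p : R[X], O.valuation (aeval t p) < 1 → ∀ i, π ∣ p.coeff i)
    [FiniteDimensional L⟮t⟯ F] (n : ℕ) (hn : Module.finrank L⟮t⟯ F = n)
    (ρ : O →+* E) (hρsurj : Function.Surjective ρ)
    (hρker : ∀ x : O, ρ x = 0 ↔ O.valuation (x : F) < 1)
    (hρR : ∀ r : R, ρ ⟨algebraMap R F r, h.algebraMap_mem r⟩ =
      algebraMap κ E (IsLocalRing.residue R r))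
    (hnb : Module.finrank κ⟮ρ ⟨t, htO⟩⟯ E = n)
    [Algebra.IsSeparable κ⟮ρ ⟨t, htO⟩⟯ E]
    -- the Kummer cover
    (hs : s ^ e = algebraMap F F' t) (hdeg : Module.finrank F F' = e)
    (hOO' : ∀ x : F, x ∈ O → algebraMap F F' x ∈ O') (hsO' : s ∈ O')
    (hgen' : ∀ x : F', O'.valuation x < 1 → ∃ y ∈ O', x = algebraMap R F' π * y)
    (huniq' : ∀ O'' : ValuationSubring F',
      O''.comap (algebraMap L⟮s⟯ F') = O'.comap (algebraMap L⟮s⟯ F') → O'' = O')
    (ρ' : O' →+* E') (hρ'surj : Function.Surjective ρ')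
    (hρ'ker : ∀ x : O', ρ' x = 0 ↔ O'.valuation (x : F') < 1)
    (hρ'ρ : ∀ (x : F) (hx : x ∈ O), ρ' ⟨algebraMap F F' x, hOO' x hx⟩ = algebraMap E E' (ρ ⟨x, hx⟩))
    (hdegE : Module.finrank E E' = e) (hgenE : E⟮ρ' ⟨s, hsO'⟩⟯ = ⊤)
    -- the degree-0 projection
    (pr : F' →+ F')
    (hprF : ∀ y : F', IsIntegral (Algebra.adjoin R {s}) y → ∃ x : F, algebraMap F F' x = pr y)
    (hprB : ∀ y : F', IsIntegral (Algebra.adjoin R {s}) y →
      IsIntegral (Algebra.adjoin R {s}) (pr y))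
    (hpr_id : ∀ x : F, pr (algebraMap F F' x) = algebraMap F F' x)
    (hred : ∀ (z : F') (hz : z ∈ O'), ρ' ⟨z, hz⟩ = 0 → ∃ hz' : pr z ∈ O', ρ' ⟨pr z, hz'⟩ = 0)
    -- the geometric side
    {kb Fb Fb' : Type*} [Field kb] [IsAlgClosed kb] [Algebra L kb] [Algebra.IsAlgebraic L kb]
    [Field Fb] [Algebra kb Fb] [Field Fb'] [Algebra kb Fb'] [Algebra Fb Fb']
    [IsScalarTower kb Fb Fb'] [Algebra.IsIntegral Fb Fb']
    [Algebra F' Fb'] [Algebra L Fb'] [IsScalarTower L F' Fb'] [IsScalarTower L kb Fb']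
    (tb : Fb) (hsb : (algebraMap F' Fb' s) ^ e = algebraMap Fb Fb' tb)
    (hgenb : Algebra.adjoin Fb {algebraMap F' Fb' s} = ⊤)
    (htrb : Transcendental kb (algebraMap F' Fb' s))
    (hfinb : FiniteDimensional kb⟮algebraMap F' Fb' s⟯ Fb')
    (g : R[X]) (hg0 : g ≠ 0)
    (D5 : ∀ (v : Place kb Fb) (t0 : kb), t0 ≠ 0 → aeval t0 (g.map (algebraMap R L)) ≠ 0 →
      0 < v.ord (tb - algebraMap kb Fb t0) → v.ord (tb - algebraMap kb Fb t0) = 1)
    (htame : ∀ v : Place kb Fb, 0 < v.ord tb → v.ord tb ∣ (e : ℤ)) :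
    ∃ k : ℕ, ∀ z : E, IsIntegral (resB0 h ρ).range z →
      ∃ b : ↥(B0 R τ),
        resB0 h ρ ⟨aeval τ (g.comp (X - C a)), aeval_mem_B0 _⟩ ^ k * z = resB0 h ρ b := by
  haveI := KummerInst.isScalarTower_base R L F F'
  have hRO' : ∀ r : R, algebraMap R F' r ∈ O' := fun r => by
    rw [IsScalarTower.algebraMap_apply R F F']; exact hOO' _ (h.algebraMap_mem r)
  have hπO' : O'.valuation (algebraMap R F' π) < 1 := by
    have h1 : ρ' ⟨algebraMap F F' (algebraMap R F π), hOO' _ (h.algebraMap_mem π)⟩ = 0 := by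
      rw [hρ'ρ _ (h.algebraMap_mem π), (hρker _).mpr h.pi_lt, map_zero]
    have h2 := (hρ'ker _).mp h1
    rw [IsScalarTower.algebraMap_apply R F F']
    exact h2
  obtain ⟨-, -, -, ⟨k, hup⟩, -⟩ := KummerInst.chart_package_kummer (E := E) (E' := E') π t s e he0
    O O' h.irreducible ht h.algebraMap_mem htO htbar n hn ρ hρker hρR hnb hs hdeg hRO' hsO' hπO'
    hgen' huniq' ρ' hρ'surj hρ'ker (fun x hx hx' => hρ'ρ x hx) hdegE hgenE tb hsb hgenb htrb hfinb
    g (g.comp (X ^ e)) hg0 rfl D5 htame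
  refine ⟨k, fun z hz => ?_⟩
  -- `ι τ = P(s)`, `P = Xᵉ + a`
  have hP : (X ^ e + C a : R[X]).Monic := monic_X_pow_add_C a he0
  have hP0 : (X ^ e + C a : R[X]).natDegree ≠ 0 := by
    rw [natDegree_X_pow_add_C]; exact he0
  have hPs : algebraMap F F' τ = aeval s (X ^ e + C a : R[X]) := by
    rw [map_add, map_pow, aeval_X, aeval_C, hs, ht_def, map_sub,
      ← IsScalarTower.algebraMap_apply R F F']
    ring
  have hc : aeval s (g.comp (X ^ e)) = algebraMap F F' (aeval τ (g.comp (X - C a))) := by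
    rw [aeval_comp_sub, ← ht_def, aeval_comp, map_pow, aeval_X, hs, aeval_algebraMap_apply]
  have hcO : aeval s (g.comp (X ^ e)) ∈ O' :=
    Fermat.Agent.S18.Purity.Chart.aeval_mem_O s O' hRO' hsO' _
  exact TheoremN.hloc_of_kummer h ρ hρsurj hρR (algebraMap F F')
    (fun r => (IsScalarTower.algebraMap_apply R F F' r).symm) (algebraMap E E')
    (fun x => (IsScalarTower.algebraMap_apply κ E E' x).symm) O' ρ' hOO' hρ'ρ s hsO'
    (X ^ e + C a) hP hP0 hPs pr hprF hprB hpr_id hred (g.comp (X ^ e)) (g.comp (X - C a)) hc hcO k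
    hup z hz

end Fermat.Agent.S18.Cusp.KummerHloc
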