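import Mathlib
import Fermat.Agent.S18.Cusp.KummerCoord

/-!
# S18 (CUSP, CU8a part 2): the residue field of the Kummer cover, as a Kummer field over `κ`

Setting of `KummerCoord.lean`, plus an intermediate field `Fbar ⊆ κ((q))` with
`Set.range (resMap hφ) = Fbar` (the residue field of `F`).  Then

* `range_resMap_kummer : Set.range (resMap hφ') = kummerField κ e Fbar s̄`;
* `rhoBase : O →+* Fbar`, `rhoK : O' →+* kummerField κ e Fbar s̄` (the corestricted residue maps),
  surjective, with kernel the maximal ideal, compatible with `inclBase` on both sides, and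
  `rhoK sEl = sEl`.
-/

set_option autoImplicit false
set_option linter.unusedSectionVars false
set_option linter.style.haveILetI false

noncomputable section

open HahnSeries ModularCurve IntermediateField

namespace Fermat.Agent.S18.Cusp.KummerCoord

open Fermat.Agent.S18.Cusp.Graded Fermat.Agent.S18.Cusp.Kummer Fermat.Agent.S18.Gauss.Basic
open Fermat.Agent.S18.Cusp.GaussKummer Fermat.Agent.S18.Cusp.KummerField

section General

variable {L : Type*} [Field L] {A : ValuationSubring L}
  {F₁ : Type*} [Field F₁] {φ : F₁ →+* LaurentSeries L}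

/-- the residue field of a Gauss valuation depends only on the range of `φ`. -/
theorem mem_resSubfield_iff_exists (hφ : Scalable A φ)
    {z : LaurentSeries (IsLocalRing.ResidueField A)} :
    z ∈ resSubfield A hφ ↔
      ∃ x : LaurentSeries L, x ∈ Set.range φ ∧ x ∈ gaussRing A ∧ resT A x = z := by
  rw [mem_resSubfield]
  constructor
  · rintro ⟨x, rfl⟩
    exact ⟨φ x, ⟨x, rfl⟩, x.2, (resMap_eq_resT A hφ x).symm⟩
  · rintro ⟨_, ⟨x, rfl⟩, hxm, rfl⟩
    exact ⟨⟨x, hxm⟩, resMap_eq_resT A hφ ⟨x, hxm⟩⟩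

theorem mem_range_resMap_iff_exists (hφ : Scalable A φ)
    {z : LaurentSeries (IsLocalRing.ResidueField A)} :
    z ∈ Set.range (resMap hφ) ↔
      ∃ x : LaurentSeries L, x ∈ Set.range φ ∧ x ∈ gaussRing A ∧ resT A x = z :=
  mem_resSubfield_iff_exists hφ

end General

variable {L : Type*} [Field L] {A : ValuationSubring L} {e : ℕ} [NeZero e]
  {F : IntermediateField L (LaurentSeries L)} {s : LaurentSeries L}

variable (hφ : Scalable A (F.val : F →+* LaurentSeries L))
  (Fbar : IntermediateField (IsLocalRing.ResidueField A)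
    (LaurentSeries (IsLocalRing.ResidueField A)))
  (hFbar : Set.range (resMap hφ) = (Fbar : Set (LaurentSeries (IsLocalRing.ResidueField A))))

section Base

include hFbar

theorem mem_Fbar_iff {w : LaurentSeries (IsLocalRing.ResidueField A)} :
    w ∈ Fbar ↔ ∃ y : LaurentSeries L, y ∈ F ∧ y ∈ gaussRing A ∧ resT A y = w := by
  rw [← SetLike.mem_coe, ← hFbar, mem_range_resMap_iff_exists]
  constructor
  · rintro ⟨x, ⟨y, rfl⟩, h1, h2⟩
    exact ⟨y, y.2, h1, h2⟩
  · rintro ⟨y, hy, h1, h2⟩
    exact ⟨y, ⟨⟨y, hy⟩, rfl⟩, h1, h2⟩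

/-- the residue field of `F₀ = base0 L e F` is `base0 (IsLocalRing.ResidueField A) e Fbar`. -/
theorem resSubfield_base0 :
    resSubfield A (scalable_base0 (e := e) hφ) = base0 (IsLocalRing.ResidueField A) e Fbar := by
  ext z
  rw [mem_resSubfield_iff_exists, mem_base0_iff]
  constructor
  · rintro ⟨x, ⟨⟨x', hx'⟩, rfl⟩, hxm, rfl⟩
    obtain ⟨y, hy, rfl⟩ := (mem_base0_iff L e F).mp hx'
    have hxm' : qExpand L e y ∈ gaussRing A := hxm
    have hym : y ∈ gaussRing A := by
      rcases zero_or_scalableElt hφ hy with rfl | hys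
      · exact Subring.zero_mem _
      · exact (qExpand_mem_gaussRing_iff A e hys).mp hxm'
    refine ⟨resT A y, (mem_Fbar_iff hφ Fbar hFbar).mpr ⟨y, hy, hym, rfl⟩, ?_⟩
    exact (resT_qExpand_of_mem A e hym).symm
  · rintro ⟨w, hw, rfl⟩
    obtain ⟨y, hy, hym, rfl⟩ := (mem_Fbar_iff hφ Fbar hFbar).mp hw
    refine ⟨qExpand L e y, ⟨⟨_, (mem_base0_iff L e F).mpr ⟨y, hy, rfl⟩⟩, rfl⟩,
      qExpand_mem_gaussRing A e hym, resT_qExpand_of_mem A e hym⟩

end Base

section Kummer

variable (h : KummerData e (base0 L e F) s) (hs : GaussUnit A s)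

include hFbar h in
/-- `(base0 κ e Fbar, s̄)` is a Kummer datum. -/
theorem kummerData_sbar : KummerData e (base0 (IsLocalRing.ResidueField A) e Fbar) (sbar hs) := by
  rw [← resSubfield_base0 hφ Fbar hFbar]
  exact kummerData_bar h (scalable_base0 hφ) hs

include hFbar in
/-- **the residue field of the Kummer cover is the Kummer field over `κ`.** -/
theorem range_resMap_kummer :
    Set.range (resMap (scalable_kummer hφ h hs))
      = (kummerField (IsLocalRing.ResidueField A) e Fbar (sbar hs) :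
          Set (LaurentSeries (IsLocalRing.ResidueField A))) := by
  ext z
  have hφ0 := scalable_base0 (e := e) hφ
  rw [mem_range_resMap_iff_exists, SetLike.mem_coe, mem_kummerField_iff_mem_adjoin,
    (kummerData_sbar hφ Fbar hFbar h hs).mem_adjoin_iff]
  have h1 : (∀ k : ℤ, coord e (sbar hs) k z ∈ base0 (IsLocalRing.ResidueField A) e Fbar) ↔
      z ∈ resSubfield A (scalable_adjoin h hφ0 hs) := by
    rw [mem_resSubfield_adjoin_iff h hφ0 hs, (kummerData_bar h hφ0 hs).mem_adjoin_iff,
      resSubfield_base0 hφ Fbar hFbar]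
  rw [h1, mem_resSubfield_iff_exists]
  constructor
  · rintro ⟨x, ⟨x', rfl⟩, hxm, rfl⟩
    exact ⟨x', ⟨⟨x', (mem_kummerField_iff_mem_adjoin L e F s).mp x'.2⟩, rfl⟩, hxm, rfl⟩
  · rintro ⟨x, ⟨x', rfl⟩, hxm, rfl⟩
    exact ⟨x', ⟨⟨x', (mem_kummerField_iff_mem_adjoin L e F s).mpr x'.2⟩, rfl⟩, hxm, rfl⟩

end Kummer

section Rho

omit [NeZero e] in
theorem hconst_base (c : L) :
    (F.val : F →+* LaurentSeries L) (algebraMap L F c) = HahnSeries.C c := by
  show algebraMap L (LaurentSeries L) c = HahnSeries.C c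
  rw [algebraMap_laurentSeries_eq_single]
  rfl

/-- the residue map of `F`, corestricted to `Fbar`. -/
def rhoBase : gaussSubring hφ →+* Fbar :=
  (resMap hφ).codRestrict Fbar (fun x => by
    rw [← SetLike.mem_coe, ← hFbar]
    exact ⟨x, rfl⟩)

theorem coe_rhoBase (x : gaussSubring hφ) :
    ((rhoBase hφ Fbar hFbar x : Fbar) : LaurentSeries (IsLocalRing.ResidueField A))
      = resMap hφ x := rfl

theorem rhoBase_surjective : Function.Surjective (rhoBase hφ Fbar hFbar) := by
  rintro ⟨z, hz⟩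
  rw [← SetLike.mem_coe, ← hFbar] at hz
  obtain ⟨x, rfl⟩ := hz
  exact ⟨x, rfl⟩

theorem rhoBase_eq_zero_iff (x : gaussSubring hφ) :
    rhoBase hφ Fbar hFbar x = 0 ↔ (gaussSubring hφ).valuation (x : F) < 1 := by
  rw [Fermat.Agent.S18.Inst.GaussChart.valuation_lt_one_iff, ← coe_rhoBase hφ Fbar hFbar x]
  constructor
  · intro h0
    rw [h0]
    rfl
  · intro h0
    exact Subtype.ext h0

set_option synthInstance.maxHeartbeats 400000 in
theorem rhoBase_algebraMap (r : A) (hr : algebraMap A F r ∈ gaussSubring hφ) :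
    rhoBase hφ Fbar hFbar ⟨algebraMap A F r, hr⟩
      = algebraMap (IsLocalRing.ResidueField A) Fbar (IsLocalRing.residue A r) := by
  apply Subtype.ext
  rw [coe_rhoBase]
  have h1 := resMap_algebraMap (hconst_base (F := F)) hφ r hr
  rw [show (⟨algebraMap A F r, hr⟩ : gaussSubring hφ) = ⟨algebraMap L F (r : L), hr⟩ from rfl, h1]
  show _ = algebraMap (IsLocalRing.ResidueField A) (LaurentSeries (IsLocalRing.ResidueField A)) _
  rw [algebraMap_laurentSeries_eq_single]
  rfl

variable (h : KummerData e (base0 L e F) s) (hs : GaussUnit A s)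

/-- the residue map of the Kummer cover, corestricted to the Kummer field over `κ`. -/
def rhoK : gaussSubring (scalable_kummer hφ h hs) →+*
    kummerField (IsLocalRing.ResidueField A) e Fbar (sbar hs) :=
  (resMap (scalable_kummer hφ h hs)).codRestrict
    (kummerField (IsLocalRing.ResidueField A) e Fbar (sbar hs)) (fun x => by
    rw [← SetLike.mem_coe, ← range_resMap_kummer hφ Fbar hFbar h hs]
    exact ⟨x, rfl⟩)

theorem coe_rhoK (x : gaussSubring (scalable_kummer hφ h hs)) :
    ((rhoK hφ Fbar hFbar h hs x : kummerField (IsLocalRing.ResidueField A) e Fbar (sbar hs)) :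
      LaurentSeries (IsLocalRing.ResidueField A)) = resMap (scalable_kummer hφ h hs) x := rfl

theorem rhoK_surjective : Function.Surjective (rhoK hφ Fbar hFbar h hs) := by
  rintro ⟨z, hz⟩
  rw [← SetLike.mem_coe, ← range_resMap_kummer hφ Fbar hFbar h hs] at hz
  obtain ⟨x, rfl⟩ := hz
  exact ⟨x, rfl⟩

theorem rhoK_eq_zero_iff (x : gaussSubring (scalable_kummer hφ h hs)) :
    rhoK hφ Fbar hFbar h hs x = 0 ↔
      (gaussSubring (scalable_kummer hφ h hs)).valuation (x : kummerField L e F s) < 1 := by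
  rw [Fermat.Agent.S18.Inst.GaussChart.valuation_lt_one_iff, ← coe_rhoK hφ Fbar hFbar h hs x]
  constructor
  · intro h0
    rw [h0]
    rfl
  · intro h0
    exact Subtype.ext h0

set_option synthInstance.maxHeartbeats 400000 in
theorem rhoK_algebraMap (r : A)
    (hr : algebraMap A (kummerField L e F s) r ∈ gaussSubring (scalable_kummer hφ h hs)) :
    rhoK hφ Fbar hFbar h hs ⟨algebraMap A (kummerField L e F s) r, hr⟩
      = algebraMap (IsLocalRing.ResidueField A)
          (kummerField (IsLocalRing.ResidueField A) e Fbar (sbar hs))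
          (IsLocalRing.residue A r) := by
  apply Subtype.ext
  rw [coe_rhoK]
  have h1 := resMap_algebraMap (hconst_kummer (e := e) (F := F) (s := s))
    (scalable_kummer hφ h hs) r hr
  rw [show (⟨algebraMap A (kummerField L e F s) r, hr⟩ : gaussSubring (scalable_kummer hφ h hs))
    = ⟨algebraMap L (kummerField L e F s) (r : L), hr⟩ from rfl, h1]
  show _ = algebraMap (IsLocalRing.ResidueField A) (LaurentSeries (IsLocalRing.ResidueField A)) _
  rw [algebraMap_laurentSeries_eq_single]
  rfl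

theorem rhoK_sEl :
    rhoK hφ Fbar hFbar h hs ⟨sEl L e F s, sEl_mem hφ h hs⟩
      = sEl (IsLocalRing.ResidueField A) e Fbar (sbar hs) := by
  apply Subtype.ext
  rw [coe_rhoK, resMap_sEl hφ h hs]
  rfl

omit hFbar in
/-- `O' ∩ F = O`. -/
theorem inclBase_mem_iff (x : F) :
    inclBase L e F s x ∈ gaussSubring (scalable_kummer hφ h hs) ↔ x ∈ gaussSubring hφ := by
  show qExpand L e (x : LaurentSeries L) ∈ gaussRing A ↔ (x : LaurentSeries L) ∈ gaussRing A
  rcases zero_or_scalableElt hφ x.2 with h0 | hsc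
  · rw [h0, map_zero]
  · exact qExpand_mem_gaussRing_iff A e hsc

/-- `ρ' ∘ inclBase = inclBase ∘ ρ`. -/
theorem rhoK_inclBase (x : F) (hx : x ∈ gaussSubring hφ)
    (hx' : inclBase L e F s x ∈ gaussSubring (scalable_kummer hφ h hs)) :
    rhoK hφ Fbar hFbar h hs ⟨inclBase L e F s x, hx'⟩
      = inclBase (IsLocalRing.ResidueField A) e Fbar (sbar hs)
          (rhoBase hφ Fbar hFbar ⟨x, hx⟩) := by
  apply Subtype.ext
  rw [coe_rhoK, coe_inclBase, coe_rhoBase, resMap_eq_resT, resMap_eq_resT]
  exact resT_qExpand_of_mem A e hx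

end Rho

section Pow

variable (hs : GaussUnit A s)

omit hFbar in
include hφ hs in
/-- `u ∈ O` if `sᵉ = u(q'ᵉ)`. -/
theorem mem_gaussRing_of_pow_eq {u : LaurentSeries L} (hu : u ∈ F)
    (hsu : s ^ e = qExpand L e u) : u ∈ gaussRing A := by
  rcases zero_or_scalableElt hφ hu with rfl | hsc
  · exact Subring.zero_mem _
  · refine (qExpand_mem_gaussRing_iff A e hsc).mp ?_
    rw [← hsu]
    exact hs.pow_mem e

omit hFbar in
include hφ in
/-- `s̄ᵉ = ū(q'ᵉ)`. -/
theorem sbar_pow {u : LaurentSeries L} (hu : u ∈ F) (hsu : s ^ e = qExpand L e u) :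
    sbar hs ^ e = qExpand (IsLocalRing.ResidueField A) e (resT A u) := by
  rw [sbar_eq_resT, ← resT_pow A hs.mem, hsu,
    resT_qExpand_of_mem A e (mem_gaussRing_of_pow_eq hφ hs hu hsu)]

include hFbar in
theorem resT_mem_Fbar {u : LaurentSeries L} (hu : u ∈ F) (hum : u ∈ gaussRing A) :
    resT A u ∈ Fbar :=
  (mem_Fbar_iff hφ Fbar hFbar).mpr ⟨u, hu, hum, rfl⟩

end Pow

end Fermat.Agent.S18.Cusp.KummerCoord
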