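import Mathlib
import Fermat.Agent.S18.Cusp.KummerField
import Fermat.Agent.S18.Cusp.KummerDegree

/-
S18 (project G), block CUSP, leaf CU6b (helper29): **degree and separability of the concrete Kummer
field `F' = kummerField k e F s` over `F` and over `k(s)`** = the inputs `hfin`/`hgen` of
`Cusp/KummerDegree.lean` (helper19) discharged for `Cusp/KummerField.lean`, generic in the constant
field `k` (characteristic zero side `k = L₁`, `k = K̄`, and the residue side `k = κ`).

* `adjoin_simple_sEl_eq_top : F⟮sEl⟯ = ⊤`;
* `linearIndependent_sEl_pow : 1, s, …, s^(e-1)` are linearly independent over `F`;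
* `finrank_kummerField : [F' : F] = e`;
* `finrank_adjoin_sEl : [F' : k(s)] = [F : k(t)]`;
* `isSeparable_kummerField : F / k(t)` separable ⟹ `F' / k(s)` separable.
-/

set_option autoImplicit false
set_option linter.unusedSectionVars false

noncomputable section

open IntermediateField Polynomial ModularCurve

namespace Fermat.Agent.S18.Cusp.KummerField

open Fermat.Agent.S18.Cusp.Graded Fermat.Agent.S18.Cusp.Kummer

variable {k : Type*} [Field k] {e : ℕ} [NeZero e]
  {F : IntermediateField k (LaurentSeries k)} {s : LaurentSeries k}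

/-- `F' = F(s)` as an intermediate field of `F' / F`. -/
theorem adjoin_simple_sEl_eq_top {t : LaurentSeries k} (ht : t ∈ F) (hs : s ^ e = qExpand k e t) :
    letI := algInclBase k e F s
    (IntermediateField.adjoin F {sEl k e F s} :
      IntermediateField F (kummerField k e F s)) = ⊤ :=
  letI := algInclBase k e F s
  adjoin_eq_top_of_algebra F _ (adjoin_sEl_eq_top ht hs)

/-- `1, s, …, s^(e-1)` are linearly independent over `F`. -/
theorem linearIndependent_sEl_pow (h : KummerData e (base0 k e F) s) :
    letI := algInclBase k e F s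
    LinearIndependent F (fun i : Fin e => (sEl k e F s) ^ (i : ℕ)) := by
  let _ := algInclBase k e F s
  rw [Fintype.linearIndependent_iff]
  intro g hg i
  -- pass to `k((q'))`
  have h1 : ∑ i : Fin e, qExpand k e (g i : LaurentSeries k) * s ^ (i : ℕ) = 0 := by
    have h' := congrArg (fun x : kummerField k e F s => (x : LaurentSeries k)) hg
    simp [Algebra.smul_def] at h'
    exact h'
  let a : ℕ → LaurentSeries k := fun j =>
    if hj : j < e then qExpand k e (g ⟨j, hj⟩ : LaurentSeries k) else 0
  have ha : ∀ j ∈ Finset.range e, a j ∈ base0 k e F := by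
    intro j hj
    have hj' : j < e := Finset.mem_range.mp hj
    simp only [a, dif_pos hj']
    exact qExpand_mem_base k e F (g ⟨j, hj'⟩).2
  have hsum : ∑ j ∈ Finset.range e, a j * s ^ j = 0 := by
    rw [Finset.sum_range, ← h1]
    refine Finset.sum_congr rfl fun i _ => ?_
    simp only [a, dif_pos i.2]
  have h2 := h.eq_zero_of_sum_mul_pow_eq_zero ha hsum (Finset.mem_range.mpr i.2)
  simp only [a, dif_pos i.2] at h2
  have h3 : (g i : LaurentSeries k) = 0 := by
    apply qExpand_injective (R := k) e
    rw [h2, map_zero]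
  exact Subtype.ext h3

/-- **`[F' : F] = e`.** -/
theorem finrank_kummerField {t : LaurentSeries k} (ht : t ∈ F) (hs : s ^ e = qExpand k e t)
    (h1 : IsHomog e 1 s) (h0 : s ≠ 0) :
    letI := algInclBase k e F s
    Module.finrank F (kummerField k e F s) = e := by
  let _ := algInclBase k e F s
  have hfin : Module.Finite F (kummerField k e F s) := finite_kummerField ht hs
  apply le_antisymm
  · -- `[F' : F] = deg minpoly ≤ e`
    have hint : IsIntegral F (sEl k e F s) := isIntegral_sEl ht hs
    have h2 := IntermediateField.adjoin.finrank hint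
    rw [adjoin_simple_sEl_eq_top ht hs, finrank_top'] at h2
    rw [h2]
    have hroot : aeval (sEl k e F s) (X ^ e - C (⟨t, ht⟩ : F) : (↥F)[X]) = 0 := by
      rw [map_sub, map_pow, aeval_X, aeval_C, sEl_pow' ht hs]
      exact sub_self _
    have hne : (X ^ e - C (⟨t, ht⟩ : F) : (↥F)[X]) ≠ 0 :=
      (monic_X_pow_sub_C _ (NeZero.ne e)).ne_zero
    have h3 := natDegree_le_of_dvd (minpoly.dvd F _ hroot) hne
    rwa [natDegree_X_pow_sub_C] at h3
  · have h2 := (linearIndependent_sEl_pow (kummerData ht hs h1 h0)).fintype_card_le_finrank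
    simpa using h2

/-- **`[F' : k(s)] = [F : k(t)]`.** -/
theorem finrank_adjoin_sEl {t : LaurentSeries k} (ht : t ∈ F) (hs : s ^ e = qExpand k e t)
    (h1 : IsHomog e 1 s) (h0 : s ≠ 0) (htr : Transcendental k (⟨t, ht⟩ : F)) :
    Module.finrank k⟮sEl k e F s⟯ (kummerField k e F s) = Module.finrank k⟮(⟨t, ht⟩ : F)⟯ F :=
  letI := algInclBase k e F s
  haveI := isScalarTower_inclBase k e F s
  Fermat.Agent.S18.Cusp.KummerDegree.finrank_adjoin_eq (⟨t, ht⟩ : F) (sEl k e F s) e (NeZero.ne e)
    (sEl_pow' ht hs) (transcendental_sEl ht hs htr) (finrank_kummerField ht hs h1 h0)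

/-- **separability of `F' / k(s)`** from that of `F / k(t)`. -/
theorem isSeparable_kummerField {t : LaurentSeries k} (ht : t ∈ F) (hs : s ^ e = qExpand k e t)
    [Algebra.IsSeparable k⟮(⟨t, ht⟩ : F)⟯ F] :
    Algebra.IsSeparable k⟮sEl k e F s⟯ (kummerField k e F s) :=
  letI := algInclBase k e F s
  haveI := isScalarTower_inclBase k e F s
  Fermat.Agent.S18.Cusp.KummerDegree.isSeparable_adjoin (⟨t, ht⟩ : F) (sEl k e F s) e
    (sEl_pow' ht hs) (adjoin_simple_sEl_eq_top ht hs)

end Fermat.Agent.S18.Cusp.KummerField
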