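import Mathlib
import Fermat.Agent.S18.Cusp.KummerCoordRes
import Fermat.Agent.S18.Cusp.KummerFieldDegree

/-!
# S18 (CUSP, K-A): the valuation / residue package of the Kummer cover for both coordinates
`c ∈ {sEl, sEl⁻¹}`

Setting of `KummerCoord.lean` / `KummerCoordRes.lean`, `O := gaussSubring hφ`,
`O' := gaussSubring (scalable_kummer hφ h hs)`, `E := ↥Fbar`,
`E' := ↥(kummerField κ e Fbar s̄)`, `ρ := rhoBase`, `ρ' := rhoK`.  In the shapes of
`KummerHloc.hloc_of_kummer_package`:

* `hOO'`, `sEl_inv_mem`, `rhoK_sEl_inv`;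
* `coordData_kummer_inv : CoordData A π O' (sEl)⁻¹` (so `hgen'`, `huniq'` over `L⟮sEl⁻¹⟯`);
* `finrank_res` (`hdegE`), `adjoin_rhoK_sEl`, `adjoin_rhoK_sEl_inv` (`hgenE` for both coordinates).
-/

set_option autoImplicit false
set_option linter.unusedSectionVars false
set_option linter.style.haveILetI false

noncomputable section

open HahnSeries ModularCurve IntermediateField

namespace Fermat.Agent.S18.Cusp.KummerCoord

open Fermat.Agent.S18.Cusp.Graded Fermat.Agent.S18.Cusp.Kummer Fermat.Agent.S18.Gauss.Basic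
open Fermat.Agent.S18.Cusp.GaussKummer Fermat.Agent.S18.Cusp.KummerField
open Fermat.Agent.S18.ValExt.UniqueOfResidue

variable {L : Type*} [Field L] {A : ValuationSubring L} {e : ℕ} [NeZero e]
  {F : IntermediateField L (LaurentSeries L)} {s : LaurentSeries L}
  (hφ : Scalable A (F.val : F →+* LaurentSeries L))
  (h : KummerData e (base0 L e F) s) (hs : GaussUnit A s)

section Val

include hφ h hs

/-- `O ⊆ O'` along `inclBase`. -/
theorem hOO' (x : F) (hx : x ∈ gaussSubring hφ) :
    inclBase L e F s x ∈ gaussSubring (scalable_kummer hφ h hs) := by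
  have := (inclBase_mem_iff hφ h hs x).mpr hx
  exact this

omit hφ h hs in
theorem val_sEl_inv :
    ((kummerField L e F s).val : kummerField L e F s →+* LaurentSeries L) (sEl L e F s)⁻¹
      = s⁻¹ := by
  rw [map_inv₀]
  rfl

theorem sEl_inv_mem : (sEl L e F s)⁻¹ ∈ gaussSubring (scalable_kummer hφ h hs) := by
  rw [mem_gaussSubring_iff, val_sEl_inv]
  exact hs.inv_mem

omit hφ h in
theorem resT_inv_of_gaussUnit : resT A s⁻¹ = (resT A s)⁻¹ := by
  by_cases hs0 : s = 0
  · rw [hs0, inv_zero, resT_zero, inv_zero]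
  · have h1 : resT A s * resT A s⁻¹ = 1 := by
      rw [← resT_mul A hs.mem hs.inv_mem, mul_inv_cancel₀ hs0, resT_one]
    exact (eq_inv_of_mul_eq_one_right h1)

theorem resMap_sEl_inv :
    resMap (scalable_kummer hφ h hs) ⟨(sEl L e F s)⁻¹, sEl_inv_mem hφ h hs⟩ = (sbar hs)⁻¹ := by
  rw [resMap_eq_resT, sbar_eq_resT, ← resT_inv_of_gaussUnit hs]
  exact congrArg (resT A) val_sEl_inv

end Val

section InvCoord

variable {K₀ : IntermediateField L F} {ι : Type*} [Fintype ι] {b : ι → F}

omit [NeZero e] in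
theorem adjoin_simple_inv' {K E : Type*} [Field K] [Field E] [Algebra K E] (x : E) :
    K⟮x⁻¹⟯ = K⟮x⟯ := by
  apply le_antisymm
  · rw [adjoin_simple_le_iff]
    exact inv_mem (mem_adjoin_simple_self K x)
  · rw [adjoin_simple_le_iff]
    have := inv_mem (mem_adjoin_simple_self K x⁻¹)
    rwa [inv_inv] at this

include hφ h hs in
/-- **the INST bundle for the Kummer cover, in the coordinate `sEl⁻¹`.** -/
theorem coordData_kummer_inv [IsDiscreteValuationRing A] {π : A} (hπ : Irreducible π)
    {u : LaurentSeries L} (hu : u ∈ F) (hsu : s ^ e = qExpand L e u)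
    (hutr : Transcendental (IsLocalRing.ResidueField A) (resT A u))
    (hK₀ : K₀ ≤ L⟮(⟨u, hu⟩ : F)⟯)
    (hb : ResIndep (F := K₀) (gaussSubring hφ) b) [FiniteDimensional K₀ F]
    (hcard : Fintype.card ι = Module.finrank K₀ F) :
    Fermat.Agent.S18.Inst.Bundle.CoordData A π (gaussSubring (scalable_kummer hφ h hs))
      (sEl L e F s)⁻¹ := by
  haveI := finiteDimensional_mapK hφ h hs hb hcard
  refine Fermat.Agent.S18.Inst.Bundle.coordData_of_gauss (hconst_kummer (e := e) (F := F) (s := s))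
    (scalable_kummer hφ h hs) hπ (sEl_inv_mem hφ h hs) ?_
    ((mapK_le hu hsu hK₀).trans (adjoin_simple_inv' _).symm.le)
    (eq_of_comap_eq_kummer hφ h hs hb hcard)
  rw [resMap_sEl_inv hφ h hs]
  intro halg
  have := halg.inv
  rw [inv_inv] at this
  exact transcendental_sbar hφ hs hu hsu hutr this

end InvCoord

section Res

variable (Fbar : IntermediateField (IsLocalRing.ResidueField A)
    (LaurentSeries (IsLocalRing.ResidueField A)))
  (hFbar : Set.range (resMap hφ) = (Fbar : Set (LaurentSeries (IsLocalRing.ResidueField A))))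

theorem rhoK_sEl_inv :
    rhoK hφ Fbar hFbar h hs ⟨(sEl L e F s)⁻¹, sEl_inv_mem hφ h hs⟩
      = (sEl (IsLocalRing.ResidueField A) e Fbar (sbar hs))⁻¹ := by
  apply Subtype.ext
  rw [coe_rhoK, resMap_sEl_inv hφ h hs]
  rfl

variable {u : LaurentSeries L} (hu : u ∈ F) (hsu : s ^ e = qExpand L e u)

include hφ hFbar h hu hsu in
set_option synthInstance.maxHeartbeats 400000 in
/-- `hdegE` : `[E' : E] = e`. -/
theorem finrank_res :
    letI := algInclBase (IsLocalRing.ResidueField A) e Fbar (sbar hs)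
    Module.finrank Fbar (kummerField (IsLocalRing.ResidueField A) e Fbar (sbar hs)) = e :=
  finrank_kummerField
    (resT_mem_Fbar hφ Fbar hFbar hu (mem_gaussRing_of_pow_eq hφ hs hu hsu))
    (sbar_pow hφ hs hu hsu) (isHomog_sbar h hs) (sbar_ne_zero h.ne_zero hs)

include hu hsu in
set_option synthInstance.maxHeartbeats 400000 in
/-- `hgenE` for the coordinate `sEl`. -/
theorem adjoin_rhoK_sEl :
    letI := algInclBase (IsLocalRing.ResidueField A) e Fbar (sbar hs)
    (IntermediateField.adjoin Fbar {rhoK hφ Fbar hFbar h hs ⟨sEl L e F s, sEl_mem hφ h hs⟩} :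
      IntermediateField Fbar (kummerField (IsLocalRing.ResidueField A) e Fbar (sbar hs))) = ⊤ := by
  rw [rhoK_sEl]
  exact adjoin_simple_sEl_eq_top
    (resT_mem_Fbar hφ Fbar hFbar hu (mem_gaussRing_of_pow_eq hφ hs hu hsu))
    (sbar_pow hφ hs hu hsu)

include hu hsu in
set_option synthInstance.maxHeartbeats 400000 in
/-- `hgenE` for the coordinate `sEl⁻¹`. -/
theorem adjoin_rhoK_sEl_inv :
    letI := algInclBase (IsLocalRing.ResidueField A) e Fbar (sbar hs)
    (IntermediateField.adjoin Fbar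
      {rhoK hφ Fbar hFbar h hs ⟨(sEl L e F s)⁻¹, sEl_inv_mem hφ h hs⟩} :
      IntermediateField Fbar (kummerField (IsLocalRing.ResidueField A) e Fbar (sbar hs))) = ⊤ := by
  letI := algInclBase (IsLocalRing.ResidueField A) e Fbar (sbar hs)
  rw [rhoK_sEl_inv, adjoin_simple_inv']
  exact adjoin_simple_sEl_eq_top
    (resT_mem_Fbar hφ Fbar hFbar hu (mem_gaussRing_of_pow_eq hφ hs hu hsu))
    (sbar_pow hφ hs hu hsu)

end Res

end Fermat.Agent.S18.Cusp.KummerCoord
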