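import Mathlib
import Fermat.Agent.S18.Cusp.KummerRes
import Fermat.Agent.S18.Cusp.KummerHloc

/-!
# S18 (CUSP): THEOREM N at one cusp value for the Gauss valuation of `F ⊆ L((q))`

`KummerHloc.hloc_of_kummer_package` instantiated at `F := ↥F`, `F' := ↥(kummerField L e F s)`,
`O := gaussSubring hφ`, `O' := gaussSubring (scalable_kummer hφ h hs)`, `E := ↥Fbar`,
`E' := ↥(kummerField κ e Fbar s̄)`, `ρ := rhoBase`, `ρ' := rhoK`, with ALL valuation / residue
hypotheses discharged from `KummerCoord.lean`, `KummerCoordRes.lean`, `KummerRes.lean`.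
What remains as hypotheses: the downstairs data in the coordinate `t`, the degree-0 projection
`pr`, and the geometric (char. 0) side.

* `hloc_gauss_kummer` : generic upstairs coordinate `c`, `cᵉ = inclBase t`;
* `hloc_gauss_kummer_sEl` : (N1) `c = sEl`, `t = u`;
* `hloc_gauss_kummer_sEl_inv` : (N2) `c = sEl⁻¹`, `t = u⁻¹`.
-/

set_option autoImplicit false
set_option linter.unusedSectionVars false
set_option linter.unusedVariables false
set_option linter.style.haveILetI false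

noncomputable section

open HahnSeries ModularCurve IntermediateField Polynomial AlgebraicCurve

namespace Fermat.Agent.S18.Cusp.KummerGaussHloc

open Fermat.Agent.S18.Cusp.Graded Fermat.Agent.S18.Cusp.Kummer Fermat.Agent.S18.Gauss.Basic
open Fermat.Agent.S18.Cusp.GaussKummer Fermat.Agent.S18.Cusp.KummerField
open Fermat.Agent.S18.Cusp.KummerCoord
open Fermat.Agent.S18.Core.Charts Fermat.Agent.S18.Cusp.ChartLocalOK
open Fermat.Agent.S18.Inst.Bundle

variable {L : Type*} [Field L] [CharZero L] {A : ValuationSubring L} [IsDiscreteValuationRing A]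
  {e : ℕ} [NeZero e]
  {F : IntermediateField L (LaurentSeries L)} {s : LaurentSeries L}
  (hφ : Scalable A (F.val : F →+* LaurentSeries L))
  (h : KummerData e (base0 L e F) s) (hs : GaussUnit A s)
  (Fbar : IntermediateField (IsLocalRing.ResidueField A)
    (LaurentSeries (IsLocalRing.ResidueField A)))
  (hFbar : Set.range (resMap hφ) = (Fbar : Set (LaurentSeries (IsLocalRing.ResidueField A))))
  {u : LaurentSeries L} (hu : u ∈ F) (hsu : s ^ e = qExpand L e u)

include hu hsu in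
set_option synthInstance.maxHeartbeats 400000 in
set_option maxHeartbeats 1000000 in
/-- **THEOREM N at one cusp value, for the Gauss valuation of a subfield `F ⊆ L((q))` and its
Kummer cover**, generic upstairs coordinate `c` (`cᵉ = t = τ - a`). -/
theorem hloc_gauss_kummer
    {π : A} {τ : F} (hτ : GoodCoord π (gaussSubring hφ) τ) (a : A) (t : F)
    (ht_def : t = τ - algebraMap A F a)
    (c : kummerField L e F s) (hct : c ^ e = inclBase L e F s t)
    (hcO' : c ∈ gaussSubring (scalable_kummer hφ h hs))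
    (hcoord : CoordData A π (gaussSubring (scalable_kummer hφ h hs)) c)
    (hgenE : letI := algInclBase (IsLocalRing.ResidueField A) e Fbar (sbar hs)
      (IntermediateField.adjoin Fbar {rhoK hφ Fbar hFbar h hs ⟨c, hcO'⟩} :
        IntermediateField Fbar (kummerField (IsLocalRing.ResidueField A) e Fbar (sbar hs))) = ⊤)
    -- downstairs
    (ht : Transcendental A t) (htO : t ∈ gaussSubring hφ)
    (htbar : ∀ p : A[X], (gaussSubring hφ).valuation (aeval t p) < 1 → ∀ i, π ∣ p.coeff i)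
    [FiniteDimensional L⟮t⟯ F] (n : ℕ) (hn : Module.finrank L⟮t⟯ F = n)
    (hnb : Module.finrank (IsLocalRing.ResidueField A)⟮rhoBase hφ Fbar hFbar ⟨t, htO⟩⟯ Fbar = n)
    [Algebra.IsSeparable (IsLocalRing.ResidueField A)⟮rhoBase hφ Fbar hFbar ⟨t, htO⟩⟯ Fbar]
    -- pr
    (pr : kummerField L e F s →+ kummerField L e F s)
    (hprF : ∀ y : kummerField L e F s, IsIntegral (Algebra.adjoin A {c}) y →
      ∃ x : F, inclBase L e F s x = pr y)
    (hprB : ∀ y : kummerField L e F s, IsIntegral (Algebra.adjoin A {c}) y →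
      IsIntegral (Algebra.adjoin A {c}) (pr y))
    (hpr_id : ∀ x : F, pr (inclBase L e F s x) = inclBase L e F s x)
    (hred : ∀ (z : kummerField L e F s) (hz : z ∈ gaussSubring (scalable_kummer hφ h hs)),
      rhoK hφ Fbar hFbar h hs ⟨z, hz⟩ = 0 →
        ∃ hz' : pr z ∈ gaussSubring (scalable_kummer hφ h hs),
          rhoK hφ Fbar hFbar h hs ⟨pr z, hz'⟩ = 0)
    -- geometric side
    {kb Fb Fb' : Type*} [Field kb] [IsAlgClosed kb] [Algebra L kb] [Algebra.IsAlgebraic L kb]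
    [Field Fb] [Algebra kb Fb] [Field Fb'] [Algebra kb Fb'] [Algebra Fb Fb']
    [IsScalarTower kb Fb Fb'] [Algebra.IsIntegral Fb Fb']
    [Algebra (kummerField L e F s) Fb'] [Algebra L Fb'] [IsScalarTower L (kummerField L e F s) Fb']
    [IsScalarTower L kb Fb']
    (tb : Fb) (hsb : (algebraMap (kummerField L e F s) Fb' c) ^ e = algebraMap Fb Fb' tb)
    (hgenb : Algebra.adjoin Fb {algebraMap (kummerField L e F s) Fb' c} = ⊤)
    (htrb : Transcendental kb (algebraMap (kummerField L e F s) Fb' c))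
    (hfinb : FiniteDimensional kb⟮algebraMap (kummerField L e F s) Fb' c⟯ Fb')
    (g : A[X]) (hg0 : g ≠ 0)
    (D5 : ∀ (v : Place kb Fb) (t0 : kb), t0 ≠ 0 → aeval t0 (g.map (algebraMap A L)) ≠ 0 →
      0 < v.ord (tb - algebraMap kb Fb t0) → v.ord (tb - algebraMap kb Fb t0) = 1)
    (htame : ∀ v : Place kb Fb, 0 < v.ord tb → v.ord tb ∣ (e : ℤ)) :
    ∃ k : ℕ, ∀ z : Fbar, IsIntegral (resB0 hτ (rhoBase hφ Fbar hFbar)).range z →
      ∃ b : ↥(B0 A τ),
        resB0 hτ (rhoBase hφ Fbar hFbar) ⟨aeval τ (g.comp (X - Polynomial.C a)), aeval_mem_B0 _⟩ ^ k * z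
          = resB0 hτ (rhoBase hφ Fbar hFbar) b := by
  letI := algInclBase L e F s
  haveI := isScalarTower_inclBase L e F s
  letI := algInclBase (IsLocalRing.ResidueField A) e Fbar (sbar hs)
  haveI := isScalarTower_inclBase (IsLocalRing.ResidueField A) e Fbar (sbar hs)
  exact Fermat.Agent.S18.Cusp.KummerHloc.hloc_of_kummer_package
    (E := Fbar) (E' := kummerField (IsLocalRing.ResidueField A) e Fbar (sbar hs))
    hτ a t ht_def c e (NeZero.ne e) (gaussSubring (scalable_kummer hφ h hs))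
    ht htO htbar n hn (rhoBase hφ Fbar hFbar) (rhoBase_surjective hφ Fbar hFbar)
    (rhoBase_eq_zero_iff hφ Fbar hFbar) (fun r => rhoBase_algebraMap hφ Fbar hFbar r _) hnb
    hct (finrank_kummerField hu hsu h.homog1 h.ne_zero)
    (hOO' hφ h hs) hcO' hcoord.good.exists_eq_mul hcoord.uniq
    (rhoK hφ Fbar hFbar h hs) (rhoK_surjective hφ Fbar hFbar h hs)
    (rhoK_eq_zero_iff hφ Fbar hFbar h hs)
    (fun x hx => rhoK_inclBase hφ Fbar hFbar h hs x hx _)
    (finrank_res hφ h hs Fbar hFbar hu hsu) hgenE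
    pr hprF hprB hpr_id hred tb hsb hgenb htrb hfinb g hg0 D5 htame

variable {K₀ : IntermediateField L F} {ι : Type*} [Fintype ι] {b : ι → F}

open Fermat.Agent.S18.ValExt.UniqueOfResidue in
include hu hsu in
set_option synthInstance.maxHeartbeats 400000 in
set_option maxHeartbeats 1000000 in
/-- normalisation (N1): upstairs coordinate `c = sEl`, downstairs `t = u` (`sᵉ = u(q'ᵉ)`). -/
theorem hloc_gauss_kummer_sEl
    {π : A} {τ : F} (hτ : GoodCoord π (gaussSubring hφ) τ) (a : A)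
    (ht_def : (⟨u, hu⟩ : F) = τ - algebraMap A F a)
    (hutr : Transcendental (IsLocalRing.ResidueField A) (resT A u))
    (hK₀ : K₀ ≤ L⟮(⟨u, hu⟩ : F)⟯)
    (hb : ResIndep (F := K₀) (gaussSubring hφ) b) [FiniteDimensional K₀ F]
    (hcard : Fintype.card ι = Module.finrank K₀ F)
    -- downstairs
    (ht : Transcendental A (⟨u, hu⟩ : F)) (htO : (⟨u, hu⟩ : F) ∈ gaussSubring hφ)
    (htbar : ∀ p : A[X], (gaussSubring hφ).valuation (aeval (⟨u, hu⟩ : F) p) < 1 →
      ∀ i, π ∣ p.coeff i)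
    [FiniteDimensional L⟮(⟨u, hu⟩ : F)⟯ F] (n : ℕ) (hn : Module.finrank L⟮(⟨u, hu⟩ : F)⟯ F = n)
    (hnb : Module.finrank
      (IsLocalRing.ResidueField A)⟮rhoBase hφ Fbar hFbar ⟨(⟨u, hu⟩ : F), htO⟩⟯ Fbar = n)
    [Algebra.IsSeparable
      (IsLocalRing.ResidueField A)⟮rhoBase hφ Fbar hFbar ⟨(⟨u, hu⟩ : F), htO⟩⟯ Fbar]
    -- pr
    (pr : kummerField L e F s →+ kummerField L e F s)
    (hprF : ∀ y : kummerField L e F s, IsIntegral (Algebra.adjoin A {sEl L e F s}) y →
      ∃ x : F, inclBase L e F s x = pr y)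
    (hprB : ∀ y : kummerField L e F s, IsIntegral (Algebra.adjoin A {sEl L e F s}) y →
      IsIntegral (Algebra.adjoin A {sEl L e F s}) (pr y))
    (hpr_id : ∀ x : F, pr (inclBase L e F s x) = inclBase L e F s x)
    (hred : ∀ (z : kummerField L e F s) (hz : z ∈ gaussSubring (scalable_kummer hφ h hs)),
      rhoK hφ Fbar hFbar h hs ⟨z, hz⟩ = 0 →
        ∃ hz' : pr z ∈ gaussSubring (scalable_kummer hφ h hs),
          rhoK hφ Fbar hFbar h hs ⟨pr z, hz'⟩ = 0)
    -- geometric side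
    {kb Fb Fb' : Type*} [Field kb] [IsAlgClosed kb] [Algebra L kb] [Algebra.IsAlgebraic L kb]
    [Field Fb] [Algebra kb Fb] [Field Fb'] [Algebra kb Fb'] [Algebra Fb Fb']
    [IsScalarTower kb Fb Fb'] [Algebra.IsIntegral Fb Fb']
    [Algebra (kummerField L e F s) Fb'] [Algebra L Fb'] [IsScalarTower L (kummerField L e F s) Fb']
    [IsScalarTower L kb Fb']
    (tb : Fb)
    (hsb : (algebraMap (kummerField L e F s) Fb' (sEl L e F s)) ^ e = algebraMap Fb Fb' tb)
    (hgenb : Algebra.adjoin Fb {algebraMap (kummerField L e F s) Fb' (sEl L e F s)} = ⊤)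
    (htrb : Transcendental kb (algebraMap (kummerField L e F s) Fb' (sEl L e F s)))
    (hfinb : FiniteDimensional kb⟮algebraMap (kummerField L e F s) Fb' (sEl L e F s)⟯ Fb')
    (g : A[X]) (hg0 : g ≠ 0)
    (D5 : ∀ (v : Place kb Fb) (t0 : kb), t0 ≠ 0 → aeval t0 (g.map (algebraMap A L)) ≠ 0 →
      0 < v.ord (tb - algebraMap kb Fb t0) → v.ord (tb - algebraMap kb Fb t0) = 1)
    (htame : ∀ v : Place kb Fb, 0 < v.ord tb → v.ord tb ∣ (e : ℤ)) :
    ∃ k : ℕ, ∀ z : Fbar, IsIntegral (resB0 hτ (rhoBase hφ Fbar hFbar)).range z →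
      ∃ b : ↥(B0 A τ),
        resB0 hτ (rhoBase hφ Fbar hFbar)
            ⟨aeval τ (g.comp (X - Polynomial.C a)), aeval_mem_B0 _⟩ ^ k * z
          = resB0 hτ (rhoBase hφ Fbar hFbar) b :=
  hloc_gauss_kummer hφ h hs Fbar hFbar hu hsu hτ a ⟨u, hu⟩ ht_def (sEl L e F s) (sEl_pow hu hsu)
    (sEl_mem hφ h hs) (coordData_kummer hφ h hs hτ.irreducible hu hsu hutr hK₀ hb hcard)
    (adjoin_rhoK_sEl hφ h hs Fbar hFbar hu hsu)
    ht htO htbar n hn hnb pr hprF hprB hpr_id hred tb hsb hgenb htrb hfinb g hg0 D5 htame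

open Fermat.Agent.S18.ValExt.UniqueOfResidue in
include hu hsu in
set_option synthInstance.maxHeartbeats 400000 in
set_option maxHeartbeats 1000000 in
/-- normalisation (N2): upstairs coordinate `c = sEl⁻¹`, downstairs `t = u⁻¹`. -/
theorem hloc_gauss_kummer_sEl_inv
    {π : A} {τ : F} (hτ : GoodCoord π (gaussSubring hφ) τ) (a : A)
    (ht_def : (⟨u, hu⟩ : F)⁻¹ = τ - algebraMap A F a)
    (hutr : Transcendental (IsLocalRing.ResidueField A) (resT A u))
    (hK₀ : K₀ ≤ L⟮(⟨u, hu⟩ : F)⟯)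
    (hb : ResIndep (F := K₀) (gaussSubring hφ) b) [FiniteDimensional K₀ F]
    (hcard : Fintype.card ι = Module.finrank K₀ F)
    -- downstairs
    (ht : Transcendental A (⟨u, hu⟩ : F)⁻¹) (htO : (⟨u, hu⟩ : F)⁻¹ ∈ gaussSubring hφ)
    (htbar : ∀ p : A[X], (gaussSubring hφ).valuation (aeval (⟨u, hu⟩ : F)⁻¹ p) < 1 →
      ∀ i, π ∣ p.coeff i)
    [FiniteDimensional L⟮(⟨u, hu⟩ : F)⁻¹⟯ F] (n : ℕ)
    (hn : Module.finrank L⟮(⟨u, hu⟩ : F)⁻¹⟯ F = n)
    (hnb : Module.finrank
      (IsLocalRing.ResidueField A)⟮rhoBase hφ Fbar hFbar ⟨(⟨u, hu⟩ : F)⁻¹, htO⟩⟯ Fbar = n)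
    [Algebra.IsSeparable
      (IsLocalRing.ResidueField A)⟮rhoBase hφ Fbar hFbar ⟨(⟨u, hu⟩ : F)⁻¹, htO⟩⟯ Fbar]
    -- pr
    (pr : kummerField L e F s →+ kummerField L e F s)
    (hprF : ∀ y : kummerField L e F s, IsIntegral (Algebra.adjoin A {(sEl L e F s)⁻¹}) y →
      ∃ x : F, inclBase L e F s x = pr y)
    (hprB : ∀ y : kummerField L e F s, IsIntegral (Algebra.adjoin A {(sEl L e F s)⁻¹}) y →
      IsIntegral (Algebra.adjoin A {(sEl L e F s)⁻¹}) (pr y))
    (hpr_id : ∀ x : F, pr (inclBase L e F s x) = inclBase L e F s x)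
    (hred : ∀ (z : kummerField L e F s) (hz : z ∈ gaussSubring (scalable_kummer hφ h hs)),
      rhoK hφ Fbar hFbar h hs ⟨z, hz⟩ = 0 →
        ∃ hz' : pr z ∈ gaussSubring (scalable_kummer hφ h hs),
          rhoK hφ Fbar hFbar h hs ⟨pr z, hz'⟩ = 0)
    -- geometric side
    {kb Fb Fb' : Type*} [Field kb] [IsAlgClosed kb] [Algebra L kb] [Algebra.IsAlgebraic L kb]
    [Field Fb] [Algebra kb Fb] [Field Fb'] [Algebra kb Fb'] [Algebra Fb Fb']
    [IsScalarTower kb Fb Fb'] [Algebra.IsIntegral Fb Fb']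
    [Algebra (kummerField L e F s) Fb'] [Algebra L Fb'] [IsScalarTower L (kummerField L e F s) Fb']
    [IsScalarTower L kb Fb']
    (tb : Fb)
    (hsb : (algebraMap (kummerField L e F s) Fb' (sEl L e F s)⁻¹) ^ e = algebraMap Fb Fb' tb)
    (hgenb : Algebra.adjoin Fb {algebraMap (kummerField L e F s) Fb' (sEl L e F s)⁻¹} = ⊤)
    (htrb : Transcendental kb (algebraMap (kummerField L e F s) Fb' (sEl L e F s)⁻¹))
    (hfinb : FiniteDimensional kb⟮algebraMap (kummerField L e F s) Fb' (sEl L e F s)⁻¹⟯ Fb')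
    (g : A[X]) (hg0 : g ≠ 0)
    (D5 : ∀ (v : Place kb Fb) (t0 : kb), t0 ≠ 0 → aeval t0 (g.map (algebraMap A L)) ≠ 0 →
      0 < v.ord (tb - algebraMap kb Fb t0) → v.ord (tb - algebraMap kb Fb t0) = 1)
    (htame : ∀ v : Place kb Fb, 0 < v.ord tb → v.ord tb ∣ (e : ℤ)) :
    ∃ k : ℕ, ∀ z : Fbar, IsIntegral (resB0 hτ (rhoBase hφ Fbar hFbar)).range z →
      ∃ b : ↥(B0 A τ),
        resB0 hτ (rhoBase hφ Fbar hFbar)
            ⟨aeval τ (g.comp (X - Polynomial.C a)), aeval_mem_B0 _⟩ ^ k * z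
          = resB0 hτ (rhoBase hφ Fbar hFbar) b :=
  hloc_gauss_kummer hφ h hs Fbar hFbar hu hsu hτ a (⟨u, hu⟩ : F)⁻¹ ht_def (sEl L e F s)⁻¹
    (by rw [inv_pow, sEl_pow hu hsu, map_inv₀])
    (sEl_inv_mem hφ h hs) (coordData_kummer_inv hφ h hs hτ.irreducible hu hsu hutr hK₀ hb hcard)
    (adjoin_rhoK_sEl_inv hφ h hs Fbar hFbar hu hsu)
    ht htO htbar n hn hnb pr hprF hprB hpr_id hred tb hsb hgenb htrb hfinb g hg0 D5 htame

end Fermat.Agent.S18.Cusp.KummerGaussHloc
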