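import Mathlib
import Fermat.Agent.S18.Cusp.KummerGaussHloc

/-
S18 (project G), block CUSP (helper29): **`KummerGaussHloc.hloc_gauss_kummer_sEl` /
`hloc_gauss_kummer_sEl_inv` (helper3) with the geometric side instantiated at the concrete Kummer
field over the algebraically closed constant field `K`**: `kb := K`, `Fb := ↥FK`,
`Fb' := ↥(kummerField K e FK sK)`, `tb := ⟨uK, huK⟩` (N1) resp. `tb := ⟨uK, huK⟩⁻¹` (N2), with all
`Algebra`/`IsScalarTower` instances (`algInclBase`, `algUp`, `algL`) and `hsb hgenb htrb hfinb`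
discharged from `Cusp/KummerField.lean`.  Remaining geometric inputs: `uK ∈ FK`,
`sK ^ e = uK(q'ᵉ)`, the base change compatibility `hF`, `hsLK`, transcendence/finiteness of `uK`,
and `D5`, `htame` downstairs.
-/

set_option autoImplicit false
set_option linter.unusedSectionVars false
set_option linter.unusedVariables false
set_option linter.style.haveILetI false

noncomputable section

open HahnSeries ModularCurve IntermediateField Polynomial AlgebraicCurve

namespace Fermat.Agent.S18.Cusp.KummerFieldHloc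

open Fermat.Agent.S18.Cusp.Graded Fermat.Agent.S18.Cusp.Kummer Fermat.Agent.S18.Gauss.Basic
open Fermat.Agent.S18.Cusp.GaussKummer Fermat.Agent.S18.Cusp.KummerField
open Fermat.Agent.S18.Cusp.KummerCoord Fermat.Agent.S18.Cusp.KummerGaussHloc
open Fermat.Agent.S18.Core.Charts Fermat.Agent.S18.Cusp.ChartLocalOK
open Fermat.Agent.S18.Inst.Bundle

/-! ### Generic facts on inverses -/

section InvFacts

variable {K E : Type*} [Field K] [Field E] [Algebra K E]

theorem adjoin_simple_inv_eq (x : E) : K⟮x⁻¹⟯ = K⟮x⟯ := by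
  apply le_antisymm
  · rw [adjoin_simple_le_iff]
    exact inv_mem (mem_adjoin_simple_self K x)
  · rw [adjoin_simple_le_iff]
    have := inv_mem (mem_adjoin_simple_self K x⁻¹)
    rwa [inv_inv] at this

theorem transcendental_inv' {x : E} (hx : Transcendental K x) : Transcendental K x⁻¹ := by
  intro h
  apply hx
  have := h.inv
  rwa [inv_inv] at this

theorem finiteDimensional_adjoin_inv (x : E) [h : FiniteDimensional K⟮x⟯ E] :
    FiniteDimensional K⟮x⁻¹⟯ E := by
  rw [adjoin_simple_inv_eq]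
  exact h

/-- if `x` generates the field `E` as a `K`-algebra, so does `x⁻¹` (`E / K` integral). -/
theorem algebra_adjoin_inv_eq_top [Algebra.IsIntegral K E] {x : E}
    (hgen : Algebra.adjoin K {x} = ⊤) : Algebra.adjoin K {x⁻¹} = ⊤ := by
  rw [eq_top_iff, ← hgen]
  refine Algebra.adjoin_le ?_
  intro y hy
  rw [Set.mem_singleton_iff] at hy
  rw [hy]
  have hmem : x⁻¹ ∈ Algebra.adjoin K {x⁻¹} := Algebra.self_mem_adjoin_singleton K _
  have halg : IsAlgebraic K (x⁻¹) := (Algebra.IsIntegral.isIntegral (R := K) x⁻¹).isAlgebraic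
  have := (Algebra.adjoin K {x⁻¹}).inv_mem_of_algebraic (x := ⟨x⁻¹, hmem⟩) halg
  simpa using this

end InvFacts

variable {L : Type*} [Field L] [CharZero L] {A : ValuationSubring L} [IsDiscreteValuationRing A]
  {e : ℕ} [NeZero e]
  {F : IntermediateField L (LaurentSeries L)} {s : LaurentSeries L}
  (hφ : Scalable A (F.val : F →+* LaurentSeries L))
  (h : KummerData e (base0 L e F) s) (hs : GaussUnit A s)
  (Fbar : IntermediateField (IsLocalRing.ResidueField A)
    (LaurentSeries (IsLocalRing.ResidueField A)))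
  (hFbar : Set.range (resMap hφ) = (Fbar : Set (LaurentSeries (IsLocalRing.ResidueField A))))
  {u : LaurentSeries L} (hu : u ∈ F) (hsu : s ^ e = qExpand L e u)

variable {K₀ : IntermediateField L F} {ι : Type*} [Fintype ι] {b : ι → F}

open Fermat.Agent.S18.ValExt.UniqueOfResidue in
include hu hsu in
set_option synthInstance.maxHeartbeats 400000 in
set_option maxHeartbeats 2000000 in
/-- (N1) upstairs coordinate `c = sEl`, downstairs `t = u`; geometric side at `kummerField K e FK sK`,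
`tb = ⟨uK, huK⟩`. -/
theorem hloc_kummerField
    {π : A} {τ : F} (hτ : GoodCoord π (gaussSubring hφ) τ) (a : A)
    (ht_def : (⟨u, hu⟩ : F) = τ - algebraMap A F a)
    (hutr : Transcendental (IsLocalRing.ResidueField A) (resT A u))
    (hK₀ : K₀ ≤ L⟮(⟨u, hu⟩ : F)⟯)
    (hb : ResIndep (F := K₀) (gaussSubring hφ) b) [FiniteDimensional K₀ F]
    (hcard : Fintype.card ι = Module.finrank K₀ F)
    -- downstairs
    (ht : Transcendental A (⟨u, hu⟩ : F)) (htO : (⟨u, hu⟩ : F) ∈ gaussSubring hφ)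
    (htbar : ∀ p : A[X], (gaussSubring hφ).valuation (aeval (⟨u, hu⟩ : F) p) < 1 →
      ∀ i, π ∣ p.coeff i)
    [FiniteDimensional L⟮(⟨u, hu⟩ : F)⟯ F] (n : ℕ) (hn : Module.finrank L⟮(⟨u, hu⟩ : F)⟯ F = n)
    (hnb : Module.finrank
      (IsLocalRing.ResidueField A)⟮rhoBase hφ Fbar hFbar ⟨(⟨u, hu⟩ : F), htO⟩⟯ Fbar = n)
    [Algebra.IsSeparable
      (IsLocalRing.ResidueField A)⟮rhoBase hφ Fbar hFbar ⟨(⟨u, hu⟩ : F), htO⟩⟯ Fbar]
    -- pr
    (pr : kummerField L e F s →+ kummerField L e F s)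
    (hprF : ∀ y : kummerField L e F s, IsIntegral (Algebra.adjoin A {sEl L e F s}) y →
      ∃ x : F, inclBase L e F s x = pr y)
    (hprB : ∀ y : kummerField L e F s, IsIntegral (Algebra.adjoin A {sEl L e F s}) y →
      IsIntegral (Algebra.adjoin A {sEl L e F s}) (pr y))
    (hpr_id : ∀ x : F, pr (inclBase L e F s x) = inclBase L e F s x)
    (hred : ∀ (z : kummerField L e F s) (hz : z ∈ gaussSubring (scalable_kummer hφ h hs)),
      rhoK hφ Fbar hFbar h hs ⟨z, hz⟩ = 0 →
        ∃ hz' : pr z ∈ gaussSubring (scalable_kummer hφ h hs),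
          rhoK hφ Fbar hFbar h hs ⟨pr z, hz'⟩ = 0)
    -- geometric side
    {K : Type*} [Field K] [IsAlgClosed K] [Algebra L K] [Algebra.IsAlgebraic L K]
    {FK : IntermediateField K (LaurentSeries K)} {sK uK : LaurentSeries K}
    (huK : uK ∈ FK) (hsuK : sK ^ e = qExpand K e uK)
    (hF : ∀ x ∈ F, coeffMap (algebraMap L K) x ∈ FK)
    (hsLK : coeffMap (algebraMap L K) s = sK)
    (htrK : Transcendental K (⟨uK, huK⟩ : FK)) [FiniteDimensional K⟮(⟨uK, huK⟩ : FK)⟯ FK]
    (g : A[X]) (hg0 : g ≠ 0)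
    (D5 : ∀ (v : Place K FK) (t0 : K), t0 ≠ 0 → aeval t0 (g.map (algebraMap A L)) ≠ 0 →
      0 < v.ord ((⟨uK, huK⟩ : FK) - algebraMap K FK t0) →
      v.ord ((⟨uK, huK⟩ : FK) - algebraMap K FK t0) = 1)
    (htame : ∀ v : Place K FK, 0 < v.ord (⟨uK, huK⟩ : FK) →
      v.ord (⟨uK, huK⟩ : FK) ∣ (e : ℤ)) :
    ∃ k : ℕ, ∀ z : Fbar, IsIntegral (resB0 hτ (rhoBase hφ Fbar hFbar)).range z →
      ∃ b : ↥(B0 A τ),
        resB0 hτ (rhoBase hφ Fbar hFbar)
            ⟨aeval τ (g.comp (X - Polynomial.C a)), aeval_mem_B0 _⟩ ^ k * z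
          = resB0 hτ (rhoBase hφ Fbar hFbar) b := by
  letI := algInclBase K e FK sK
  haveI := isScalarTower_inclBase K e FK sK
  haveI := isIntegral_kummerField huK hsuK
  letI := algL L e FK sK
  letI := algUp e hF hsLK
  haveI := isScalarTower_algL L e FK sK
  haveI := isScalarTower_algUp e hF hsLK
  have hup : algebraMap (kummerField L e F s) (kummerField K e FK sK) (sEl L e F s)
      = sEl K e FK sK := algebraMap_algUp_sEl e hF hsLK
  have hsb : (algebraMap (kummerField L e F s) (kummerField K e FK sK) (sEl L e F s)) ^ e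
      = algebraMap FK (kummerField K e FK sK) (⟨uK, huK⟩ : FK) := by
    rw [hup]; exact sEl_pow' huK hsuK
  have hgenb : Algebra.adjoin FK
      {algebraMap (kummerField L e F s) (kummerField K e FK sK) (sEl L e F s)} = ⊤ := by
    rw [hup]; exact adjoin_sEl_eq_top huK hsuK
  have htrb : Transcendental K
      (algebraMap (kummerField L e F s) (kummerField K e FK sK) (sEl L e F s)) := by
    rw [hup]; exact transcendental_sEl huK hsuK htrK
  have hfinb : FiniteDimensional
      K⟮algebraMap (kummerField L e F s) (kummerField K e FK sK) (sEl L e F s)⟯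
      (kummerField K e FK sK) := by
    rw [hup]; exact finiteDimensional_kummerField huK hsuK
  exact hloc_gauss_kummer_sEl hφ h hs Fbar hFbar hu hsu hτ a ht_def hutr hK₀ hb hcard
    ht htO htbar n hn hnb pr hprF hprB hpr_id hred (⟨uK, huK⟩ : FK) hsb hgenb htrb hfinb
    g hg0 D5 htame

open Fermat.Agent.S18.ValExt.UniqueOfResidue in
include hu hsu in
set_option synthInstance.maxHeartbeats 400000 in
set_option maxHeartbeats 2000000 in
/-- (N2) upstairs coordinate `c = sEl⁻¹`, downstairs `t = u⁻¹`; geometric side at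
`kummerField K e FK sK`, `tb = ⟨uK, huK⟩⁻¹`. -/
theorem hloc_kummerField_inv
    {π : A} {τ : F} (hτ : GoodCoord π (gaussSubring hφ) τ) (a : A)
    (ht_def : (⟨u, hu⟩ : F)⁻¹ = τ - algebraMap A F a)
    (hutr : Transcendental (IsLocalRing.ResidueField A) (resT A u))
    (hK₀ : K₀ ≤ L⟮(⟨u, hu⟩ : F)⟯)
    (hb : ResIndep (F := K₀) (gaussSubring hφ) b) [FiniteDimensional K₀ F]
    (hcard : Fintype.card ι = Module.finrank K₀ F)
    -- downstairs
    (ht : Transcendental A (⟨u, hu⟩ : F)⁻¹) (htO : (⟨u, hu⟩ : F)⁻¹ ∈ gaussSubring hφ)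
    (htbar : ∀ p : A[X], (gaussSubring hφ).valuation (aeval (⟨u, hu⟩ : F)⁻¹ p) < 1 →
      ∀ i, π ∣ p.coeff i)
    [FiniteDimensional L⟮(⟨u, hu⟩ : F)⁻¹⟯ F] (n : ℕ)
    (hn : Module.finrank L⟮(⟨u, hu⟩ : F)⁻¹⟯ F = n)
    (hnb : Module.finrank
      (IsLocalRing.ResidueField A)⟮rhoBase hφ Fbar hFbar ⟨(⟨u, hu⟩ : F)⁻¹, htO⟩⟯ Fbar = n)
    [Algebra.IsSeparable
      (IsLocalRing.ResidueField A)⟮rhoBase hφ Fbar hFbar ⟨(⟨u, hu⟩ : F)⁻¹, htO⟩⟯ Fbar]
    -- pr
    (pr : kummerField L e F s →+ kummerField L e F s)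
    (hprF : ∀ y : kummerField L e F s, IsIntegral (Algebra.adjoin A {(sEl L e F s)⁻¹}) y →
      ∃ x : F, inclBase L e F s x = pr y)
    (hprB : ∀ y : kummerField L e F s, IsIntegral (Algebra.adjoin A {(sEl L e F s)⁻¹}) y →
      IsIntegral (Algebra.adjoin A {(sEl L e F s)⁻¹}) (pr y))
    (hpr_id : ∀ x : F, pr (inclBase L e F s x) = inclBase L e F s x)
    (hred : ∀ (z : kummerField L e F s) (hz : z ∈ gaussSubring (scalable_kummer hφ h hs)),
      rhoK hφ Fbar hFbar h hs ⟨z, hz⟩ = 0 →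
        ∃ hz' : pr z ∈ gaussSubring (scalable_kummer hφ h hs),
          rhoK hφ Fbar hFbar h hs ⟨pr z, hz'⟩ = 0)
    -- geometric side
    {K : Type*} [Field K] [IsAlgClosed K] [Algebra L K] [Algebra.IsAlgebraic L K]
    {FK : IntermediateField K (LaurentSeries K)} {sK uK : LaurentSeries K}
    (huK : uK ∈ FK) (hsuK : sK ^ e = qExpand K e uK)
    (hF : ∀ x ∈ F, coeffMap (algebraMap L K) x ∈ FK)
    (hsLK : coeffMap (algebraMap L K) s = sK)
    (htrK : Transcendental K (⟨uK, huK⟩ : FK)) [FiniteDimensional K⟮(⟨uK, huK⟩ : FK)⟯ FK]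
    (g : A[X]) (hg0 : g ≠ 0)
    (D5 : ∀ (v : Place K FK) (t0 : K), t0 ≠ 0 → aeval t0 (g.map (algebraMap A L)) ≠ 0 →
      0 < v.ord ((⟨uK, huK⟩ : FK)⁻¹ - algebraMap K FK t0) →
      v.ord ((⟨uK, huK⟩ : FK)⁻¹ - algebraMap K FK t0) = 1)
    (htame : ∀ v : Place K FK, 0 < v.ord (⟨uK, huK⟩ : FK)⁻¹ →
      v.ord (⟨uK, huK⟩ : FK)⁻¹ ∣ (e : ℤ)) :
    ∃ k : ℕ, ∀ z : Fbar, IsIntegral (resB0 hτ (rhoBase hφ Fbar hFbar)).range z →
      ∃ b : ↥(B0 A τ),
        resB0 hτ (rhoBase hφ Fbar hFbar)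
            ⟨aeval τ (g.comp (X - Polynomial.C a)), aeval_mem_B0 _⟩ ^ k * z
          = resB0 hτ (rhoBase hφ Fbar hFbar) b := by
  letI := algInclBase K e FK sK
  haveI := isScalarTower_inclBase K e FK sK
  haveI := isIntegral_kummerField huK hsuK
  letI := algL L e FK sK
  letI := algUp e hF hsLK
  haveI := isScalarTower_algL L e FK sK
  haveI := isScalarTower_algUp e hF hsLK
  have hup : algebraMap (kummerField L e F s) (kummerField K e FK sK) (sEl L e F s)
      = sEl K e FK sK := algebraMap_algUp_sEl e hF hsLK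
  have hup' : algebraMap (kummerField L e F s) (kummerField K e FK sK) (sEl L e F s)⁻¹
      = (sEl K e FK sK)⁻¹ := by rw [map_inv₀, hup]
  have hsb : (algebraMap (kummerField L e F s) (kummerField K e FK sK) (sEl L e F s)⁻¹) ^ e
      = algebraMap FK (kummerField K e FK sK) (⟨uK, huK⟩ : FK)⁻¹ := by
    rw [hup', inv_pow, sEl_pow' huK hsuK, map_inv₀]
  have hgenb : Algebra.adjoin FK
      {algebraMap (kummerField L e F s) (kummerField K e FK sK) (sEl L e F s)⁻¹} = ⊤ := by
    rw [hup']; exact algebra_adjoin_inv_eq_top (adjoin_sEl_eq_top huK hsuK)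
  have htrb : Transcendental K
      (algebraMap (kummerField L e F s) (kummerField K e FK sK) (sEl L e F s)⁻¹) := by
    rw [hup']; exact transcendental_inv' (transcendental_sEl huK hsuK htrK)
  have hfinb : FiniteDimensional
      K⟮algebraMap (kummerField L e F s) (kummerField K e FK sK) (sEl L e F s)⁻¹⟯
      (kummerField K e FK sK) := by
    rw [hup']
    haveI := finiteDimensional_kummerField huK hsuK
    exact finiteDimensional_adjoin_inv (sEl K e FK sK)
  exact hloc_gauss_kummer_sEl_inv hφ h hs Fbar hFbar hu hsu hτ a ht_def hutr hK₀ hb hcard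
    ht htO htbar n hn hnb pr hprF hprB hpr_id hred (⟨uK, huK⟩ : FK)⁻¹ hsb hgenb htrb hfinb
    g hg0 D5 htame

end Fermat.Agent.S18.Cusp.KummerFieldHloc
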