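import Mathlib

/-!
# S18, block CUSP, leaf CU2: `e`-th roots of power series with constant coefficient `1`

If `e` is invertible in `R`, every `P : R⟦X⟧` with constant coefficient `1` has a unique `e`-th
root with constant coefficient `1` (Hensel in the `X`-adically complete ring `R⟦X⟧`);
the root is compatible with coefficient maps.
-/

set_option autoImplicit false

open PowerSeries Polynomial

namespace Fermat.Agent.S18.Cusp.Root

variable {R : Type*} [CommRing R]

/-- **Uniqueness.** -/
theorem root_unique {e : ℕ} (he : IsUnit (e : R)) {r₁ r₂ : PowerSeries R}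
    (h₁ : constantCoeff r₁ = 1) (h₂ : constantCoeff r₂ = 1) (h : r₁ ^ e = r₂ ^ e) : r₁ = r₂ := by
  have hgeom := Commute.geom_sum₂_mul (Commute.all r₁ r₂) e
  rw [h, sub_self] at hgeom
  have hunit : IsUnit (∑ i ∈ Finset.range e, r₁ ^ i * r₂ ^ (e - 1 - i)) := by
    rw [PowerSeries.isUnit_iff_constantCoeff]
    simp only [map_sum, map_mul, map_pow, h₁, h₂, one_pow, mul_one, Finset.sum_const,
      Finset.card_range, nsmul_eq_mul]
    exact he
  have := hunit.mul_right_eq_zero.mp (by rw [mul_comm] at hgeom; rw [mul_comm]; exact hgeom)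
  exact sub_eq_zero.mp this

/-- **Existence** (Hensel's lemma in `R⟦X⟧`). -/
theorem exists_root (e : ℕ) (he : IsUnit (e : R)) (P : PowerSeries R)
    (hP : constantCoeff P = 1) :
    ∃ r : PowerSeries R, constantCoeff r = 1 ∧ r ^ e = P := by
  rcases Nat.eq_zero_or_pos e with rfl | hpos
  · -- `R` is trivial
    have h01 : (0 : R) = 1 := by
      obtain ⟨u, hu⟩ := he
      have : (u : R) = 0 := by rw [hu]; simp
      have h1 : (1 : R) = u * ↑u⁻¹ := by simp
      rw [h1, this, zero_mul]
    have hsub : Subsingleton R := subsingleton_of_zero_eq_one h01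
    exact ⟨1, by simp, Subsingleton.elim _ _⟩
  have hH : HenselianRing (PowerSeries R) (Ideal.span {(PowerSeries.X : PowerSeries R)}) :=
    inferInstance
  set f : (PowerSeries R)[X] := Polynomial.X ^ e - Polynomial.C P with hf
  have hmonic : f.Monic := Polynomial.monic_X_pow_sub_C P hpos.ne'
  have heval : f.eval 1 ∈ Ideal.span {(PowerSeries.X : PowerSeries R)} := by
    rw [hf, Polynomial.eval_sub, Polynomial.eval_pow, Polynomial.eval_X, Polynomial.eval_C, one_pow,
      Ideal.mem_span_singleton, PowerSeries.X_dvd_iff]
    simp [hP]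
  have hder : IsUnit (Ideal.Quotient.mk (Ideal.span {(PowerSeries.X : PowerSeries R)})
      (f.derivative.eval 1)) := by
    have hd : f.derivative.eval 1 = ((e : ℕ) : PowerSeries R) := by
      rw [hf, Polynomial.derivative_sub, Polynomial.derivative_C, sub_zero,
        Polynomial.derivative_X_pow, Polynomial.eval_mul, Polynomial.eval_pow, Polynomial.eval_X,
        one_pow, mul_one]
      simp
    rw [hd]
    apply IsUnit.map
    have : ((e : ℕ) : PowerSeries R) = PowerSeries.C (e : R) := by simp
    rw [this]
    exact he.map _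
  obtain ⟨a, ha, ha1⟩ := hH.is_henselian f hmonic 1 heval hder
  refine ⟨a, ?_, ?_⟩
  · rw [Ideal.mem_span_singleton, PowerSeries.X_dvd_iff, map_sub, map_one, sub_eq_zero] at ha1
    exact ha1
  · rw [Polynomial.IsRoot, hf, Polynomial.eval_sub, Polynomial.eval_pow, Polynomial.eval_X,
      Polynomial.eval_C, sub_eq_zero] at ha
    exact ha

/-- The `e`-th root with constant coefficient `1`. -/
noncomputable def root (e : ℕ) (he : IsUnit (e : R)) (P : PowerSeries R)
    (hP : constantCoeff P = 1) : PowerSeries R :=
  (exists_root e he P hP).choose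

theorem constantCoeff_root (e : ℕ) (he : IsUnit (e : R)) (P : PowerSeries R)
    (hP : constantCoeff P = 1) : constantCoeff (root e he P hP) = 1 :=
  (exists_root e he P hP).choose_spec.1

theorem root_pow (e : ℕ) (he : IsUnit (e : R)) (P : PowerSeries R)
    (hP : constantCoeff P = 1) : root e he P hP ^ e = P :=
  (exists_root e he P hP).choose_spec.2

theorem eq_root {e : ℕ} (he : IsUnit (e : R)) {P r : PowerSeries R}
    (hP : constantCoeff P = 1) (hr : constantCoeff r = 1) (h : r ^ e = P) :
    r = root e he P hP :=
  root_unique he hr (constantCoeff_root e he P hP) (by rw [h, root_pow])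

/-- Compatibility with coefficient maps. -/
theorem map_root {S : Type*} [CommRing S] (φ : R →+* S) (e : ℕ) (he : IsUnit (e : R))
    (P : PowerSeries R) (hP : constantCoeff P = 1) :
    PowerSeries.map φ (root e he P hP) =
      root e (by simpa using he.map φ) (PowerSeries.map φ P)
        (by rw [← PowerSeries.coeff_zero_eq_constantCoeff_apply, PowerSeries.coeff_map,
          PowerSeries.coeff_zero_eq_constantCoeff_apply, hP, map_one]) := by
  apply eq_root
  · rw [← PowerSeries.coeff_zero_eq_constantCoeff_apply, PowerSeries.coeff_map,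
      PowerSeries.coeff_zero_eq_constantCoeff_apply, constantCoeff_root, map_one]
  · rw [← map_pow, root_pow]

/-- The root is a unit. -/
theorem isUnit_root (e : ℕ) (he : IsUnit (e : R)) (P : PowerSeries R)
    (hP : constantCoeff P = 1) : IsUnit (root e he P hP) := by
  rw [PowerSeries.isUnit_iff_constantCoeff, constantCoeff_root]
  exact isUnit_one

end Fermat.Agent.S18.Cusp.Root
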