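import Mathlib
import Fermat.Agent.S18.Cusp.Graded
import Fermat.Agent.S18.Cusp.Kummer
import Fermat.Agent.S18.Cusp.Root

set_option autoImplicit false
set_option linter.unusedSectionVars false

/-!
# S18 (CUSP, CU7): the `e`-th root of a Hauptmodul-shaped series `τ = q⁻¹ · P(q)`, `P(0) = 1`

Over a commutative ring `R` in which `e` is invertible, for `P : R⟦X⟧` with constant coefficient `1`
and `τ = q⁻¹ P(q)`:

* `sigmaOf = q'⁻¹ · r(q'ᵉ)` (`rᵉ = P`) satisfies `sigmaOf ^ e = τ(q'ᵉ)`, is homogeneous of degree `-1`;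
* `sOf = q' · r⁻¹(q'ᵉ)` is its inverse: homogeneous of degree `1`, `sOf ^ e * τ(q'ᵉ) = 1`;
* both commute with coefficient maps;
* over a field `L`, for a subfield `F ∋ τ`: `KummerData e F₀ sOf`, `F₀` the image of `F` under
  `q ↦ q'ᵉ`.
-/

noncomputable section

open HahnSeries ModularCurve

namespace Fermat.Agent.S18.Cusp.RootSeries

open Fermat.Agent.S18.Cusp.Graded Fermat.Agent.S18.Cusp.Kummer Fermat.Agent.S18.Cusp.Root

section Ring

variable {R : Type*} [CommRing R] (e : ℕ) [NeZero e] (he : IsUnit (e : R))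
  (P : PowerSeries R) (hP : PowerSeries.constantCoeff P = 1)

/-- the Hauptmodul-shaped series `τ = q⁻¹ P(q)`. -/
def tauOf : LaurentSeries R := single (-1 : ℤ) (1 : R) * ofPowerSeries ℤ R P

/-- `σ = q'⁻¹ r(q'ᵉ)` with `rᵉ = P`. -/
def sigmaOf : LaurentSeries R :=
  single (-1 : ℤ) (1 : R) * qExpand R e (ofPowerSeries ℤ R (root e he P hP))

/-- the inverse root `r⁻¹` as a power series. -/
def rootInv : PowerSeries R :=
  PowerSeries.invOfUnit (root e he P hP) 1

theorem root_mul_rootInv : root e he P hP * rootInv e he P hP = 1 := by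
  unfold rootInv
  apply PowerSeries.mul_invOfUnit
  rw [constantCoeff_root]
  rfl

/-- `s = q' r⁻¹(q'ᵉ)`. -/
def sOf : LaurentSeries R :=
  single (1 : ℤ) (1 : R) * qExpand R e (ofPowerSeries ℤ R (rootInv e he P hP))

theorem sOf_mul_sigmaOf : sOf e he P hP * sigmaOf e he P hP = 1 := by
  unfold sOf sigmaOf
  have h1 : single (1 : ℤ) (1 : R) * single (-1 : ℤ) (1 : R) = 1 := by
    rw [single_mul_single]
    simp
  calc single (1 : ℤ) (1 : R) * qExpand R e (ofPowerSeries ℤ R (rootInv e he P hP)) *
        (single (-1 : ℤ) (1 : R) * qExpand R e (ofPowerSeries ℤ R (root e he P hP)))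
      = (single (1 : ℤ) (1 : R) * single (-1 : ℤ) (1 : R)) *
          qExpand R e (ofPowerSeries ℤ R (root e he P hP * rootInv e he P hP)) := by
        rw [map_mul, map_mul]; ring
    _ = 1 := by rw [h1, root_mul_rootInv, map_one, map_one, mul_one]

theorem sigmaOf_pow : sigmaOf e he P hP ^ e = qExpand R e (tauOf P) := by
  unfold sigmaOf tauOf
  have h1 : (single (-1 : ℤ) (1 : R) : LaurentSeries R) ^ e = single ((e : ℤ) * (-1)) (1 : R) := by
    rw [single_pow]
    congr 1
    simp
  have h2 : qExpand R e (ofPowerSeries ℤ R (root e he P hP)) ^ e =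
      qExpand R e (ofPowerSeries ℤ R P) := by
    rw [← map_pow, ← map_pow, root_pow]
  rw [mul_pow, h1, h2, map_mul, qExpand_single]

theorem sOf_pow_mul : sOf e he P hP ^ e * qExpand R e (tauOf P) = 1 := by
  rw [← sigmaOf_pow e he P hP, ← mul_pow, sOf_mul_sigmaOf, one_pow]

theorem isHomog_sigmaOf : IsHomog e (-1) (sigmaOf e he P hP) := by
  have := (isHomog_single (e := e) (-1 : ℤ) (1 : R)).mul
    (isHomog_qExpand (e := e) (ofPowerSeries ℤ R (root e he P hP)))
  rw [add_zero] at this
  exact this

theorem isHomog_sOf : IsHomog e 1 (sOf e he P hP) := by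
  have := (isHomog_single (e := e) (1 : ℤ) (1 : R)).mul
    (isHomog_qExpand (e := e) (ofPowerSeries ℤ R (rootInv e he P hP)))
  rw [add_zero] at this
  exact this

theorem sOf_ne_zero [Nontrivial R] : sOf e he P hP ≠ 0 := by
  intro h
  have := sOf_mul_sigmaOf e he P hP
  rw [h, zero_mul] at this
  exact zero_ne_one this

theorem sigmaOf_ne_zero [Nontrivial R] : sigmaOf e he P hP ≠ 0 := by
  intro h
  have := sOf_mul_sigmaOf e he P hP
  rw [h, mul_zero] at this
  exact zero_ne_one this

end Ring

section Map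

variable {R S : Type*} [CommRing R] [CommRing S] (f : R →+* S) (e : ℕ) [NeZero e]
  (he : IsUnit (e : R)) (P : PowerSeries R) (hP : PowerSeries.constantCoeff P = 1)

theorem isUnit_map (f : R →+* S) (e : ℕ) (he : IsUnit (e : R)) : IsUnit (e : S) := by
  simpa using he.map f

theorem constantCoeff_map (f : R →+* S) (P : PowerSeries R)
    (hP : PowerSeries.constantCoeff P = 1) :
    PowerSeries.constantCoeff (PowerSeries.map f P) = 1 := by
  rw [← PowerSeries.coeff_zero_eq_constantCoeff_apply, PowerSeries.coeff_map,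
    PowerSeries.coeff_zero_eq_constantCoeff_apply, hP, map_one]

theorem coeffMap_ofPowerSeries' (Q : PowerSeries R) :
    coeffMap f (ofPowerSeries ℤ R Q) = ofPowerSeries ℤ S (PowerSeries.map f Q) := by
  ext n
  rw [coeffMap_coeff]
  by_cases hn : 0 ≤ n
  · obtain ⟨m, rfl⟩ := Int.eq_ofNat_of_zero_le hn
    rw [ofPowerSeries_apply_coeff, ofPowerSeries_apply_coeff, PowerSeries.coeff_map]
  · have h1 : (ofPowerSeries ℤ R Q).coeff n = 0 := by
      rw [ofPowerSeries_apply]
      apply embDomain_of_notMem_range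
      rintro ⟨m, hm⟩
      apply hn
      rw [← hm]
      simp
    have h2 : (ofPowerSeries ℤ S (PowerSeries.map f Q)).coeff n = 0 := by
      rw [ofPowerSeries_apply]
      apply embDomain_of_notMem_range
      rintro ⟨m, hm⟩
      apply hn
      rw [← hm]
      simp
    rw [h1, h2, map_zero]

theorem coeffMap_tauOf : coeffMap f (tauOf P) = tauOf (PowerSeries.map f P) := by
  unfold tauOf
  rw [map_mul, coeffMap_single, map_one, coeffMap_ofPowerSeries']

theorem coeffMap_sigmaOf :
    coeffMap f (sigmaOf e he P hP) =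
      sigmaOf e (isUnit_map f e he) (PowerSeries.map f P) (constantCoeff_map f P hP) := by
  unfold sigmaOf
  rw [map_mul, coeffMap_single, map_one, coeffMap_qExpand, coeffMap_ofPowerSeries', map_root]

theorem map_rootInv :
    PowerSeries.map f (rootInv e he P hP) =
      rootInv e (isUnit_map f e he) (PowerSeries.map f P) (constantCoeff_map f P hP) := by
  -- both are inverses of the same unit
  have h1 : PowerSeries.map f (root e he P hP) * PowerSeries.map f (rootInv e he P hP) = 1 := by
    rw [← map_mul, root_mul_rootInv, map_one]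
  have h2 := root_mul_rootInv e (isUnit_map f e he) (PowerSeries.map f P) (constantCoeff_map f P hP)
  rw [← map_root f e he P hP] at h2
  calc PowerSeries.map f (rootInv e he P hP)
      = PowerSeries.map f (rootInv e he P hP) *
          (PowerSeries.map f (root e he P hP) *
            rootInv e (isUnit_map f e he) (PowerSeries.map f P) (constantCoeff_map f P hP)) := by
        rw [h2, mul_one]
    _ = (PowerSeries.map f (root e he P hP) * PowerSeries.map f (rootInv e he P hP)) *
          rootInv e (isUnit_map f e he) (PowerSeries.map f P) (constantCoeff_map f P hP) := by ring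
    _ = _ := by rw [h1, one_mul]

theorem coeffMap_sOf :
    coeffMap f (sOf e he P hP) =
      sOf e (isUnit_map f e he) (PowerSeries.map f P) (constantCoeff_map f P hP) := by
  unfold sOf
  rw [map_mul, coeffMap_single, map_one, coeffMap_qExpand, coeffMap_ofPowerSeries', map_rootInv]

end Map

section Field

variable {L : Type*} [Field L] (e : ℕ) [NeZero e] (he : IsUnit (e : L))
  (P : PowerSeries L) (hP : PowerSeries.constantCoeff P = 1)

/-- `KummerData` for the image `F₀` of a subfield `F ∋ τ` under `q ↦ q'ᵉ` and `s = sOf`. -/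
theorem kummerData (F : Subfield (LaurentSeries L)) (hτ : tauOf P ∈ F) :
    KummerData e (F.map (qExpand L e)) (sOf e he P hP) where
  homog0 := by
    rintro x ⟨y, -, rfl⟩
    exact isHomog_qExpand y
  homog1 := isHomog_sOf e he P hP
  ne_zero := sOf_ne_zero e he P hP
  pow_mem := by
    have h := sOf_pow_mul e he P hP
    have hne : qExpand L e (tauOf P) ≠ 0 := by
      intro h0
      rw [h0, mul_zero] at h
      exact zero_ne_one h
    have : sOf e he P hP ^ e = (qExpand L e (tauOf P))⁻¹ := eq_inv_of_mul_eq_one_left h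
    rw [this]
    exact inv_mem ⟨_, hτ, rfl⟩

theorem sOf_inv : (sOf e he P hP)⁻¹ = sigmaOf e he P hP :=
  inv_eq_of_mul_eq_one_right (sOf_mul_sigmaOf e he P hP)

theorem sigmaOf_inv : (sigmaOf e he P hP)⁻¹ = sOf e he P hP :=
  inv_eq_of_mul_eq_one_left (sOf_mul_sigmaOf e he P hP)

/-- `sᵉ = (τ(q'ᵉ))⁻¹`. -/
theorem sOf_pow_eq_inv : sOf e he P hP ^ e = (qExpand L e (tauOf P))⁻¹ :=
  eq_inv_of_mul_eq_one_left (sOf_pow_mul e he P hP)

/-- **(Gs)**: if `P` comes from a subring-like `A → L` with `e` invertible in `A`, then `s` and `s⁻¹`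
are the images of Laurent series over `A`. -/
theorem exists_lift {A : Type*} [CommRing A] (f : A →+* L) (heA : IsUnit (e : A))
    (PA : PowerSeries A) (hPA : PowerSeries.constantCoeff PA = 1)
    (hmap : PowerSeries.map f PA = P) :
    ∃ S S' : LaurentSeries A, coeffMap f S = sOf e he P hP ∧ coeffMap f S' = (sOf e he P hP)⁻¹ := by
  subst hmap
  refine ⟨sOf e heA PA hPA, sigmaOf e heA PA hPA, ?_, ?_⟩
  · rw [coeffMap_sOf]
  · rw [sOf_inv, coeffMap_sigmaOf]

end Field

end Fermat.Agent.S18.Cusp.RootSeries
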