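import Mathlib
import Fermat.Agent.S18.Cusp.RootSeries
import Fermat.Agent.S18.Haupt.Level4ModC
import Fermat.Agent.S18.Haupt9.ModC

set_option autoImplicit false
set_option linter.unusedSectionVars false

/-!
# S18 (CUSP, CU7b): the root series at a finite cusp value `a`, both levels

For `τ = q⁻¹ P(q)` (`P(0) = 1`) and a constant `a`: `τ - a = q⁻¹ (P - a q)`, again of the same shape,
so `Cusp/RootSeries.lean` applies to the coordinate `τ - a` vanishing at the cusp value `a`.
Instances: `t4C R` (level 4) and `t9C R` (level 9).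
-/

noncomputable section

open HahnSeries ModularCurve

namespace Fermat.Agent.S18.Cusp.HauptSeries

open Fermat.Agent.S18.Cusp.Graded Fermat.Agent.S18.Cusp.Kummer Fermat.Agent.S18.Cusp.RootSeries

section Shift

variable {R : Type*} [CommRing R]

/-- `P - a X`: the numerator of `τ - a` for `τ = q⁻¹ P`. -/
def shiftP (P : PowerSeries R) (a : R) : PowerSeries R := P - PowerSeries.C a * PowerSeries.X

theorem constantCoeff_shiftP {P : PowerSeries R} (hP : PowerSeries.constantCoeff P = 1) (a : R) :
    PowerSeries.constantCoeff (shiftP P a) = 1 := by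
  unfold shiftP
  rw [map_sub, map_mul, PowerSeries.constantCoeff_X, mul_zero, sub_zero, hP]

@[simp] theorem shiftP_zero (P : PowerSeries R) : shiftP P 0 = P := by
  unfold shiftP
  rw [map_zero, zero_mul, sub_zero]

theorem map_shiftP {S : Type*} [CommRing S] (f : R →+* S) (P : PowerSeries R) (a : R) :
    PowerSeries.map f (shiftP P a) = shiftP (PowerSeries.map f P) (f a) := by
  unfold shiftP
  rw [map_sub, map_mul, PowerSeries.map_C, PowerSeries.map_X]

theorem tauOf_shiftP (P : PowerSeries R) (a : R) :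
    tauOf (shiftP P a) = tauOf P - HahnSeries.C a := by
  unfold tauOf shiftP
  rw [map_sub, mul_sub, map_mul, ofPowerSeries_C, ofPowerSeries_X]
  congr 1
  rw [mul_comm (HahnSeries.C a), ← mul_assoc, single_mul_single]
  simp

end Shift

section Levels

variable (R : Type*) [CommRing R]

/-- the level-4 numerator series over `R`. -/
def P4 : PowerSeries R := Fermat.Agent.S18.Haupt.TZ.map (Int.castRingHom R)

/-- the level-9 numerator series over `R`. -/
def P9 : PowerSeries R := Fermat.Agent.S18.Haupt9.tNum.map (Int.castRingHom R)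

theorem constantCoeff_P4 : PowerSeries.constantCoeff (P4 R) = 1 := by
  unfold P4
  rw [← PowerSeries.coeff_zero_eq_constantCoeff_apply, PowerSeries.coeff_map,
    PowerSeries.coeff_zero_eq_constantCoeff_apply, Fermat.Agent.S18.Haupt.constantCoeff_TZ]
  simp

theorem constantCoeff_P9 : PowerSeries.constantCoeff (P9 R) = 1 := by
  unfold P9
  rw [← PowerSeries.coeff_zero_eq_constantCoeff_apply, PowerSeries.coeff_map,
    PowerSeries.coeff_zero_eq_constantCoeff_apply, Fermat.Agent.S18.Haupt9.constantCoeff_tNum]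
  simp

theorem tauOf_P4 : tauOf (P4 R) = Fermat.Agent.S18.Haupt.t4C R := rfl

theorem tauOf_P9 : tauOf (P9 R) = Fermat.Agent.S18.Haupt9.t9C R := rfl

variable {R}

theorem map_P4 {S : Type*} [CommRing S] (f : R →+* S) : PowerSeries.map f (P4 R) = P4 S := by
  unfold P4
  rw [← RingHom.comp_apply (PowerSeries.map f) (PowerSeries.map (Int.castRingHom R)),
    ← PowerSeries.map_comp, RingHom.ext_int (f.comp (Int.castRingHom R)) (Int.castRingHom S)]

theorem map_P9 {S : Type*} [CommRing S] (f : R →+* S) : PowerSeries.map f (P9 R) = P9 S := by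
  unfold P9
  rw [← RingHom.comp_apply (PowerSeries.map f) (PowerSeries.map (Int.castRingHom R)),
    ← PowerSeries.map_comp, RingHom.ext_int (f.comp (Int.castRingHom R)) (Int.castRingHom S)]

/-- level 4: `t - a = q⁻¹ (P₄ - a q)`. -/
theorem tauOf_shiftP_P4 (a : R) :
    tauOf (shiftP (P4 R) a) = Fermat.Agent.S18.Haupt.t4C R - HahnSeries.C a := by
  rw [tauOf_shiftP, tauOf_P4]

/-- level 9: `t - a = q⁻¹ (P₉ - a q)`. -/
theorem tauOf_shiftP_P9 (a : R) :
    tauOf (shiftP (P9 R) a) = Fermat.Agent.S18.Haupt9.t9C R - HahnSeries.C a := by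
  rw [tauOf_shiftP, tauOf_P9]

end Levels

section CuspRoot

variable {R : Type*} [CommRing R] (e : ℕ) [NeZero e] (he : IsUnit (e : R))
  (P : PowerSeries R) (hP : PowerSeries.constantCoeff P = 1) (a : R)

/-- `s_a = (τ - a)^{-1/e}` as a series in `q' = q^{1/e}`. -/
def sAt : LaurentSeries R := sOf e he (shiftP P a) (constantCoeff_shiftP hP a)

/-- `σ_a = (τ - a)^{1/e}`. -/
def sigmaAt : LaurentSeries R := sigmaOf e he (shiftP P a) (constantCoeff_shiftP hP a)

theorem sigmaAt_pow : sigmaAt e he P hP a ^ e = qExpand R e (tauOf P - HahnSeries.C a) := by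
  unfold sigmaAt
  rw [sigmaOf_pow, tauOf_shiftP]

theorem sAt_pow_mul : sAt e he P hP a ^ e * qExpand R e (tauOf P - HahnSeries.C a) = 1 := by
  unfold sAt
  rw [← tauOf_shiftP, sOf_pow_mul]

theorem sAt_mul_sigmaAt : sAt e he P hP a * sigmaAt e he P hP a = 1 :=
  sOf_mul_sigmaOf e he _ _

theorem isHomog_sAt : IsHomog e 1 (sAt e he P hP a) := isHomog_sOf e he _ _

theorem isHomog_sigmaAt : IsHomog e (-1) (sigmaAt e he P hP a) := isHomog_sigmaOf e he _ _

theorem coeffMap_sAt {S : Type*} [CommRing S] (f : R →+* S) :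
    coeffMap f (sAt e he P hP a) =
      sAt e (isUnit_map f e he) (PowerSeries.map f P) (constantCoeff_map f P hP) (f a) := by
  unfold sAt
  rw [coeffMap_sOf]
  congr 1
  exact map_shiftP f P a

theorem coeffMap_sigmaAt {S : Type*} [CommRing S] (f : R →+* S) :
    coeffMap f (sigmaAt e he P hP a) =
      sigmaAt e (isUnit_map f e he) (PowerSeries.map f P) (constantCoeff_map f P hP) (f a) := by
  unfold sigmaAt
  rw [coeffMap_sigmaOf]
  congr 1
  exact map_shiftP f P a

end CuspRoot

section Field

variable {L : Type*} [Field L] (e : ℕ) [NeZero e] (he : IsUnit (e : L))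
  (P : PowerSeries L) (hP : PowerSeries.constantCoeff P = 1) (a : L)

theorem sAt_inv : (sAt e he P hP a)⁻¹ = sigmaAt e he P hP a := sOf_inv e he _ _

theorem sigmaAt_inv : (sigmaAt e he P hP a)⁻¹ = sAt e he P hP a := sigmaOf_inv e he _ _

/-- `KummerData` at the cusp value `a`, for a subfield `F` containing `τ` and the constants. -/
theorem kummerDataAt (F : Subfield (LaurentSeries L)) (hτ : tauOf P ∈ F)
    (ha : HahnSeries.C a ∈ F) :
    KummerData e (F.map (qExpand L e)) (sAt e he P hP a) := by
  unfold sAt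
  apply kummerData
  rw [tauOf_shiftP]
  exact sub_mem hτ ha

/-- `(Gs)` at the cusp value `a`: `s_a` and `s_a⁻¹` are images of series over `A`. -/
theorem exists_liftAt {A : Type*} [CommRing A] (f : A →+* L) (heA : IsUnit (e : A))
    (PA : PowerSeries A) (hPA : PowerSeries.constantCoeff PA = 1)
    (hmap : PowerSeries.map f PA = P) (aA : A) (haA : f aA = a) :
    ∃ S S' : LaurentSeries A, coeffMap f S = sAt e he P hP a ∧
      coeffMap f S' = (sAt e he P hP a)⁻¹ := by
  unfold sAt
  apply exists_lift e he _ _ f heA (shiftP PA aA) (constantCoeff_shiftP hPA aA)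
  rw [map_shiftP, hmap, haA]

end Field

end Fermat.Agent.S18.Cusp.HauptSeries
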