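import Mathlib
import Fermat.Agent.S18.Core.ChartsShift

/-!
# S18 (CUSP, CU-shift): the downstairs data of `chart_package_kummer` under a change of coordinate

`KummerInst.chart_package_kummer` / `KummerHloc.hloc_of_kummer_package` ask, for the coordinate
`t` vanishing at a cusp value, for the list

`ht : Transcendental R t`, `htO : t ∈ O`, `htbar`, `[FiniteDimensional L⟮t⟯ F]`,
`hn : finrank L⟮t⟯ F = n`, `hnb : finrank κ⟮ρ ⟨t, htO⟩⟯ E = n`, `[IsSeparable κ⟮ρ ⟨t, htO⟩⟯ E]`.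

The INST layer provides this list for the chart coordinate `τ` (the Hauptmodul).  This file
bundles the list as `DownData L π O ρ t n` and transfers it from `τ` to

* `τ - a` (`a ∈ R`), `DownData.sub`;
* `τ⁻¹`, `DownData.inv`;
* `(τ - a)⁻¹`, `DownData.sub_inv`, and `((τ - a)⁻¹)⁻¹`, `DownData.sub_inv_inv`
  (the two normalisations of the Kummer field at the cusp value `a`).

Also: `goodCoord_sub`, `goodCoord_sub_inv`, and the field-level transfer lemmas
`adjoin_simple_sub`, `finiteDimensional_of_adjoin_eq`, `finrank_of_adjoin_eq`,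
`isSeparable_of_adjoin_eq`.
-/

set_option autoImplicit false
set_option linter.unusedSectionVars false
set_option linter.unusedVariables false
set_option linter.style.haveILetI false

namespace Fermat.Agent.S18.Cusp.ShiftData

open Polynomial IntermediateField
open Fermat.Agent.S18.Core.Charts Fermat.Agent.S18.Core.ChartsShift

/-! ### field-level transfers along `K⟮y⟯ = K⟮x⟯` -/

section Generic

variable {K E : Type*} [Field K] [Field E] [Algebra K E]

/-- `K(x - c) = K(x)`. -/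
theorem adjoin_simple_sub (x : E) (c : K) : K⟮x - algebraMap K E c⟯ = K⟮x⟯ := by
  have h := adjoin_simple_add x (-c)
  rwa [map_neg, ← sub_eq_add_neg] at h

theorem finiteDimensional_of_adjoin_eq {x y : E} (h : K⟮y⟯ = K⟮x⟯)
    [FiniteDimensional K⟮x⟯ E] : FiniteDimensional K⟮y⟯ E := by
  rw [h]; infer_instance

theorem finrank_of_adjoin_eq {x y : E} (h : K⟮y⟯ = K⟮x⟯) :
    Module.finrank K⟮y⟯ E = Module.finrank K⟮x⟯ E := by
  rw [h]

theorem isSeparable_of_adjoin_eq {x y : E} (h : K⟮y⟯ = K⟮x⟯)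
    [Algebra.IsSeparable K⟮x⟯ E] : Algebra.IsSeparable K⟮y⟯ E := by
  rw [h]; infer_instance

end Generic

variable {R L F E : Type*} [CommRing R] [IsDomain R] [IsDiscreteValuationRing R]
  [Field L] [Algebra R L] [IsFractionRing R L]
  [Field F] [Algebra L F] [Algebra R F] [IsScalarTower R L F]
  [Field E] [Algebra (IsLocalRing.ResidueField R) E]

local notation "κ" => IsLocalRing.ResidueField R

/-! ### good coordinates -/

/-- `τ - a` is again a good coordinate (`a ∈ R`). -/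
theorem goodCoord_sub {π : R} {O : ValuationSubring F} {τ : F} (h : GoodCoord π O τ) (a : R) :
    GoodCoord π O (τ - algebraMap R F a) := by
  have h' := goodCoord_add h (-a)
  rwa [map_neg, ← sub_eq_add_neg] at h'

/-- `(τ - a)⁻¹` is a good coordinate. -/
theorem goodCoord_sub_inv {π : R} {O : ValuationSubring F} {τ : F} (h : GoodCoord π O τ)
    (a : R) : GoodCoord π O (τ - algebraMap R F a)⁻¹ :=
  (goodCoord_sub h a).inv

/-- `L(τ - a) = L(τ)` for `a ∈ R`. -/
theorem adjoin_simple_sub' (τ : F) (a : R) : L⟮τ - algebraMap R F a⟯ = L⟮τ⟯ := by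
  rw [IsScalarTower.algebraMap_apply R L F]
  exact adjoin_simple_sub τ _

/-- transcendence over `R` of `τ - a`. -/
theorem transcendental_sub {τ : F} (ht : Transcendental R τ) (a : R) :
    Transcendental R (τ - algebraMap R F a) := by
  have e : τ - algebraMap R F a = aeval τ (X - C a : R[X]) := by simp
  rw [e]
  refine ht.aeval _ ?_ ?_
  · rw [natDegree_X_sub_C]; exact one_ne_zero
  · rw [(monic_X_sub_C a).leadingCoeff]; exact one_mem _

/-- transcendence over `R` of `τ⁻¹`. -/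
theorem transcendental_inv {τ : F} (ht : Transcendental R τ) : Transcendental R τ⁻¹ :=
  fun halg => ht (IsAlgebraic.inv_iff.mp halg)

/-! ### the bundle -/

variable (L) in
/-- The downstairs hypothesis list of `chart_package_kummer` for the coordinate `t`. -/
structure DownData (π : R) (O : ValuationSubring F) (ρ : O →+* E) (t : F) (n : ℕ) : Prop where
  transc : Transcendental R t
  mem : t ∈ O
  tbar : ∀ p : R[X], O.valuation (aeval t p) < 1 → ∀ i, π ∣ p.coeff i
  finite : FiniteDimensional L⟮t⟯ F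
  finrank_eq : Module.finrank L⟮t⟯ F = n
  finrank_res : Module.finrank κ⟮ρ ⟨t, mem⟩⟯ E = n
  sep : Algebra.IsSeparable κ⟮ρ ⟨t, mem⟩⟯ E

variable {π : R} {O : ValuationSubring F} {ρ : O →+* E} {τ : F} {n : ℕ}

/-- the bundle from its unbundled form -/
theorem DownData.mk' (ht : Transcendental R τ) (htO : τ ∈ O)
    (htbar : ∀ p : R[X], O.valuation (aeval τ p) < 1 → ∀ i, π ∣ p.coeff i)
    [FiniteDimensional L⟮τ⟯ F] (hn : Module.finrank L⟮τ⟯ F = n)
    (hnb : Module.finrank κ⟮ρ ⟨τ, htO⟩⟯ E = n) [Algebra.IsSeparable κ⟮ρ ⟨τ, htO⟩⟯ E] :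
    DownData L π O ρ τ n :=
  ⟨ht, htO, htbar, inferInstance, hn, hnb, inferInstance⟩

/-- the bundle for a good coordinate -/
theorem DownData.of_goodCoord (h : GoodCoord π O τ) (ht : Transcendental R τ)
    [FiniteDimensional L⟮τ⟯ F] (hn : Module.finrank L⟮τ⟯ F = n)
    (hnb : Module.finrank κ⟮ρ ⟨τ, h.tau_mem⟩⟯ E = n)
    [Algebra.IsSeparable κ⟮ρ ⟨τ, h.tau_mem⟩⟯ E] :
    DownData L π O ρ τ n :=
  DownData.mk' ht h.tau_mem h.transc hn hnb

/-- transport along an equality of coordinates -/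
theorem DownData.congr {t t' : F} (hd : DownData L π O ρ t n) (e : t' = t) :
    DownData L π O ρ t' n := e ▸ hd

/-- residue of `τ - a`. -/
theorem rho_sub (hRO : ∀ r : R, algebraMap R F r ∈ O)
    (hρR : ∀ r : R, ρ ⟨algebraMap R F r, hRO r⟩ =
      algebraMap κ E (IsLocalRing.residue R r))
    (htO : τ ∈ O) (a : R) (hsub : τ - algebraMap R F a ∈ O) :
    ρ ⟨τ - algebraMap R F a, hsub⟩ =
      ρ ⟨τ, htO⟩ - algebraMap κ E (IsLocalRing.residue R a) := by
  have e : (⟨τ - algebraMap R F a, hsub⟩ : O) = ⟨τ, htO⟩ - ⟨algebraMap R F a, hRO a⟩ :=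
    Subtype.ext rfl
  rw [e, map_sub, hρR]

/-- residue of `τ⁻¹`. -/
theorem rho_inv (htO : τ ∈ O) (hinv : τ⁻¹ ∈ O) (h0 : τ ≠ 0) :
    ρ ⟨τ⁻¹, hinv⟩ = (ρ ⟨τ, htO⟩)⁻¹ := by
  apply eq_inv_of_mul_eq_one_left
  rw [← map_mul]
  have e : (⟨τ⁻¹, hinv⟩ : O) * ⟨τ, htO⟩ = 1 := Subtype.ext (inv_mul_cancel₀ h0)
  rw [e, map_one]

/-- **the data for `τ - a`.** -/
theorem DownData.sub (hd : DownData L π O ρ τ n) (h : GoodCoord π O τ)
    (hρR : ∀ r : R, ρ ⟨algebraMap R F r, h.algebraMap_mem r⟩ =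
      algebraMap κ E (IsLocalRing.residue R r)) (a : R) :
    DownData L π O ρ (τ - algebraMap R F a) n := by
  have hg := goodCoord_sub h a
  have hL : L⟮τ - algebraMap R F a⟯ = L⟮τ⟯ := adjoin_simple_sub' τ a
  have hr : ρ ⟨τ - algebraMap R F a, hg.tau_mem⟩ =
      ρ ⟨τ, hd.mem⟩ - algebraMap κ E (IsLocalRing.residue R a) :=
    rho_sub h.algebraMap_mem hρR hd.mem a hg.tau_mem
  have hκ : κ⟮ρ ⟨τ - algebraMap R F a, hg.tau_mem⟩⟯ = κ⟮ρ ⟨τ, hd.mem⟩⟯ := by
    rw [hr]; exact adjoin_simple_sub _ _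
  haveI := hd.finite
  haveI := hd.sep
  refine ⟨transcendental_sub hd.transc a, hg.tau_mem, hg.transc,
    finiteDimensional_of_adjoin_eq hL, ?_, ?_, isSeparable_of_adjoin_eq hκ⟩
  · rw [finrank_of_adjoin_eq hL]; exact hd.finrank_eq
  · rw [finrank_of_adjoin_eq hκ]; exact hd.finrank_res

/-- **the data for `τ⁻¹`.** -/
theorem DownData.inv (hd : DownData L π O ρ τ n) (h : GoodCoord π O τ) :
    DownData L π O ρ τ⁻¹ n := by
  have hg := h.inv
  have hL : L⟮τ⁻¹⟯ = L⟮τ⟯ := adjoin_simple_inv τ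
  have hr : ρ ⟨τ⁻¹, hg.tau_mem⟩ = (ρ ⟨τ, hd.mem⟩)⁻¹ :=
    rho_inv hd.mem hg.tau_mem h.tau_ne_zero
  have hκ : κ⟮ρ ⟨τ⁻¹, hg.tau_mem⟩⟯ = κ⟮ρ ⟨τ, hd.mem⟩⟯ := by
    rw [hr]; exact adjoin_simple_inv _
  haveI := hd.finite
  haveI := hd.sep
  refine ⟨transcendental_inv hd.transc, hg.tau_mem, hg.transc,
    finiteDimensional_of_adjoin_eq hL, ?_, ?_, isSeparable_of_adjoin_eq hκ⟩
  · rw [finrank_of_adjoin_eq hL]; exact hd.finrank_eq
  · rw [finrank_of_adjoin_eq hκ]; exact hd.finrank_res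

/-- the data for `(τ - a)⁻¹` (normalisation (N1) of the Kummer field at the cusp value `a`). -/
theorem DownData.sub_inv (hd : DownData L π O ρ τ n) (h : GoodCoord π O τ)
    (hρR : ∀ r : R, ρ ⟨algebraMap R F r, h.algebraMap_mem r⟩ =
      algebraMap κ E (IsLocalRing.residue R r)) (a : R) :
    DownData L π O ρ (τ - algebraMap R F a)⁻¹ n :=
  (hd.sub h hρR a).inv (goodCoord_sub h a)

/-- the data for `((τ - a)⁻¹)⁻¹` (normalisation (N2): the coordinate `τ - a` written as the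
inverse of the element `(τ - a)⁻¹` of the function field). -/
theorem DownData.sub_inv_inv (hd : DownData L π O ρ τ n) (h : GoodCoord π O τ)
    (hρR : ∀ r : R, ρ ⟨algebraMap R F r, h.algebraMap_mem r⟩ =
      algebraMap κ E (IsLocalRing.residue R r)) (a : R) :
    DownData L π O ρ ((τ - algebraMap R F a)⁻¹)⁻¹ n :=
  (hd.sub h hρR a).congr (inv_inv _)

/-- the data for `(τ⁻¹)⁻¹`. -/
theorem DownData.inv_inv (hd : DownData L π O ρ τ n) : DownData L π O ρ (τ⁻¹)⁻¹ n :=
  hd.congr (_root_.inv_inv _)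

end Fermat.Agent.S18.Cusp.ShiftData
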