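import Mathlib
import Fermat.Agent.S18.Cusp.KummerGaussHloc
import Fermat.Agent.S18.Cusp.HauptSeries
import Fermat.Agent.S18.Inst.LevelDown

/-!
# S18 (CUSP, level `4 ∣ M`): the Gauss-side inputs of `KummerGaussHloc` at a cusp value `a`

`L` a field of characteristic `0`, `A` a discrete valuation subring of `L` with residue
characteristic `ℓ ∤ M`, `4 ∣ M`, `FL := laurentBaseChange L (modularFunctionFieldFull M)`,
`τ := tEl M h4 = t₄`, `a ∈ A`, `e` a unit of `A`.

* `uS a = (t₄ - a)⁻¹ ∈ FL` (`uS_mem`, `uEl`, `uEl_eq`, `uEl_inv_eq`);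
* `sS A e he a = (t₄ - a)^{-1/e}` (`HauptSeries.sAt`), `sS_pow`, `kummerData4`, `gaussUnit4`;
* `hutr4` : the reduction of `(t₄ - a)⁻¹` is transcendental over `κ`;
* `adjoin_Jel_le4 : L(J) ≤ L((t₄ - a)⁻¹)`;
* `downData4_u`, `downData4_u_inv` : the downstairs lists for `(t₄ - a)⁻¹` and `t₄ - a` written
  as `⟨uS a, _⟩`, `⟨uS a, _⟩⁻¹` (the spellings of `hloc_gauss_kummer_sEl(_inv)`).
-/

set_option autoImplicit false
set_option linter.unusedSectionVars false
set_option linter.unusedVariables false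

noncomputable section

namespace Fermat.Agent.S18.Cusp.Level4Data

open Polynomial IsLocalRing IntermediateField ModularCurve HahnSeries
open Fermat.Agent.S18.Gauss.Basic Fermat.Agent.S18.Gauss.Residue
open Fermat.Agent.S18.Gauss
open Fermat.Agent.S18.Inst.Bundle Fermat.Agent.S18.Haupt Fermat.Agent.S18.Haupt.Level4Degree
open Fermat.Agent.S18.Trans Fermat.Agent.S18.Inst.Level4 Fermat.Agent.S18.Inst.Level4Final
open Fermat.Agent.S18.Inst.LevelDown
open Fermat.Agent.S18.Cusp.ShiftData Fermat.Agent.S18.Cusp.HauptSeries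
open Fermat.Agent.S18.Cusp.RootSeries Fermat.Agent.S18.Cusp.Graded Fermat.Agent.S18.Cusp.Kummer
open Fermat.Agent.S18.Cusp.GaussKummer Fermat.Agent.S18.Cusp.KummerField
open Fermat.Agent.S18.Core.Charts

set_option synthInstance.maxHeartbeats 400000

variable {L : Type*} [Field L] [Algebra ℚ L] (M : ℕ) [NeZero M] (h4 : 4 ∣ M)

/-- `u = (t₄ - a)⁻¹` as a series. -/
def uS (a : L) : LaurentSeries L := (t4C L - HahnSeries.C a)⁻¹

include h4 in
theorem uS_mem (a : L) : uS a ∈ laurentBaseChange L (modularFunctionFieldFull M) := by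
  unfold uS
  refine inv_mem (sub_mem (t4C_mem_laurentBaseChange L M h4) ?_)
  rw [← Fermat.Agent.S18.Core.ConstOfIntegral.algebraMap_laurent_eq_C]
  exact (laurentBaseChange L (modularFunctionFieldFull M)).algebraMap_mem a

/-- `u = (t₄ - a)⁻¹` as an element of `FL`. -/
abbrev uEl (a : L) : ↥(laurentBaseChange L (modularFunctionFieldFull M)) := ⟨uS a, uS_mem M h4 a⟩

variable {M}

theorem uEl_eq' (a : L) :
    uEl M h4 a = (tEl (L := L) M h4 -
      algebraMap L ↥(laurentBaseChange L (modularFunctionFieldFull M)) a)⁻¹ := by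
  apply Subtype.ext
  show uS a = ((t4C L : LaurentSeries L) - algebraMap L (LaurentSeries L) a)⁻¹
  rw [Fermat.Agent.S18.Core.ConstOfIntegral.algebraMap_laurent_eq_C]
  rfl

variable (A : ValuationSubring L)

theorem uEl_eq (a : A) :
    uEl M h4 (a : L) = (tEl (L := L) M h4 -
      algebraMap A ↥(laurentBaseChange L (modularFunctionFieldFull M)) a)⁻¹ :=
  uEl_eq' h4 (a : L)

theorem uEl_inv_eq (a : A) :
    (uEl M h4 (a : L))⁻¹ = tEl (L := L) M h4 -
      algebraMap A ↥(laurentBaseChange L (modularFunctionFieldFull M)) a := by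
  rw [uEl_eq, inv_inv]

/-! ### the root series -/

variable (e : ℕ) [NeZero e] (he : IsUnit (e : A))

include he in
theorem isUnit_cast : IsUnit (e : L) := by
  have h := he.map (algebraMap A L)
  rwa [map_natCast] at h

/-- `s = (t₄ - a)^{-1/e}` as a series in `q' = q^{1/e}`. -/
def sS (a : A) : LaurentSeries L :=
  sAt e (isUnit_cast A e he) (P4 L) (constantCoeff_P4 L) (a : L)

theorem sS_pow (a : A) : sS A e he a ^ e = qExpand L e (uS (a : L)) := by
  have h := sAt_pow_mul e (isUnit_cast A e he) (P4 L) (constantCoeff_P4 L) (a : L)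
  rw [tauOf_P4] at h
  unfold uS
  rw [map_inv₀]
  exact eq_inv_of_mul_eq_one_left h

theorem sS_ne_zero (a : A) : sS A e he a ≠ 0 := by
  intro h0
  have h := sAt_mul_sigmaAt e (isUnit_cast A e he) (P4 L) (constantCoeff_P4 L) (a : L)
  unfold sS at h0
  rw [h0, zero_mul] at h
  exact zero_ne_one h

include h4 in
theorem kummerData4 (a : A) :
    KummerData e (base0 L e (laurentBaseChange L (modularFunctionFieldFull M))) (sS A e he a) :=
  KummerField.kummerData (uS_mem M h4 (a : L)) (sS_pow A e he a)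
    (isHomog_sAt e (isUnit_cast A e he) (P4 L) (constantCoeff_P4 L) (a : L)) (sS_ne_zero A e he a)

theorem gaussUnit4 (a : A) : GaussUnit A (sS A e he a) := by
  obtain ⟨S, S', hS, hS'⟩ := exists_liftAt e (isUnit_cast A e he) (P4 L) (constantCoeff_P4 L)
    (a : L) A.subtype he (P4 A) (constantCoeff_P4 A) (map_P4 A.subtype) a rfl
  exact ⟨⟨S, hS⟩, ⟨S', hS'⟩⟩

/-! ### the Gauss side -/

variable {ℓ : ℕ} [Fact ℓ.Prime] [CharP (ResidueField A) ℓ] (hℓM : ¬ ℓ ∣ M)
  [IsDiscreteValuationRing A] {π : A} (hπ : Irreducible π)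

include hπ in
/-- the downstairs list for `(t₄ - a)⁻¹ = ⟨uS a, _⟩`. -/
theorem downData4_u (a : A) :
    DownData L π (ModularH.gaussVS A hℓM) (rho4 A hℓM) (uEl M h4 (a : L))
      (Module.finrank L⟮(tEl (L := L) M h4)⟯
        ↥(laurentBaseChange L (modularFunctionFieldFull M))) :=
  (downData4_sub_inv A hℓM h4 hπ a).congr (uEl_eq h4 A a)

include hπ in
/-- the downstairs list for `t₄ - a = ⟨uS a, _⟩⁻¹`. -/
theorem downData4_u_inv (a : A) :
    DownData L π (ModularH.gaussVS A hℓM) (rho4 A hℓM) (uEl M h4 (a : L))⁻¹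
      (Module.finrank L⟮(tEl (L := L) M h4)⟯
        ↥(laurentBaseChange L (modularFunctionFieldFull M))) :=
  (downData4_sub A hℓM h4 hπ a).congr (uEl_inv_eq h4 A a)

include h4 hℓM hπ in
/-- the reduction of `(t₄ - a)⁻¹` is `(t̄₄ - ā)⁻¹`. -/
theorem resT_uS (a : A) :
    resT A (uS (a : L)) = (t4C (ResidueField A) - HahnSeries.C (residue A a))⁻¹ := by
  have hd := downData4_u h4 A hℓM hπ a
  have hcd := coordData4 h4 A hℓM hπ
  have hconst := Inst.Haupt.val_algebraMap
    (laurentBaseChange L (modularFunctionFieldFull M))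
  have h1 : resT A (uS (a : L)) = ModularH.gaussRes A hℓM ⟨uEl M h4 (a : L), hd.mem⟩ :=
    (resMap_eq_resT A (ModularH.scalable A hℓM) ⟨uEl M h4 (a : L), hd.mem⟩).symm
  rw [h1]
  apply eq_inv_of_mul_eq_one_left
  have h2 : ModularH.gaussRes A hℓM ⟨tEl (L := L) M h4, hcd.good.tau_mem⟩ -
      ModularH.gaussRes A hℓM ⟨algebraMap A _ a, hcd.good.algebraMap_mem a⟩ =
      t4C (ResidueField A) - HahnSeries.C (residue A a) := by
    rw [gaussRes_tEl h4 A hℓM]
    congr 1
    exact resMap_algebraMap hconst (ModularH.scalable A hℓM) a _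
  rw [← h2, ← map_sub, ← map_mul]
  have h3 : (⟨uEl M h4 (a : L), hd.mem⟩ : ↥(ModularH.gaussVS A hℓM)) *
      (⟨tEl (L := L) M h4, hcd.good.tau_mem⟩ -
        ⟨algebraMap A _ a, hcd.good.algebraMap_mem a⟩) = 1 := by
    apply Subtype.ext
    show uEl M h4 (a : L) * (tEl (L := L) M h4 - algebraMap A _ a) = 1
    rw [uEl_eq h4 A a]
    exact inv_mul_cancel₀ (goodCoord_sub hcd.good a).tau_ne_zero
  rw [h3, map_one]

include h4 hℓM hπ in
/-- the reduction of `(t₄ - a)⁻¹` is transcendental over the residue field. -/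
theorem hutr4 (a : A) : Transcendental (ResidueField A) (resT A (uS (a : L))) := by
  rw [resT_uS h4 A hℓM hπ a]
  intro halg
  have h1 := IsAlgebraic.inv_iff.mp halg
  apply transcendental_t4C (ResidueField A)
  have h2 : IsAlgebraic (ResidueField A) (HahnSeries.C (residue A a) :
      LaurentSeries (ResidueField A)) := by
    rw [← Fermat.Agent.S18.Core.ConstOfIntegral.algebraMap_laurent_eq_C]
    exact isAlgebraic_algebraMap _
  have h3 := h1.add h2
  rwa [sub_add_cancel] at h3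

include h4 in
/-- `L(J) ≤ L((t₄ - a)⁻¹)`. -/
theorem adjoin_Jel_le4 (a : L) :
    L⟮Jel (Concrete.jqModC_mem L M)⟯ ≤ L⟮uEl M h4 a⟯ := by
  have h1 : L⟮uEl M h4 a⟯ = L⟮tEl (L := L) M h4⟯ := by
    rw [uEl_eq' h4 a, adjoin_simple_inv, ShiftData.adjoin_simple_sub]
  rw [h1]
  exact Inst.Haupt.adjoin_le (laurentBaseChange L (modularFunctionFieldFull M))
    (Concrete.jqModC_mem L M) (t4C_mem_laurentBaseChange L M h4) (transcendental_t4C L)
    (Rn L) (Dp L) (Dp_ne_zero (k := L)) (rel_t4C L)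

end Fermat.Agent.S18.Cusp.Level4Data
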