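/-
S18 block CUSP, leaf CU-D5-4 (helper28): the geometric (characteristic-zero) inputs of
`KummerHloc.hloc_of_kummer_package` / `KummerInst.chart_package_kummer` at level `4 ∣ M`, in their
exact shapes, for `Fb := FF M = ↥(modularFunctionFieldBar M)`, `kb := ℚ̄` and the three coordinates
vanishing at a cusp value:

* `tb = ⟨t₄ - a, _⟩` for ANY `a : ℚ̄` given as a series `tK = t4C ℚ̄ - C a` (general forms
  `D5_shift`, `htame_shift`, `htr_shift`, `hfin_shift`), in particular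
  `a = 0`  (`tK = t4C ℚ̄`,      `g = X + 16`) and
  `a = -16` (`tK = t4C ℚ̄ + 16`, `g = X - 16`);
* `tb = ⟨t₄⁻¹, _⟩` (`tK = (t4C ℚ̄)⁻¹`, `g = 16 X + 1`).

`D5`    : `∀ v t0, t0 ≠ 0 → aeval t0 (g.map (algebraMap R L)) ≠ 0 → 0 < v.ord (tb - t0) → v.ord (tb - t0) = 1`;
`htame` : `∀ v, 0 < v.ord tb → v.ord tb ∣ (e : ℤ)` for every multiple `e` of `M`;
`htr`   : `Transcendental ℚ̄ tb`;  `hfin` : `FiniteDimensional ℚ̄⟮tb⟯ (FF M)`.
All from helper4's `NoElliptic/{ShiftCoord, InvCoord}` and helper13's `Haupt/Level4Degree`.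
-/
import Mathlib
import Fermat.Agent.S24.FFHurwitzGlue
import Fermat.Agent.S18.Haupt.Level4Degree
import Fermat.Agent.S18.NoElliptic.ShiftCoord
import Fermat.Agent.S18.NoElliptic.InvCoord

set_option autoImplicit false
set_option linter.unusedSectionVars false

namespace Fermat.Agent.S18.Cusp.Level4D5

open AlgebraicCurve Polynomial IntermediateField ModularCurve
open Fermat.Agent.S24 Fermat.Agent.S24.BridgeInv Fermat.Agent.S24.PlaceAt
open Fermat.Agent.S18.Haupt Fermat.Agent.S18.Haupt.Level4Degree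
open Fermat.Agent.S18.NoElliptic.ShiftCoord Fermat.Agent.S18.NoElliptic.InvCoord

noncomputable section

variable (M : ℕ) [NeZero M] (h4 : 4 ∣ M)

/-! ### identification of the subtype elements -/

theorem coe_algebraMap_FF (a : Kbar) :
    ((algebraMap Kbar (FF M) a : FF M) : LaurentSeries Kbar) = HahnSeries.C a := by
  rw [IntermediateField.coe_algebraMap_apply, algebraMap_laurentSeries_eq_single,
    HahnSeries.C_apply]

/-- `⟨t4C ℚ̄ - C a, _⟩ = t4Bar - a`. -/
theorem mk_eq_sub (a : Kbar) {tK : LaurentSeries Kbar} (htK : tK ∈ modularFunctionFieldBar M)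
    (heq : tK = t4C Kbar - HahnSeries.C a) :
    (⟨tK, htK⟩ : FF M) = t4Bar M h4 - algebraMap Kbar (FF M) a := by
  apply Subtype.ext
  rw [AddSubgroupClass.coe_sub, coe_algebraMap_FF, coe_t4Bar_eq]
  exact heq

/-- `⟨(t4C ℚ̄)⁻¹, _⟩ = t4Bar⁻¹`. -/
theorem mk_eq_inv {tK : LaurentSeries Kbar} (htK : tK ∈ modularFunctionFieldBar M)
    (heq : tK = (t4C Kbar)⁻¹) : (⟨tK, htK⟩ : FF M) = (t4Bar M h4)⁻¹ := by
  apply Subtype.ext
  rw [IntermediateField.coe_inv, coe_t4Bar_eq]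
  exact heq

/-! ### the shifted coordinate `t₄ - a` -/

section Shift

variable (a : Kbar) {tK : LaurentSeries Kbar} (htK : tK ∈ modularFunctionFieldBar M)
  (heq : tK = t4C Kbar - HahnSeries.C a)

include h4 heq

/-- (D5) for the coordinate `t₄ - a`, explicit form. -/
theorem D5_shift (v : Place Kbar (FF M)) (t0 : Kbar) (h0 : t0 + a ≠ 0) (h16 : t0 + a ≠ -16)
    (hv : 0 < v.ord ((⟨tK, htK⟩ : FF M) - algebraMap Kbar (FF M) t0)) :
    v.ord ((⟨tK, htK⟩ : FF M) - algebraMap Kbar (FF M) t0) = 1 := by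
  rw [mk_eq_sub M h4 a htK heq] at hv ⊢
  exact ord_t4Bar_shift_sub_eq_one M h4 v a t0 h0 h16 hv

/-- tameness for the coordinate `t₄ - a`. -/
theorem htame_shift (e : ℕ) (he : M ∣ e) (v : Place Kbar (FF M))
    (hv : 0 < v.ord (⟨tK, htK⟩ : FF M)) : v.ord (⟨tK, htK⟩ : FF M) ∣ (e : ℤ) := by
  rw [mk_eq_sub M h4 a htK heq] at hv ⊢
  exact (ord_t4Bar_sub_dvd_of_ne_zero M h4 v a hv.ne').trans (Int.natCast_dvd_natCast.mpr he)

/-- the coordinate `t₄ - a` is transcendental. -/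
theorem htr_shift : Transcendental Kbar (⟨tK, htK⟩ : FF M) := by
  rw [mk_eq_sub M h4 a htK heq]
  exact FFGlue.transcendental_sub_const (transcendental_t4Bar M h4) a

/-- `FF M` is finite over `ℚ̄(t₄ - a)`. -/
theorem hfin_shift : FiniteDimensional Kbar⟮(⟨tK, htK⟩ : FF M)⟯ (FF M) := by
  rw [mk_eq_sub M h4 a htK heq, FFGlue.adjoin_sub_const_eq]
  exact finiteDimensional_t4Bar M h4

end Shift

/-! ### the cusp value `0`: coordinate `t₄`, `g = X + 16` -/

section Zero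

variable {R L : Type*} [CommRing R] [Field L] [Algebra R L] [Algebra L Kbar]
  {tK : LaurentSeries Kbar} (htK : tK ∈ modularFunctionFieldBar M) (heq : tK = t4C Kbar)

include h4 heq

theorem heq_zero : tK = t4C Kbar - HahnSeries.C (0 : Kbar) := by
  rw [map_zero, sub_zero]; exact heq

/-- (D5) at the cusp value `0` in the exact shape of `hloc_of_kummer_package`. -/
theorem D5_zero : ∀ (v : Place Kbar (FF M)) (t0 : Kbar), t0 ≠ 0 →
    aeval t0 ((X + 16 : R[X]).map (algebraMap R L)) ≠ 0 →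
    0 < v.ord ((⟨tK, htK⟩ : FF M) - algebraMap Kbar (FF M) t0) →
    v.ord ((⟨tK, htK⟩ : FF M) - algebraMap Kbar (FF M) t0) = 1 := by
  intro v t0 h0 hg hv
  have hg' : t0 + 16 ≠ 0 := by
    simpa only [Polynomial.map_add, Polynomial.map_X, Polynomial.map_ofNat, map_add, aeval_X,
      map_ofNat] using hg
  refine D5_shift M h4 0 htK (heq_zero M h4 heq) v t0 (by rwa [add_zero]) (fun h => hg' ?_) hv
  rw [add_zero] at h
  rw [h]; norm_num

theorem htame_zero (e : ℕ) (he : M ∣ e) : ∀ v : Place Kbar (FF M),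
    0 < v.ord (⟨tK, htK⟩ : FF M) → v.ord (⟨tK, htK⟩ : FF M) ∣ (e : ℤ) :=
  htame_shift M h4 0 htK (heq_zero M h4 heq) e he

theorem htr_zero : Transcendental Kbar (⟨tK, htK⟩ : FF M) :=
  htr_shift M h4 0 htK (heq_zero M h4 heq)

theorem hfin_zero : FiniteDimensional Kbar⟮(⟨tK, htK⟩ : FF M)⟯ (FF M) :=
  hfin_shift M h4 0 htK (heq_zero M h4 heq)

end Zero

/-! ### the cusp value `-16`: coordinate `t₄ + 16`, `g = X - 16` -/

section Sixteen

variable {R L : Type*} [CommRing R] [Field L] [Algebra R L] [Algebra L Kbar]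
  {tK : LaurentSeries Kbar} (htK : tK ∈ modularFunctionFieldBar M) (heq : tK = t4C Kbar + 16)

include h4 heq

theorem heq_sixteen : tK = t4C Kbar - HahnSeries.C (-16 : Kbar) := by
  rw [map_neg, sub_neg_eq_add, map_ofNat]; exact heq

/-- (D5) at the cusp value `-16` in the exact shape of `hloc_of_kummer_package`. -/
theorem D5_sixteen : ∀ (v : Place Kbar (FF M)) (t0 : Kbar), t0 ≠ 0 →
    aeval t0 ((X - 16 : R[X]).map (algebraMap R L)) ≠ 0 →
    0 < v.ord ((⟨tK, htK⟩ : FF M) - algebraMap Kbar (FF M) t0) →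
    v.ord ((⟨tK, htK⟩ : FF M) - algebraMap Kbar (FF M) t0) = 1 := by
  intro v t0 h0 hg hv
  have hg' : t0 - 16 ≠ 0 := by
    simpa only [Polynomial.map_sub, Polynomial.map_X, Polynomial.map_ofNat, map_sub, aeval_X,
      map_ofNat] using hg
  refine D5_shift M h4 (-16) htK (heq_sixteen M h4 heq) v t0 (fun h => hg' ?_) (fun h => h0 ?_) hv
  · rw [← h]; ring
  · linear_combination h

theorem htame_sixteen (e : ℕ) (he : M ∣ e) : ∀ v : Place Kbar (FF M),
    0 < v.ord (⟨tK, htK⟩ : FF M) → v.ord (⟨tK, htK⟩ : FF M) ∣ (e : ℤ) :=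
  htame_shift M h4 (-16) htK (heq_sixteen M h4 heq) e he

theorem htr_sixteen : Transcendental Kbar (⟨tK, htK⟩ : FF M) :=
  htr_shift M h4 (-16) htK (heq_sixteen M h4 heq)

theorem hfin_sixteen : FiniteDimensional Kbar⟮(⟨tK, htK⟩ : FF M)⟯ (FF M) :=
  hfin_shift M h4 (-16) htK (heq_sixteen M h4 heq)

end Sixteen

/-! ### the cusp `∞`: coordinate `u = t₄⁻¹`, `g = 16 X + 1` -/

section Inv

variable {R L : Type*} [CommRing R] [Field L] [Algebra R L] [Algebra L Kbar]
  {tK : LaurentSeries Kbar} (htK : tK ∈ modularFunctionFieldBar M) (heq : tK = (t4C Kbar)⁻¹)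

include h4 heq

/-- (D5) at `u = 0` in the exact shape of `hloc_of_kummer_package`. -/
theorem D5_inv : ∀ (v : Place Kbar (FF M)) (u0 : Kbar), u0 ≠ 0 →
    aeval u0 ((16 * X + 1 : R[X]).map (algebraMap R L)) ≠ 0 →
    0 < v.ord ((⟨tK, htK⟩ : FF M) - algebraMap Kbar (FF M) u0) →
    v.ord ((⟨tK, htK⟩ : FF M) - algebraMap Kbar (FF M) u0) = 1 := by
  intro v u0 h0 hg hv
  have hg' : 16 * u0 + 1 ≠ 0 := by
    simpa only [Polynomial.map_add, Polynomial.map_mul, Polynomial.map_X, Polynomial.map_ofNat,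
      Polynomial.map_one, map_add, map_mul, aeval_X, map_ofNat, map_one] using hg
  rw [mk_eq_inv M h4 htK heq] at hv ⊢
  exact ord_t4Bar_inv_sub_eq_one M h4 v u0 h0 hg' hv

theorem htame_inv (e : ℕ) (he : M ∣ e) : ∀ v : Place Kbar (FF M),
    0 < v.ord (⟨tK, htK⟩ : FF M) → v.ord (⟨tK, htK⟩ : FF M) ∣ (e : ℤ) := by
  intro v hv
  rw [mk_eq_inv M h4 htK heq] at hv ⊢
  exact (ord_t4Bar_inv_dvd_of_pos M h4 v hv).trans (Int.natCast_dvd_natCast.mpr he)

theorem htr_inv : Transcendental Kbar (⟨tK, htK⟩ : FF M) := by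
  rw [mk_eq_inv M h4 htK heq]
  exact transcendental_t4Bar_inv M h4

theorem hfin_inv : FiniteDimensional Kbar⟮(⟨tK, htK⟩ : FF M)⟯ (FF M) := by
  rw [mk_eq_inv M h4 htK heq]
  exact finiteDimensional_t4Bar_inv M h4

end Inv

end

end Fermat.Agent.S18.Cusp.Level4D5
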