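import Mathlib

/-!
# S18 (CUSP, level 9): the algebra of the finite cusp values `0, ρ, ρ'` of the `t₉`-line

`t₉` is the Hauptmodul of `Γ₀(9)` with `j t⁹ (t² + 9 t + 27) = H(t)³`; the cusp values of the
`t`-line are `∞, 0` and the two roots `ρ, ρ' = -9 - ρ` of `X² + 9 X + 27`.  Over any commutative
ring `R` with `ρ : R`, `ρ² + 9 ρ + 27 = 0`:

* `ρ ρ' = 27`, `(ρ - ρ')² = -27`, `X² + 9 X + 27 = (X - ρ)(X - ρ')`;
* if `3` is a unit (e.g. at `ℓ = 2`), then `ρ, ρ', ρ - ρ'` are units: the three finite cusp values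
  stay pairwise distinct (and nonzero) modulo every maximal ideal;
* the cover polynomials `g₀ = (X - ρ)(X - ρ')`, `g_ρ = X (X - ρ')`, `g_ρ' = X (X - ρ)`
  (`g_a` = product over the other finite cusp values), their values `g_a(a)` (units), the Lagrange
  identity `∑ g_a / g_a(a) = 1`;
* generic Kummer substitution: if `σ ^ e = t - a` then `aeval σ (g.comp (X ^ e + C a)) = aeval t g`
  and `(g.comp (X ^ e + C a)).eval 0 = g.eval a`; the explicit `c'` polynomials at level 9;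
* the chart `1/t`: `s ^ e * t = 1`, `c' = 27 X^(2e) + 9 X^e + 1`;
* existence: `ρ = -3 + 3 ζ` for a primitive cube root of unity `ζ` (`ζ² + ζ + 1 = 0`).
-/

set_option autoImplicit false

namespace Fermat.Agent.S18.Cusp.Level9Poly

open Polynomial

noncomputable section

section Ring

variable {R : Type*} [CommRing R]

/-- the second root `ρ' = -9 - ρ` of `X² + 9 X + 27`. -/
def conj (ρ : R) : R := -9 - ρ

theorem conj_conj (ρ : R) : conj (conj ρ) = ρ := by
  unfold conj; ring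

theorem add_conj (ρ : R) : ρ + conj ρ = -9 := by
  unfold conj; ring

variable {ρ : R} (hρ : ρ ^ 2 + 9 * ρ + 27 = 0)

include hρ

theorem conj_root : conj ρ ^ 2 + 9 * conj ρ + 27 = 0 := by
  unfold conj; linear_combination hρ

theorem mul_conj : ρ * conj ρ = 27 := by
  unfold conj; linear_combination -hρ

theorem sub_conj_sq : (ρ - conj ρ) ^ 2 = -27 := by
  unfold conj; linear_combination 4 * hρ

/-- `X² + 9 X + 27 = (X - ρ)(X - ρ')`. -/
theorem quad_factor : (X ^ 2 + 9 * X + 27 : R[X]) = (X - C ρ) * (X - C (conj ρ)) := by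
  have h1 : (C ρ + C (conj ρ) : R[X]) = -9 := by
    rw [← C_add, add_conj, C_neg, show (C (9 : R) : R[X]) = 9 from map_ofNat C 9]
  have h2 : (C ρ * C (conj ρ) : R[X]) = 27 := by
    rw [← C_mul, mul_conj hρ, show (C (27 : R) : R[X]) = 27 from map_ofNat C 27]
  linear_combination X * h1 - h2

/-- element form of the factorisation, in any commutative `R`-algebra. -/
theorem quad_factor_apply {S : Type*} [CommRing S] [Algebra R S] (t : S) :
    t ^ 2 + 9 * t + 27 = (t - algebraMap R S ρ) * (t - algebraMap R S (conj ρ)) := by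
  have h := congrArg (aeval t) (quad_factor hρ)
  simpa only [map_add, map_mul, map_pow, map_sub, aeval_X, aeval_C, map_ofNat] using h

/-- the cusp polynomial `c = X (X² + 9 X + 27) = X (X - ρ)(X - ρ')`. -/
theorem cusp_factor :
    (X * (X ^ 2 + 9 * X + 27) : R[X]) = X * ((X - C ρ) * (X - C (conj ρ))) := by
  rw [quad_factor hρ]

/-! ### units when `3` is a unit -/

omit hρ in
theorem isUnit_twentyseven (h3 : IsUnit (3 : R)) : IsUnit (27 : R) := by
  have : (27 : R) = 3 ^ 3 := by norm_num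
  rw [this]
  exact h3.pow 3

theorem isUnit_root (h3 : IsUnit (3 : R)) : IsUnit ρ := by
  have h := isUnit_twentyseven h3
  rw [← mul_conj hρ] at h
  exact isUnit_of_mul_isUnit_left h

theorem isUnit_conj (h3 : IsUnit (3 : R)) : IsUnit (conj ρ) := by
  have h := isUnit_twentyseven h3
  rw [← mul_conj hρ] at h
  exact isUnit_of_mul_isUnit_right h

theorem isUnit_sub_conj (h3 : IsUnit (3 : R)) : IsUnit (ρ - conj ρ) := by
  have h : IsUnit ((ρ - conj ρ) ^ 2) := by
    rw [sub_conj_sq hρ]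
    exact (isUnit_twentyseven h3).neg
  exact (isUnit_pow_iff (by norm_num)).mp h

theorem isUnit_conj_sub (h3 : IsUnit (3 : R)) : IsUnit (conj ρ - ρ) := by
  have h := (isUnit_sub_conj hρ h3).neg
  rwa [neg_sub] at h

omit hρ

end Ring

/-! ### a field with `3 ≠ 0`: the three finite cusp values are pairwise distinct -/

section Field

variable {κ : Type*} [Field κ] {ρ : κ} (hρ : ρ ^ 2 + 9 * ρ + 27 = 0) (h3 : (3 : κ) ≠ 0)

include hρ h3

theorem root_ne_zero : ρ ≠ 0 := (isUnit_root hρ (isUnit_iff_ne_zero.mpr h3)).ne_zero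

theorem conj_ne_zero : conj ρ ≠ 0 := (isUnit_conj hρ (isUnit_iff_ne_zero.mpr h3)).ne_zero

theorem root_ne_conj : ρ ≠ conj ρ :=
  sub_ne_zero.mp (isUnit_sub_conj hρ (isUnit_iff_ne_zero.mpr h3)).ne_zero

/-- the finite cusp values `0, ρ, ρ'` as a family. -/
def cuspVal (ρ : κ) : Fin 3 → κ := ![0, ρ, conj ρ]

theorem cuspVal_injective : Function.Injective (cuspVal ρ) := by
  have h0 := root_ne_zero hρ h3
  have h1 := conj_ne_zero hρ h3
  have h2 := root_ne_conj hρ h3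
  intro i j hij
  fin_cases i <;> fin_cases j <;> simp_all [cuspVal]

omit hρ h3

end Field

/-! ### the cover polynomials `g_a` -/

section Cover

variable {R : Type*} [CommRing R]

/-- `g₀ = (X - ρ)(X - ρ')`, the product over the finite cusp values other than `0`. -/
def g0 (ρ : R) : R[X] := (X - C ρ) * (X - C (conj ρ))

/-- `g_ρ = X (X - ρ')`, the product over the finite cusp values other than `ρ`
(and `g_ρ' = gOf (conj ρ)`). -/
def gOf (ρ : R) : R[X] := X * (X - C (conj ρ))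

theorem eval_g0_zero (ρ : R) : (g0 ρ).eval 0 = ρ * conj ρ := by
  simp [g0]

theorem eval_gOf_self (ρ : R) : (gOf ρ).eval ρ = ρ * (ρ - conj ρ) := by
  simp [gOf]

theorem eval_gOf_conj (ρ : R) : (gOf (conj ρ)).eval (conj ρ) = conj ρ * (conj ρ - ρ) := by
  rw [eval_gOf_self, conj_conj]

variable {ρ : R} (hρ : ρ ^ 2 + 9 * ρ + 27 = 0)

include hρ

theorem g0_eq : g0 ρ = X ^ 2 + 9 * X + 27 := (quad_factor hρ).symm

theorem eval_g0_zero' : (g0 ρ).eval 0 = 27 := by
  rw [eval_g0_zero, mul_conj hρ]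

theorem isUnit_eval_g0 (h3 : IsUnit (3 : R)) : IsUnit ((g0 ρ).eval 0) := by
  rw [eval_g0_zero' hρ]
  exact isUnit_twentyseven h3

theorem isUnit_eval_gOf (h3 : IsUnit (3 : R)) : IsUnit ((gOf ρ).eval ρ) := by
  rw [eval_gOf_self]
  exact (isUnit_root hρ h3).mul (isUnit_sub_conj hρ h3)

theorem isUnit_eval_gOf_conj (h3 : IsUnit (3 : R)) :
    IsUnit ((gOf (conj ρ)).eval (conj ρ)) := by
  rw [eval_gOf_conj]
  exact (isUnit_conj hρ h3).mul (isUnit_conj_sub hρ h3)

/-- `g_a` and `X - a` multiply to the cusp polynomial `c = X (X² + 9 X + 27)`. -/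
theorem X_mul_g0 : X * g0 ρ = X * (X ^ 2 + 9 * X + 27) := by rw [g0_eq hρ]

theorem sub_mul_gOf : (X - C ρ) * gOf ρ = X * (X ^ 2 + 9 * X + 27) := by
  rw [quad_factor hρ, gOf]; ring

theorem sub_mul_gOf_conj : (X - C (conj ρ)) * gOf (conj ρ) = X * (X ^ 2 + 9 * X + 27) := by
  rw [quad_factor hρ, gOf, conj_conj]; ring

/-- **Lagrange**: with `u = 1/3`, `u³ g₀ - ρ'(ρ - ρ') u⁶ g_ρ + ρ (ρ - ρ') u⁶ g_ρ' = 1`;
so `g₀, g_ρ, g_ρ'` generate the unit ideal of `R[X]` as soon as `3` is a unit. -/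
theorem lagrange (u : R) (hu : 3 * u = 1) :
    C (u ^ 3) * g0 ρ + C (-(conj ρ * (ρ - conj ρ)) * u ^ 6) * gOf ρ
      + C (ρ * (ρ - conj ρ) * u ^ 6) * gOf (conj ρ) = 1 := by
  have e1 : (27 : R) * u ^ 3 = 1 := by
    have : (27 : R) * u ^ 3 = (3 * u) ^ 3 := by ring
    rw [this, hu, one_pow]
  have hm := mul_conj hρ
  have hs := sub_conj_sq hρ
  -- compare coefficients: both sides are polynomials of degree ≤ 2
  have k2 : u ^ 3 + -(conj ρ * (ρ - conj ρ)) * u ^ 6 + ρ * (ρ - conj ρ) * u ^ 6 = 0 := by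
    linear_combination (u ^ 6) * hs - (u ^ 3) * e1
  have k1 : u ^ 3 * (ρ + conj ρ) + -(conj ρ * (ρ - conj ρ)) * u ^ 6 * conj ρ
      + ρ * (ρ - conj ρ) * u ^ 6 * ρ = 0 := by
    linear_combination (ρ + conj ρ) * ((u ^ 6) * hs - (u ^ 3) * e1)
  have k0 : u ^ 3 * (ρ * conj ρ) = 1 := by
    linear_combination (u ^ 3) * hm + e1
  have key : C (u ^ 3) * g0 ρ + C (-(conj ρ * (ρ - conj ρ)) * u ^ 6) * gOf ρ
      + C (ρ * (ρ - conj ρ) * u ^ 6) * gOf (conj ρ)
      = C (u ^ 3 + -(conj ρ * (ρ - conj ρ)) * u ^ 6 + ρ * (ρ - conj ρ) * u ^ 6) * X ^ 2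
        - C (u ^ 3 * (ρ + conj ρ) + -(conj ρ * (ρ - conj ρ)) * u ^ 6 * conj ρ
          + ρ * (ρ - conj ρ) * u ^ 6 * ρ) * X
        + C (u ^ 3 * (ρ * conj ρ)) := by
    rw [g0, gOf, gOf, conj_conj]
    simp only [map_add, map_mul, map_neg, map_pow, map_sub]
    ring
  rw [key, k2, k1, k0, C_0, C_1]
  ring

omit hρ

end Cover

/-! ### the Kummer substitution `σ ^ e = t - a` -/

section Kummer

variable {R : Type*} [CommRing R]

/-- the polynomial `c' = g(X ^ e + a)`: the pull-back of `g` along `σ ↦ σ ^ e + a`. -/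
def pullPoly (e : ℕ) (a : R) (g : R[X]) : R[X] := g.comp (X ^ e + C a)

/-- if `σ ^ e = t - a` then `c'(σ) = g(t)`. -/
theorem aeval_pullPoly {S : Type*} [CommRing S] [Algebra R S] (e : ℕ) (a : R) (g : R[X])
    {σ t : S} (hσ : σ ^ e = t - algebraMap R S a) :
    aeval σ (pullPoly e a g) = aeval t g := by
  rw [pullPoly, aeval_comp]
  congr 1
  rw [map_add, map_pow, aeval_X, aeval_C, hσ, sub_add_cancel]

/-- `c'(0) = g(a)` for `e ≥ 1`. -/
theorem eval_zero_pullPoly {e : ℕ} (he : e ≠ 0) (a : R) (g : R[X]) :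
    (pullPoly e a g).eval 0 = g.eval a := by
  rw [pullPoly, eval_comp]
  congr 1
  simp [he]

theorem pullPoly_mul (e : ℕ) (a : R) (g h : R[X]) :
    pullPoly e a (g * h) = pullPoly e a g * pullPoly e a h := by
  simp [pullPoly]

theorem pullPoly_map {S : Type*} [CommRing S] (f : R →+* S) (e : ℕ) (a : R) (g : R[X]) :
    (pullPoly e a g).map f = pullPoly e (f a) (g.map f) := by
  rw [pullPoly, pullPoly, map_comp]
  simp

/-- level 9, `a = 0`: `c' = X^(2e) + 9 X^e + 27`. -/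
theorem pullPoly_zero_quad (e : ℕ) :
    pullPoly e (0 : R) (X ^ 2 + 9 * X + 27) = X ^ (2 * e) + 9 * X ^ e + 27 := by
  rw [pullPoly, C_0, add_zero, pow_mul']
  simp only [add_comp, mul_comp, pow_comp, X_comp, ofNat_comp, Nat.cast_ofNat]

/-- level 9, `a = ρ`: `c' = (X^e + ρ)(X^e + ρ - ρ')`. -/
theorem pullPoly_gOf (e : ℕ) (ρ : R) :
    pullPoly e ρ (gOf ρ) = (X ^ e + C ρ) * (X ^ e + C (ρ - conj ρ)) := by
  rw [pullPoly, gOf]
  simp only [mul_comp, sub_comp, X_comp, C_comp, C_sub]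
  ring

/-- the chart `1/t`: if `s ^ e * t = 1` then `(27 X^(2e) + 9 X^e + 1)(s) * t² = t² + 9 t + 27`. -/
theorem aeval_inv_chart {S : Type*} [CommRing S] [Algebra R S] (e : ℕ) {s t : S}
    (hs : s ^ e * t = 1) :
    aeval s (27 * X ^ (2 * e) + 9 * X ^ e + 1 : R[X]) * t ^ 2 = t ^ 2 + 9 * t + 27 := by
  have h2 : s ^ (2 * e) * t ^ 2 = 1 := by
    rw [pow_mul', ← mul_pow, hs, one_pow]
  simp only [map_add, map_mul, map_pow, aeval_X, map_ofNat, map_one]
  linear_combination 27 * h2 + 9 * t * hs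

/-- the chart `1/t`, in terms of `u = s ^ e`: `27 u² + 9 u + 1 = 27 (u - 1/ρ)(u - 1/ρ')`-shape:
`ρ ρ' (27 u² + 9 u + 1) = 27 (ρ u - 1)(ρ' u - 1)`. -/
theorem inv_chart_factor {ρ : R} (hρ : ρ ^ 2 + 9 * ρ + 27 = 0) (u : R) :
    27 * u ^ 2 + 9 * u + 1 = (1 - ρ * u) * (1 - conj ρ * u) := by
  have hm := mul_conj hρ
  have ha := add_conj ρ
  linear_combination (-(u ^ 2)) * hm + u * ha

end Kummer

/-! ### existence of `ρ` -/

section Exists

variable {R : Type*} [CommRing R]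

/-- `ρ = -3 + 3 ζ` is a root of `X² + 9 X + 27` when `ζ² + ζ + 1 = 0`. -/
theorem root_of_cubeRoot {ζ : R} (hζ : ζ ^ 2 + ζ + 1 = 0) :
    (-3 + 3 * ζ) ^ 2 + 9 * (-3 + 3 * ζ) + 27 = 0 := by
  linear_combination 9 * hζ

theorem conj_of_cubeRoot {ζ : R} (hζ : ζ ^ 2 + ζ + 1 = 0) :
    conj (-3 + 3 * ζ) = -3 + 3 * ζ ^ 2 := by
  unfold conj
  linear_combination (-3) * hζ

/-- an algebraically closed field contains a root. -/
theorem exists_root (K : Type*) [Field K] [IsAlgClosed K] :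
    ∃ ρ : K, ρ ^ 2 + 9 * ρ + 27 = 0 := by
  obtain ⟨ρ, hρ⟩ := IsAlgClosed.exists_root (X ^ 2 + 9 * X + 27 : K[X]) (by
    intro h
    have : (X ^ 2 + 9 * X + 27 : K[X]).degree = 2 := by compute_degree!
    rw [h] at this
    norm_num at this)
  refine ⟨ρ, ?_⟩
  simpa using hρ

end Exists

end

end Fermat.Agent.S18.Cusp.Level9Poly
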