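/-
S18 block CUSP, leaf CU-D5-9 (helper28): the geometric (characteristic-zero) inputs of
`KummerHloc.hloc_of_kummer_package` / `KummerInst.chart_package_kummer` at level `9 ∣ M`, in their
exact shapes, for `Fb := FF M = ↥(modularFunctionFieldBar M)`, `kb := ℚ̄` and the coordinates
vanishing at a cusp value (the level-9 twin of `Cusp/Level4D5.lean`):

* `tb = ⟨t₉ - a, _⟩` for ANY `a : ℚ̄` given as a series `tK = t9C ℚ̄ - C a` (general forms
  `D5_shift`, `D5_of_cover`, `htame_shift`, `htr_shift`, `hfin_shift`), in particular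
  `a = 0` (`tK = t9C ℚ̄`, `g = X² + 9 X + 27` or `g = Level9Poly.g0 r`) and
  `a = ρ` a root of `X² + 9 X + 27` coming from `r : R` (`g = (Level9Poly.gOf r).comp (X + C r)`,
  i.e. `g (t₉ - ρ) = gOf r (t₉)`);
* `tb = ⟨t₉⁻¹, _⟩` (`tK = (t9C ℚ̄)⁻¹`, `g = 27 X² + 9 X + 1`).

`D5`    : `∀ v t0, t0 ≠ 0 → aeval t0 (g.map (algebraMap R L)) ≠ 0 → 0 < v.ord (tb - t0) → v.ord (tb - t0) = 1`;
`htame` : `∀ v, 0 < v.ord tb → v.ord tb ∣ (e : ℤ)` for every multiple `e` of `M`;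
`htr`   : `Transcendental ℚ̄ tb`;  `hfin` : `FiniteDimensional ℚ̄⟮tb⟯ (FF M)`.
All from helper4's `NoElliptic/{ShiftCoord, InvCoord}` and helper21's `Haupt9/D5`.
-/
import Mathlib
import Fermat.Agent.S24.FFHurwitzGlue
import Fermat.Agent.S18.Haupt9.D5
import Fermat.Agent.S18.NoElliptic.ShiftCoord
import Fermat.Agent.S18.NoElliptic.InvCoord
import Fermat.Agent.S18.Cusp.Level9Poly

set_option autoImplicit false
set_option linter.unusedSectionVars false

namespace Fermat.Agent.S18.Cusp.Level9D5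

open AlgebraicCurve Polynomial IntermediateField ModularCurve
open Fermat.Agent.S24 Fermat.Agent.S24.BridgeInv Fermat.Agent.S24.PlaceAt
open Fermat.Agent.S18.Haupt9
open Fermat.Agent.S18.NoElliptic.ShiftCoord Fermat.Agent.S18.NoElliptic.InvCoord
open Fermat.Agent.S18.Cusp.Level9Poly

noncomputable section

variable (M : ℕ) [NeZero M] (h9 : 9 ∣ M)

/-! ### identification of the subtype elements -/

theorem coe_algebraMap_FF (a : Kbar) :
    ((algebraMap Kbar (FF M) a : FF M) : LaurentSeries Kbar) = HahnSeries.C a := by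
  rw [IntermediateField.coe_algebraMap_apply, algebraMap_laurentSeries_eq_single,
    HahnSeries.C_apply]

/-- `⟨t9C ℚ̄ - C a, _⟩ = t9Bar - a`. -/
theorem mk_eq_sub (a : Kbar) {tK : LaurentSeries Kbar} (htK : tK ∈ modularFunctionFieldBar M)
    (heq : tK = t9C Kbar - HahnSeries.C a) :
    (⟨tK, htK⟩ : FF M) = t9Bar M h9 - algebraMap Kbar (FF M) a := by
  apply Subtype.ext
  rw [AddSubgroupClass.coe_sub, coe_algebraMap_FF, coe_t9Bar_eq]
  exact heq

/-- `⟨(t9C ℚ̄)⁻¹, _⟩ = t9Bar⁻¹`. -/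
theorem mk_eq_inv {tK : LaurentSeries Kbar} (htK : tK ∈ modularFunctionFieldBar M)
    (heq : tK = (t9C Kbar)⁻¹) : (⟨tK, htK⟩ : FF M) = (t9Bar M h9)⁻¹ := by
  apply Subtype.ext
  rw [IntermediateField.coe_inv, coe_t9Bar_eq]
  exact heq

/-! ### the shifted coordinate `t₉ - a` -/

section Shift

variable (a : Kbar) {tK : LaurentSeries Kbar} (htK : tK ∈ modularFunctionFieldBar M)
  (heq : tK = t9C Kbar - HahnSeries.C a)

include h9 heq

/-- (D5) for the coordinate `t₉ - a`, explicit form. -/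
theorem D5_shift (v : Place Kbar (FF M)) (t0 : Kbar) (h0 : t0 + a ≠ 0)
    (h27 : (t0 + a) ^ 2 + 9 * (t0 + a) + 27 ≠ 0)
    (hv : 0 < v.ord ((⟨tK, htK⟩ : FF M) - algebraMap Kbar (FF M) t0)) :
    v.ord ((⟨tK, htK⟩ : FF M) - algebraMap Kbar (FF M) t0) = 1 := by
  rw [mk_eq_sub M h9 a htK heq] at hv ⊢
  exact ord_t9Bar_shift_sub_eq_one M h9 v a t0 h0 h27 hv

/-- (D5) for the coordinate `t₉ - a` in the exact shape, for any polynomial `g` whose
non-vanishing excludes the other cusp values. -/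
theorem D5_of_cover {R L : Type*} [CommRing R] [Field L] [Algebra R L] [Algebra L Kbar]
    (g : R[X])
    (hg : ∀ t0 : Kbar, t0 ≠ 0 → aeval t0 (g.map (algebraMap R L)) ≠ 0 →
      t0 + a ≠ 0 ∧ (t0 + a) ^ 2 + 9 * (t0 + a) + 27 ≠ 0) :
    ∀ (v : Place Kbar (FF M)) (t0 : Kbar), t0 ≠ 0 →
      aeval t0 (g.map (algebraMap R L)) ≠ 0 →
      0 < v.ord ((⟨tK, htK⟩ : FF M) - algebraMap Kbar (FF M) t0) →
      v.ord ((⟨tK, htK⟩ : FF M) - algebraMap Kbar (FF M) t0) = 1 := fun v t0 h0 hgt hv =>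
  D5_shift M h9 a htK heq v t0 (hg t0 h0 hgt).1 (hg t0 h0 hgt).2 hv

/-- tameness for the coordinate `t₉ - a`. -/
theorem htame_shift (e : ℕ) (he : M ∣ e) (v : Place Kbar (FF M))
    (hv : 0 < v.ord (⟨tK, htK⟩ : FF M)) : v.ord (⟨tK, htK⟩ : FF M) ∣ (e : ℤ) := by
  rw [mk_eq_sub M h9 a htK heq] at hv ⊢
  exact (ord_t9Bar_sub_dvd_of_ne_zero M h9 v a hv.ne').trans (Int.natCast_dvd_natCast.mpr he)

/-- the coordinate `t₉ - a` is transcendental. -/
theorem htr_shift : Transcendental Kbar (⟨tK, htK⟩ : FF M) := by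
  rw [mk_eq_sub M h9 a htK heq]
  exact FFGlue.transcendental_sub_const (transcendental_t9Bar M h9) a

/-- `FF M` is finite over `ℚ̄(t₉ - a)`. -/
theorem hfin_shift : FiniteDimensional Kbar⟮(⟨tK, htK⟩ : FF M)⟯ (FF M) := by
  rw [mk_eq_sub M h9 a htK heq, FFGlue.adjoin_sub_const_eq]
  exact finiteDimensional_t9Bar M h9

end Shift

/-! ### the cusp value `0`: coordinate `t₉`, `g = X² + 9 X + 27` -/

section Zero

variable {R L : Type*} [CommRing R] [Field L] [Algebra R L] [Algebra L Kbar]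
  {tK : LaurentSeries Kbar} (htK : tK ∈ modularFunctionFieldBar M) (heq : tK = t9C Kbar)

include h9 heq

theorem heq_zero : tK = t9C Kbar - HahnSeries.C (0 : Kbar) := by
  rw [map_zero, sub_zero]; exact heq

/-- (D5) at the cusp value `0` in the exact shape of `hloc_of_kummer_package`. -/
theorem D5_zero : ∀ (v : Place Kbar (FF M)) (t0 : Kbar), t0 ≠ 0 →
    aeval t0 ((X ^ 2 + 9 * X + 27 : R[X]).map (algebraMap R L)) ≠ 0 →
    0 < v.ord ((⟨tK, htK⟩ : FF M) - algebraMap Kbar (FF M) t0) →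
    v.ord ((⟨tK, htK⟩ : FF M) - algebraMap Kbar (FF M) t0) = 1 := by
  refine D5_of_cover M h9 0 htK (heq_zero M h9 heq) _ fun t0 h0 hg => ?_
  have hg' : t0 ^ 2 + 9 * t0 + 27 ≠ 0 := by
    simpa only [Polynomial.map_add, Polynomial.map_mul, Polynomial.map_pow, Polynomial.map_X,
      Polynomial.map_ofNat, map_add, map_mul, map_pow, aeval_X, map_ofNat] using hg
  rw [add_zero]
  exact ⟨h0, hg'⟩

/-- the same with `g = Level9Poly.g0 r`, `r` a root of `X² + 9 X + 27` in `R`. -/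
theorem D5_zero_g0 {r : R} (hr : r ^ 2 + 9 * r + 27 = 0) :
    ∀ (v : Place Kbar (FF M)) (t0 : Kbar), t0 ≠ 0 →
    aeval t0 ((g0 r).map (algebraMap R L)) ≠ 0 →
    0 < v.ord ((⟨tK, htK⟩ : FF M) - algebraMap Kbar (FF M) t0) →
    v.ord ((⟨tK, htK⟩ : FF M) - algebraMap Kbar (FF M) t0) = 1 := by
  rw [g0_eq hr]
  exact D5_zero M h9 htK heq

theorem htame_zero (e : ℕ) (he : M ∣ e) : ∀ v : Place Kbar (FF M),
    0 < v.ord (⟨tK, htK⟩ : FF M) → v.ord (⟨tK, htK⟩ : FF M) ∣ (e : ℤ) :=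
  htame_shift M h9 0 htK (heq_zero M h9 heq) e he

theorem htr_zero : Transcendental Kbar (⟨tK, htK⟩ : FF M) :=
  htr_shift M h9 0 htK (heq_zero M h9 heq)

theorem hfin_zero : FiniteDimensional Kbar⟮(⟨tK, htK⟩ : FF M)⟯ (FF M) :=
  hfin_shift M h9 0 htK (heq_zero M h9 heq)

end Zero

/-! ### a cusp value `ρ`, `ρ² + 9 ρ + 27 = 0`: coordinate `t₉ - ρ`,
`g = (gOf r).comp (X + C r)` -/

section Root

variable {R L : Type*} [CommRing R] [Field L] [Algebra R L] [Algebra L Kbar]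
  {r : R} (hr : r ^ 2 + 9 * r + 27 = 0)
  {tK : LaurentSeries Kbar} (htK : tK ∈ modularFunctionFieldBar M)
  (heq : tK = t9C Kbar - HahnSeries.C (algebraMap L Kbar (algebraMap R L r)))

include h9 hr heq

/-- the image of the root in `ℚ̄` is a root. -/
theorem root_map :
    (algebraMap L Kbar (algebraMap R L r)) ^ 2 + 9 * algebraMap L Kbar (algebraMap R L r) + 27
      = 0 := by
  have h := congrArg (fun x => algebraMap L Kbar (algebraMap R L x)) hr
  simpa only [map_add, map_mul, map_pow, map_ofNat, map_zero] using h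

/-- (D5) at the cusp value `ρ` in the exact shape of `hloc_of_kummer_package`, with
`g = (gOf r).comp (X + C r)` (so that `g.comp (X - C r) = gOf r`). -/
theorem D5_root : ∀ (v : Place Kbar (FF M)) (t0 : Kbar), t0 ≠ 0 →
    aeval t0 (((gOf r).comp (X + C r)).map (algebraMap R L)) ≠ 0 →
    0 < v.ord ((⟨tK, htK⟩ : FF M) - algebraMap Kbar (FF M) t0) →
    v.ord ((⟨tK, htK⟩ : FF M) - algebraMap Kbar (FF M) t0) = 1 := by
  refine D5_of_cover M h9 _ htK heq _ fun t0 h0 hg => ?_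
  set a : Kbar := algebraMap L Kbar (algebraMap R L r) with ha
  have hroot : a ^ 2 + 9 * a + 27 = 0 := root_map M h9 hr heq
  have hval : aeval t0 (((gOf r).comp (X + C r)).map (algebraMap R L))
      = (t0 + a) * (t0 + a - (-9 - a)) := by
    rw [Polynomial.map_comp, aeval_comp]
    simp only [gOf, Level9Poly.conj, Polynomial.map_add, Polynomial.map_mul, Polynomial.map_sub,
      Polynomial.map_X, Polynomial.map_C, Polynomial.map_neg, Polynomial.map_ofNat, map_add,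
      map_mul, map_sub, aeval_X, aeval_C, map_neg, map_ofNat, ← ha]
  rw [hval] at hg
  refine ⟨left_ne_zero_of_mul hg, ?_⟩
  have h2 : (t0 + a) ^ 2 + 9 * (t0 + a) + 27 = t0 * (t0 + a - (-9 - a)) := by
    linear_combination hroot
  rw [h2]
  exact mul_ne_zero h0 (right_ne_zero_of_mul hg)

theorem htame_root (e : ℕ) (he : M ∣ e) : ∀ v : Place Kbar (FF M),
    0 < v.ord (⟨tK, htK⟩ : FF M) → v.ord (⟨tK, htK⟩ : FF M) ∣ (e : ℤ) :=
  htame_shift M h9 _ htK heq e he

theorem htr_root : Transcendental Kbar (⟨tK, htK⟩ : FF M) :=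
  htr_shift M h9 _ htK heq

theorem hfin_root : FiniteDimensional Kbar⟮(⟨tK, htK⟩ : FF M)⟯ (FF M) :=
  hfin_shift M h9 _ htK heq

end Root

/-! ### the cusp `∞`: coordinate `u = t₉⁻¹`, `g = 27 X² + 9 X + 1` -/

section Inv

variable {R L : Type*} [CommRing R] [Field L] [Algebra R L] [Algebra L Kbar]
  {tK : LaurentSeries Kbar} (htK : tK ∈ modularFunctionFieldBar M) (heq : tK = (t9C Kbar)⁻¹)

include h9 heq

/-- (D5) at `u = 0` in the exact shape of `hloc_of_kummer_package`. -/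
theorem D5_inv : ∀ (v : Place Kbar (FF M)) (u0 : Kbar), u0 ≠ 0 →
    aeval u0 ((27 * X ^ 2 + 9 * X + 1 : R[X]).map (algebraMap R L)) ≠ 0 →
    0 < v.ord ((⟨tK, htK⟩ : FF M) - algebraMap Kbar (FF M) u0) →
    v.ord ((⟨tK, htK⟩ : FF M) - algebraMap Kbar (FF M) u0) = 1 := by
  intro v u0 h0 hg hv
  have hg' : 27 * u0 ^ 2 + 9 * u0 + 1 ≠ 0 := by
    simpa only [Polynomial.map_add, Polynomial.map_mul, Polynomial.map_pow, Polynomial.map_X,
      Polynomial.map_ofNat, Polynomial.map_one, map_add, map_mul, map_pow, aeval_X, map_ofNat,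
      map_one] using hg
  rw [mk_eq_inv M h9 htK heq] at hv ⊢
  exact ord_t9Bar_inv_sub_eq_one M h9 v u0 h0 hg' hv

theorem htame_inv (e : ℕ) (he : M ∣ e) : ∀ v : Place Kbar (FF M),
    0 < v.ord (⟨tK, htK⟩ : FF M) → v.ord (⟨tK, htK⟩ : FF M) ∣ (e : ℤ) := by
  intro v hv
  rw [mk_eq_inv M h9 htK heq] at hv ⊢
  exact (ord_t9Bar_inv_dvd_of_pos M h9 v hv).trans (Int.natCast_dvd_natCast.mpr he)

theorem htr_inv : Transcendental Kbar (⟨tK, htK⟩ : FF M) := by
  rw [mk_eq_inv M h9 htK heq]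
  exact transcendental_t9Bar_inv M h9

theorem hfin_inv : FiniteDimensional Kbar⟮(⟨tK, htK⟩ : FF M)⟯ (FF M) := by
  rw [mk_eq_inv M h9 htK heq]
  exact finiteDimensional_t9Bar_inv M h9

end Inv

end

end Fermat.Agent.S18.Cusp.Level9D5
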