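/-
S18 block CUSP (helper28): `C`-spelled variants of the (D5) statements of `Cusp/Level4D5.lean` and
`Cusp/Level9D5.lean`, for the cover polynomials in the spelling of `Final/Cusps`
(`G0 = ![X + C 16, X]`, `Ginf = C 16 * X + 1`; level 9: `Ginf = C 27 * X ^ 2 + C 9 * X + 1`).
-/
import Mathlib
import Fermat.Agent.S18.Cusp.Level4D5
import Fermat.Agent.S18.Cusp.Level9D5

set_option autoImplicit false
set_option linter.unusedSectionVars false

namespace Fermat.Agent.S18.Cusp.LevelD5C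

open AlgebraicCurve Polynomial IntermediateField ModularCurve
open Fermat.Agent.S24.BridgeInv
open Fermat.Agent.S18.Haupt Fermat.Agent.S18.Haupt9

noncomputable section

variable (M : ℕ) [NeZero M]
  {R L : Type*} [CommRing R] [Field L] [Algebra R L] [Algebra L Kbar]

theorem C_sixteen : (C (16 : R) : R[X]) = 16 := map_ofNat C 16

/-- level 4, cusp value `0`, `g = X + C 16`. -/
theorem D5_four_zero (h4 : 4 ∣ M) {tK : LaurentSeries Kbar}
    (htK : tK ∈ modularFunctionFieldBar M) (heq : tK = t4C Kbar) :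
    ∀ (v : Place Kbar (FF M)) (t0 : Kbar), t0 ≠ 0 →
    aeval t0 ((X + C (16 : R) : R[X]).map (algebraMap R L)) ≠ 0 →
    0 < v.ord ((⟨tK, htK⟩ : FF M) - algebraMap Kbar (FF M) t0) →
    v.ord ((⟨tK, htK⟩ : FF M) - algebraMap Kbar (FF M) t0) = 1 := by
  rw [C_sixteen]
  exact Level4D5.D5_zero M h4 htK heq

/-- level 4, cusp value `-16`, `g = X - C 16` (so that `g.comp (X + C 16) = X`). -/
theorem D5_four_sixteen (h4 : 4 ∣ M) {tK : LaurentSeries Kbar}
    (htK : tK ∈ modularFunctionFieldBar M) (heq : tK = t4C Kbar + 16) :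
    ∀ (v : Place Kbar (FF M)) (t0 : Kbar), t0 ≠ 0 →
    aeval t0 ((X - C (16 : R) : R[X]).map (algebraMap R L)) ≠ 0 →
    0 < v.ord ((⟨tK, htK⟩ : FF M) - algebraMap Kbar (FF M) t0) →
    v.ord ((⟨tK, htK⟩ : FF M) - algebraMap Kbar (FF M) t0) = 1 := by
  rw [C_sixteen]
  exact Level4D5.D5_sixteen M h4 htK heq

/-- level 4, cusp `∞`, `g = C 16 * X + 1`. -/
theorem D5_four_inv (h4 : 4 ∣ M) {tK : LaurentSeries Kbar}
    (htK : tK ∈ modularFunctionFieldBar M) (heq : tK = (t4C Kbar)⁻¹) :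
    ∀ (v : Place Kbar (FF M)) (u0 : Kbar), u0 ≠ 0 →
    aeval u0 ((C (16 : R) * X + 1 : R[X]).map (algebraMap R L)) ≠ 0 →
    0 < v.ord ((⟨tK, htK⟩ : FF M) - algebraMap Kbar (FF M) u0) →
    v.ord ((⟨tK, htK⟩ : FF M) - algebraMap Kbar (FF M) u0) = 1 := by
  rw [C_sixteen]
  exact Level4D5.D5_inv M h4 htK heq

/-- level 4, the coordinate `t₄ + 16` written as `t4C - C (-16)`. -/
theorem heq_sixteen_of_sub {tK : LaurentSeries Kbar}
    (heq : tK = t4C Kbar - HahnSeries.C (-16 : Kbar)) : tK = t4C Kbar + 16 := by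
  rw [heq, map_neg, sub_neg_eq_add, map_ofNat]

/-- level 9, cusp `∞`, `g = C 27 * X ^ 2 + C 9 * X + 1`. -/
theorem D5_nine_inv (h9 : 9 ∣ M) {tK : LaurentSeries Kbar}
    (htK : tK ∈ modularFunctionFieldBar M) (heq : tK = (t9C Kbar)⁻¹) :
    ∀ (v : Place Kbar (FF M)) (u0 : Kbar), u0 ≠ 0 →
    aeval u0 ((C (27 : R) * X ^ 2 + C (9 : R) * X + 1 : R[X]).map (algebraMap R L)) ≠ 0 →
    0 < v.ord ((⟨tK, htK⟩ : FF M) - algebraMap Kbar (FF M) u0) →
    v.ord ((⟨tK, htK⟩ : FF M) - algebraMap Kbar (FF M) u0) = 1 := by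
  rw [show (C (27 : R) : R[X]) = 27 from map_ofNat C 27,
    show (C (9 : R) : R[X]) = 9 from map_ofNat C 9]
  exact Level9D5.D5_inv M h9 htK heq

/-- level 9, cusp value `0`, `g = X ^ 2 + C 9 * X + C 27`. -/
theorem D5_nine_zero (h9 : 9 ∣ M) {tK : LaurentSeries Kbar}
    (htK : tK ∈ modularFunctionFieldBar M) (heq : tK = t9C Kbar) :
    ∀ (v : Place Kbar (FF M)) (t0 : Kbar), t0 ≠ 0 →
    aeval t0 ((X ^ 2 + C (9 : R) * X + C (27 : R) : R[X]).map (algebraMap R L)) ≠ 0 →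
    0 < v.ord ((⟨tK, htK⟩ : FF M) - algebraMap Kbar (FF M) t0) →
    v.ord ((⟨tK, htK⟩ : FF M) - algebraMap Kbar (FF M) t0) = 1 := by
  rw [show (C (27 : R) : R[X]) = 27 from map_ofNat C 27,
    show (C (9 : R) : R[X]) = 9 from map_ofNat C 9]
  exact Level9D5.D5_zero M h9 htK heq

end

end Fermat.Agent.S18.Cusp.LevelD5C
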