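/-
S18 block CUSP (helper28): coercion-form (`_coe`) variants of the geometric inputs
(D5, htame, htr, hfin) of `Cusp/Level4D5.lean`, `Cusp/Level9D5.lean`, `Cusp/LevelD5C.lean`:
the element `tb : FF M` is ARBITRARY and only its underlying series is prescribed
(`hcoe : (tb : LaurentSeries ℚ̄) = t4C ℚ̄ - C a`, `= (t4C ℚ̄)⁻¹`, ...), so that e.g.
`tb := (⟨uK, huK⟩ : FF M)⁻¹` with `uK = (t4C ℚ̄ - C a)⁻¹` (normalisation (N2) of the Kummer package)
is covered after `simp`-proving `hcoe`.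
-/
import Mathlib
import Fermat.Agent.S18.Cusp.LevelD5C

set_option autoImplicit false
set_option linter.unusedSectionVars false

namespace Fermat.Agent.S18.Cusp.LevelD5Coe

open AlgebraicCurve Polynomial IntermediateField ModularCurve
open Fermat.Agent.S24.BridgeInv
open Fermat.Agent.S18.Haupt Fermat.Agent.S18.Haupt9

noncomputable section

variable (M : ℕ) [NeZero M]

/-- an element of `FF M` with prescribed underlying series is the corresponding subtype
element. -/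
theorem exists_eq_mk {tb : FF M} {tK : LaurentSeries Kbar}
    (hcoe : (tb : LaurentSeries Kbar) = tK) :
    ∃ htK : tK ∈ modularFunctionFieldBar M, tb = ⟨tK, htK⟩ :=
  ⟨hcoe ▸ tb.2, Subtype.ext hcoe⟩

/-- the underlying series of an inverse. -/
theorem coe_inv_mk {uK : LaurentSeries Kbar} (huK : uK ∈ modularFunctionFieldBar M) :
    (((⟨uK, huK⟩ : FF M)⁻¹ : FF M) : LaurentSeries Kbar) = uK⁻¹ := rfl

/-- the underlying series of the inverse of `⟨(x)⁻¹, _⟩` is `x`. -/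
theorem coe_inv_mk_inv {x : LaurentSeries Kbar} (hx : x⁻¹ ∈ modularFunctionFieldBar M) :
    (((⟨x⁻¹, hx⟩ : FF M)⁻¹ : FF M) : LaurentSeries Kbar) = x := by
  rw [coe_inv_mk, inv_inv]

/-! ## level 4 -/

section Four

variable (h4 : 4 ∣ M)

section Shift

variable (a : Kbar) (tb : FF M) (hcoe : (tb : LaurentSeries Kbar) = t4C Kbar - HahnSeries.C a)

include h4 hcoe

theorem four_eq_sub : tb = t4Bar M h4 - algebraMap Kbar (FF M) a := by
  obtain ⟨htK, rfl⟩ := exists_eq_mk M hcoe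
  exact Level4D5.mk_eq_sub M h4 a htK rfl

theorem D5_four_shift (v : Place Kbar (FF M)) (t0 : Kbar) (h0 : t0 + a ≠ 0)
    (h16 : t0 + a ≠ -16) (hv : 0 < v.ord (tb - algebraMap Kbar (FF M) t0)) :
    v.ord (tb - algebraMap Kbar (FF M) t0) = 1 := by
  obtain ⟨htK, rfl⟩ := exists_eq_mk M hcoe
  exact Level4D5.D5_shift M h4 a htK rfl v t0 h0 h16 hv

/-- (D5) for `t₄ - a` in the exact shape, for any `g` whose non-vanishing excludes the other
cusp values. -/
theorem D5_four_of_cover {R L : Type*} [CommRing R] [Field L] [Algebra R L] [Algebra L Kbar]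
    (g : R[X])
    (hg : ∀ t0 : Kbar, t0 ≠ 0 → aeval t0 (g.map (algebraMap R L)) ≠ 0 →
      t0 + a ≠ 0 ∧ t0 + a ≠ -16) :
    ∀ (v : Place Kbar (FF M)) (t0 : Kbar), t0 ≠ 0 →
      aeval t0 (g.map (algebraMap R L)) ≠ 0 →
      0 < v.ord (tb - algebraMap Kbar (FF M) t0) →
      v.ord (tb - algebraMap Kbar (FF M) t0) = 1 := fun v t0 h0 hgt hv =>
  D5_four_shift M h4 a tb hcoe v t0 (hg t0 h0 hgt).1 (hg t0 h0 hgt).2 hv

theorem htame_four_shift (e : ℕ) (he : M ∣ e) :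
    ∀ v : Place Kbar (FF M), 0 < v.ord tb → v.ord tb ∣ (e : ℤ) := by
  obtain ⟨htK, rfl⟩ := exists_eq_mk M hcoe
  exact Level4D5.htame_shift M h4 a htK rfl e he

theorem htr_four_shift : Transcendental Kbar tb := by
  obtain ⟨htK, rfl⟩ := exists_eq_mk M hcoe
  exact Level4D5.htr_shift M h4 a htK rfl

theorem hfin_four_shift : FiniteDimensional Kbar⟮tb⟯ (FF M) := by
  obtain ⟨htK, rfl⟩ := exists_eq_mk M hcoe
  exact Level4D5.hfin_shift M h4 a htK rfl

end Shift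

section Zero

variable {R L : Type*} [CommRing R] [Field L] [Algebra R L] [Algebra L Kbar]
  (tb : FF M) (hcoe : (tb : LaurentSeries Kbar) = t4C Kbar)

include h4 hcoe

/-- cusp value `0`, `g = X + C 16`. -/
theorem D5_four_zero : ∀ (v : Place Kbar (FF M)) (t0 : Kbar), t0 ≠ 0 →
    aeval t0 ((X + C (16 : R) : R[X]).map (algebraMap R L)) ≠ 0 →
    0 < v.ord (tb - algebraMap Kbar (FF M) t0) →
    v.ord (tb - algebraMap Kbar (FF M) t0) = 1 := by
  obtain ⟨htK, rfl⟩ := exists_eq_mk M hcoe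
  exact LevelD5C.D5_four_zero M h4 htK rfl

theorem htame_four_zero (e : ℕ) (he : M ∣ e) :
    ∀ v : Place Kbar (FF M), 0 < v.ord tb → v.ord tb ∣ (e : ℤ) := by
  obtain ⟨htK, rfl⟩ := exists_eq_mk M hcoe
  exact Level4D5.htame_zero M h4 htK rfl e he

theorem htr_four_zero : Transcendental Kbar tb := by
  obtain ⟨htK, rfl⟩ := exists_eq_mk M hcoe
  exact Level4D5.htr_zero M h4 htK rfl

theorem hfin_four_zero : FiniteDimensional Kbar⟮tb⟯ (FF M) := by
  obtain ⟨htK, rfl⟩ := exists_eq_mk M hcoe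
  exact Level4D5.hfin_zero M h4 htK rfl

end Zero

section Sixteen

variable {R L : Type*} [CommRing R] [Field L] [Algebra R L] [Algebra L Kbar]
  (tb : FF M) (hcoe : (tb : LaurentSeries Kbar) = t4C Kbar - HahnSeries.C (-16 : Kbar))

include h4 hcoe

/-- cusp value `-16` (series `t4C - C (-16)`), `g = X - C 16` (`g.comp (X - C (-16)) = X`). -/
theorem D5_four_sixteen : ∀ (v : Place Kbar (FF M)) (t0 : Kbar), t0 ≠ 0 →
    aeval t0 ((X - C (16 : R) : R[X]).map (algebraMap R L)) ≠ 0 →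
    0 < v.ord (tb - algebraMap Kbar (FF M) t0) →
    v.ord (tb - algebraMap Kbar (FF M) t0) = 1 := by
  obtain ⟨htK, rfl⟩ := exists_eq_mk M hcoe
  exact LevelD5C.D5_four_sixteen M h4 htK (LevelD5C.heq_sixteen_of_sub rfl)

theorem htame_four_sixteen (e : ℕ) (he : M ∣ e) :
    ∀ v : Place Kbar (FF M), 0 < v.ord tb → v.ord tb ∣ (e : ℤ) :=
  htame_four_shift M h4 _ tb hcoe e he

theorem htr_four_sixteen : Transcendental Kbar tb := htr_four_shift M h4 _ tb hcoe

theorem hfin_four_sixteen : FiniteDimensional Kbar⟮tb⟯ (FF M) := hfin_four_shift M h4 _ tb hcoe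

end Sixteen

section Inv

variable {R L : Type*} [CommRing R] [Field L] [Algebra R L] [Algebra L Kbar]
  (tb : FF M) (hcoe : (tb : LaurentSeries Kbar) = (t4C Kbar)⁻¹)

include h4 hcoe

theorem four_eq_inv : tb = (t4Bar M h4)⁻¹ := by
  obtain ⟨htK, rfl⟩ := exists_eq_mk M hcoe
  exact Level4D5.mk_eq_inv M h4 htK rfl

/-- cusp `∞`, `g = C 16 * X + 1`. -/
theorem D5_four_inv : ∀ (v : Place Kbar (FF M)) (u0 : Kbar), u0 ≠ 0 →
    aeval u0 ((C (16 : R) * X + 1 : R[X]).map (algebraMap R L)) ≠ 0 →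
    0 < v.ord (tb - algebraMap Kbar (FF M) u0) →
    v.ord (tb - algebraMap Kbar (FF M) u0) = 1 := by
  obtain ⟨htK, rfl⟩ := exists_eq_mk M hcoe
  exact LevelD5C.D5_four_inv M h4 htK rfl

theorem htame_four_inv (e : ℕ) (he : M ∣ e) :
    ∀ v : Place Kbar (FF M), 0 < v.ord tb → v.ord tb ∣ (e : ℤ) := by
  obtain ⟨htK, rfl⟩ := exists_eq_mk M hcoe
  exact Level4D5.htame_inv M h4 htK rfl e he

theorem htr_four_inv : Transcendental Kbar tb := by
  obtain ⟨htK, rfl⟩ := exists_eq_mk M hcoe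
  exact Level4D5.htr_inv M h4 htK rfl

theorem hfin_four_inv : FiniteDimensional Kbar⟮tb⟯ (FF M) := by
  obtain ⟨htK, rfl⟩ := exists_eq_mk M hcoe
  exact Level4D5.hfin_inv M h4 htK rfl

end Inv

end Four

/-! ## level 9 -/

section Nine

variable (h9 : 9 ∣ M)

section Shift

variable (a : Kbar) (tb : FF M) (hcoe : (tb : LaurentSeries Kbar) = t9C Kbar - HahnSeries.C a)

include h9 hcoe

theorem nine_eq_sub : tb = t9Bar M h9 - algebraMap Kbar (FF M) a := by
  obtain ⟨htK, rfl⟩ := exists_eq_mk M hcoe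
  exact Level9D5.mk_eq_sub M h9 a htK rfl

theorem D5_nine_shift (v : Place Kbar (FF M)) (t0 : Kbar) (h0 : t0 + a ≠ 0)
    (h27 : (t0 + a) ^ 2 + 9 * (t0 + a) + 27 ≠ 0)
    (hv : 0 < v.ord (tb - algebraMap Kbar (FF M) t0)) :
    v.ord (tb - algebraMap Kbar (FF M) t0) = 1 := by
  obtain ⟨htK, rfl⟩ := exists_eq_mk M hcoe
  exact Level9D5.D5_shift M h9 a htK rfl v t0 h0 h27 hv

theorem D5_nine_of_cover {R L : Type*} [CommRing R] [Field L] [Algebra R L] [Algebra L Kbar]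
    (g : R[X])
    (hg : ∀ t0 : Kbar, t0 ≠ 0 → aeval t0 (g.map (algebraMap R L)) ≠ 0 →
      t0 + a ≠ 0 ∧ (t0 + a) ^ 2 + 9 * (t0 + a) + 27 ≠ 0) :
    ∀ (v : Place Kbar (FF M)) (t0 : Kbar), t0 ≠ 0 →
      aeval t0 (g.map (algebraMap R L)) ≠ 0 →
      0 < v.ord (tb - algebraMap Kbar (FF M) t0) →
      v.ord (tb - algebraMap Kbar (FF M) t0) = 1 := by
  obtain ⟨htK, rfl⟩ := exists_eq_mk M hcoe
  exact Level9D5.D5_of_cover M h9 a htK rfl g hg

theorem htame_nine_shift (e : ℕ) (he : M ∣ e) :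
    ∀ v : Place Kbar (FF M), 0 < v.ord tb → v.ord tb ∣ (e : ℤ) := by
  obtain ⟨htK, rfl⟩ := exists_eq_mk M hcoe
  exact Level9D5.htame_shift M h9 a htK rfl e he

theorem htr_nine_shift : Transcendental Kbar tb := by
  obtain ⟨htK, rfl⟩ := exists_eq_mk M hcoe
  exact Level9D5.htr_shift M h9 a htK rfl

theorem hfin_nine_shift : FiniteDimensional Kbar⟮tb⟯ (FF M) := by
  obtain ⟨htK, rfl⟩ := exists_eq_mk M hcoe
  exact Level9D5.hfin_shift M h9 a htK rfl

end Shift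

section Zero

variable {R L : Type*} [CommRing R] [Field L] [Algebra R L] [Algebra L Kbar]
  (tb : FF M) (hcoe : (tb : LaurentSeries Kbar) = t9C Kbar)

include h9 hcoe

/-- cusp value `0`, `g = X ^ 2 + C 9 * X + C 27`. -/
theorem D5_nine_zero : ∀ (v : Place Kbar (FF M)) (t0 : Kbar), t0 ≠ 0 →
    aeval t0 ((X ^ 2 + C (9 : R) * X + C (27 : R) : R[X]).map (algebraMap R L)) ≠ 0 →
    0 < v.ord (tb - algebraMap Kbar (FF M) t0) →
    v.ord (tb - algebraMap Kbar (FF M) t0) = 1 := by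
  obtain ⟨htK, rfl⟩ := exists_eq_mk M hcoe
  exact LevelD5C.D5_nine_zero M h9 htK rfl

/-- cusp value `0`, `g = Level9Poly.g0 r`. -/
theorem D5_nine_zero_g0 {r : R} (hr : r ^ 2 + 9 * r + 27 = 0) :
    ∀ (v : Place Kbar (FF M)) (t0 : Kbar), t0 ≠ 0 →
    aeval t0 ((Level9Poly.g0 r).map (algebraMap R L)) ≠ 0 →
    0 < v.ord (tb - algebraMap Kbar (FF M) t0) →
    v.ord (tb - algebraMap Kbar (FF M) t0) = 1 := by
  obtain ⟨htK, rfl⟩ := exists_eq_mk M hcoe
  exact Level9D5.D5_zero_g0 M h9 htK rfl hr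

theorem htame_nine_zero (e : ℕ) (he : M ∣ e) :
    ∀ v : Place Kbar (FF M), 0 < v.ord tb → v.ord tb ∣ (e : ℤ) := by
  obtain ⟨htK, rfl⟩ := exists_eq_mk M hcoe
  exact Level9D5.htame_zero M h9 htK rfl e he

theorem htr_nine_zero : Transcendental Kbar tb := by
  obtain ⟨htK, rfl⟩ := exists_eq_mk M hcoe
  exact Level9D5.htr_zero M h9 htK rfl

theorem hfin_nine_zero : FiniteDimensional Kbar⟮tb⟯ (FF M) := by
  obtain ⟨htK, rfl⟩ := exists_eq_mk M hcoe
  exact Level9D5.hfin_zero M h9 htK rfl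

end Zero

section Root

variable {R L : Type*} [CommRing R] [Field L] [Algebra R L] [Algebra L Kbar]
  {r : R} (hr : r ^ 2 + 9 * r + 27 = 0) (tb : FF M)
  (hcoe : (tb : LaurentSeries Kbar)
    = t9C Kbar - HahnSeries.C (algebraMap L Kbar (algebraMap R L r)))

include h9 hr hcoe

/-- cusp value `ρ`, `g = (gOf r).comp (X + C r)` (so that `g.comp (X - C r) = gOf r`). -/
theorem D5_nine_root : ∀ (v : Place Kbar (FF M)) (t0 : Kbar), t0 ≠ 0 →
    aeval t0 (((Level9Poly.gOf r).comp (X + C r)).map (algebraMap R L)) ≠ 0 →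
    0 < v.ord (tb - algebraMap Kbar (FF M) t0) →
    v.ord (tb - algebraMap Kbar (FF M) t0) = 1 := by
  obtain ⟨htK, rfl⟩ := exists_eq_mk M hcoe
  exact Level9D5.D5_root M h9 hr htK rfl

theorem htame_nine_root (e : ℕ) (he : M ∣ e) :
    ∀ v : Place Kbar (FF M), 0 < v.ord tb → v.ord tb ∣ (e : ℤ) :=
  htame_nine_shift M h9 _ tb hcoe e he

theorem htr_nine_root : Transcendental Kbar tb := htr_nine_shift M h9 _ tb hcoe

theorem hfin_nine_root : FiniteDimensional Kbar⟮tb⟯ (FF M) := hfin_nine_shift M h9 _ tb hcoe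

end Root

section Inv

variable {R L : Type*} [CommRing R] [Field L] [Algebra R L] [Algebra L Kbar]
  (tb : FF M) (hcoe : (tb : LaurentSeries Kbar) = (t9C Kbar)⁻¹)

include h9 hcoe

theorem nine_eq_inv : tb = (t9Bar M h9)⁻¹ := by
  obtain ⟨htK, rfl⟩ := exists_eq_mk M hcoe
  exact Level9D5.mk_eq_inv M h9 htK rfl

/-- cusp `∞`, `g = C 27 * X ^ 2 + C 9 * X + 1`. -/
theorem D5_nine_inv : ∀ (v : Place Kbar (FF M)) (u0 : Kbar), u0 ≠ 0 →
    aeval u0 ((C (27 : R) * X ^ 2 + C (9 : R) * X + 1 : R[X]).map (algebraMap R L)) ≠ 0 →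
    0 < v.ord (tb - algebraMap Kbar (FF M) u0) →
    v.ord (tb - algebraMap Kbar (FF M) u0) = 1 := by
  obtain ⟨htK, rfl⟩ := exists_eq_mk M hcoe
  exact LevelD5C.D5_nine_inv M h9 htK rfl

theorem htame_nine_inv (e : ℕ) (he : M ∣ e) :
    ∀ v : Place Kbar (FF M), 0 < v.ord tb → v.ord tb ∣ (e : ℤ) := by
  obtain ⟨htK, rfl⟩ := exists_eq_mk M hcoe
  exact Level9D5.htame_inv M h9 htK rfl e he

theorem htr_nine_inv : Transcendental Kbar tb := by
  obtain ⟨htK, rfl⟩ := exists_eq_mk M hcoe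
  exact Level9D5.htr_inv M h9 htK rfl

theorem hfin_nine_inv : FiniteDimensional Kbar⟮tb⟯ (FF M) := by
  obtain ⟨htK, rfl⟩ := exists_eq_mk M hcoe
  exact Level9D5.hfin_inv M h9 htK rfl

end Inv

end Nine

end

end Fermat.Agent.S18.Cusp.LevelD5Coe
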