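import Mathlib
import Fermat.Agent.S18.Cusp.Level4Data
import Fermat.Agent.S18.Cusp.KummerFieldHloc
import Fermat.Agent.S18.Cusp.Coord0Alg
import Fermat.Agent.S18.ConstExt.Place
import Fermat.Agent.S18.Cusp.LevelD5Coe

/-!
# S18 (CUSP, level `4 ∣ M`): THEOREM N at the three cusp values of the `t₄`-line

`L` a field of characteristic `0` with `[Algebra L ℚ̄]` algebraic, `A` a discrete valuation
subring of `L` with residue characteristic `ℓ ∤ M`, `4 ∣ M`,
`FL := laurentBaseChange L (modularFunctionFieldFull M)`, `t := tEl M h4 = t₄`,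
`h := (coordData4 h4 A hℓM hπ).good`, `ρ := rho4 A hℓM`, `E := modularFunctionFieldFullC κ M`.

The three Kummer statements consumed by `Final/Level4Rho.bundle4_of_hloc_rho4` (project G) and
`Final/Level4Gen.localGen4_of_hloc` (project E):

* `hloc4_zero`    : cover element `t + 16` of `B0 A t` (contains the cusp value `t = 0`);
* `hloc4_sixteen` : cover element `t` of `B0 A t` (contains the cusp value `t = -16`);
* `hloc4_inf`     : cover element `16/t + 1` of `B1 A t` (contains `t = ∞`).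

Proof: `KummerFieldHloc.hloc_kummerField(_inv)` at the Kummer field of exponent `e = M`, with the
Gauss side from `Cusp/Level4Data`, `pr` from `Cusp/Coord0(Inv)`, the geometric side from
`Cusp/LevelD5Coe`.
-/

set_option autoImplicit false
set_option linter.unusedSectionVars false
set_option linter.unusedVariables false
set_option linter.style.haveILetI false

noncomputable section

namespace Fermat.Agent.S18.Cusp.Level4Cusp

open Polynomial IsLocalRing IntermediateField ModularCurve HahnSeries AlgebraicCurve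
open Fermat.Agent.S24.BridgeInv
open Fermat.Agent.S18.Gauss.Basic Fermat.Agent.S18.Gauss.Residue
open Fermat.Agent.S18.Gauss
open Fermat.Agent.S18.Inst.Bundle Fermat.Agent.S18.Haupt
open Fermat.Agent.S18.Trans Fermat.Agent.S18.Inst.Level4 Fermat.Agent.S18.Inst.Level4Final
open Fermat.Agent.S18.Inst.LevelDown
open Fermat.Agent.S18.Cusp.ShiftData Fermat.Agent.S18.Cusp.HauptSeries
open Fermat.Agent.S18.Cusp.Graded Fermat.Agent.S18.Cusp.Kummer
open Fermat.Agent.S18.Cusp.GaussKummer Fermat.Agent.S18.Cusp.KummerField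
open Fermat.Agent.S18.Cusp.KummerCoord Fermat.Agent.S18.Cusp.KummerFieldHloc
open Fermat.Agent.S18.Core.Charts Fermat.Agent.S18.Cusp.ChartLocalOK
open Fermat.Agent.S18.Cusp.Level4Data Fermat.Agent.S18.Cusp.LevelD5Coe

set_option synthInstance.maxHeartbeats 400000
set_option maxHeartbeats 2000000

variable {L : Type*} [Field L] [Algebra ℚ L] [Algebra L Kbar] {M : ℕ} [NeZero M] (h4 : 4 ∣ M)

/-! ### the geometric side: base change of `u = (t₄ - a)⁻¹` to `ℚ̄` -/

theorem coeffMap_uS (a : L) :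
    coeffMap (algebraMap L Kbar) (uS a) =
      (t4C Kbar - HahnSeries.C (algebraMap L Kbar a))⁻¹ := by
  unfold uS
  rw [map_inv₀, map_sub, coeffMap_t4C, HahnSeries.C_apply, coeffMap_single, ← HahnSeries.C_apply]

include h4 in
theorem coeffMap_uS_mem (a : L) :
    coeffMap (algebraMap L Kbar) (uS a) ∈ modularFunctionFieldBar M :=
  Fermat.Agent.S18.ConstExt.coeffMap_mem_up (uS_mem M h4 a)

/-- the underlying series of `⟨u_K, _⟩⁻¹` is `t₄ - a`. -/
theorem coe_uK_inv (a : L) (huK : coeffMap (algebraMap L Kbar) (uS a) ∈ modularFunctionFieldBar M) :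
    (((⟨coeffMap (algebraMap L Kbar) (uS a), huK⟩ : FF M)⁻¹ : FF M) : LaurentSeries Kbar) =
      t4C Kbar - HahnSeries.C (algebraMap L Kbar a) := by
  rw [coe_inv_mk, coeffMap_uS, inv_inv]

/-- the underlying series of `⟨u_K, _⟩` at `a = 0` is `t₄⁻¹`. -/
theorem coe_uK_zero (huK : coeffMap (algebraMap L Kbar) (uS (0 : L)) ∈ modularFunctionFieldBar M) :
    (((⟨coeffMap (algebraMap L Kbar) (uS (0 : L)), huK⟩ : FF M)) : LaurentSeries Kbar) =
      (t4C Kbar)⁻¹ := by
  show coeffMap (algebraMap L Kbar) (uS (0 : L)) = _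
  rw [coeffMap_uS, map_zero, map_zero, sub_zero]

variable (A : ValuationSubring L) [IsDiscreteValuationRing A]
  {ℓ : ℕ} [Fact ℓ.Prime] [CharP (ResidueField A) ℓ] (hℓM : ¬ ℓ ∣ M)

include hℓM in
/-- the level is a unit of `A`. -/
theorem isUnit_level : IsUnit ((M : ℕ) : A) := by
  have h1 : residue A ((M : ℕ) : A) ≠ 0 := by
    rw [map_natCast]
    intro h0
    rw [CharP.cast_eq_zero_iff (ResidueField A) ℓ] at h0
    exact hℓM h0
  exact (residue_ne_zero_iff_isUnit _).mp h1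

theorem hsuK (e : ℕ) [NeZero e] (he : IsUnit (e : A)) (a : A) :
    coeffMap (algebraMap L Kbar) (sS A e he a) ^ e =
      qExpand Kbar e (coeffMap (algebraMap L Kbar) (uS (a : L))) := by
  rw [← map_pow, sS_pow, Graded.coeffMap_qExpand]

variable [Algebra.IsAlgebraic L Kbar] {π : A} (hπ : Irreducible π)

/-- **THEOREM N at the finite cusp value `a`** (`g` any polynomial whose non-vanishing excludes the
other cusp values of `t₄ - a`). -/
theorem hloc4_fin (a : A) (g : A[X]) (hg0 : g ≠ 0)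
    (hg : ∀ t0 : Kbar, t0 ≠ 0 → aeval t0 (g.map (algebraMap A L)) ≠ 0 →
      t0 + algebraMap L Kbar (a : L) ≠ 0 ∧ t0 + algebraMap L Kbar (a : L) ≠ -16) :
    ∃ k : ℕ, ∀ z : ↥(modularFunctionFieldFullC (ResidueField A) M),
      IsIntegral (resB0 (coordData4 h4 A hℓM hπ).good (rho4 A hℓM)).range z →
      ∃ b : ↥(B0 A (tEl (L := L) M h4)),
        resB0 (coordData4 h4 A hℓM hπ).good (rho4 A hℓM)
            ⟨aeval (tEl (L := L) M h4) (g.comp (X - Polynomial.C a)), aeval_mem_B0 _⟩ ^ k * z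
          = resB0 (coordData4 h4 A hℓM hπ).good (rho4 A hℓM) b := by
  have : CharZero L := algebraRat.charZero L
  have he := isUnit_level A hℓM
  have hd := downData4_u_inv h4 A hℓM hπ a
  have := hd.finite
  have : Algebra.IsSeparable
      (ResidueField A)⟮rhoBase (ModularH.scalable A hℓM)
        (modularFunctionFieldFullC (ResidueField A) M) (ModularH.range_gaussRes A hℓM)
        ⟨(uEl M h4 (a : L))⁻¹, hd.mem⟩⟯
      ↥(modularFunctionFieldFullC (ResidueField A) M) := hd.sep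
  have := Concrete.finiteDimensional L M
  have hK := kummerData4 h4 A M he a
  have hG := gaussUnit4 A M he a
  have huK := coeffMap_uS_mem (M := M) h4 (a : L)
  have hcoe := coe_uK_inv (M := M) (a : L) huK
  have htr : Transcendental Kbar
      (⟨coeffMap (algebraMap L Kbar) (uS (a : L)), huK⟩ : FF M) := by
    have h1 := transcendental_inv' (htr_four_shift M h4 _ _ hcoe)
    rwa [inv_inv] at h1
  have hfin : FiniteDimensional
      Kbar⟮(⟨coeffMap (algebraMap L Kbar) (uS (a : L)), huK⟩ : FF M)⟯ (FF M) := by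
    have h0 : FiniteDimensional
        Kbar⟮((⟨coeffMap (algebraMap L Kbar) (uS (a : L)), huK⟩ : FF M)⁻¹ : FF M)⟯ (FF M) :=
      hfin_four_shift M h4 _ _ hcoe
    have h1 := @finiteDimensional_adjoin_inv Kbar (FF M) _ _ _
      ((⟨coeffMap (algebraMap L Kbar) (uS (a : L)), huK⟩ : FF M)⁻¹ : FF M) h0
    rwa [inv_inv] at h1
  exact hloc_kummerField_inv (ModularH.scalable A hℓM) hK hG
    (modularFunctionFieldFullC (ResidueField A) M)
    (ModularH.range_gaussRes A hℓM) (uS_mem M h4 (a : L)) (sS_pow A M he a)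
    (coordData4 h4 A hℓM hπ).good a (uEl_inv_eq h4 A a) (hutr4 h4 A hℓM hπ a)
    (adjoin_Jel_le4 h4 (a : L))
    (Concrete.resIndep_pow (ModularH.isGaussRed A hℓM) hℓM)
    (by rw [Fintype.card_fin, Concrete.finrank_eq_psi])
    hd.transc hd.mem hd.tbar _ hd.finrank_eq hd.finrank_res
    (Coord0.pr hK) (Coord0.hprF_inv_alg hK) (Coord0.hprB_inv_val hK he) (Coord0.hpr_id_alg hK)
    (Coord0.hred (ModularH.scalable A hℓM) hK hG _
      (rhoK_eq_zero_iff (ModularH.scalable A hℓM) _ (ModularH.range_gaussRes A hℓM) hK hG))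
    huK (hsuK A M he a)
    (fun x hx => Fermat.Agent.S18.ConstExt.coeffMap_mem_up hx) rfl htr g hg0
    (D5_four_of_cover M h4 _ _ hcoe g hg) (htame_four_shift M h4 _ _ hcoe M dvd_rfl)

/-- **THEOREM N at the cusp `∞`** (chart `B1 A t₄ = B0 A t₄⁻¹`, cusp value `1/t₄ = 0`), general
cover polynomial. -/
theorem hloc4_inf_gen :
    ∃ k : ℕ, ∀ z : ↥(modularFunctionFieldFullC (ResidueField A) M),
      IsIntegral (resB1 (coordData4 h4 A hℓM hπ).good (rho4 A hℓM)).range z →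
      ∃ b : ↥(B1 A (tEl (L := L) M h4)),
        resB1 (coordData4 h4 A hℓM hπ).good (rho4 A hℓM)
            ⟨aeval (tEl (L := L) M h4)⁻¹ ((Polynomial.C 16 * X + 1 : A[X]).comp (X - Polynomial.C 0)),
              aeval_mem_B0 _⟩ ^ k * z
          = resB1 (coordData4 h4 A hℓM hπ).good (rho4 A hℓM) b := by
  have : CharZero L := algebraRat.charZero L
  have he := isUnit_level A hℓM
  have hd := downData4_u h4 A hℓM hπ 0
  have := hd.finite
  have : Algebra.IsSeparable
      (ResidueField A)⟮rhoBase (ModularH.scalable A hℓM)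
        (modularFunctionFieldFullC (ResidueField A) M) (ModularH.range_gaussRes A hℓM)
        ⟨uEl M h4 ((0 : A) : L), hd.mem⟩⟯
      ↥(modularFunctionFieldFullC (ResidueField A) M) := hd.sep
  have := Concrete.finiteDimensional L M
  have hK := kummerData4 h4 A M he 0
  have hG := gaussUnit4 A M he 0
  have huK := coeffMap_uS_mem (M := M) h4 ((0 : A) : L)
  have hcoe : (((⟨coeffMap (algebraMap L Kbar) (uS ((0 : A) : L)), huK⟩ : FF M)) :
      LaurentSeries Kbar) = (t4C Kbar)⁻¹ := coe_uK_zero huK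
  have htr : Transcendental Kbar
      (⟨coeffMap (algebraMap L Kbar) (uS ((0 : A) : L)), huK⟩ : FF M) :=
    htr_four_inv M h4 _ hcoe
  have hfin : FiniteDimensional
      Kbar⟮(⟨coeffMap (algebraMap L Kbar) (uS ((0 : A) : L)), huK⟩ : FF M)⟯ (FF M) :=
    hfin_four_inv M h4 _ hcoe
  have ht_def : uEl M h4 ((0 : A) : L) = (tEl (L := L) M h4)⁻¹ -
      algebraMap A ↥(laurentBaseChange L (modularFunctionFieldFull M)) 0 := by
    rw [uEl_eq h4 A 0, map_zero, sub_zero, sub_zero]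
  have hg0 : (Polynomial.C 16 * X + 1 : A[X]) ≠ 0 := by
    intro h0
    have := congrArg (fun p => Polynomial.coeff p 0) h0
    simp at this
  exact hloc_kummerField (ModularH.scalable A hℓM) hK hG
    (modularFunctionFieldFullC (ResidueField A) M)
    (ModularH.range_gaussRes A hℓM) (uS_mem M h4 ((0 : A) : L)) (sS_pow A M he 0)
    (coordData4 h4 A hℓM hπ).good.inv 0 ht_def (hutr4 h4 A hℓM hπ 0)
    (adjoin_Jel_le4 h4 ((0 : A) : L))
    (Concrete.resIndep_pow (ModularH.isGaussRed A hℓM) hℓM)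
    (by rw [Fintype.card_fin, Concrete.finrank_eq_psi])
    hd.transc hd.mem hd.tbar _ hd.finrank_eq hd.finrank_res
    (Coord0.pr hK) (Coord0.hprF_alg hK) (Coord0.hprB_val hK he) (Coord0.hpr_id_alg hK)
    (Coord0.hred (ModularH.scalable A hℓM) hK hG _
      (rhoK_eq_zero_iff (ModularH.scalable A hℓM) _ (ModularH.range_gaussRes A hℓM) hK hG))
    huK (hsuK A M he 0)
    (fun x hx => Fermat.Agent.S18.ConstExt.coeffMap_mem_up hx) rfl htr (Polynomial.C 16 * X + 1) hg0
    (D5_four_inv M h4 _ hcoe) (htame_four_inv M h4 _ hcoe M dvd_rfl)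

/-! ### the three statements consumed by `Final/Level4Rho` (G) and `Final/Level4Gen` (E) -/

/-- **THEOREM N at the cusp value `t₄ = 0`**: cover element `t₄ + 16` of `B0 A t₄`. -/
theorem hloc4_zero : ∀ z : ↥(modularFunctionFieldFullC (ResidueField A) M),
    IsIntegral (resB0 (coordData4 h4 A hℓM hπ).good (rho4 A hℓM)).range z →
    ∃ (k : ℕ) (b : ↥(B0 A (tEl (L := L) M h4))),
      resB0 (coordData4 h4 A hℓM hπ).good (rho4 A hℓM)
          ⟨aeval (tEl (L := L) M h4) (X + Polynomial.C 16 : A[X]), aeval_mem_B0 _⟩ ^ k * z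
        = resB0 (coordData4 h4 A hℓM hπ).good (rho4 A hℓM) b := by
  have hg0 : (X + Polynomial.C 16 : A[X]) ≠ 0 := X_add_C_ne_zero 16
  have hg : ∀ t0 : Kbar, t0 ≠ 0 → aeval t0 ((X + Polynomial.C 16 : A[X]).map (algebraMap A L)) ≠ 0 →
      t0 + algebraMap L Kbar ((0 : A) : L) ≠ 0 ∧ t0 + algebraMap L Kbar ((0 : A) : L) ≠ -16 := by
    intro t0 ht0 hgt
    have hz : algebraMap L Kbar ((0 : A) : L) = 0 := by
      rw [ZeroMemClass.coe_zero, map_zero]
    rw [hz, add_zero]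
    refine ⟨ht0, fun h16 => hgt ?_⟩
    rw [Polynomial.map_add, Polynomial.map_X, Polynomial.map_C, map_add, aeval_X, aeval_C,
      map_ofNat, map_ofNat, h16, neg_add_cancel]
  obtain ⟨k, hk⟩ := hloc4_fin h4 A hℓM hπ 0 (X + Polynomial.C 16) hg0 hg
  intro z hz
  obtain ⟨b, hb⟩ := hk z hz
  refine ⟨k, b, ?_⟩
  have hcomp : ((X + Polynomial.C 16 : A[X]).comp (X - Polynomial.C 0)) = X + Polynomial.C 16 := by
    rw [map_zero, sub_zero, comp_X]
  have hsub : (⟨aeval (tEl (L := L) M h4) ((X + Polynomial.C 16 : A[X]).comp (X - Polynomial.C 0)), aeval_mem_B0 _⟩ :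
      ↥(B0 A (tEl (L := L) M h4))) =
      ⟨aeval (tEl (L := L) M h4) (X + Polynomial.C 16 : A[X]), aeval_mem_B0 _⟩ :=
    Subtype.ext (by rw [hcomp])
  rw [← hsub]
  exact hb

/-- **THEOREM N at the cusp value `t₄ = -16`**: cover element `t₄` of `B0 A t₄`. -/
theorem hloc4_sixteen : ∀ z : ↥(modularFunctionFieldFullC (ResidueField A) M),
    IsIntegral (resB0 (coordData4 h4 A hℓM hπ).good (rho4 A hℓM)).range z →
    ∃ (k : ℕ) (b : ↥(B0 A (tEl (L := L) M h4))),
      resB0 (coordData4 h4 A hℓM hπ).good (rho4 A hℓM)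
          ⟨aeval (tEl (L := L) M h4) (X : A[X]), aeval_mem_B0 _⟩ ^ k * z
        = resB0 (coordData4 h4 A hℓM hπ).good (rho4 A hℓM) b := by
  have hg0 : (X - Polynomial.C 16 : A[X]) ≠ 0 := X_sub_C_ne_zero 16
  have h16 : algebraMap L Kbar ((-16 : A) : L) = -16 := by
    show algebraMap L Kbar (algebraMap A L (-16)) = -16
    rw [map_neg, map_neg, map_ofNat, map_ofNat]
  have hg : ∀ t0 : Kbar, t0 ≠ 0 → aeval t0 ((X - Polynomial.C 16 : A[X]).map (algebraMap A L)) ≠ 0 →
      t0 + algebraMap L Kbar ((-16 : A) : L) ≠ 0 ∧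
        t0 + algebraMap L Kbar ((-16 : A) : L) ≠ -16 := by
    intro t0 ht0 hgt
    rw [h16]
    refine ⟨fun h => hgt ?_, fun h => ht0 ?_⟩
    · rw [Polynomial.map_sub, Polynomial.map_X, Polynomial.map_C, map_sub, aeval_X, aeval_C,
        map_ofNat, map_ofNat, sub_eq_add_neg]
      exact h
    · exact add_eq_right.mp h
  obtain ⟨k, hk⟩ := hloc4_fin h4 A hℓM hπ (-16) (X - Polynomial.C 16) hg0 hg
  intro z hz
  obtain ⟨b, hb⟩ := hk z hz
  refine ⟨k, b, ?_⟩
  have hcomp : ((X - Polynomial.C 16 : A[X]).comp (X - Polynomial.C (-16))) = X := by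
    rw [sub_comp, X_comp, C_comp, map_neg, sub_neg_eq_add, add_sub_cancel_right]
  have hsub : (⟨aeval (tEl (L := L) M h4) ((X - Polynomial.C 16 : A[X]).comp (X - Polynomial.C (-16))),
      aeval_mem_B0 _⟩ : ↥(B0 A (tEl (L := L) M h4))) =
      ⟨aeval (tEl (L := L) M h4) (X : A[X]), aeval_mem_B0 _⟩ :=
    Subtype.ext (by rw [hcomp])
  rw [← hsub]
  exact hb

/-- **THEOREM N at the cusp `t₄ = ∞`**: cover element `16/t₄ + 1` of `B1 A t₄`. -/
theorem hloc4_inf : ∀ z : ↥(modularFunctionFieldFullC (ResidueField A) M),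
    IsIntegral (resB1 (coordData4 h4 A hℓM hπ).good (rho4 A hℓM)).range z →
    ∃ (k : ℕ) (b : ↥(B1 A (tEl (L := L) M h4))),
      resB1 (coordData4 h4 A hℓM hπ).good (rho4 A hℓM)
          ⟨aeval (tEl (L := L) M h4)⁻¹ (Polynomial.C 16 * X + 1 : A[X]), aeval_mem_B0 _⟩ ^ k * z
        = resB1 (coordData4 h4 A hℓM hπ).good (rho4 A hℓM) b := by
  obtain ⟨k, hk⟩ := hloc4_inf_gen h4 A hℓM hπ
  intro z hz
  obtain ⟨b, hb⟩ := hk z hz
  refine ⟨k, b, ?_⟩
  have hcomp : ((Polynomial.C 16 * X + 1 : A[X]).comp (X - Polynomial.C 0)) = Polynomial.C 16 * X + 1 := by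
    rw [map_zero, sub_zero, comp_X]
  have hsub : (⟨aeval (tEl (L := L) M h4)⁻¹ ((Polynomial.C 16 * X + 1 : A[X]).comp (X - Polynomial.C 0)),
      aeval_mem_B0 _⟩ : ↥(B1 A (tEl (L := L) M h4))) =
      ⟨aeval (tEl (L := L) M h4)⁻¹ (Polynomial.C 16 * X + 1 : A[X]), aeval_mem_B0 _⟩ :=
    Subtype.ext (by rw [hcomp])
  rw [← hsub]
  exact hb

/-! ### the same three statements over a subfield `L₁ ≤ ℚ̄` (no `IsAlgebraic` hypothesis): the
form consumed at `L := ↥L₁`, `A := restrict A L₁` -/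

/-- `ℚ̄ / L₁` is algebraic for every intermediate field `L₁` of `ℚ̄ / ℚ`. -/
theorem isAlgebraic_sub (L₁ : IntermediateField ℚ Kbar) : Algebra.IsAlgebraic ↥L₁ Kbar :=
  haveI : Algebra.IsAlgebraic ℚ Kbar := AlgebraicClosure.isAlgebraic ℚ
  Algebra.IsAlgebraic.tower_top (K := ℚ) ↥L₁

section Sub

variable {L₁ : IntermediateField ℚ Kbar} {M : ℕ} [NeZero M] (h4 : 4 ∣ M)
  (A₁ : ValuationSubring ↥L₁) [IsDiscreteValuationRing A₁]
  {ℓ : ℕ} [Fact ℓ.Prime] [CharP (ResidueField A₁) ℓ] (hℓM : ¬ ℓ ∣ M)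
  {π : A₁} (hπ : Irreducible π)

theorem hloc4_zero_sub : ∀ z : ↥(modularFunctionFieldFullC (ResidueField A₁) M),
    IsIntegral (resB0 (coordData4 h4 A₁ hℓM hπ).good (rho4 A₁ hℓM)).range z →
    ∃ (k : ℕ) (b : ↥(B0 A₁ (tEl (L := ↥L₁) M h4))),
      resB0 (coordData4 h4 A₁ hℓM hπ).good (rho4 A₁ hℓM)
          ⟨aeval (tEl (L := ↥L₁) M h4) (X + Polynomial.C 16 : A₁[X]), aeval_mem_B0 _⟩ ^ k * z
        = resB0 (coordData4 h4 A₁ hℓM hπ).good (rho4 A₁ hℓM) b :=
  haveI := isAlgebraic_sub L₁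
  hloc4_zero h4 A₁ hℓM hπ

theorem hloc4_sixteen_sub : ∀ z : ↥(modularFunctionFieldFullC (ResidueField A₁) M),
    IsIntegral (resB0 (coordData4 h4 A₁ hℓM hπ).good (rho4 A₁ hℓM)).range z →
    ∃ (k : ℕ) (b : ↥(B0 A₁ (tEl (L := ↥L₁) M h4))),
      resB0 (coordData4 h4 A₁ hℓM hπ).good (rho4 A₁ hℓM)
          ⟨aeval (tEl (L := ↥L₁) M h4) (X : A₁[X]), aeval_mem_B0 _⟩ ^ k * z
        = resB0 (coordData4 h4 A₁ hℓM hπ).good (rho4 A₁ hℓM) b :=
  haveI := isAlgebraic_sub L₁
  hloc4_sixteen h4 A₁ hℓM hπ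

theorem hloc4_inf_sub : ∀ z : ↥(modularFunctionFieldFullC (ResidueField A₁) M),
    IsIntegral (resB1 (coordData4 h4 A₁ hℓM hπ).good (rho4 A₁ hℓM)).range z →
    ∃ (k : ℕ) (b : ↥(B1 A₁ (tEl (L := ↥L₁) M h4))),
      resB1 (coordData4 h4 A₁ hℓM hπ).good (rho4 A₁ hℓM)
          ⟨aeval (tEl (L := ↥L₁) M h4)⁻¹ (Polynomial.C 16 * X + 1 : A₁[X]), aeval_mem_B0 _⟩ ^ k * z
        = resB1 (coordData4 h4 A₁ hℓM hπ).good (rho4 A₁ hℓM) b :=
  haveI := isAlgebraic_sub L₁
  hloc4_inf h4 A₁ hℓM hπ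

end Sub

end Fermat.Agent.S18.Cusp.Level4Cusp
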