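import Mathlib
import Fermat.Agent.S18.Cusp.Level4Cusp
import Fermat.Agent.S18.Final.Star4

/-!
# S18: `Trans.Star` at every level `4 ∣ M`, unconditional

`Cusp/Level4Cusp` (THEOREM N at the three cusp values of the `t₄`-line) plugged into
`Final/Star4.star4_of_hloc`:

* `hloc4_star4 : Star4.Hloc4 A L₁ M h4 hℓM hπ` for every number field `L₁ ⊆ ℚ̄`;
* `star4 A hA M m h4 hℓM hℓm : Trans.Star A M m`.
-/

set_option autoImplicit false

namespace Fermat.Agent.S18.Cusp.Level4CuspStar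

open ModularCurve AlgebraicCurve Polynomial IntermediateField
open Fermat.Agent.S18.Descent Fermat.Agent.S18.Final

set_option synthInstance.maxHeartbeats 400000

local notation "Kb" => AlgebraicClosure ℚ

variable {ℓ : ℕ} [Fact ℓ.Prime]

/-- The three Kummer statements at level `4 ∣ M` over `(L₁, A ∩ L₁, π)`, in the packaging of
`Final/Star4`. -/
theorem hloc4_star4 (A : ValuationSubring Kb) (L₁ : IntermediateField ℚ Kb) (M : ℕ) [NeZero M]
    (h4 : 4 ∣ M) (hℓM : ¬ ℓ ∣ M) [CharP (IsLocalRing.ResidueField (restrict A L₁)) ℓ]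
    [IsDiscreteValuationRing (restrict A L₁)] {π : restrict A L₁} (hπ : Irreducible π) :
    Star4.Hloc4 A L₁ M h4 hℓM hπ :=
  ⟨Level4Cusp.hloc4_zero_sub h4 (restrict A L₁) hℓM hπ,
    Level4Cusp.hloc4_sixteen_sub h4 (restrict A L₁) hℓM hπ,
    Level4Cusp.hloc4_inf_sub h4 (restrict A L₁) hℓM hπ⟩

/-- **`Trans.Star` at every level `4 ∣ M`** (`ℓ ∤ M m`, `A` over `ℓ`). -/
theorem star4 (A : ValuationSubring Kb) (hA : A.LiesOverPrime ℓ) (M m : ℕ) [NeZero M]
    (h4 : 4 ∣ M) (hℓM : ¬ ℓ ∣ M) (hℓm : ¬ ℓ ∣ m) : Trans.Star A M m :=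
  Star4.star4_of_hloc A hA M m h4 hℓM hℓm
    (fun L₁ _ _ _ _ hπ => hloc4_star4 A L₁ M h4 hℓM hπ)

end Fermat.Agent.S18.Cusp.Level4CuspStar
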