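/-
S18 block CUSP (helper28): the geometric (D5) input of `KummerHloc.hloc_of_kummer_package` at level
`9 ∣ M` in the spelling of helper14's `Final/Level9.lean`: cover polynomials `g := Level9.g9 r i`,
cusp values `a := Level9.a9 r i` (`i : Fin 3`; `r` a root of `X² + 9 X + 27`), and `Level9.Ginf9` for the
chart `1/t`.  `tb : FF M` is arbitrary with prescribed underlying series (as in `Cusp/LevelD5Coe`).
-/
import Mathlib
import Fermat.Agent.S18.Cusp.LevelD5Coe
import Fermat.Agent.S18.Final.Level9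

set_option autoImplicit false
set_option linter.unusedSectionVars false

namespace Fermat.Agent.S18.Cusp.Level9D5G9

open AlgebraicCurve Polynomial IntermediateField ModularCurve
open Fermat.Agent.S24.BridgeInv
open Fermat.Agent.S18.Haupt9 Fermat.Agent.S18.Cusp.Level9Poly
open Fermat.Agent.S18.Final.Level9 (g9 a9 Ginf9)

noncomputable section

variable (M : ℕ) [NeZero M] (h9 : 9 ∣ M)
  {R L : Type*} [CommRing R] [Field L] [Algebra R L] [Algebra L Kbar]

/-- the image of an element of `R` in `ℚ̄`. -/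
abbrev toKbar (x : R) : Kbar := algebraMap L Kbar (algebraMap R L x)

theorem toKbar_root {r : R} (hr : r ^ 2 + 9 * r + 27 = 0) :
    (toKbar (L := L) r) ^ 2 + 9 * toKbar (L := L) r + 27 = 0 := by
  have h := congrArg (fun x => algebraMap L Kbar (algebraMap R L x)) hr
  simpa only [toKbar, map_add, map_mul, map_pow, map_ofNat, map_zero] using h

theorem toKbar_conj (r : R) : toKbar (L := L) (conj r) = -9 - toKbar (L := L) r := by
  simp only [toKbar, conj, map_sub, map_neg, map_ofNat]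

theorem toKbar_a9_zero (r : R) : toKbar (L := L) (a9 r 0) = 0 := by
  show toKbar (L := L) (0 : R) = 0
  simp only [toKbar, map_zero]

theorem toKbar_a9_one (r : R) : toKbar (L := L) (a9 r 1) = toKbar (L := L) r := rfl

theorem toKbar_a9_two (r : R) : toKbar (L := L) (a9 r 2) = -9 - toKbar (L := L) r :=
  toKbar_conj r

theorem aeval_g9_one (r : R) (t0 : Kbar) :
    aeval t0 ((g9 r 1).map (algebraMap R L)) =
      (t0 + toKbar (L := L) r) * (t0 + (toKbar (L := L) r - toKbar (L := L) (conj r))) := by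
  show aeval t0 (((X + C r) * (X + C (r - conj r)) : R[X]).map (algebraMap R L)) = _
  simp only [toKbar, Polynomial.map_mul, Polynomial.map_add, Polynomial.map_X, Polynomial.map_C,
    Polynomial.map_sub, map_mul, map_add, aeval_X, aeval_C, map_sub]

theorem aeval_g9_two (r : R) (t0 : Kbar) :
    aeval t0 ((g9 r 2).map (algebraMap R L)) =
      (t0 + toKbar (L := L) (conj r)) * (t0 + (toKbar (L := L) (conj r) - toKbar (L := L) r)) := by
  show aeval t0 (((X + C (conj r)) * (X + C (conj r - r)) : R[X]).map (algebraMap R L)) = _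
  simp only [toKbar, Polynomial.map_mul, Polynomial.map_add, Polynomial.map_X, Polynomial.map_C,
    Polynomial.map_sub, map_mul, map_add, aeval_X, aeval_C, map_sub]

section Finite

variable {r : R} (hr : r ^ 2 + 9 * r + 27 = 0)

include hr in
/-- the non-vanishing of `g9 r i` at `t0` excludes the other cusp values of `t₉ - a9 r i`. -/
theorem g9_excludes (i : Fin 3) (t0 : Kbar) (h0 : t0 ≠ 0)
    (hg : aeval t0 ((g9 r i).map (algebraMap R L)) ≠ 0) :
    t0 + toKbar (L := L) (a9 r i) ≠ 0 ∧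
      (t0 + toKbar (L := L) (a9 r i)) ^ 2 + 9 * (t0 + toKbar (L := L) (a9 r i)) + 27 ≠ 0 := by
  have hroot := toKbar_root (L := L) hr
  set ρ : Kbar := toKbar (L := L) r with hρdef
  fin_cases i
  · -- a = 0, g = X² + 9 X + 27
    have hg' : t0 ^ 2 + 9 * t0 + 27 ≠ 0 := by
      have : aeval t0 ((X ^ 2 + 9 * X + 27 : R[X]).map (algebraMap R L)) ≠ 0 := hg
      simpa only [Polynomial.map_add, Polynomial.map_mul, Polynomial.map_pow, Polynomial.map_X,
        Polynomial.map_ofNat, map_add, map_mul, map_pow, aeval_X, map_ofNat] using this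
    have ha : toKbar (L := L) (a9 r (0 : Fin 3)) = 0 := toKbar_a9_zero r
    show t0 + toKbar (L := L) (a9 r (0 : Fin 3)) ≠ 0 ∧
      (t0 + toKbar (L := L) (a9 r (0 : Fin 3))) ^ 2 +
        9 * (t0 + toKbar (L := L) (a9 r (0 : Fin 3))) + 27 ≠ 0
    rw [ha, add_zero]
    exact ⟨h0, hg'⟩
  · -- a = ρ, g = (X + ρ)(X + ρ - ρ')
    have hg' : (t0 + ρ) * (t0 + (ρ - (-9 - ρ))) ≠ 0 := by
      have h1 := aeval_g9_one (L := L) r t0
      rw [toKbar_conj, ← hρdef] at h1
      rw [← h1]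
      exact hg
    show t0 + toKbar (L := L) r ≠ 0 ∧
      (t0 + toKbar (L := L) r) ^ 2 + 9 * (t0 + toKbar (L := L) r) + 27 ≠ 0
    rw [← hρdef]
    refine ⟨left_ne_zero_of_mul hg', ?_⟩
    have h2 : (t0 + ρ) ^ 2 + 9 * (t0 + ρ) + 27 = t0 * (t0 + (ρ - (-9 - ρ))) := by
      linear_combination hroot
    rw [h2]
    exact mul_ne_zero h0 (right_ne_zero_of_mul hg')
  · -- a = ρ', g = (X + ρ')(X + ρ' - ρ)
    have hg' : (t0 + (-9 - ρ)) * (t0 + ((-9 - ρ) - ρ)) ≠ 0 := by
      have h1 := aeval_g9_two (L := L) r t0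
      rw [toKbar_conj, ← hρdef] at h1
      rw [← h1]
      exact hg
    have ha : toKbar (L := L) (a9 r (2 : Fin 3)) = -9 - ρ := toKbar_a9_two r
    show t0 + toKbar (L := L) (a9 r (2 : Fin 3)) ≠ 0 ∧
      (t0 + toKbar (L := L) (a9 r (2 : Fin 3))) ^ 2 +
        9 * (t0 + toKbar (L := L) (a9 r (2 : Fin 3))) + 27 ≠ 0
    rw [ha]
    refine ⟨left_ne_zero_of_mul hg', ?_⟩
    have h2 : (t0 + (-9 - ρ)) ^ 2 + 9 * (t0 + (-9 - ρ)) + 27 = t0 * (t0 + ((-9 - ρ) - ρ)) := by
      linear_combination hroot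
    rw [h2]
    exact mul_ne_zero h0 (right_ne_zero_of_mul hg')

variable (i : Fin 3) (tb : FF M)
  (hcoe : (tb : LaurentSeries Kbar)
    = t9C Kbar - HahnSeries.C (algebraMap L Kbar (algebraMap R L (a9 r i))))

include h9 hr hcoe

/-- **(D5) at the finite cusp value `a9 r i` of `t₉`, cover polynomial `g9 r i`**, in the exact
shape of `hloc_of_kummer_package` (`g := g9 r i`, so that `g.comp (X - C (a9 r i)) = G9 r i`). -/
theorem D5_g9 : ∀ (v : Place Kbar (FF M)) (t0 : Kbar), t0 ≠ 0 →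
    aeval t0 ((g9 r i).map (algebraMap R L)) ≠ 0 →
    0 < v.ord (tb - algebraMap Kbar (FF M) t0) →
    v.ord (tb - algebraMap Kbar (FF M) t0) = 1 :=
  LevelD5Coe.D5_nine_of_cover M h9 _ tb hcoe (g9 r i) fun t0 h0 hg => g9_excludes hr i t0 h0 hg

omit hr in
theorem htame_g9 (e : ℕ) (he : M ∣ e) :
    ∀ v : Place Kbar (FF M), 0 < v.ord tb → v.ord tb ∣ (e : ℤ) :=
  LevelD5Coe.htame_nine_shift M h9 _ tb hcoe e he

omit hr in
theorem htr_g9 : Transcendental Kbar tb := LevelD5Coe.htr_nine_shift M h9 _ tb hcoe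

omit hr in
theorem hfin_g9 : FiniteDimensional Kbar⟮tb⟯ (FF M) := LevelD5Coe.hfin_nine_shift M h9 _ tb hcoe

end Finite

section Inf

variable (tb : FF M) (hcoe : (tb : LaurentSeries Kbar) = (t9C Kbar)⁻¹)

include h9 hcoe

/-- **(D5) at the cusp `∞` (coordinate `1/t₉`), cover polynomial `Ginf9 = 27 X² + 9 X + 1`.** -/
theorem D5_Ginf9 : ∀ (v : Place Kbar (FF M)) (u0 : Kbar), u0 ≠ 0 →
    aeval u0 ((Ginf9 : R[X]).map (algebraMap R L)) ≠ 0 →
    0 < v.ord (tb - algebraMap Kbar (FF M) u0) →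
    v.ord (tb - algebraMap Kbar (FF M) u0) = 1 := by
  obtain ⟨htK, rfl⟩ := LevelD5Coe.exists_eq_mk M hcoe
  exact Level9D5.D5_inv M h9 htK rfl

theorem htame_Ginf9 (e : ℕ) (he : M ∣ e) :
    ∀ v : Place Kbar (FF M), 0 < v.ord tb → v.ord tb ∣ (e : ℤ) :=
  LevelD5Coe.htame_nine_inv M h9 tb hcoe e he

theorem htr_Ginf9 : Transcendental Kbar tb := LevelD5Coe.htr_nine_inv M h9 tb hcoe

theorem hfin_Ginf9 : FiniteDimensional Kbar⟮tb⟯ (FF M) := LevelD5Coe.hfin_nine_inv M h9 tb hcoe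

end Inf

/-- `(t9C ℚ̄ - C 0)⁻¹ = (t9C ℚ̄)⁻¹` (the form of `uL PA 0` after base change). -/
theorem inv_sub_C_zero : (t9C Kbar - HahnSeries.C (0 : Kbar))⁻¹ = (t9C Kbar)⁻¹ := by
  rw [map_zero, sub_zero]

end

end Fermat.Agent.S18.Cusp.Level9D5G9
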