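import Mathlib
import Fermat.Agent.S18.Cusp.Level9Data
import Fermat.Agent.S18.Cusp.KummerFieldHloc
import Fermat.Agent.S18.Cusp.Coord0Alg
import Fermat.Agent.S18.ConstExt.Place
import Fermat.Agent.S18.Cusp.Level9D5G9
import Fermat.Agent.S18.Final.Star9

/-!
# S18 (CUSP, level `9 ∣ M`): THEOREM N at the four cusp values of the `t₉`-line

Level-9 twin of `Cusp/Level4Cusp`.  `L` a field of characteristic `0` with `[Algebra L ℚ̄]`
algebraic, `A` a discrete valuation subring of `L` with residue characteristic `ℓ ∤ M`, `9 ∣ M`,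
`r ∈ A` a root of `X² + 9 X + 27`.  The four Kummer statements (finite cusp values `0, r, r'` on
the chart `B0 A t₉`, `∞` on the chart `B0 A t₉⁻¹`) in the packaging `Final/Star9.Hloc9`, hence
`Trans.Star A M m` at every level `9 ∣ M`.

Proof: `KummerFieldHloc.hloc_kummerField(_inv)` at the Kummer field of exponent `e = M`, with the
Gauss side from `Cusp/Level9Data`, `pr` from `Cusp/Coord0(Alg)`, the geometric side from
`Cusp/Level9D5G9`.
-/

set_option autoImplicit false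
set_option linter.unusedSectionVars false
set_option linter.unusedVariables false
set_option linter.style.haveILetI false

noncomputable section

namespace Fermat.Agent.S18.Cusp.Level9CuspH

open Polynomial IsLocalRing IntermediateField ModularCurve HahnSeries AlgebraicCurve
open Fermat.Agent.S24.BridgeInv
open Fermat.Agent.S18.Gauss.Basic Fermat.Agent.S18.Gauss.Residue
open Fermat.Agent.S18.Gauss
open Fermat.Agent.S18.Inst.Bundle
open Fermat.Agent.S18.Haupt9 (t9C)
open Fermat.Agent.S18.Trans Fermat.Agent.S18.Inst.Level9 Fermat.Agent.S18.Inst.Level4Final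
open Fermat.Agent.S18.Inst.LevelDown
open Fermat.Agent.S18.Cusp.ShiftData Fermat.Agent.S18.Cusp.HauptSeries
open Fermat.Agent.S18.Cusp.Graded Fermat.Agent.S18.Cusp.Kummer
open Fermat.Agent.S18.Cusp.GaussKummer Fermat.Agent.S18.Cusp.KummerField
open Fermat.Agent.S18.Cusp.KummerCoord Fermat.Agent.S18.Cusp.KummerFieldHloc
open Fermat.Agent.S18.Core.Charts Fermat.Agent.S18.Cusp.ChartLocalOK
open Fermat.Agent.S18.Cusp.Level9Data Fermat.Agent.S18.Cusp.LevelD5Coe
open Fermat.Agent.S18.Cusp.Level9D5G9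
open Fermat.Agent.S18.Final.Level9 (g9 a9 Ginf9)

set_option synthInstance.maxHeartbeats 400000
set_option maxHeartbeats 2000000

variable {L : Type*} [Field L] [Algebra ℚ L] [Algebra L Kbar] {M : ℕ} [NeZero M] (h9 : 9 ∣ M)

/-! ### the geometric side: base change of `u = (t₉ - a)⁻¹` to `ℚ̄` -/

theorem coeffMap_uS9 (a : L) :
    coeffMap (algebraMap L Kbar) (uS9 a) =
      (t9C Kbar - HahnSeries.C (algebraMap L Kbar a))⁻¹ := by
  unfold uS9
  rw [map_inv₀, map_sub, Fermat.Agent.S18.Haupt9.coeffMap_t9C, HahnSeries.C_apply,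
    coeffMap_single, ← HahnSeries.C_apply]

include h9 in
theorem coeffMap_uS9_mem (a : L) :
    coeffMap (algebraMap L Kbar) (uS9 a) ∈ modularFunctionFieldBar M :=
  Fermat.Agent.S18.ConstExt.coeffMap_mem_up (uS9_mem M h9 a)

/-- the underlying series of `⟨u_K, _⟩⁻¹` is `t₉ - a`. -/
theorem coe_uK9_inv (a : L)
    (huK : coeffMap (algebraMap L Kbar) (uS9 a) ∈ modularFunctionFieldBar M) :
    (((⟨coeffMap (algebraMap L Kbar) (uS9 a), huK⟩ : FF M)⁻¹ : FF M) : LaurentSeries Kbar) =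
      t9C Kbar - HahnSeries.C (algebraMap L Kbar a) := by
  rw [coe_inv_mk, coeffMap_uS9, inv_inv]

/-- the underlying series of `⟨u_K, _⟩` at `a = 0` is `t₉⁻¹`. -/
theorem coe_uK9_zero
    (huK : coeffMap (algebraMap L Kbar) (uS9 (0 : L)) ∈ modularFunctionFieldBar M) :
    (((⟨coeffMap (algebraMap L Kbar) (uS9 (0 : L)), huK⟩ : FF M)) : LaurentSeries Kbar) =
      (t9C Kbar)⁻¹ := by
  show coeffMap (algebraMap L Kbar) (uS9 (0 : L)) = _
  rw [coeffMap_uS9, map_zero, map_zero, sub_zero]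

variable (A : ValuationSubring L) [IsDiscreteValuationRing A]
  {ℓ : ℕ} [Fact ℓ.Prime] [CharP (ResidueField A) ℓ] (hℓM : ¬ ℓ ∣ M)

include hℓM in
/-- the level is a unit of `A`. -/
theorem isUnit_level9 : IsUnit ((M : ℕ) : A) := by
  have h1 : residue A ((M : ℕ) : A) ≠ 0 := by
    rw [map_natCast]
    intro h0
    rw [CharP.cast_eq_zero_iff (ResidueField A) ℓ] at h0
    exact hℓM h0
  exact (residue_ne_zero_iff_isUnit _).mp h1

theorem hsuK9 (e : ℕ) [NeZero e] (he : IsUnit (e : A)) (a : A) :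
    coeffMap (algebraMap L Kbar) (sS9 A e he a) ^ e =
      qExpand Kbar e (coeffMap (algebraMap L Kbar) (uS9 (a : L))) := by
  rw [← map_pow, sS9_pow, Graded.coeffMap_qExpand]

variable [Algebra.IsAlgebraic L Kbar] {π : A} (hπ : Irreducible π)

/-- **THEOREM N at the finite cusp value `a`** (`g` any polynomial whose non-vanishing excludes the
other cusp values of `t₉ - a`). -/
theorem hloc9_fin (a : A) (g : A[X]) (hg0 : g ≠ 0)
    (hg : ∀ t0 : Kbar, t0 ≠ 0 → aeval t0 (g.map (algebraMap A L)) ≠ 0 →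
      t0 + algebraMap L Kbar (a : L) ≠ 0 ∧
        (t0 + algebraMap L Kbar (a : L)) ^ 2 + 9 * (t0 + algebraMap L Kbar (a : L)) + 27 ≠ 0) :
    ∃ k : ℕ, ∀ z : ↥(modularFunctionFieldFullC (ResidueField A) M),
      IsIntegral (resB0 (coordData9' A hℓM h9 hπ).good (rho4 A hℓM)).range z →
      ∃ b : ↥(B0 A (t9el (L := L) M h9)),
        resB0 (coordData9' A hℓM h9 hπ).good (rho4 A hℓM)
            ⟨aeval (t9el (L := L) M h9) (g.comp (X - Polynomial.C a)), aeval_mem_B0 _⟩ ^ k * z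
          = resB0 (coordData9' A hℓM h9 hπ).good (rho4 A hℓM) b := by
  have : CharZero L := algebraRat.charZero L
  have he := isUnit_level9 A hℓM
  have hd := downData9_u_inv h9 A hℓM hπ a
  have := hd.finite
  have : Algebra.IsSeparable
      (ResidueField A)⟮rhoBase (ModularH.scalable A hℓM)
        (modularFunctionFieldFullC (ResidueField A) M) (ModularH.range_gaussRes A hℓM)
        ⟨(uEl9 M h9 (a : L))⁻¹, hd.mem⟩⟯
      ↥(modularFunctionFieldFullC (ResidueField A) M) := hd.sep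
  have := Concrete.finiteDimensional L M
  have hK := kummerData9 h9 A M he a
  have hG := gaussUnit9 A M he a
  have huK := coeffMap_uS9_mem (M := M) h9 (a : L)
  have hcoe := coe_uK9_inv (M := M) (a : L) huK
  have htr : Transcendental Kbar
      (⟨coeffMap (algebraMap L Kbar) (uS9 (a : L)), huK⟩ : FF M) := by
    have h1 := transcendental_inv' (htr_nine_shift M h9 _ _ hcoe)
    rwa [inv_inv] at h1
  have hfin : FiniteDimensional
      Kbar⟮(⟨coeffMap (algebraMap L Kbar) (uS9 (a : L)), huK⟩ : FF M)⟯ (FF M) := by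
    have h0 : FiniteDimensional
        Kbar⟮((⟨coeffMap (algebraMap L Kbar) (uS9 (a : L)), huK⟩ : FF M)⁻¹ : FF M)⟯ (FF M) :=
      hfin_nine_shift M h9 _ _ hcoe
    have h1 := @finiteDimensional_adjoin_inv Kbar (FF M) _ _ _
      ((⟨coeffMap (algebraMap L Kbar) (uS9 (a : L)), huK⟩ : FF M)⁻¹ : FF M) h0
    rwa [inv_inv] at h1
  exact hloc_kummerField_inv (ModularH.scalable A hℓM) hK hG
    (modularFunctionFieldFullC (ResidueField A) M)
    (ModularH.range_gaussRes A hℓM) (uS9_mem M h9 (a : L)) (sS9_pow A M he a)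
    (coordData9' A hℓM h9 hπ).good a (uEl9_inv_eq h9 A a) (hutr9 h9 A hℓM hπ a)
    (adjoin_Jel_le9 h9 (a : L))
    (Concrete.resIndep_pow (ModularH.isGaussRed A hℓM) hℓM)
    (by rw [Fintype.card_fin, Concrete.finrank_eq_psi])
    hd.transc hd.mem hd.tbar _ hd.finrank_eq hd.finrank_res
    (Coord0.pr hK) (Coord0.hprF_inv_alg hK) (Coord0.hprB_inv_val hK he) (Coord0.hpr_id_alg hK)
    (Coord0.hred (ModularH.scalable A hℓM) hK hG _
      (rhoK_eq_zero_iff (ModularH.scalable A hℓM) _ (ModularH.range_gaussRes A hℓM) hK hG))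
    huK (hsuK9 A M he a)
    (fun x hx => Fermat.Agent.S18.ConstExt.coeffMap_mem_up hx) rfl htr g hg0
    (D5_nine_of_cover M h9 _ _ hcoe g hg) (htame_nine_shift M h9 _ _ hcoe M dvd_rfl)

/-- **THEOREM N at the cusp `∞`** (chart `B0 A t₉⁻¹`, cusp value `1/t₉ = 0`). -/
theorem hloc9_inf :
    ∃ k : ℕ, ∀ z : ↥(modularFunctionFieldFullC (ResidueField A) M),
      IsIntegral (resB0 (coordData9' A hℓM h9 hπ).good.inv (rho4 A hℓM)).range z →
      ∃ b : ↥(B0 A (t9el (L := L) M h9)⁻¹),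
        resB0 (coordData9' A hℓM h9 hπ).good.inv (rho4 A hℓM)
            ⟨aeval (t9el (L := L) M h9)⁻¹ ((Ginf9 : A[X]).comp (X - Polynomial.C 0)),
              aeval_mem_B0 _⟩ ^ k * z
          = resB0 (coordData9' A hℓM h9 hπ).good.inv (rho4 A hℓM) b := by
  have : CharZero L := algebraRat.charZero L
  have he := isUnit_level9 A hℓM
  have hd := downData9_u h9 A hℓM hπ 0
  have := hd.finite
  have : Algebra.IsSeparable
      (ResidueField A)⟮rhoBase (ModularH.scalable A hℓM)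
        (modularFunctionFieldFullC (ResidueField A) M) (ModularH.range_gaussRes A hℓM)
        ⟨uEl9 M h9 ((0 : A) : L), hd.mem⟩⟯
      ↥(modularFunctionFieldFullC (ResidueField A) M) := hd.sep
  have := Concrete.finiteDimensional L M
  have hK := kummerData9 h9 A M he 0
  have hG := gaussUnit9 A M he 0
  have huK := coeffMap_uS9_mem (M := M) h9 ((0 : A) : L)
  have hcoe : (((⟨coeffMap (algebraMap L Kbar) (uS9 ((0 : A) : L)), huK⟩ : FF M)) :
      LaurentSeries Kbar) = (t9C Kbar)⁻¹ := coe_uK9_zero huK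
  have htr : Transcendental Kbar
      (⟨coeffMap (algebraMap L Kbar) (uS9 ((0 : A) : L)), huK⟩ : FF M) :=
    htr_Ginf9 M h9 _ hcoe
  have hfin : FiniteDimensional
      Kbar⟮(⟨coeffMap (algebraMap L Kbar) (uS9 ((0 : A) : L)), huK⟩ : FF M)⟯ (FF M) :=
    hfin_Ginf9 M h9 _ hcoe
  have ht_def : uEl9 M h9 ((0 : A) : L) = (t9el (L := L) M h9)⁻¹ -
      algebraMap A ↥(laurentBaseChange L (modularFunctionFieldFull M)) 0 := by
    rw [uEl9_eq h9 A 0, map_zero, sub_zero, sub_zero]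
  have hg0 : (Ginf9 : A[X]) ≠ 0 := by
    intro h0
    have := congrArg (fun p => Polynomial.coeff p 0) h0
    simp [Ginf9] at this
  exact hloc_kummerField (ModularH.scalable A hℓM) hK hG
    (modularFunctionFieldFullC (ResidueField A) M)
    (ModularH.range_gaussRes A hℓM) (uS9_mem M h9 ((0 : A) : L)) (sS9_pow A M he 0)
    (coordData9' A hℓM h9 hπ).good.inv 0 ht_def (hutr9 h9 A hℓM hπ 0)
    (adjoin_Jel_le9 h9 ((0 : A) : L))
    (Concrete.resIndep_pow (ModularH.isGaussRed A hℓM) hℓM)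
    (by rw [Fintype.card_fin, Concrete.finrank_eq_psi])
    hd.transc hd.mem hd.tbar _ hd.finrank_eq hd.finrank_res
    (Coord0.pr hK) (Coord0.hprF_alg hK) (Coord0.hprB_val hK he) (Coord0.hpr_id_alg hK)
    (Coord0.hred (ModularH.scalable A hℓM) hK hG _
      (rhoK_eq_zero_iff (ModularH.scalable A hℓM) _ (ModularH.range_gaussRes A hℓM) hK hG))
    huK (hsuK9 A M he 0)
    (fun x hx => Fermat.Agent.S18.ConstExt.coeffMap_mem_up hx) rfl htr Ginf9 hg0
    (D5_Ginf9 M h9 _ hcoe) (htame_Ginf9 M h9 _ hcoe M dvd_rfl)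

/-- the cover polynomials `g9 r i` are non-zero. -/
theorem g9_ne_zero (r : A) (i : Fin 3) : g9 r i ≠ 0 := by
  fin_cases i
  · show (X ^ 2 + 9 * X + 27 : A[X]) ≠ 0
    intro h0
    have := congrArg (fun p => Polynomial.coeff p 2) h0
    simp [coeff_X] at this
  · exact ((monic_X_add_C _).mul (monic_X_add_C _)).ne_zero
  · exact ((monic_X_add_C _).mul (monic_X_add_C _)).ne_zero

/-- **THEOREM N at the finite cusp values `a9 r i` (`= 0, r, r'`)**, cover polynomial `g9 r i`. -/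
theorem hloc9_g9 {r : A} (hr : r ^ 2 + 9 * r + 27 = 0) (i : Fin 3) :
    ∃ k : ℕ, ∀ z : ↥(modularFunctionFieldFullC (ResidueField A) M),
      IsIntegral (resB0 (coordData9' A hℓM h9 hπ).good (rho4 A hℓM)).range z →
      ∃ b : ↥(B0 A (t9el (L := L) M h9)),
        resB0 (coordData9' A hℓM h9 hπ).good (rho4 A hℓM)
            ⟨aeval (t9el (L := L) M h9) ((g9 r i).comp (X - Polynomial.C (a9 r i))),
              aeval_mem_B0 _⟩ ^ k * z
          = resB0 (coordData9' A hℓM h9 hπ).good (rho4 A hℓM) b :=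
  hloc9_fin h9 A hℓM hπ (a9 r i) (g9 r i) (g9_ne_zero A r i)
    (fun t0 h0 hgt => g9_excludes (R := A) (L := L) hr i t0 h0 hgt)

/-- **the four Kummer statements at level 9** in the packaging of `Final/Star9`. -/
theorem hloc9_all {r : A} (hr : r ^ 2 + 9 * r + 27 = 0) :
    Fermat.Agent.S18.Final.Star9.Hloc9 A hℓM hπ h9 r :=
  ⟨fun i => hloc9_g9 h9 A hℓM hπ hr i, hloc9_inf h9 A hℓM hπ⟩

/-! ### over a subfield `L₁ ≤ ℚ̄`, and `Trans.Star` at level `9 ∣ M` -/

/-- `ℚ̄ / L₁` is algebraic for every intermediate field `L₁` of `ℚ̄ / ℚ`. -/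
theorem isAlgebraic_sub9 (L₁ : IntermediateField ℚ Kbar) : Algebra.IsAlgebraic ↥L₁ Kbar :=
  haveI : Algebra.IsAlgebraic ℚ Kbar := AlgebraicClosure.isAlgebraic ℚ
  Algebra.IsAlgebraic.tower_top (K := ℚ) ↥L₁

/-- the four Kummer statements at level 9 over a subfield `L₁ ≤ ℚ̄` (no `IsAlgebraic`
hypothesis). -/
theorem hloc9_all_sub {L₁ : IntermediateField ℚ Kbar} {M : ℕ} [NeZero M] (h9 : 9 ∣ M)
    (A₁ : ValuationSubring ↥L₁) [IsDiscreteValuationRing A₁]
    {ℓ : ℕ} [Fact ℓ.Prime] [CharP (ResidueField A₁) ℓ] (hℓM : ¬ ℓ ∣ M)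
    {π : A₁} (hπ : Irreducible π) {r : A₁} (hr : r ^ 2 + 9 * r + 27 = 0) :
    Fermat.Agent.S18.Final.Star9.Hloc9 A₁ hℓM hπ h9 r :=
  haveI := isAlgebraic_sub9 L₁
  hloc9_all h9 A₁ hℓM hπ hr

/-- **`Trans.Star` at every level `9 ∣ M`** (`ℓ ∤ M m`, `A` over `ℓ`). -/
theorem star9 {ℓ : ℕ} [Fact ℓ.Prime] (A : ValuationSubring Kbar) (hA : A.LiesOverPrime ℓ)
    (M m : ℕ) [NeZero M] (h9 : 9 ∣ M) (hℓM : ¬ ℓ ∣ M) (hℓm : ¬ ℓ ∣ m) : Trans.Star A M m :=
  Fermat.Agent.S18.Final.Star9.star9_of_hloc A hA M m hℓM hℓm h9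
    (fun L₁ _ _ _ π hπ r hr =>
      hloc9_all_sub h9 (Fermat.Agent.S18.Descent.restrict A L₁) hℓM hπ hr)

end Fermat.Agent.S18.Cusp.Level9CuspH
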