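import Mathlib

/-!
# S18, block CUSP: abstract lemma (Mathlib only)

`B` a chart ring over `R` (a DVR with uniformiser `π`, but only `(π)` maximal is used),
`T ∈ B` a coordinate vanishing exactly at finitely many `R`-rational points `c` (the cusps of a
fibre), given by evaluations `ev c : B →ₐ[R] R`.  If there are

* separating functions `s c ∈ B` (`ev c (s c) = 1`, `ev c' (s c) = 0` for `c' ≠ c`),
* local parameters `θ c ∈ B` (`ev c (θ c) = 0`) such that every `x` vanishing at `c` becomes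
  divisible by `θ c` after multiplication by a power of `s c`  (H1),
* and every `x` vanishing at all `c` has a power divisible by `T`  (H2),

then every prime `𝔫` of `B` containing `π` and `T` is the kernel of `B → R → R/π` along some
`ev c`, and `𝔫 B_𝔫 = (π, θ c) B_𝔫` in the element form
`∀ x ∈ 𝔫, ∃ s ∉ 𝔫, s * x ∈ span {π, θ c}` (Theorem N, local form, at cusp points).
-/

set_option autoImplicit false

namespace Fermat.Agent.S18.Cusp.Abstract

variable {R B : Type*} [CommRing R] [CommRing B] [Algebra R B]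
variable {ι : Type*} [Fintype ι] [DecidableEq ι]

/-- The maximal ideal of `B` attached to the point `ev`: elements whose value lies in `(π)`. -/
def pointIdeal (π : R) (ev : B →ₐ[R] R) : Ideal B :=
  Ideal.comap ev.toRingHom (Ideal.span {π})

theorem mem_pointIdeal {π : R} {ev : B →ₐ[R] R} {x : B} :
    x ∈ pointIdeal π ev ↔ ev x ∈ Ideal.span {π} :=
  Iff.rfl

theorem pointIdeal_isMaximal {π : R} (hπ : (Ideal.span {π}).IsMaximal) (ev : B →ₐ[R] R) :
    (pointIdeal π ev).IsMaximal := by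
  have hsurj : Function.Surjective ev.toRingHom := fun r =>
    ⟨algebraMap R B r, by simp⟩
  exact Ideal.comap_isMaximal_of_surjective ev.toRingHom hsurj

theorem algebraMap_mem_pointIdeal (π : R) (ev : B →ₐ[R] R) :
    algebraMap R B π ∈ pointIdeal π ev := by
  rw [mem_pointIdeal, AlgHom.commutes]
  exact Ideal.mem_span_singleton_self π

/-- **(CUSP, abstract)**: classification of the primes over `(π, T)` and their local
generation by `(π, θ c)`. -/
theorem exists_point_of_mem (π : R) (hπ : (Ideal.span {π}).IsMaximal)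
    (ev : ι → B →ₐ[R] R) (T : B) (θ s : ι → B)
    (hs_self : ∀ c, ev c (s c) = 1)
    (hs_other : ∀ c c', c' ≠ c → ev c' (s c) = 0)
    (hθ : ∀ c, ev c (θ c) = 0)
    (H1 : ∀ (c : ι) (x : B), ev c x = 0 → ∃ (K : ℕ) (y : B), s c ^ K * x = θ c * y)
    (H2 : ∃ E : ℕ, ∀ x : B, (∀ c, ev c x = 0) → ∃ y : B, x ^ E = T * y)
    (𝔫 : Ideal B) [h𝔫 : 𝔫.IsPrime] (hπ𝔫 : algebraMap R B π ∈ 𝔫) (hT : T ∈ 𝔫) :
    ∃ c, 𝔫 = pointIdeal π (ev c) ∧ s c ∉ 𝔫 ∧
      ∀ x ∈ 𝔫, ∃ s', s' ∉ 𝔫 ∧ s' * x ∈ Ideal.span {algebraMap R B π, θ c} := by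
  obtain ⟨E, hE⟩ := H2
  -- elements vanishing at all points lie in `𝔫`
  have hvan : ∀ x : B, (∀ c, ev c x = 0) → x ∈ 𝔫 := by
    intro x hx
    obtain ⟨y, hy⟩ := hE x hx
    exact h𝔫.mem_of_pow_mem E (hy ▸ 𝔫.mul_mem_right y hT)
  -- some `s c` is outside `𝔫`
  have hex : ∃ c, s c ∉ 𝔫 := by
    by_contra hall
    push Not at hall
    have hu : (∑ c, s c) ∈ 𝔫 := 𝔫.sum_mem fun c _ => hall c
    have h1 : (∑ c, s c) - 1 ∈ 𝔫 := by
      apply hvan
      intro c
      rw [map_sub, map_one, map_sum, Finset.sum_eq_single c, hs_self, sub_self]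
      · intro c' _ hc'
        exact hs_other c' c (Ne.symm hc')
      · intro hc
        exact absurd (Finset.mem_univ c) hc
    apply h𝔫.ne_top
    rw [Ideal.eq_top_iff_one]
    have : (1 : B) = (∑ c, s c) - ((∑ c, s c) - 1) := by ring
    rw [this]
    exact 𝔫.sub_mem hu h1
  obtain ⟨c, hc⟩ := hex
  -- `θ c ∈ 𝔫`
  have hθ𝔫 : θ c ∈ 𝔫 := by
    have h : θ c * s c ∈ 𝔫 := by
      apply hvan
      intro c'
      by_cases hcc : c' = c
      · rw [hcc, map_mul, hθ, zero_mul]
      · rw [map_mul, hs_other c c' hcc, mul_zero]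
    exact (h𝔫.mem_or_mem h).resolve_right hc
  -- decomposition of an element of the point ideal
  have hdec : ∀ x : B, ev c x ∈ Ideal.span {π} →
      ∃ K : ℕ, s c ^ K * x ∈ Ideal.span {algebraMap R B π, θ c} := by
    intro x hx
    obtain ⟨r, hr⟩ := Ideal.mem_span_singleton'.1 hx
    have h0 : ev c (x - algebraMap R B (ev c x)) = 0 := by
      rw [map_sub, AlgHom.commutes, Algebra.algebraMap_self_apply, sub_self]
    obtain ⟨K, y, hy⟩ := H1 c _ h0
    refine ⟨K, ?_⟩
    have : s c ^ K * x =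
        (s c ^ K * algebraMap R B r) * algebraMap R B π + y * θ c := by
      have hx' : x = (x - algebraMap R B (ev c x)) + algebraMap R B (ev c x) := by ring
      rw [hx', mul_add, hy, ← hr, map_mul]
      ring
    rw [this, Ideal.mem_span_pair]
    exact ⟨_, _, rfl⟩
  have hle : pointIdeal π (ev c) ≤ 𝔫 := by
    intro x hx
    obtain ⟨K, hK⟩ := hdec x (mem_pointIdeal.1 hx)
    have hin : s c ^ K * x ∈ 𝔫 := by
      have hsp : Ideal.span {algebraMap R B π, θ c} ≤ 𝔫 := by
        rw [Ideal.span_le]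
        rintro z (rfl | rfl)
        · exact hπ𝔫
        · exact hθ𝔫
      exact hsp hK
    rcases h𝔫.mem_or_mem hin with h | h
    · exact absurd (h𝔫.mem_of_pow_mem K h) hc
    · exact h
  have heq : 𝔫 = pointIdeal π (ev c) :=
    ((pointIdeal_isMaximal hπ (ev c)).eq_of_le h𝔫.ne_top hle).symm
  refine ⟨c, heq, hc, fun x hx => ?_⟩
  obtain ⟨K, hK⟩ := hdec x (mem_pointIdeal.1 (heq ▸ hx))
  exact ⟨s c ^ K, fun h => hc (h𝔫.mem_of_pow_mem K h), hK⟩

end Fermat.Agent.S18.Cusp.Abstract
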