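import Mathlib
import Fermat.Agent.S18.Cusp.Coord0

/-
S18 (project G), block CUSP (helper29): **`hprF` / `hprB` of `Cusp/Coord0.lean` (helper19) for an
arbitrary generator `c` with `cᵉ ∈ F(q'ᵉ)`, in particular for `c = sEl⁻¹`** (normalisation (N2) of
`KummerGaussHloc.hloc_gauss_kummer_sEl_inv` / `KummerFieldHloc.hloc_kummerField_inv`).
Same projection `pr := Coord0.pr h`.
-/

set_option autoImplicit false
set_option linter.unusedSectionVars false
set_option linter.unusedVariables false

noncomputable section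

open HahnSeries ModularCurve IntermediateField Polynomial

namespace Fermat.Agent.S18.Cusp.Coord0Inv

open Fermat.Agent.S18.Cusp.Coord0

open Fermat.Agent.S18.Cusp.Graded Fermat.Agent.S18.Cusp.Kummer
open Fermat.Agent.S18.Cusp.KummerField

variable {L : Type*} [Field L] {e : ℕ} [NeZero e]
  {F : IntermediateField L (LaurentSeries L)} {s : LaurentSeries L}

section IntegralGen

variable (h : KummerData e (base0 L e F) s)
  {R : Type*} [CommRing R] [Algebra R L] [Algebra R ↥(kummerField L e F s)]
  [IsScalarTower R L ↥(kummerField L e F s)]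

/-- the image of `R[cᵉ]` in `L((q'))` lies in `F(q'ᵉ)` as soon as `cᵉ` does. -/
theorem map_adjoin_pow_le_of_mem (c : ↥(kummerField L e F s))
    (hce : ((c ^ e : ↥(kummerField L e F s)) : LaurentSeries L) ∈ base0 L e F)
    (x : LaurentSeries L)
    (hx : x ∈ (Algebra.adjoin R {c ^ e}).toSubring.map
      ((kummerField L e F s).val : ↥(kummerField L e F s) →+* LaurentSeries L)) :
    x ∈ base0 L e F := by
  obtain ⟨a, ha, rfl⟩ := hx
  change a ∈ Algebra.adjoin R {c ^ e} at ha
  induction ha using Algebra.adjoin_induction with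
  | mem z hz =>
    rw [Set.mem_singleton_iff] at hz
    rw [hz]
    exact hce
  | algebraMap r =>
    show ((algebraMap R ↥(kummerField L e F s) r : ↥(kummerField L e F s)) : LaurentSeries L)
      ∈ base0 L e F
    rw [coe_algebraMap_R]
    exact (base L e F).algebraMap_mem _
  | add a b _ _ ha hb =>
    rw [map_add]
    exact (base0 L e F).add_mem ha hb
  | mul a b _ _ ha hb =>
    rw [map_mul]
    exact (base0 L e F).mul_mem ha hb

include h in
/-- `pr` preserves integrality over `R[cᵉ]`. -/
theorem isIntegral_pr_adjoin_pow_of_mem (he : IsUnit ((e : ℕ) : R)) (c : ↥(kummerField L e F s))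
    (hce : ((c ^ e : ↥(kummerField L e F s)) : LaurentSeries L) ∈ base0 L e F)
    (y : ↥(kummerField L e F s))
    (hy : IsIntegral (Algebra.adjoin R {c ^ e}) y) :
    IsIntegral (Algebra.adjoin R {c ^ e}) (pr h y) := by
  set φ' : ↥(kummerField L e F s) →+* LaurentSeries L :=
    ((kummerField L e F s).val : ↥(kummerField L e F s) →+* LaurentSeries L) with hφ'
  have hφ'inj : Function.Injective φ' := Subtype.val_injective
  set A0 : Subalgebra R ↥(kummerField L e F s) := Algebra.adjoin R {c ^ e} with hA0
  apply isIntegral_of_map_toSubring φ' A0 hφ'inj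
  obtain ⟨u, hu⟩ := he.exists_left_inv
  have heinv : φ' (algebraMap R ↥(kummerField L e F s) u) ∈ A0.toSubring.map φ' :=
    ⟨_, A0.algebraMap_mem u, rfl⟩
  have he1 : φ' (algebraMap R ↥(kummerField L e F s) u) * ((e : ℕ) : LaurentSeries L) = 1 := by
    have h1 : ((e : ℕ) : LaurentSeries L)
        = φ' (algebraMap R ↥(kummerField L e F s) ((e : ℕ) : R)) := by
      rw [map_natCast, map_natCast]
    rw [h1, ← map_mul, ← map_mul, hu, map_one, map_one]
  exact TraceCoord.isIntegral_comp_zero h (A0.toSubring.map φ')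
    (map_adjoin_pow_le_of_mem c hce) _ heinv he1
    ((mem_kummerField_iff_mem_adjoin L e F s).mp y.2) (isIntegral_map_toSubring φ' A0 hy)

include h in
/-- **`hprB` for a general generator `c` with `cᵉ ∈ F(q'ᵉ)`.** -/
theorem hprB_of_mem (he : IsUnit ((e : ℕ) : R)) (c : ↥(kummerField L e F s))
    (hce : ((c ^ e : ↥(kummerField L e F s)) : LaurentSeries L) ∈ base0 L e F) :
    ∀ y : ↥(kummerField L e F s), IsIntegral (Algebra.adjoin R {c}) y →
      IsIntegral (Algebra.adjoin R {c}) (pr h y) := by
  intro y hy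
  have h1 := isIntegral_adjoin_singleton_pow (R := R) c e (NeZero.ne e) hy
  have h2 := isIntegral_pr_adjoin_pow_of_mem h he c hce y h1
  refine isIntegral_of_subalgebra_le ?_ h2
  refine Algebra.adjoin_le ?_
  intro z hz
  rw [Set.mem_singleton_iff] at hz
  rw [hz]
  exact Subalgebra.pow_mem _ (Algebra.subset_adjoin (Set.mem_singleton _)) e

include h in
theorem sEl_inv_pow_mem :
    ((((sEl L e F s)⁻¹) ^ e : ↥(kummerField L e F s)) : LaurentSeries L) ∈ base0 L e F := by
  have h1 : ((((sEl L e F s)⁻¹) ^ e : ↥(kummerField L e F s)) : LaurentSeries L) = (s ^ e)⁻¹ := by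
    rw [inv_pow]
    rfl
  rw [h1]
  exact (base0 L e F).inv_mem h.pow_mem

include h in
/-- **`hprB` for the generator `sEl⁻¹`** (normalisation (N2)). -/
theorem hprB_inv (he : IsUnit ((e : ℕ) : R)) :
    ∀ y : ↥(kummerField L e F s), IsIntegral (Algebra.adjoin R {(sEl L e F s)⁻¹}) y →
      IsIntegral (Algebra.adjoin R {(sEl L e F s)⁻¹}) (pr h y) :=
  hprB_of_mem h he _ (sEl_inv_pow_mem h)

end IntegralGen

section PrF

variable (h : KummerData e (base0 L e F) s)

/-- **`hprF` for the generator `sEl⁻¹`** (`ι := (inclBase L e F s).toRingHom`). -/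
theorem hprF_inv {R : Type*} [CommRing R] [Algebra R ↥(kummerField L e F s)] :
    ∀ y : ↥(kummerField L e F s), IsIntegral (Algebra.adjoin R {(sEl L e F s)⁻¹}) y →
      ∃ x : ↥F, (inclBase L e F s).toRingHom x = pr h y :=
  fun y _ => exists_inclBase_eq_pr h y

/-- `hprF` for any generator. -/
theorem hprF_gen {R : Type*} [CommRing R] [Algebra R ↥(kummerField L e F s)]
    (c : ↥(kummerField L e F s)) :
    ∀ y : ↥(kummerField L e F s), IsIntegral (Algebra.adjoin R {c}) y →
      ∃ x : ↥F, (inclBase L e F s).toRingHom x = pr h y :=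
  fun y _ => exists_inclBase_eq_pr h y

end PrF

end Fermat.Agent.S18.Cusp.Coord0Inv
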