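import Mathlib
import Fermat.Agent.S18.Cusp.KummerRes
import Fermat.Agent.S18.Cusp.HauptSeries

/-!
# S18 (CUSP): the Gauss / Kummer data at a cusp value, generic in the Hauptmodul series

`A` a valuation subring of `L`, `PA : A⟦X⟧` with constant coefficient `1`, `P := PA.map A.subtype`,
`τ := tauOf P = q⁻¹ P`, `aA : A` a cusp value, `e` invertible in `A`, `F ⊆ L((q))` an intermediate
field containing `τ`, all of whose nonzero elements are Gauss-scalable.
`s := sAt e _ P _ a = (τ - a)^{-1/e}`, `u := (τ - a)⁻¹`.  We provide every input of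
`KummerCoord` / `KummerRes` / `KummerGaussHloc` for `(F, s, u)`:

* `gaussUnit_sAt : GaussUnit A s`, `u_mem`, `sAt_pow_eq : sᵉ = u(q'ᵉ)`,
  `kummerData_sAt : KummerData e (base0 L e F) s`;
* `resT_tauOf`, `resT_u : resT A u = (τ̄ - ā)⁻¹`, `transcendental_resT_u`.
-/

set_option autoImplicit false
set_option linter.unusedSectionVars false
set_option linter.style.haveILetI false

noncomputable section

open HahnSeries ModularCurve IntermediateField

namespace Fermat.Agent.S18.Cusp.CuspGaussData

open Fermat.Agent.S18.Cusp.Graded Fermat.Agent.S18.Cusp.Kummer Fermat.Agent.S18.Gauss.Basic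
open Fermat.Agent.S18.Cusp.GaussKummer Fermat.Agent.S18.Cusp.KummerField
open Fermat.Agent.S18.Cusp.KummerCoord Fermat.Agent.S18.Cusp.RootSeries
open Fermat.Agent.S18.Cusp.HauptSeries

variable {L : Type*} [Field L] {A : ValuationSubring L} (e : ℕ) [NeZero e]
  (heA : IsUnit (e : A)) (PA : PowerSeries A) (hPA : PowerSeries.constantCoeff PA = 1) (aA : A)

/-- the series over `L`. -/
abbrev PL : PowerSeries L := PowerSeries.map A.subtype PA

include hPA in
omit [NeZero e] in
theorem hPL : PowerSeries.constantCoeff (PL PA) = 1 := constantCoeff_map A.subtype PA hPA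

include heA in
omit [NeZero e] in
theorem heL : IsUnit (e : L) := isUnit_map A.subtype e heA

/-- `s_a = (τ - a)^{-1/e}`. -/
abbrev sL : LaurentSeries L := sAt e (heL e heA) (PL PA) (hPL PA hPA) (aA : L)

/-- `u_a = (τ - a)⁻¹`. -/
abbrev uL : LaurentSeries L := (tauOf (PL PA) - HahnSeries.C (aA : L))⁻¹

/-- **(Gs)** `s_a` is a Gauss unit. -/
theorem gaussUnit_sAt : GaussUnit A (sL e heA PA hPA aA) := by
  obtain ⟨S, S', h1, h2⟩ := exists_liftAt e (heL e heA) (PL PA) (hPL PA hPA) (aA : L)
    A.subtype heA PA hPA rfl aA rfl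
  exact ⟨⟨S, h1⟩, ⟨S', h2⟩⟩

theorem sAt_ne_zero : sL e heA PA hPA aA ≠ 0 := sOf_ne_zero e _ _ _

/-- `sᵉ = u(q'ᵉ)`. -/
theorem sAt_pow_eq : sL e heA PA hPA aA ^ e = qExpand L e (uL PA aA) := by
  have h := sAt_pow_mul e (heL e heA) (PL PA) (hPL PA hPA) (aA : L)
  rw [map_inv₀]
  exact eq_inv_of_mul_eq_one_left h

variable {F : IntermediateField L (LaurentSeries L)}

omit [NeZero e] in
theorem C_mem (c : L) : (HahnSeries.C c : LaurentSeries L) ∈ F := by
  have := F.algebraMap_mem c
  rwa [algebraMap_laurentSeries_eq_single] at this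

omit [NeZero e] in
theorem u_mem (hτ : tauOf (PL PA) ∈ F) : uL PA aA ∈ F :=
  F.inv_mem (F.sub_mem hτ (C_mem _))

/-- the Kummer datum at the cusp value `a`. -/
theorem kummerData_sAt (hτ : tauOf (PL PA) ∈ F) :
    KummerData e (base0 L e F) (sL e heA PA hPA aA) :=
  KummerField.kummerData (u_mem PA aA hτ) (sAt_pow_eq e heA PA hPA aA)
    (isHomog_sAt e _ _ _ _) (sAt_ne_zero e heA PA hPA aA)

/-! ### residues -/

/-- the series over the residue field. -/
abbrev Pk : PowerSeries (IsLocalRing.ResidueField A) :=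
  PowerSeries.map (IsLocalRing.residue A) PA

omit [NeZero e] in
/-- the residue of `τ` is `τ̄`. -/
theorem tauOf_eq_incl : tauOf (PL PA) = incl A (tauOf PA) := (coeffMap_tauOf A.subtype PA).symm

omit [NeZero e] in
theorem resT_tauOf : resT A (tauOf (PL PA)) = tauOf (Pk PA) := by
  rw [tauOf_eq_incl, resT_incl]
  exact coeffMap_tauOf (IsLocalRing.residue A) PA

omit [NeZero e] in
theorem sub_eq_incl :
    tauOf (PL PA) - HahnSeries.C (aA : L) = incl A (tauOf PA - HahnSeries.C aA) := by
  rw [map_sub, incl_C, tauOf_eq_incl]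

omit [NeZero e] in
theorem resT_sub :
    resT A (tauOf (PL PA) - HahnSeries.C (aA : L))
      = tauOf (Pk PA) - HahnSeries.C (IsLocalRing.residue A aA) := by
  rw [sub_eq_incl, resT_incl, map_sub, red_C]
  congr 1
  exact coeffMap_tauOf (IsLocalRing.residue A) PA

omit [NeZero e] in
/-- `u = (τ - a)⁻¹` is a Gauss unit (`e = 1` case of `gaussUnit_sAt`). -/
theorem gaussUnit_u (hPA : PowerSeries.constantCoeff PA = 1) : GaussUnit A (uL PA aA) := by
  have h1 : IsUnit ((1 : ℕ) : A) := by simp
  have hg := gaussUnit_sAt 1 h1 PA hPA aA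
  have hpow := sAt_pow_eq 1 h1 PA hPA aA
  rw [pow_one, qExpand_one_apply] at hpow
  rw [← hpow]
  exact hg

omit [NeZero e] in
/-- **`ū = (τ̄ - ā)⁻¹`.** -/
theorem resT_u (hPA : PowerSeries.constantCoeff PA = 1) :
    resT A (uL PA aA) = (tauOf (Pk PA) - HahnSeries.C (IsLocalRing.residue A aA))⁻¹ := by
  have h := resT_inv_of_gaussUnit (gaussUnit_u PA aA hPA)
  rw [inv_inv, resT_sub] at h
  rw [h, inv_inv]

omit [NeZero e] in
/-- `ū` is transcendental over `κ` as soon as `τ̄` is. -/
theorem transcendental_resT_u (hPA : PowerSeries.constantCoeff PA = 1)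
    (htr : Transcendental (IsLocalRing.ResidueField A) (tauOf (Pk PA))) :
    Transcendental (IsLocalRing.ResidueField A) (resT A (uL PA aA)) := by
  rw [resT_u PA aA hPA]
  intro halg
  have h1 := halg.inv
  rw [inv_inv] at h1
  have h2 : IsAlgebraic (IsLocalRing.ResidueField A)
      (HahnSeries.C (IsLocalRing.residue A aA) : LaurentSeries (IsLocalRing.ResidueField A)) := by
    have : (HahnSeries.C (IsLocalRing.residue A aA) : LaurentSeries (IsLocalRing.ResidueField A))
        = algebraMap (IsLocalRing.ResidueField A) _ (IsLocalRing.residue A aA) := by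
      rw [algebraMap_laurentSeries_eq_single]
      rfl
    rw [this]
    exact isAlgebraic_algebraMap _
  have h3 := h1.add h2
  rw [sub_add_cancel] at h3
  exact htr h3

end Fermat.Agent.S18.Cusp.CuspGaussData
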