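import Mathlib
import Fermat.Agent.S18.Cusp.HauptSeries
import Fermat.Agent.S18.Cusp.GaussKummerRes
import Fermat.Agent.S18.Cusp.KummerField

set_option autoImplicit false
set_option linter.unusedSectionVars false
set_option linter.style.haveILetI false

/-!
# S18 (CUSP, concrete layer): the series-level data of one Kummer instance

`A` a valuation subring of `L`, `e` invertible in `A`, `PA : A⟦X⟧` with constant coefficient `1`
(so `τ = q⁻¹ P(q)` is the Hauptmodul), `aA : A` a cusp value.  Over each of the three coefficient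
rings (`A`, `L`, `κ`) we have the root `s = (τ - a)^{-1/e}` (`HauptSeries.sAt`); here we record

* `uAt = (τ - a)⁻¹` as a series (`tauInvOf`), with `sAt ^ e = uAt(q'ᵉ)`;
* the compatibility of everything with `incl : A((q)) → L((q))` and `red : A((q)) → κ((q))`;
* `gaussUnit : GaussUnit A s_L`, `sbar_eq : sbar = s_κ`, `resT_uAt : resT A u_L = u_κ`;
* transcendence of `u_κ` from that of `τ_κ`.
-/

noncomputable section

open HahnSeries ModularCurve

namespace Fermat.Agent.S18.Cusp.CuspSeries

open Fermat.Agent.S18.Cusp.Graded Fermat.Agent.S18.Cusp.Kummer Fermat.Agent.S18.Cusp.RootSeries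
open Fermat.Agent.S18.Cusp.HauptSeries Fermat.Agent.S18.Gauss.Basic
open Fermat.Agent.S18.Cusp.GaussKummer

section Ring

variable {R : Type*} [CommRing R] (Q : PowerSeries R)

/-- `(q⁻¹ Q)⁻¹ = q Q⁻¹` as a series. -/
def tauInvOf : LaurentSeries R :=
  single (1 : ℤ) (1 : R) * ofPowerSeries ℤ R (PowerSeries.invOfUnit Q 1)

theorem tauOf_mul_tauInvOf (hQ : PowerSeries.constantCoeff Q = 1) : tauOf Q * tauInvOf Q = 1 := by
  unfold tauOf tauInvOf
  have h1 : single (-1 : ℤ) (1 : R) * single (1 : ℤ) (1 : R) = 1 := by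
    rw [single_mul_single]; simp
  have h2 : Q * PowerSeries.invOfUnit Q 1 = 1 := by
    apply PowerSeries.mul_invOfUnit
    rw [hQ]; rfl
  calc single (-1 : ℤ) (1 : R) * ofPowerSeries ℤ R Q *
        (single (1 : ℤ) (1 : R) * ofPowerSeries ℤ R (PowerSeries.invOfUnit Q 1))
      = (single (-1 : ℤ) (1 : R) * single (1 : ℤ) (1 : R)) *
          ofPowerSeries ℤ R (Q * PowerSeries.invOfUnit Q 1) := by
        rw [map_mul]; ring
    _ = 1 := by rw [h1, h2, map_one, mul_one]

theorem map_invOfUnit (hQ : PowerSeries.constantCoeff Q = 1) {S : Type*} [CommRing S]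
    (f : R →+* S) :
    PowerSeries.map f (PowerSeries.invOfUnit Q 1) =
      PowerSeries.invOfUnit (PowerSeries.map f Q) 1 := by
  have hQ' : PowerSeries.constantCoeff (PowerSeries.map f Q) = 1 := constantCoeff_map f Q hQ
  have h1 : PowerSeries.map f Q * PowerSeries.map f (PowerSeries.invOfUnit Q 1) = 1 := by
    rw [← map_mul, PowerSeries.mul_invOfUnit Q 1 (by rw [hQ]; rfl), map_one]
  have h2 : PowerSeries.map f Q * PowerSeries.invOfUnit (PowerSeries.map f Q) 1 = 1 :=
    PowerSeries.mul_invOfUnit _ 1 (by rw [hQ']; rfl)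
  calc PowerSeries.map f (PowerSeries.invOfUnit Q 1)
      = PowerSeries.map f (PowerSeries.invOfUnit Q 1) *
          (PowerSeries.map f Q * PowerSeries.invOfUnit (PowerSeries.map f Q) 1) := by
        rw [h2, mul_one]
    _ = (PowerSeries.map f Q * PowerSeries.map f (PowerSeries.invOfUnit Q 1)) *
          PowerSeries.invOfUnit (PowerSeries.map f Q) 1 := by ring
    _ = _ := by rw [h1, one_mul]

theorem coeffMap_tauInvOf (hQ : PowerSeries.constantCoeff Q = 1) {S : Type*} [CommRing S]
    (f : R →+* S) :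
    coeffMap f (tauInvOf Q) = tauInvOf (PowerSeries.map f Q) := by
  unfold tauInvOf
  rw [map_mul, coeffMap_single, map_one, coeffMap_ofPowerSeries', map_invOfUnit Q hQ]

end Ring

section Field

variable {K : Type*} [Field K] (Q : PowerSeries K)

theorem tauInvOf_eq_inv (hQ : PowerSeries.constantCoeff Q = 1) : tauInvOf Q = (tauOf Q)⁻¹ :=
  eq_inv_of_mul_eq_one_right (tauOf_mul_tauInvOf Q hQ)

theorem tauOf_ne_zero (hQ : PowerSeries.constantCoeff Q = 1) : tauOf Q ≠ 0 := by
  intro h
  have := tauOf_mul_tauInvOf Q hQ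
  rw [h, zero_mul] at this
  exact zero_ne_one this

end Field

section Inst

variable {L : Type*} [Field L] (A : ValuationSubring L) (e : ℕ) [NeZero e]
  (PA : PowerSeries A) (aA : A)

local notation "κ" => IsLocalRing.ResidueField A

/-- the numerator series over `L`. -/
abbrev PL : PowerSeries L := PowerSeries.map A.subtype PA

/-- the numerator series over `κ`. -/
abbrev Pκ : PowerSeries κ := PowerSeries.map (IsLocalRing.residue A) PA

theorem hPL (hPA : PowerSeries.constantCoeff PA = 1) :
    PowerSeries.constantCoeff (PL A PA) = 1 := constantCoeff_map _ PA hPA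

theorem hPκ (hPA : PowerSeries.constantCoeff PA = 1) :
    PowerSeries.constantCoeff (Pκ A PA) = 1 := constantCoeff_map _ PA hPA

theorem heL (heA : IsUnit (e : A)) : IsUnit (e : L) := isUnit_map A.subtype e heA

theorem heκ (heA : IsUnit (e : A)) : IsUnit (e : κ) := isUnit_map (IsLocalRing.residue A) e heA

/-- the root `s = (τ - a)^{-1/e}` over `A`. -/
def sA (heA : IsUnit (e : A)) (hPA : PowerSeries.constantCoeff PA = 1) : LaurentSeries A :=
  sAt e heA PA hPA aA

/-- the root over `L`. -/
def sL (heA : IsUnit (e : A)) (hPA : PowerSeries.constantCoeff PA = 1) : LaurentSeries L :=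
  sAt e (heL A e heA) (PL A PA) (hPL A PA hPA) (aA : L)

/-- the root over `κ`. -/
def sκ (heA : IsUnit (e : A)) (hPA : PowerSeries.constantCoeff PA = 1) : LaurentSeries κ :=
  sAt e (heκ A e heA) (Pκ A PA) (hPκ A PA hPA) (IsLocalRing.residue A aA)

/-- `u = (τ - a)⁻¹` over `A`. -/
def uA : LaurentSeries A := tauInvOf (shiftP PA aA)

/-- `u = (τ - a)⁻¹` over `L`. -/
def uL : LaurentSeries L := tauInvOf (shiftP (PL A PA) (aA : L))

/-- `u = (τ - a)⁻¹` over `κ`. -/
def uκ : LaurentSeries κ := tauInvOf (shiftP (Pκ A PA) (IsLocalRing.residue A aA))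

section WithHyps

variable (heA : IsUnit (e : A)) (hPA : PowerSeries.constantCoeff PA = 1)

theorem incl_sA : incl A (sA A e PA aA heA hPA) = sL A e PA aA heA hPA :=
  coeffMap_sAt e heA PA hPA aA A.subtype

theorem red_sA : red A (sA A e PA aA heA hPA) = sκ A e PA aA heA hPA :=
  coeffMap_sAt e heA PA hPA aA (IsLocalRing.residue A)

include hPA in
theorem incl_uA : incl A (uA A PA aA) = uL A PA aA := by
  unfold uA uL incl
  rw [coeffMap_tauInvOf _ (constantCoeff_shiftP hPA aA), map_shiftP]
  rfl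

include hPA in
theorem red_uA : red A (uA A PA aA) = uκ A PA aA := by
  unfold uA uκ red
  rw [coeffMap_tauInvOf _ (constantCoeff_shiftP hPA aA), map_shiftP]

include hPA in
/-- `u_L = (τ_L - a)⁻¹`. -/
theorem uL_eq : uL A PA aA = (tauOf (PL A PA) - HahnSeries.C (aA : L))⁻¹ := by
  unfold uL
  rw [tauInvOf_eq_inv _ (constantCoeff_shiftP (hPL A PA hPA) _), tauOf_shiftP]

include hPA in
/-- `u_κ = (τ_κ - ā)⁻¹`. -/
theorem uκ_eq :
    uκ A PA aA = (tauOf (Pκ A PA) - HahnSeries.C (IsLocalRing.residue A aA))⁻¹ := by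
  unfold uκ
  rw [tauInvOf_eq_inv _ (constantCoeff_shiftP (hPκ A PA hPA) _), tauOf_shiftP]

/-- `s_L ^ e = u_L(q'ᵉ)`. -/
theorem sL_pow : sL A e PA aA heA hPA ^ e = qExpand L e (uL A PA aA) := by
  have h := sAt_pow_mul e (heL A e heA) (PL A PA) (hPL A PA hPA) (aA : L)
  rw [uL_eq A PA aA hPA, map_inv₀]
  exact eq_inv_of_mul_eq_one_left h

/-- `s_κ ^ e = u_κ(q'ᵉ)`. -/
theorem sκ_pow : sκ A e PA aA heA hPA ^ e = qExpand κ e (uκ A PA aA) := by
  have h := sAt_pow_mul e (heκ A e heA) (Pκ A PA) (hPκ A PA hPA) (IsLocalRing.residue A aA)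
  rw [uκ_eq A PA aA hPA, map_inv₀]
  exact eq_inv_of_mul_eq_one_left h

theorem isHomog_sL : IsHomog e 1 (sL A e PA aA heA hPA) := isHomog_sAt e _ _ _ _

theorem isHomog_sκ : IsHomog e 1 (sκ A e PA aA heA hPA) := isHomog_sAt e _ _ _ _

theorem sL_ne_zero : sL A e PA aA heA hPA ≠ 0 := sOf_ne_zero e _ _ _

theorem sκ_ne_zero : sκ A e PA aA heA hPA ≠ 0 := sOf_ne_zero e _ _ _

/-- **`GaussUnit`**: `s_L` and `s_L⁻¹` have integral expansions. -/
theorem gaussUnit : GaussUnit A (sL A e PA aA heA hPA) where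
  exists_incl := ⟨sA A e PA aA heA hPA, incl_sA A e PA aA heA hPA⟩
  exists_incl_inv := by
    refine ⟨sigmaAt e heA PA hPA aA, ?_⟩
    have h1 : incl A (sigmaAt e heA PA hPA aA)
        = sigmaAt e (heL A e heA) (PL A PA) (hPL A PA hPA) (aA : L) :=
      coeffMap_sigmaAt e heA PA hPA aA A.subtype
    rw [h1]
    exact (sAt_inv e (heL A e heA) (PL A PA) (hPL A PA hPA) (aA : L)).symm

/-- the reduction of `s_L` is `s_κ`. -/
theorem sbar_eq : sbar (gaussUnit A e PA aA heA hPA) = sκ A e PA aA heA hPA := by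
  rw [GaussKummer.sbar_eq_resT, ← incl_sA, resT_incl, red_sA]

include hPA in
/-- the reduction of `u_L` is `u_κ`. -/
theorem resT_uL : resT A (uL A PA aA) = uκ A PA aA := by
  rw [← incl_uA A PA aA hPA, resT_incl, red_uA A PA aA hPA]

include hPA in
/-- `u_κ` is transcendental over `κ` as soon as `τ_κ` is. -/
theorem transcendental_uκ (htr : Transcendental κ (tauOf (Pκ A PA))) :
    Transcendental κ (uκ A PA aA) := by
  rw [uκ_eq A PA aA hPA]
  intro halg
  apply htr
  have h1 : IsAlgebraic κ (tauOf (Pκ A PA) - HahnSeries.C (IsLocalRing.residue A aA)) := by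
    have := halg.inv
    rwa [inv_inv] at this
  have h2 : IsAlgebraic κ (HahnSeries.C (IsLocalRing.residue A aA) : LaurentSeries κ) := by
    have : (HahnSeries.C (IsLocalRing.residue A aA) : LaurentSeries κ)
        = algebraMap κ (LaurentSeries κ) (IsLocalRing.residue A aA) := by
      rw [algebraMap_laurentSeries_eq_single]; rfl
    rw [this]
    exact isAlgebraic_algebraMap _
  have := h1.add h2
  rwa [sub_add_cancel] at this

include hPA in
/-- the residue of `u_L` is transcendental (the `hutr` of `KummerCoord.coordData_kummer`). -/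
theorem transcendental_resT_uL (htr : Transcendental κ (tauOf (Pκ A PA))) :
    Transcendental κ (resT A (uL A PA aA)) := by
  rw [resT_uL A PA aA hPA]
  exact transcendental_uκ A PA aA hPA htr

include hPA in
/-- `u_L ∈ F` as soon as `τ_L ∈ F`. -/
theorem uL_mem {F : IntermediateField L (LaurentSeries L)} (hτ : tauOf (PL A PA) ∈ F) :
    uL A PA aA ∈ F := by
  rw [uL_eq A PA aA hPA]
  refine F.inv_mem (F.sub_mem hτ ?_)
  have : (HahnSeries.C (aA : L) : LaurentSeries L) = algebraMap L (LaurentSeries L) (aA : L) := by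
    rw [algebraMap_laurentSeries_eq_single]; rfl
  rw [this]
  exact F.algebraMap_mem _

/-- **`KummerData`** for `(base0 L e F, s_L)`. -/
theorem kummerData_sL {F : IntermediateField L (LaurentSeries L)} (hτ : tauOf (PL A PA) ∈ F) :
    KummerData e (Fermat.Agent.S18.Cusp.KummerField.base0 L e F) (sL A e PA aA heA hPA) :=
  Fermat.Agent.S18.Cusp.KummerField.kummerData (uL_mem A PA aA hPA hτ) (sL_pow A e PA aA heA hPA)
    (isHomog_sL A e PA aA heA hPA) (sL_ne_zero A e PA aA heA hPA)

end WithHyps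

end Inst

section BaseChange

variable {L K : Type*} [Field L] [Field K] [Algebra L K] (A : ValuationSubring L) (e : ℕ) [NeZero e]
  (PA : PowerSeries A) (aA : A)

/-- the numerator series over the big field `K`. -/
abbrev PK : PowerSeries K := PowerSeries.map (algebraMap L K) (PL A PA)

theorem hPK (hPA : PowerSeries.constantCoeff PA = 1) :
    PowerSeries.constantCoeff (PK (K := K) A PA) = 1 :=
  constantCoeff_map _ _ (hPL A PA hPA)

theorem heK (heA : IsUnit (e : A)) : IsUnit (e : K) :=
  isUnit_map (algebraMap L K) e (heL A e heA)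

/-- the root over `K`. -/
def sK (heA : IsUnit (e : A)) (hPA : PowerSeries.constantCoeff PA = 1) : LaurentSeries K :=
  sAt e (heK (K := K) A e heA) (PK A PA) (hPK A PA hPA) (algebraMap L K (aA : L))

/-- `u = (τ - a)⁻¹` over `K`. -/
def uK : LaurentSeries K := tauInvOf (shiftP (PK (K := K) A PA) (algebraMap L K (aA : L)))

variable (heA : IsUnit (e : A)) (hPA : PowerSeries.constantCoeff PA = 1)

theorem coeffMap_sL :
    coeffMap (algebraMap L K) (sL A e PA aA heA hPA) = sK (K := K) A e PA aA heA hPA :=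
  coeffMap_sAt e _ _ _ _ (algebraMap L K)

include hPA in
theorem coeffMap_uL : coeffMap (algebraMap L K) (uL A PA aA) = uK (K := K) A PA aA := by
  unfold uL uK
  rw [coeffMap_tauInvOf _ (constantCoeff_shiftP (hPL A PA hPA) _), map_shiftP]

include hPA in
theorem uK_eq : uK (K := K) A PA aA
    = (tauOf (PK (K := K) A PA) - HahnSeries.C (algebraMap L K (aA : L)))⁻¹ := by
  unfold uK
  rw [tauInvOf_eq_inv _ (constantCoeff_shiftP (hPK A PA hPA) _), tauOf_shiftP]

theorem sK_pow : sK (K := K) A e PA aA heA hPA ^ e = qExpand K e (uK (K := K) A PA aA) := by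
  have h := sAt_pow_mul e (heK (K := K) A e heA) (PK A PA) (hPK A PA hPA) (algebraMap L K (aA : L))
  rw [uK_eq A PA aA hPA, map_inv₀]
  exact eq_inv_of_mul_eq_one_left h

end BaseChange

end Fermat.Agent.S18.Cusp.CuspSeries
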