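/-
S18 (project G), block CUSP, leaf CU5a (helper19): **descent of THEOREM N along the degree-0
projection** (step (2) of helper27's CUSP design #1069), in abstract form.

`F'` a field (the Kummer cover `F(s)`), `Fs ⊆ F'` a subring (the degree-0 part `F`), `O'` a valuation
subring of `F'` with a reduction map `ρ' : O' →+* E'`, `B' ⊆ O'` a subring (the chart upstairs) and
`pr : F' →+ F'` an additive projection ("degree-0 component", `pr y = Tr(y)/e`) such that

* `pr` maps `B'` into `B' ∩ Fs`, and is the identity on `Fs`;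
* `pr` preserves the kernel of the reduction.

If the image of `B'` in `E'` is integrally closed in `E'` (THEOREM N upstairs), then every element of
the image of `O' ∩ Fs` that is integral over the image of `B' ∩ Fs` lies in the image of `B' ∩ Fs`
(THEOREM N downstairs).

Also: `isIntegral_adjoin_pow`: integrality over `R[s, u]` implies integrality over `R[s^e, u]`
(so `B' ∩ F` is the chart downstairs).

Mathlib only.
-/
import Mathlib

set_option autoImplicit false

namespace Fermat.Agent.S18.Cusp.Descent0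

open Polynomial

section Descent

variable {F' E' : Type*} [Field F'] [Field E'] (O' : ValuationSubring F') (ρ' : O' →+* E')
  (B' Fs : Subring F')

/-- the reduction map restricted to a subring of `O'`. -/
noncomputable def redOn (C : Subring F') (hC : ∀ y ∈ C, y ∈ O') : C →+* E' :=
  ρ'.comp (RingHom.codRestrict C.subtype O' (fun y => hC y y.2))

theorem redOn_apply (C : Subring F') (hC : ∀ y ∈ C, y ∈ O') (y : C) :
    redOn O' ρ' C hC y = ρ' ⟨(y : F'), hC y y.2⟩ := rfl

/-- **CU5a.** Descent of integral closedness of the reduced chart along `pr`. -/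
theorem exists_mem_inf_of_isIntegralElem
    (hB' : ∀ y ∈ B', y ∈ O')
    (pr : F' →+ F')
    (hprF : ∀ y ∈ B', pr y ∈ Fs) (hprB : ∀ y ∈ B', pr y ∈ B') (hpr_id : ∀ x ∈ Fs, pr x = x)
    (hred : ∀ (z : F') (hz : z ∈ O'), ρ' ⟨z, hz⟩ = 0 → ∃ hz' : pr z ∈ O', ρ' ⟨pr z, hz'⟩ = 0)
    (hN : ∀ xb : E', (redOn O' ρ' B' hB').IsIntegralElem xb → xb ∈ (redOn O' ρ' B' hB').range)
    (x0 : F') (hx0O : x0 ∈ O') (hx0F : x0 ∈ Fs)
    (hint : (redOn O' ρ' (B' ⊓ Fs) (fun y hy => hB' y hy.1)).IsIntegralElem (ρ' ⟨x0, hx0O⟩)) :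
    ∃ b : F', b ∈ B' ∧ b ∈ Fs ∧ ∃ hb : b ∈ O', ρ' ⟨b, hb⟩ = ρ' ⟨x0, hx0O⟩ := by
  -- integral over the image of `B' ⊓ Fs` ⟹ integral over the image of `B'`
  have hint' : (redOn O' ρ' B' hB').IsIntegralElem (ρ' ⟨x0, hx0O⟩) := by
    obtain ⟨p, hp, hpx⟩ := hint
    let j : ↥(B' ⊓ Fs) →+* B' := Subring.inclusion inf_le_left
    refine ⟨p.map j, hp.map j, ?_⟩
    rw [eval₂_map]
    have hcomp : (redOn O' ρ' B' hB').comp j
        = redOn O' ρ' (B' ⊓ Fs) (fun y hy => hB' y hy.1) := by
      ext y; rfl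
    rw [hcomp]; exact hpx
  obtain ⟨y, hy⟩ := hN _ hint'
  rw [redOn_apply] at hy
  -- `z := y - x0` reduces to zero
  have hyO : (y : F') ∈ O' := hB' y y.2
  have hzO : (y : F') - x0 ∈ O' := sub_mem hyO hx0O
  have hz0 : ρ' ⟨(y : F') - x0, hzO⟩ = 0 := by
    have : (⟨(y : F') - x0, hzO⟩ : O') = ⟨(y : F'), hyO⟩ - ⟨x0, hx0O⟩ := rfl
    rw [this, map_sub, hy, sub_self]
  obtain ⟨hprz, hprz0⟩ := hred _ hzO hz0
  have hpr_eq : pr ((y : F') - x0) = pr (y : F') - x0 := by
    rw [map_sub, hpr_id x0 hx0F]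
  have hbB : pr (y : F') ∈ B' := hprB _ y.2
  have hbO : pr (y : F') ∈ O' := hB' _ hbB
  refine ⟨pr (y : F'), hbB, hprF _ y.2, hbO, ?_⟩
  have h1 : (⟨pr ((y : F') - x0), hprz⟩ : O') = ⟨pr (y : F'), hbO⟩ - ⟨x0, hx0O⟩ := by
    apply Subtype.ext
    exact hpr_eq
  rw [h1, map_sub, sub_eq_zero] at hprz0
  exact hprz0

end Descent

section Charts

variable {R F' : Type*} [CommRing R] [Field F'] [Algebra R F']

/-- integrality over `R[s, u]` implies integrality over `R[s^e, u]` (`e ≠ 0`). -/
theorem isIntegral_adjoin_pow (s u : F') (e : ℕ) (he : e ≠ 0) {x : F'}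
    (hx : IsIntegral (Algebra.adjoin R {s, u}) x) :
    IsIntegral (Algebra.adjoin R {s ^ e, u}) x := by
  set A0 : Subalgebra R F' := Algebra.adjoin R {s ^ e, u} with hA0
  set A1 : Subalgebra R F' := Algebra.adjoin R {s, u} with hA1
  -- `s` and `u` are integral over `A0`
  have hs : IsIntegral A0 s := by
    refine ⟨X ^ e - C (⟨s ^ e, Algebra.subset_adjoin (by simp)⟩ : A0),
      monic_X_pow_sub_C _ he, ?_⟩
    rw [eval₂_sub, eval₂_pow, eval₂_X, eval₂_C]
    exact sub_self _
  have hu : IsIntegral A0 u := by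
    have : u = algebraMap A0 F' ⟨u, Algebra.subset_adjoin (by simp)⟩ := rfl
    rw [this]
    exact isIntegral_algebraMap
  -- every element of `A1` is integral over `A0`
  have hA1int : ∀ y ∈ A1, IsIntegral A0 y := by
    intro y hy
    induction hy using Algebra.adjoin_induction with
    | mem z hz =>
      rcases hz with rfl | hz
      · exact hs
      · rw [Set.mem_singleton_iff] at hz; rw [hz]; exact hu
    | algebraMap r =>
      have : algebraMap R F' r = algebraMap A0 F' (algebraMap R A0 r) := rfl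
      rw [this]
      exact isIntegral_algebraMap
    | add a b _ _ ha hb => exact ha.add hb
    | mul a b _ _ ha hb => exact ha.mul hb
  -- `x` is integral over the integral closure of `A0`, hence in it
  obtain ⟨p, hp, hpx⟩ := hx
  let IC : Subalgebra A0 F' := integralClosure A0 F'
  let j : A1 →+* IC :=
    { toFun := fun y => ⟨(y : F'), hA1int _ y.2⟩
      map_one' := rfl
      map_mul' := fun _ _ => rfl
      map_zero' := rfl
      map_add' := fun _ _ => rfl }
  have hxIC : IsIntegral IC x := by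
    refine ⟨p.map j, hp.map j, ?_⟩
    rw [eval₂_map]
    have hcomp : (algebraMap IC F').comp j = algebraMap A1 F' := by
      ext y; rfl
    rw [hcomp]; exact hpx
  obtain ⟨y, hy⟩ := IsIntegrallyClosedIn.isIntegral_iff.mp hxIC
  rw [← hy]
  exact y.2

end Charts

end Fermat.Agent.S18.Cusp.Descent0
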