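/-
S18 (project G), block CUSP, leaf CU4a' (helper19): consumer-shaped variants of
`Cusp/KummerDegree.lean`:

* `hgen` as `Algebra.adjoin F {s} = ⊤` (helper29's `adjoin_sEl_eq_top`, helper26's CU3 shape);
* `[F' : F] = e` from helper27's coordinate property
  `hcoord : ∀ x : F', ∃! a : Fin e → F, x = ∑ k, algebraMap F F' (a k) * s ^ (k : ℕ)`.

Mathlib + Cusp/KummerDegree only.
-/
import Mathlib
import Fermat.Agent.S18.Cusp.KummerDegree

set_option autoImplicit false

namespace Fermat.Agent.S18.Cusp.KummerDegreeAdj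

open Polynomial IntermediateField Module

variable {κ F F' : Type*} [Field κ] [Field F] [Field F'] [Algebra κ F] [Algebra κ F']
  [Algebra F F'] [IsScalarTower κ F F']

/-- `Algebra.adjoin F {s} = ⊤ → F⟮s⟯ = ⊤`. -/
theorem adjoin_simple_eq_top_of_algebra_adjoin (s : F') (hgen : Algebra.adjoin F {s} = ⊤) :
    F⟮s⟯ = ⊤ := by
  rw [eq_top_iff]
  intro x _
  have hx : x ∈ Algebra.adjoin F {s} := by rw [hgen]; trivial
  exact (IntermediateField.algebra_adjoin_le_adjoin F {s}) hx

/-- separability, with `hgen` in `Algebra.adjoin` form. -/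
theorem isSeparable_adjoin' (t : F) (s : F') (e : ℕ) (hs : s ^ e = algebraMap F F' t)
    [Algebra.IsSeparable κ⟮t⟯ F] (hgen : Algebra.adjoin F {s} = ⊤) :
    Algebra.IsSeparable κ⟮s⟯ F' :=
  KummerDegree.isSeparable_adjoin t s e hs (adjoin_simple_eq_top_of_algebra_adjoin s hgen)

/-- `[F' : F] = e` from the coordinate property. -/
theorem finrank_eq_of_coord (s : F') (e : ℕ)
    (hcoord : ∀ x : F', ∃! a : Fin e → F, x = ∑ k, algebraMap F F' (a k) * s ^ (k : ℕ)) :
    finrank F F' = e := by
  refine KummerDegree.finrank_eq_of_powers s e ?_ ?_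
  · rw [Fintype.linearIndependent_iff]
    intro a ha
    obtain ⟨a0, -, huniq⟩ := hcoord 0
    have h1 : a = a0 := by
      apply huniq
      rw [← ha]
      refine Finset.sum_congr rfl fun k _ => ?_
      rw [Algebra.smul_def]
    have h2 : (fun _ => 0 : Fin e → F) = a0 := by
      apply huniq
      simp
    intro k
    rw [h1, ← h2]
  · intro x _
    obtain ⟨a, ha, -⟩ := hcoord x
    rw [ha]
    refine Submodule.sum_mem _ fun k _ => ?_
    rw [← Algebra.smul_def]
    exact Submodule.smul_mem _ _ (Submodule.subset_span ⟨k, rfl⟩)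

/-- **degree, coordinate form.** -/
theorem finrank_adjoin_eq_of_coord (t : F) (s : F') (e : ℕ) (he : e ≠ 0)
    (hs : s ^ e = algebraMap F F' t) (hst : Transcendental κ s)
    (hcoord : ∀ x : F', ∃! a : Fin e → F, x = ∑ k, algebraMap F F' (a k) * s ^ (k : ℕ)) :
    finrank κ⟮s⟯ F' = finrank κ⟮t⟯ F :=
  KummerDegree.finrank_adjoin_eq t s e he hs hst (finrank_eq_of_coord s e hcoord)

/-- `s` is transcendental over `κ` as soon as `t = s ^ e` is (`e ≠ 0`). -/
theorem transcendental_of_pow (t : F) (s : F') (e : ℕ)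
    (hs : s ^ e = algebraMap F F' t) (ht : Transcendental κ t) : Transcendental κ s := by
  intro hsalg
  apply ht
  have h1 : IsAlgebraic κ (s ^ e) := hsalg.pow e
  rw [hs] at h1
  exact (isAlgebraic_algebraMap_iff (algebraMap F F').injective).mp h1

/-- `F'` is generated by `s` over `F` as soon as the coordinate property holds. -/
theorem algebra_adjoin_eq_top_of_coord (s : F') (e : ℕ)
    (hcoord : ∀ x : F', ∃! a : Fin e → F, x = ∑ k, algebraMap F F' (a k) * s ^ (k : ℕ)) :
    Algebra.adjoin F {s} = ⊤ := by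
  rw [eq_top_iff]
  intro x _
  obtain ⟨a, ha, -⟩ := hcoord x
  rw [ha]
  have hs : s ∈ Algebra.adjoin F {s} := Algebra.subset_adjoin (Set.mem_singleton s)
  have hterm : ∀ k : Fin e, algebraMap F F' (a k) * s ^ (k : ℕ) ∈ Algebra.adjoin F {s} := by
    intro k
    have h1 : algebraMap F F' (a k) ∈ Algebra.adjoin F {s} :=
      (Algebra.adjoin F {s}).algebraMap_mem (a k)
    have h2 : s ^ (k : ℕ) ∈ Algebra.adjoin F {s} := (Algebra.adjoin F {s}).pow_mem hs _
    exact (Algebra.adjoin F {s}).mul_mem h1 h2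
  exact (Algebra.adjoin F {s}).sum_mem fun k _ => hterm k

end Fermat.Agent.S18.Cusp.KummerDegreeAdj
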