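import Mathlib
import Fermat.Agent.S18.Cusp.KummerFieldDegree
import Fermat.Agent.S18.Cusp.KummerInst

/-
S18 (project G), block CUSP, leaf CU8c (helper29): **`KummerInst.chart_package_kummer`
instantiated at the concrete Kummer fields** `F' = kummerField L e FL sL` (characteristic zero side)
and `Fb' = kummerField K e FK sK` (geometric side, `K` algebraically closed), with all the
`Algebra`/`IsScalarTower` plumbing (`algInclBase` on both sides, `algUp`, `algL`) and the
hypotheses `hs`, `hdeg`, `hsb`, `hgenb`, `htrb`, `hfinb` discharged from `Cusp/KummerField.lean` and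
`Cusp/KummerFieldDegree.lean`.  The valuation data `(O', ρ', E')` upstairs stay abstract.
-/

set_option autoImplicit false
set_option linter.unusedSectionVars false
set_option linter.unusedVariables false
set_option linter.style.haveILetI false

noncomputable section

open IntermediateField Polynomial ModularCurve AlgebraicCurve

namespace Fermat.Agent.S18.Cusp.KummerField

open Fermat.Agent.S18.Cusp.Graded Fermat.Agent.S18.Purity.Chart

set_option maxHeartbeats 1000000 in
/-- **CU8c.** `chart_package_kummer` for `(F', s) = (kummerField L e FL sL, sEl)`. -/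
theorem chart_package_kummerField
    {R L : Type*} [CommRing R] [IsDomain R] [IsDiscreteValuationRing R]
    [Field L] [Algebra R L] [IsFractionRing R L] [CharZero L]
    {e : ℕ} [NeZero e]
    {FL : IntermediateField L (LaurentSeries L)} {sL tL : LaurentSeries L}
    [Algebra R FL] [IsScalarTower R L FL]
    [Algebra R (kummerField L e FL sL)] [IsScalarTower R L (kummerField L e FL sL)]
    {E E' : Type*} [Field E] [Algebra (IsLocalRing.ResidueField R) E]
    [Field E'] [Algebra (IsLocalRing.ResidueField R) E'] [Algebra E E']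
    [IsScalarTower (IsLocalRing.ResidueField R) E E']
    (htL : tL ∈ FL) (hsL : sL ^ e = qExpand L e tL) (h1 : IsHomog e 1 sL) (h0 : sL ≠ 0)
    (π : R) (O : ValuationSubring FL) (O' : ValuationSubring (kummerField L e FL sL))
    -- downstairs
    (hπ : Irreducible π) (ht : Transcendental R (⟨tL, htL⟩ : FL))
    (hRO : ∀ r : R, algebraMap R FL r ∈ O) (htO : (⟨tL, htL⟩ : FL) ∈ O)
    (htbar : ∀ p : R[X], O.valuation (aeval (⟨tL, htL⟩ : FL) p) < 1 → ∀ i, π ∣ p.coeff i)
    [FiniteDimensional L⟮(⟨tL, htL⟩ : FL)⟯ FL] (n : ℕ)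
    (hn : Module.finrank L⟮(⟨tL, htL⟩ : FL)⟯ FL = n)
    (ρ : O →+* E)
    (hρker : ∀ x : O, ρ x = 0 ↔ O.valuation (x : FL) < 1)
    (hρR : ∀ r : R, ρ ⟨algebraMap R FL r, hRO r⟩ =
      algebraMap (IsLocalRing.ResidueField R) E (IsLocalRing.residue R r))
    (hnb : Module.finrank (IsLocalRing.ResidueField R)⟮ρ ⟨⟨tL, htL⟩, htO⟩⟯ E = n)
    [Algebra.IsSeparable (IsLocalRing.ResidueField R)⟮ρ ⟨⟨tL, htL⟩, htO⟩⟯ E]
    -- the valuation data of the Kummer cover
    (hRO' : ∀ r : R, algebraMap R (kummerField L e FL sL) r ∈ O') (hsO' : sEl L e FL sL ∈ O')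
    (hπO' : O'.valuation (algebraMap R (kummerField L e FL sL) π) < 1)
    (hgen' : ∀ x : kummerField L e FL sL, O'.valuation x < 1 →
      ∃ y ∈ O', x = algebraMap R (kummerField L e FL sL) π * y)
    (huniq' : ∀ O'' : ValuationSubring (kummerField L e FL sL),
      O''.comap (algebraMap L⟮sEl L e FL sL⟯ (kummerField L e FL sL)) =
        O'.comap (algebraMap L⟮sEl L e FL sL⟯ (kummerField L e FL sL)) → O'' = O')
    (ρ' : O' →+* E') (hρ'surj : Function.Surjective ρ')
    (hρ'ker : ∀ x : O', ρ' x = 0 ↔ O'.valuation (x : kummerField L e FL sL) < 1)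
    (hρ'ρ : ∀ (x : FL) (hx : x ∈ O) (hx' : inclBase L e FL sL x ∈ O'),
      ρ' ⟨inclBase L e FL sL x, hx'⟩ = algebraMap E E' (ρ ⟨x, hx⟩))
    (hdegE : Module.finrank E E' = e) (hgenE : E⟮ρ' ⟨sEl L e FL sL, hsO'⟩⟯ = ⊤)
    -- the geometric side
    {K : Type*} [Field K] [IsAlgClosed K] [Algebra L K] [Algebra.IsAlgebraic L K]
    {FK : IntermediateField K (LaurentSeries K)} {sK tK : LaurentSeries K}
    (htK : tK ∈ FK) (hsK : sK ^ e = qExpand K e tK)
    (hF : ∀ x ∈ FL, coeffMap (algebraMap L K) x ∈ FK)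
    (hsLK : coeffMap (algebraMap L K) sL = sK)
    (htrK : Transcendental K (⟨tK, htK⟩ : FK)) [FiniteDimensional K⟮(⟨tK, htK⟩ : FK)⟯ FK]
    (g c' : R[X]) (hg0 : g ≠ 0) (hc' : c' = g.comp (X ^ e))
    (D5 : ∀ (v : Place K FK) (t0 : K), t0 ≠ 0 → aeval t0 (g.map (algebraMap R L)) ≠ 0 →
      0 < v.ord ((⟨tK, htK⟩ : FK) - algebraMap K FK t0) →
      v.ord ((⟨tK, htK⟩ : FK) - algebraMap K FK t0) = 1)
    (htame : ∀ v : Place K FK, 0 < v.ord (⟨tK, htK⟩ : FK) →
      v.ord (⟨tK, htK⟩ : FK) ∣ (e : ℤ)) :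
    IsNoetherianRing (Bt R (sEl L e FL sL)) ∧
    (∀ b : Bt R (sEl L e FL sL), (b : kummerField L e FL sL) ∈ O') ∧
    (∀ b : Bt R (sEl L e FL sL), O'.valuation (b : kummerField L e FL sL) < 1 →
      ∃ y : Bt R (sEl L e FL sL), b = polyToBt (sEl L e FL sL) (C π) * y) ∧
    (∃ k : ℕ, ∀ z : E',
      IsIntegral (Algebra.adjoin (IsLocalRing.ResidueField R) {ρ' ⟨sEl L e FL sL, hsO'⟩}) z →
      ∃ (y : Bt R (sEl L e FL sL)) (hy : (y : kummerField L e FL sL) ∈ O'),
        ρ' ⟨aeval (sEl L e FL sL) c', aeval_mem_O (sEl L e FL sL) O' hRO' hsO' c'⟩ ^ k * z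
          = ρ' ⟨(y : kummerField L e FL sL), hy⟩) ∧
    (∀ (𝔫 : Ideal (Bt R (sEl L e FL sL))) [𝔫.IsMaximal],
      polyToBt (sEl L e FL sL) (C π) ∈ 𝔫 → polyToBt (sEl L e FL sL) c' ∉ 𝔫 →
      ∃ T : R[X], polyToBt (sEl L e FL sL) T ∈ 𝔫 ∧ ∀ x ∈ 𝔫, ∃ s', s' ∉ 𝔫 ∧
        s' * x ∈ Ideal.span {polyToBt (sEl L e FL sL) (C π), polyToBt (sEl L e FL sL) T}) := by
  letI := algInclBase L e FL sL
  haveI := isScalarTower_inclBase L e FL sL
  letI := algInclBase K e FK sK
  haveI := isScalarTower_inclBase K e FK sK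
  haveI := isIntegral_kummerField htK hsK
  letI := algL L e FK sK
  letI := algUp e hF hsLK
  haveI := isScalarTower_algL L e FK sK
  haveI := isScalarTower_algUp e hF hsLK
  have hup : algebraMap (kummerField L e FL sL) (kummerField K e FK sK) (sEl L e FL sL)
      = sEl K e FK sK := algebraMap_algUp_sEl e hF hsLK
  have hsb : (algebraMap (kummerField L e FL sL) (kummerField K e FK sK) (sEl L e FL sL)) ^ e
      = algebraMap FK (kummerField K e FK sK) (⟨tK, htK⟩ : FK) := by
    rw [hup]; exact sEl_pow' htK hsK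
  have hgenb : Algebra.adjoin FK
      {algebraMap (kummerField L e FL sL) (kummerField K e FK sK) (sEl L e FL sL)} = ⊤ := by
    rw [hup]; exact adjoin_sEl_eq_top htK hsK
  have htrb : Transcendental K
      (algebraMap (kummerField L e FL sL) (kummerField K e FK sK) (sEl L e FL sL)) := by
    rw [hup]; exact transcendental_sEl htK hsK htrK
  have hfinb : FiniteDimensional
      K⟮algebraMap (kummerField L e FL sL) (kummerField K e FK sK) (sEl L e FL sL)⟯
      (kummerField K e FK sK) := by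
    rw [hup]; exact finiteDimensional_kummerField htK hsK
  exact Fermat.Agent.S18.Cusp.KummerInst.chart_package_kummer π (⟨tL, htL⟩ : FL)
    (sEl L e FL sL) e (NeZero.ne e) O O' hπ ht hRO htO htbar n hn ρ hρker hρR hnb
    (sEl_pow' htL hsL) (finrank_kummerField htL hsL h1 h0) hRO' hsO' hπO' hgen' huniq' ρ'
    hρ'surj hρ'ker hρ'ρ hdegE hgenE
    (⟨tK, htK⟩ : FK) hsb hgenb htrb hfinb g c' hg0 hc' D5 htame

end Fermat.Agent.S18.Cusp.KummerField
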