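import Mathlib
import Fermat.Agent.S18.Cusp.Level9Data

/-!
# S18 (CUSP, level `9 ∣ M`): THEOREM N at the cusp values of the `t₉`-line (Gauss side)

Level-9 twin of `Cusp/Level4CuspGauss` (helper15).
`KummerGaussHloc.hloc_gauss_kummer_sEl(_inv)` instantiated at
`FL := laurentBaseChange L (modularFunctionFieldFull M)`, `hφ := ModularH.scalable A hℓM`,
`τ := t9el M h9 = t₉`, `Fbar := modularFunctionFieldFullC κ M`,
`s := sS9 A e he a = (t₉ - a)^{-1/e}`,
with every Gauss-side / downstairs hypothesis discharged from `Cusp/Level9Data`.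
Remaining hypotheses: the degree-0 projection `pr` and the geometric side.
The chart data are `(LevelDown.coordData9' A hℓM h9 hπ).good` and `ρ := rho4 A hℓM`
(the corestricted Gauss residue map, level independent; `= Level9Final.rho9 A hℓM` by `rfl`).
-/

set_option autoImplicit false
set_option linter.unusedSectionVars false
set_option linter.unusedVariables false
set_option linter.style.haveILetI false

noncomputable section

namespace Fermat.Agent.S18.Cusp.Level9CuspGauss

open Polynomial IsLocalRing IntermediateField ModularCurve HahnSeries AlgebraicCurve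
open Fermat.Agent.S18.Gauss.Basic Fermat.Agent.S18.Gauss.Residue
open Fermat.Agent.S18.Gauss
open Fermat.Agent.S18.Inst.Bundle Fermat.Agent.S18.Haupt
open Fermat.Agent.S18.Trans Fermat.Agent.S18.Inst.Level9 Fermat.Agent.S18.Inst.Level4Final
open Fermat.Agent.S18.Inst.LevelDown
open Fermat.Agent.S18.Cusp.ShiftData Fermat.Agent.S18.Cusp.HauptSeries
open Fermat.Agent.S18.Cusp.Graded Fermat.Agent.S18.Cusp.Kummer
open Fermat.Agent.S18.Cusp.GaussKummer Fermat.Agent.S18.Cusp.KummerField
open Fermat.Agent.S18.Cusp.KummerCoord Fermat.Agent.S18.Cusp.KummerGaussHloc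
open Fermat.Agent.S18.Core.Charts Fermat.Agent.S18.Cusp.ChartLocalOK
open Fermat.Agent.S18.Cusp.Level9Data

set_option synthInstance.maxHeartbeats 400000
set_option maxHeartbeats 1000000

variable {L : Type*} [Field L] [Algebra ℚ L] {M : ℕ} [NeZero M] (h9 : 9 ∣ M)
  (A : ValuationSubring L) [IsDiscreteValuationRing A]
  {ℓ : ℕ} [Fact ℓ.Prime] [CharP (ResidueField A) ℓ] (hℓM : ¬ ℓ ∣ M)
  {π : A} (hπ : Irreducible π) (e : ℕ) [NeZero e] (he : IsUnit (e : A))

/-- **THEOREM N at the finite cusp value `a` of the chart `B0 A t₉`** (normalisation (N2)). -/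
theorem hloc9_fin (a : A)
    -- pr
    (pr : kummerField L e (laurentBaseChange L (modularFunctionFieldFull M)) (sS9 A e he a) →+
      kummerField L e (laurentBaseChange L (modularFunctionFieldFull M)) (sS9 A e he a))
    (hprF : ∀ y : kummerField L e (laurentBaseChange L (modularFunctionFieldFull M)) (sS9 A e he a),
      IsIntegral (Algebra.adjoin A
        {(sEl L e (laurentBaseChange L (modularFunctionFieldFull M)) (sS9 A e he a))⁻¹}) y →
      ∃ x : ↥(laurentBaseChange L (modularFunctionFieldFull M)),
        inclBase L e (laurentBaseChange L (modularFunctionFieldFull M)) (sS9 A e he a) x = pr y)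
    (hprB : ∀ y : kummerField L e (laurentBaseChange L (modularFunctionFieldFull M)) (sS9 A e he a),
      IsIntegral (Algebra.adjoin A
        {(sEl L e (laurentBaseChange L (modularFunctionFieldFull M)) (sS9 A e he a))⁻¹}) y →
      IsIntegral (Algebra.adjoin A
        {(sEl L e (laurentBaseChange L (modularFunctionFieldFull M)) (sS9 A e he a))⁻¹}) (pr y))
    (hpr_id : ∀ x : ↥(laurentBaseChange L (modularFunctionFieldFull M)),
      pr (inclBase L e (laurentBaseChange L (modularFunctionFieldFull M)) (sS9 A e he a) x) =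
        inclBase L e (laurentBaseChange L (modularFunctionFieldFull M)) (sS9 A e he a) x)
    (hred : ∀ (z : kummerField L e (laurentBaseChange L (modularFunctionFieldFull M))
        (sS9 A e he a))
      (hz : z ∈ gaussSubring (scalable_kummer (ModularH.scalable A hℓM)
        (kummerData9 h9 A e he a) (gaussUnit9 A e he a))),
      rhoK (ModularH.scalable A hℓM) (modularFunctionFieldFullC (ResidueField A) M)
        (ModularH.range_gaussRes A hℓM) (kummerData9 h9 A e he a) (gaussUnit9 A e he a) ⟨z, hz⟩ = 0 →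
        ∃ hz' : pr z ∈ gaussSubring (scalable_kummer (ModularH.scalable A hℓM)
          (kummerData9 h9 A e he a) (gaussUnit9 A e he a)),
          rhoK (ModularH.scalable A hℓM) (modularFunctionFieldFullC (ResidueField A) M)
            (ModularH.range_gaussRes A hℓM) (kummerData9 h9 A e he a) (gaussUnit9 A e he a)
            ⟨pr z, hz'⟩ = 0)
    -- geometric side
    {kb Fb Fb' : Type*} [Field kb] [IsAlgClosed kb] [Algebra L kb] [Algebra.IsAlgebraic L kb]
    [Field Fb] [Algebra kb Fb] [Field Fb'] [Algebra kb Fb'] [Algebra Fb Fb']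
    [IsScalarTower kb Fb Fb'] [Algebra.IsIntegral Fb Fb']
    [Algebra (kummerField L e (laurentBaseChange L (modularFunctionFieldFull M)) (sS9 A e he a)) Fb']
    [Algebra L Fb']
    [IsScalarTower L
      (kummerField L e (laurentBaseChange L (modularFunctionFieldFull M)) (sS9 A e he a)) Fb']
    [IsScalarTower L kb Fb']
    (tb : Fb)
    (hsb : (algebraMap
      (kummerField L e (laurentBaseChange L (modularFunctionFieldFull M)) (sS9 A e he a)) Fb'
      (sEl L e (laurentBaseChange L (modularFunctionFieldFull M)) (sS9 A e he a))⁻¹) ^ e =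
        algebraMap Fb Fb' tb)
    (hgenb : Algebra.adjoin Fb {algebraMap
      (kummerField L e (laurentBaseChange L (modularFunctionFieldFull M)) (sS9 A e he a)) Fb'
      (sEl L e (laurentBaseChange L (modularFunctionFieldFull M)) (sS9 A e he a))⁻¹} = ⊤)
    (htrb : Transcendental kb (algebraMap
      (kummerField L e (laurentBaseChange L (modularFunctionFieldFull M)) (sS9 A e he a)) Fb'
      (sEl L e (laurentBaseChange L (modularFunctionFieldFull M)) (sS9 A e he a))⁻¹))
    (hfinb : FiniteDimensional kb⟮algebraMap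
      (kummerField L e (laurentBaseChange L (modularFunctionFieldFull M)) (sS9 A e he a)) Fb'
      (sEl L e (laurentBaseChange L (modularFunctionFieldFull M)) (sS9 A e he a))⁻¹⟯ Fb')
    (g : A[X]) (hg0 : g ≠ 0)
    (D5 : ∀ (v : Place kb Fb) (t0 : kb), t0 ≠ 0 → aeval t0 (g.map (algebraMap A L)) ≠ 0 →
      0 < v.ord (tb - algebraMap kb Fb t0) → v.ord (tb - algebraMap kb Fb t0) = 1)
    (htame : ∀ v : Place kb Fb, 0 < v.ord tb → v.ord tb ∣ (e : ℤ)) :
    ∃ k : ℕ, ∀ z : ↥(modularFunctionFieldFullC (ResidueField A) M),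
      IsIntegral (resB0 (coordData9' A hℓM h9 hπ).good (rho4 A hℓM)).range z →
      ∃ b : ↥(B0 A (t9el (L := L) M h9)),
        resB0 (coordData9' A hℓM h9 hπ).good (rho4 A hℓM)
            ⟨aeval (t9el (L := L) M h9) (g.comp (X - Polynomial.C a)), aeval_mem_B0 _⟩ ^ k * z
          = resB0 (coordData9' A hℓM h9 hπ).good (rho4 A hℓM) b := by
  have : CharZero L := algebraRat.charZero L
  have hd := downData9_u_inv h9 A hℓM hπ a
  have := hd.finite
  have : Algebra.IsSeparable
      (ResidueField A)⟮rhoBase (ModularH.scalable A hℓM)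
        (modularFunctionFieldFullC (ResidueField A) M) (ModularH.range_gaussRes A hℓM)
        ⟨(uEl9 M h9 (a : L))⁻¹, hd.mem⟩⟯
      ↥(modularFunctionFieldFullC (ResidueField A) M) := hd.sep
  have := Concrete.finiteDimensional L M
  exact hloc_gauss_kummer_sEl_inv (ModularH.scalable A hℓM) (kummerData9 h9 A e he a)
    (gaussUnit9 A e he a) (modularFunctionFieldFullC (ResidueField A) M)
    (ModularH.range_gaussRes A hℓM) (uS9_mem M h9 (a : L)) (sS9_pow A e he a)
    (coordData9' A hℓM h9 hπ).good a (uEl9_inv_eq h9 A a) (hutr9 h9 A hℓM hπ a)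
    (adjoin_Jel_le9 h9 (a : L))
    (Concrete.resIndep_pow (ModularH.isGaussRed A hℓM) hℓM)
    (by rw [Fintype.card_fin, Concrete.finrank_eq_psi])
    hd.transc hd.mem hd.tbar _ hd.finrank_eq hd.finrank_res
    pr hprF hprB hpr_id hred tb hsb hgenb htrb hfinb g hg0 D5 htame

/-- **THEOREM N at the cusp value `u = 0` of the chart `B1 A t₉ = B0 A t₉⁻¹`** (normalisation
(N1), `a = 0`). -/
theorem hloc9_inf
    -- pr
    (pr : kummerField L e (laurentBaseChange L (modularFunctionFieldFull M)) (sS9 A e he 0) →+
      kummerField L e (laurentBaseChange L (modularFunctionFieldFull M)) (sS9 A e he 0))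
    (hprF : ∀ y : kummerField L e (laurentBaseChange L (modularFunctionFieldFull M)) (sS9 A e he 0),
      IsIntegral (Algebra.adjoin A
        {(sEl L e (laurentBaseChange L (modularFunctionFieldFull M)) (sS9 A e he 0))}) y →
      ∃ x : ↥(laurentBaseChange L (modularFunctionFieldFull M)),
        inclBase L e (laurentBaseChange L (modularFunctionFieldFull M)) (sS9 A e he 0) x = pr y)
    (hprB : ∀ y : kummerField L e (laurentBaseChange L (modularFunctionFieldFull M)) (sS9 A e he 0),
      IsIntegral (Algebra.adjoin A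
        {(sEl L e (laurentBaseChange L (modularFunctionFieldFull M)) (sS9 A e he 0))}) y →
      IsIntegral (Algebra.adjoin A
        {(sEl L e (laurentBaseChange L (modularFunctionFieldFull M)) (sS9 A e he 0))}) (pr y))
    (hpr_id : ∀ x : ↥(laurentBaseChange L (modularFunctionFieldFull M)),
      pr (inclBase L e (laurentBaseChange L (modularFunctionFieldFull M)) (sS9 A e he 0) x) =
        inclBase L e (laurentBaseChange L (modularFunctionFieldFull M)) (sS9 A e he 0) x)
    (hred : ∀ (z : kummerField L e (laurentBaseChange L (modularFunctionFieldFull M))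
        (sS9 A e he 0))
      (hz : z ∈ gaussSubring (scalable_kummer (ModularH.scalable A hℓM)
        (kummerData9 h9 A e he 0) (gaussUnit9 A e he 0))),
      rhoK (ModularH.scalable A hℓM) (modularFunctionFieldFullC (ResidueField A) M)
        (ModularH.range_gaussRes A hℓM) (kummerData9 h9 A e he 0) (gaussUnit9 A e he 0) ⟨z, hz⟩ = 0 →
        ∃ hz' : pr z ∈ gaussSubring (scalable_kummer (ModularH.scalable A hℓM)
          (kummerData9 h9 A e he 0) (gaussUnit9 A e he 0)),
          rhoK (ModularH.scalable A hℓM) (modularFunctionFieldFullC (ResidueField A) M)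
            (ModularH.range_gaussRes A hℓM) (kummerData9 h9 A e he 0) (gaussUnit9 A e he 0)
            ⟨pr z, hz'⟩ = 0)
    -- geometric side
    {kb Fb Fb' : Type*} [Field kb] [IsAlgClosed kb] [Algebra L kb] [Algebra.IsAlgebraic L kb]
    [Field Fb] [Algebra kb Fb] [Field Fb'] [Algebra kb Fb'] [Algebra Fb Fb']
    [IsScalarTower kb Fb Fb'] [Algebra.IsIntegral Fb Fb']
    [Algebra (kummerField L e (laurentBaseChange L (modularFunctionFieldFull M)) (sS9 A e he 0)) Fb']
    [Algebra L Fb']
    [IsScalarTower L
      (kummerField L e (laurentBaseChange L (modularFunctionFieldFull M)) (sS9 A e he 0)) Fb']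
    [IsScalarTower L kb Fb']
    (tb : Fb)
    (hsb : (algebraMap
      (kummerField L e (laurentBaseChange L (modularFunctionFieldFull M)) (sS9 A e he 0)) Fb'
      (sEl L e (laurentBaseChange L (modularFunctionFieldFull M)) (sS9 A e he 0))) ^ e =
        algebraMap Fb Fb' tb)
    (hgenb : Algebra.adjoin Fb {algebraMap
      (kummerField L e (laurentBaseChange L (modularFunctionFieldFull M)) (sS9 A e he 0)) Fb'
      (sEl L e (laurentBaseChange L (modularFunctionFieldFull M)) (sS9 A e he 0))} = ⊤)
    (htrb : Transcendental kb (algebraMap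
      (kummerField L e (laurentBaseChange L (modularFunctionFieldFull M)) (sS9 A e he 0)) Fb'
      (sEl L e (laurentBaseChange L (modularFunctionFieldFull M)) (sS9 A e he 0))))
    (hfinb : FiniteDimensional kb⟮algebraMap
      (kummerField L e (laurentBaseChange L (modularFunctionFieldFull M)) (sS9 A e he 0)) Fb'
      (sEl L e (laurentBaseChange L (modularFunctionFieldFull M)) (sS9 A e he 0))⟯ Fb')
    (g : A[X]) (hg0 : g ≠ 0)
    (D5 : ∀ (v : Place kb Fb) (t0 : kb), t0 ≠ 0 → aeval t0 (g.map (algebraMap A L)) ≠ 0 →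
      0 < v.ord (tb - algebraMap kb Fb t0) → v.ord (tb - algebraMap kb Fb t0) = 1)
    (htame : ∀ v : Place kb Fb, 0 < v.ord tb → v.ord tb ∣ (e : ℤ)) :
    ∃ k : ℕ, ∀ z : ↥(modularFunctionFieldFullC (ResidueField A) M),
      IsIntegral (resB1 (coordData9' A hℓM h9 hπ).good (rho4 A hℓM)).range z →
      ∃ b : ↥(B1 A (t9el (L := L) M h9)),
        resB1 (coordData9' A hℓM h9 hπ).good (rho4 A hℓM)
            ⟨aeval (t9el (L := L) M h9)⁻¹ (g.comp (X - Polynomial.C 0)), aeval_mem_B0 _⟩ ^ k * z
          = resB1 (coordData9' A hℓM h9 hπ).good (rho4 A hℓM) b := by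
  have : CharZero L := algebraRat.charZero L
  have hd := downData9_u h9 A hℓM hπ 0
  have := hd.finite
  have : Algebra.IsSeparable
      (ResidueField A)⟮rhoBase (ModularH.scalable A hℓM)
        (modularFunctionFieldFullC (ResidueField A) M) (ModularH.range_gaussRes A hℓM)
        ⟨uEl9 M h9 ((0 : A) : L), hd.mem⟩⟯
      ↥(modularFunctionFieldFullC (ResidueField A) M) := hd.sep
  have := Concrete.finiteDimensional L M
  have ht_def : uEl9 M h9 ((0 : A) : L) = (t9el (L := L) M h9)⁻¹ -
      algebraMap A ↥(laurentBaseChange L (modularFunctionFieldFull M)) 0 := by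
    rw [uEl9_eq h9 A 0, map_zero, sub_zero, sub_zero]
  exact hloc_gauss_kummer_sEl (ModularH.scalable A hℓM) (kummerData9 h9 A e he 0)
    (gaussUnit9 A e he 0) (modularFunctionFieldFullC (ResidueField A) M)
    (ModularH.range_gaussRes A hℓM) (uS9_mem M h9 ((0 : A) : L)) (sS9_pow A e he 0)
    (coordData9' A hℓM h9 hπ).good.inv 0 ht_def (hutr9 h9 A hℓM hπ 0)
    (adjoin_Jel_le9 h9 ((0 : A) : L))
    (Concrete.resIndep_pow (ModularH.isGaussRed A hℓM) hℓM)
    (by rw [Fintype.card_fin, Concrete.finrank_eq_psi])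
    hd.transc hd.mem hd.tbar _ hd.finrank_eq hd.finrank_res
    pr hprF hprB hpr_id hred tb hsb hgenb htrb hfinb g hg0 D5 htame

end Fermat.Agent.S18.Cusp.Level9CuspGauss
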