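/-
S18 block CUSP (helper28): the geometric inputs `htrK`, `[FiniteDimensional ..]`, `D5`, `htame` of
helper29's `KummerFieldHloc.hloc_kummerField` (normalisation (N1): `tb = ⟨uK, huK⟩`) and
`hloc_kummerField_inv` (normalisation (N2): `tb = (⟨uK, huK⟩ : ↥FK)⁻¹`) VERBATIM at
`K := ℚ̄`, `FK := modularFunctionFieldBar M`, `uK = (t₄ - a)⁻¹` (level `4 ∣ M`) resp. `uK = (t₉ - a)⁻¹`
(level `9 ∣ M`), `a : ℚ̄` the image of the cusp value:

* (N2), chart `B0` at the finite cusp value `a`: `htrK_*_n2`, `hfinK_*_n2` (about `⟨uK, huK⟩`),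
  `htame_*_n2`, `D5_*_n2_of_cover` (about `⟨uK, huK⟩⁻¹`, any cover polynomial `g`), and the exact
  covers `X + C 16` (`a = 0`), `X - C 16` (`a = -16`) at level 4, `g9 r i` (`a = a9 r i`) at level 9;
* (N1), chart `B1` (`a = 0`, `uK = t⁻¹`): `htrK_*_n1`, `hfinK_*_n1`, `htame_*_n1`, `D5_*_n1` with
  covers `C 16 * X + 1` (level 4), `Ginf9` (level 9).
-/
import Mathlib
import Fermat.Agent.S18.Cusp.Level9D5G9

set_option autoImplicit false
set_option linter.unusedSectionVars false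

namespace Fermat.Agent.S18.Cusp.LevelD5N

open AlgebraicCurve Polynomial IntermediateField ModularCurve
open Fermat.Agent.S24.BridgeInv
open Fermat.Agent.S18.Haupt Fermat.Agent.S18.Haupt9
open Fermat.Agent.S18.Final.Level9 (g9 a9 Ginf9)

noncomputable section

variable (M : ℕ) [NeZero M]

/-! ### generic: passing to the inverse -/

theorem transcendental_of_inv {x : FF M} (h : Transcendental Kbar x⁻¹) :
    Transcendental Kbar x := fun hx => h hx.inv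

theorem adjoin_inv_eq (x : FF M) : Kbar⟮x⁻¹⟯ = Kbar⟮x⟯ := by
  apply le_antisymm
  · rw [adjoin_simple_le_iff]
    exact inv_mem (mem_adjoin_simple_self Kbar x)
  · rw [adjoin_simple_le_iff]
    have := inv_mem (mem_adjoin_simple_self Kbar x⁻¹)
    rwa [inv_inv] at this

theorem finiteDimensional_of_inv {x : FF M} (h : FiniteDimensional Kbar⟮x⁻¹⟯ (FF M)) :
    FiniteDimensional Kbar⟮x⟯ (FF M) := by
  rw [← adjoin_inv_eq]
  exact h

/-! ## level 4 -/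

section Four

variable (h4 : 4 ∣ M) {R L : Type*} [CommRing R] [Field L] [Algebra R L] [Algebra L Kbar]
  (a : Kbar) {uK : LaurentSeries Kbar} (huK : uK ∈ modularFunctionFieldBar M)
  (hu : uK = (t4C Kbar - HahnSeries.C a)⁻¹)

include hu in
/-- the series of `⟨uK, huK⟩⁻¹` is `t₄ - a`. -/
theorem coe_inv_four :
    (((⟨uK, huK⟩ : FF M)⁻¹ : FF M) : LaurentSeries Kbar) = t4C Kbar - HahnSeries.C a := by
  rw [LevelD5Coe.coe_inv_mk, hu, inv_inv]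

include h4 hu

/-! #### (N2): the finite cusp value `a` -/

theorem htrK_four_n2 : Transcendental Kbar (⟨uK, huK⟩ : FF M) :=
  transcendental_of_inv M
    (LevelD5Coe.htr_four_shift M h4 a _ (coe_inv_four M a huK hu))

theorem hfinK_four_n2 : FiniteDimensional Kbar⟮(⟨uK, huK⟩ : FF M)⟯ (FF M) :=
  finiteDimensional_of_inv M
    (LevelD5Coe.hfin_four_shift M h4 a _ (coe_inv_four M a huK hu))

theorem htame_four_n2 (e : ℕ) (he : M ∣ e) :
    ∀ v : Place Kbar (FF M), 0 < v.ord (⟨uK, huK⟩ : FF M)⁻¹ →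
      v.ord (⟨uK, huK⟩ : FF M)⁻¹ ∣ (e : ℤ) :=
  LevelD5Coe.htame_four_shift M h4 a _ (coe_inv_four M a huK hu) e he

/-- (D5) of `hloc_kummerField_inv` for any cover polynomial `g` excluding the other cusp values. -/
theorem D5_four_n2_of_cover (g : R[X])
    (hg : ∀ t0 : Kbar, t0 ≠ 0 → aeval t0 (g.map (algebraMap R L)) ≠ 0 →
      t0 + a ≠ 0 ∧ t0 + a ≠ -16) :
    ∀ (v : Place Kbar (FF M)) (t0 : Kbar), t0 ≠ 0 →
      aeval t0 (g.map (algebraMap R L)) ≠ 0 →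
      0 < v.ord ((⟨uK, huK⟩ : FF M)⁻¹ - algebraMap Kbar (FF M) t0) →
      v.ord ((⟨uK, huK⟩ : FF M)⁻¹ - algebraMap Kbar (FF M) t0) = 1 :=
  LevelD5Coe.D5_four_of_cover M h4 a _ (coe_inv_four M a huK hu) g hg

/-- (D5) of `hloc_kummerField_inv` at the cusp value `0`, `g = X + C 16`. -/
theorem D5_four_n2_zero (ha : a = 0) :
    ∀ (v : Place Kbar (FF M)) (t0 : Kbar), t0 ≠ 0 →
      aeval t0 ((X + C (16 : R) : R[X]).map (algebraMap R L)) ≠ 0 →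
      0 < v.ord ((⟨uK, huK⟩ : FF M)⁻¹ - algebraMap Kbar (FF M) t0) →
      v.ord ((⟨uK, huK⟩ : FF M)⁻¹ - algebraMap Kbar (FF M) t0) = 1 := by
  refine LevelD5Coe.D5_four_zero M h4 _ ?_
  rw [coe_inv_four M a huK hu, ha, map_zero, sub_zero]

/-- (D5) of `hloc_kummerField_inv` at the cusp value `-16`, `g = X - C 16`
(`g.comp (X - C (-16)) = X`). -/
theorem D5_four_n2_sixteen (ha : a = -16) :
    ∀ (v : Place Kbar (FF M)) (t0 : Kbar), t0 ≠ 0 →
      aeval t0 ((X - C (16 : R) : R[X]).map (algebraMap R L)) ≠ 0 →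
      0 < v.ord ((⟨uK, huK⟩ : FF M)⁻¹ - algebraMap Kbar (FF M) t0) →
      v.ord ((⟨uK, huK⟩ : FF M)⁻¹ - algebraMap Kbar (FF M) t0) = 1 := by
  refine LevelD5Coe.D5_four_sixteen M h4 _ ?_
  rw [coe_inv_four M a huK hu, ha]

/-! #### (N1): the cusp `∞`, `a = 0`, `uK = t₄⁻¹` -/

omit h4 in
theorem coe_four_n1 (ha : a = 0) :
    (((⟨uK, huK⟩ : FF M) : FF M) : LaurentSeries Kbar) = (t4C Kbar)⁻¹ := by
  show uK = _
  rw [hu, ha, map_zero, sub_zero]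

theorem htrK_four_n1 (ha : a = 0) : Transcendental Kbar (⟨uK, huK⟩ : FF M) :=
  LevelD5Coe.htr_four_inv M h4 _ (coe_four_n1 M a huK hu ha)

theorem hfinK_four_n1 (ha : a = 0) : FiniteDimensional Kbar⟮(⟨uK, huK⟩ : FF M)⟯ (FF M) :=
  LevelD5Coe.hfin_four_inv M h4 _ (coe_four_n1 M a huK hu ha)

theorem htame_four_n1 (ha : a = 0) (e : ℕ) (he : M ∣ e) :
    ∀ v : Place Kbar (FF M), 0 < v.ord (⟨uK, huK⟩ : FF M) →
      v.ord (⟨uK, huK⟩ : FF M) ∣ (e : ℤ) :=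
  LevelD5Coe.htame_four_inv M h4 _ (coe_four_n1 M a huK hu ha) e he

/-- (D5) of `hloc_kummerField` at the cusp `∞`, `g = C 16 * X + 1`. -/
theorem D5_four_n1 (ha : a = 0) :
    ∀ (v : Place Kbar (FF M)) (u0 : Kbar), u0 ≠ 0 →
      aeval u0 ((C (16 : R) * X + 1 : R[X]).map (algebraMap R L)) ≠ 0 →
      0 < v.ord ((⟨uK, huK⟩ : FF M) - algebraMap Kbar (FF M) u0) →
      v.ord ((⟨uK, huK⟩ : FF M) - algebraMap Kbar (FF M) u0) = 1 :=
  LevelD5Coe.D5_four_inv M h4 _ (coe_four_n1 M a huK hu ha)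

end Four

/-! ## level 9 -/

section Nine

variable (h9 : 9 ∣ M) {R L : Type*} [CommRing R] [Field L] [Algebra R L] [Algebra L Kbar]
  (a : Kbar) {uK : LaurentSeries Kbar} (huK : uK ∈ modularFunctionFieldBar M)
  (hu : uK = (t9C Kbar - HahnSeries.C a)⁻¹)

include hu in
/-- the series of `⟨uK, huK⟩⁻¹` is `t₉ - a`. -/
theorem coe_inv_nine :
    (((⟨uK, huK⟩ : FF M)⁻¹ : FF M) : LaurentSeries Kbar) = t9C Kbar - HahnSeries.C a := by
  rw [LevelD5Coe.coe_inv_mk, hu, inv_inv]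

include h9 hu

/-! #### (N2): the finite cusp value `a` -/

theorem htrK_nine_n2 : Transcendental Kbar (⟨uK, huK⟩ : FF M) :=
  transcendental_of_inv M
    (LevelD5Coe.htr_nine_shift M h9 a _ (coe_inv_nine M a huK hu))

theorem hfinK_nine_n2 : FiniteDimensional Kbar⟮(⟨uK, huK⟩ : FF M)⟯ (FF M) :=
  finiteDimensional_of_inv M
    (LevelD5Coe.hfin_nine_shift M h9 a _ (coe_inv_nine M a huK hu))

theorem htame_nine_n2 (e : ℕ) (he : M ∣ e) :
    ∀ v : Place Kbar (FF M), 0 < v.ord (⟨uK, huK⟩ : FF M)⁻¹ →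
      v.ord (⟨uK, huK⟩ : FF M)⁻¹ ∣ (e : ℤ) :=
  LevelD5Coe.htame_nine_shift M h9 a _ (coe_inv_nine M a huK hu) e he

/-- (D5) of `hloc_kummerField_inv` for any cover polynomial `g` excluding the other cusp values. -/
theorem D5_nine_n2_of_cover (g : R[X])
    (hg : ∀ t0 : Kbar, t0 ≠ 0 → aeval t0 (g.map (algebraMap R L)) ≠ 0 →
      t0 + a ≠ 0 ∧ (t0 + a) ^ 2 + 9 * (t0 + a) + 27 ≠ 0) :
    ∀ (v : Place Kbar (FF M)) (t0 : Kbar), t0 ≠ 0 →
      aeval t0 (g.map (algebraMap R L)) ≠ 0 →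
      0 < v.ord ((⟨uK, huK⟩ : FF M)⁻¹ - algebraMap Kbar (FF M) t0) →
      v.ord ((⟨uK, huK⟩ : FF M)⁻¹ - algebraMap Kbar (FF M) t0) = 1 :=
  LevelD5Coe.D5_nine_of_cover M h9 a _ (coe_inv_nine M a huK hu) g hg

/-- (D5) of `hloc_kummerField_inv` at the cusp value `a9 r i`, `g = g9 r i` (spelling of
`Final/Level9`). -/
theorem D5_nine_n2_g9 {r : R} (hr : r ^ 2 + 9 * r + 27 = 0) (i : Fin 3)
    (ha : a = algebraMap L Kbar (algebraMap R L (a9 r i))) :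
    ∀ (v : Place Kbar (FF M)) (t0 : Kbar), t0 ≠ 0 →
      aeval t0 ((g9 r i).map (algebraMap R L)) ≠ 0 →
      0 < v.ord ((⟨uK, huK⟩ : FF M)⁻¹ - algebraMap Kbar (FF M) t0) →
      v.ord ((⟨uK, huK⟩ : FF M)⁻¹ - algebraMap Kbar (FF M) t0) = 1 := by
  refine Level9D5G9.D5_g9 M h9 hr i _ ?_
  rw [coe_inv_nine M a huK hu, ha]

/-! #### (N1): the cusp `∞`, `a = 0`, `uK = t₉⁻¹` -/

omit h9 in
theorem coe_nine_n1 (ha : a = 0) :
    (((⟨uK, huK⟩ : FF M) : FF M) : LaurentSeries Kbar) = (t9C Kbar)⁻¹ := by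
  show uK = _
  rw [hu, ha, map_zero, sub_zero]

theorem htrK_nine_n1 (ha : a = 0) : Transcendental Kbar (⟨uK, huK⟩ : FF M) :=
  LevelD5Coe.htr_nine_inv M h9 _ (coe_nine_n1 M a huK hu ha)

theorem hfinK_nine_n1 (ha : a = 0) : FiniteDimensional Kbar⟮(⟨uK, huK⟩ : FF M)⟯ (FF M) :=
  LevelD5Coe.hfin_nine_inv M h9 _ (coe_nine_n1 M a huK hu ha)

theorem htame_nine_n1 (ha : a = 0) (e : ℕ) (he : M ∣ e) :
    ∀ v : Place Kbar (FF M), 0 < v.ord (⟨uK, huK⟩ : FF M) →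
      v.ord (⟨uK, huK⟩ : FF M) ∣ (e : ℤ) :=
  LevelD5Coe.htame_nine_inv M h9 _ (coe_nine_n1 M a huK hu ha) e he

/-- (D5) of `hloc_kummerField` at the cusp `∞`, `g = Ginf9`. -/
theorem D5_nine_n1 (ha : a = 0) :
    ∀ (v : Place Kbar (FF M)) (u0 : Kbar), u0 ≠ 0 →
      aeval u0 ((Ginf9 : R[X]).map (algebraMap R L)) ≠ 0 →
      0 < v.ord ((⟨uK, huK⟩ : FF M) - algebraMap Kbar (FF M) u0) →
      v.ord ((⟨uK, huK⟩ : FF M) - algebraMap Kbar (FF M) u0) = 1 :=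
  Level9D5G9.D5_Ginf9 M h9 _ (coe_nine_n1 M a huK hu ha)

end Nine

end

end Fermat.Agent.S18.Cusp.LevelD5N
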