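import Mathlib
import Fermat.Agent.S18.Cusp.Level9CuspGauss
import Fermat.Agent.S18.Cusp.KummerFieldHloc
import Fermat.Agent.S18.Cusp.Coord0Alg
import Fermat.Agent.S18.Cusp.LevelD5N
import Fermat.Agent.S18.ConstExt.Place
import Fermat.Agent.S18.Final.Level9

/-!
# S18 (CUSP, level `9 ∣ M`): THEOREM N at all four cusp values of the `t₉`-line, hypothesis free

`L` a field of characteristic `0` with an algebraic embedding into `ℚ̄`, `A` a discrete valuation
subring of `L` with residue characteristic `ℓ ∤ M`, `9 ∣ M`, `e := M`.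
`KummerFieldHloc.hloc_kummerField` (N1) / `hloc_kummerField_inv` (N2) instantiated with
* the Gauss side of `Cusp/Level9Data` (as in `Cusp/Level9CuspGauss`),
* the degree-0 projection `Coord0.pr` (`Cusp/Coord0`, `Cusp/Coord0Alg`),
* the geometric side over `ℚ̄` of `Cusp/LevelD5N` (`K := ℚ̄`, `FK := modularFunctionFieldBar M`,
  `uK := (t₉ - a)⁻¹`, `sK := (t₉ - a)^{-1/M}`).

Exports (chart data `(LevelDown.coordData9' A hℓM h9 hπ).good`, `ρ := rho4 A hℓM`):
* `hloc9_infty` : the cusp `∞` (chart `B0 A t₉⁻¹`, cover polynomial `Ginf9`)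
  = `hlocinf` of `Final/Level9.localOK9_of_kummer`;
* `hloc9_g9 hr i` : the finite cusp values `a9 r i` (`0, ρ, ρ'`), cover polynomials `g9 r i`
  = `hloc0 i` of `Final/Level9.localOK9_of_kummer`;
* `hloc9_finite_of_D5` : any finite cusp value and cover polynomial, from its (D5).
-/

set_option autoImplicit false
set_option linter.unusedSectionVars false
set_option linter.unusedVariables false
set_option linter.style.haveILetI false
set_option maxHeartbeats 4000000
set_option synthInstance.maxHeartbeats 400000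
set_option backward.isDefEq.respectTransparency.types false

noncomputable section

namespace Fermat.Agent.S18.Cusp.Level9CuspA

open Polynomial IsLocalRing IntermediateField ModularCurve HahnSeries AlgebraicCurve
open Fermat.Agent.S24.BridgeInv
open Fermat.Agent.S18.Gauss.Basic Fermat.Agent.S18.Gauss.Residue
open Fermat.Agent.S18.Gauss
open Fermat.Agent.S18.Inst.Bundle Fermat.Agent.S18.Haupt
open Fermat.Agent.S18.Haupt9 (t9C)
open Fermat.Agent.S18.Trans Fermat.Agent.S18.Inst.Level9 Fermat.Agent.S18.Inst.Level4Final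
open Fermat.Agent.S18.Inst.LevelDown
open Fermat.Agent.S18.Cusp.ShiftData Fermat.Agent.S18.Cusp.HauptSeries
open Fermat.Agent.S18.Cusp.RootSeries
open Fermat.Agent.S18.Cusp.Graded Fermat.Agent.S18.Cusp.Kummer
open Fermat.Agent.S18.Cusp.GaussKummer Fermat.Agent.S18.Cusp.KummerField
open Fermat.Agent.S18.Cusp.KummerCoord Fermat.Agent.S18.Cusp.KummerGaussHloc
open Fermat.Agent.S18.Cusp.KummerFieldHloc
open Fermat.Agent.S18.Core.Charts Fermat.Agent.S18.Cusp.ChartLocalOK
open Fermat.Agent.S18.Cusp.Level9Data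
open Fermat.Agent.S18.Final.Level9 (g9 a9 Ginf9)

/-! ### generic series facts over a field -/

section Series

variable {K : Type*} [Field K] (e : ℕ) [NeZero e] (he : IsUnit (e : K))
  (P : PowerSeries K) (hP : PowerSeries.constantCoeff P = 1) (a : K)

theorem sAt_pow_inv :
    sAt e he P hP a ^ e = qExpand K e (tauOf P - HahnSeries.C a)⁻¹ := by
  have h := sAt_pow_mul e he P hP a
  rw [map_inv₀]
  exact eq_inv_of_mul_eq_one_left h

end Series


section Poly

variable {R : Type*} [CommRing R] [IsDomain R]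

theorem Ginf9_ne_zero : (Ginf9 : R[X]) ≠ 0 := by
  intro h
  have h1 := congrArg (fun p : R[X] => p.coeff 0) h
  unfold Ginf9 at h1
  simp only [Polynomial.coeff_add, Polynomial.coeff_X_pow, Polynomial.coeff_ofNat_mul,
    Polynomial.coeff_X, Polynomial.coeff_zero, Polynomial.coeff_one_zero] at h1
  simp at h1

theorem g9_ne_zero (r : R) (i : Fin 3) : g9 r i ≠ 0 := by
  fin_cases i
  · show (X ^ 2 + 9 * X + 27 : R[X]) ≠ 0
    intro h
    have h1 := congrArg (fun p : R[X] => p.coeff 2) h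
    simp only [Polynomial.coeff_add, Polynomial.coeff_X_pow, Polynomial.coeff_ofNat_mul,
      Polynomial.coeff_X, Polynomial.coeff_zero] at h1
    have h27 : ((27 : R[X])).coeff 2 = 0 := by
      rw [show (27 : R[X]) = Polynomial.C (27 : R) from (map_ofNat Polynomial.C 27).symm,
        Polynomial.coeff_C]
      simp
    rw [h27] at h1
    simp at h1
  · exact mul_ne_zero (X_add_C_ne_zero _) (X_add_C_ne_zero _)
  · exact mul_ne_zero (X_add_C_ne_zero _) (X_add_C_ne_zero _)

end Poly

section Unit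

variable {L : Type*} [Field L] (A : ValuationSubring L) {ℓ : ℕ} [Fact ℓ.Prime]
  [CharP (ResidueField A) ℓ]

theorem isUnit_natCast_of_not_dvd {m : ℕ} (hm : ¬ ℓ ∣ m) : IsUnit ((m : ℕ) : A) := by
  have h1 : residue A ((m : ℕ) : A) ≠ 0 := by
    intro h0
    rw [map_natCast, CharP.cast_eq_zero_iff (ResidueField A) ℓ] at h0
    exact hm h0
  exact (residue_ne_zero_iff_isUnit _).mp h1

end Unit

variable {L : Type*} [Field L] [Algebra ℚ L] [Algebra L Kbar] [Algebra.IsAlgebraic L Kbar]
  {M : ℕ} [NeZero M] (h9 : 9 ∣ M)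
  (A : ValuationSubring L) [IsDiscreteValuationRing A]
  {ℓ : ℕ} [Fact ℓ.Prime] [CharP (ResidueField A) ℓ] (hℓM : ¬ ℓ ∣ M)
  {π : A} (hπ : Irreducible π)

/-- the geometric root series over `ℚ̄`. -/
def sK9 (e : ℕ) [NeZero e] (he : IsUnit (e : A)) (a : A) : LaurentSeries Kbar :=
  sAt e (isUnit_map (algebraMap L Kbar) e (isUnit_cast9 A e he))
    (PowerSeries.map (algebraMap L Kbar) (P9 L))
    (constantCoeff_map (algebraMap L Kbar) (P9 L) (constantCoeff_P9 L))
    (algebraMap L Kbar (a : L))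

theorem coeffMap_sS9 (e : ℕ) [NeZero e] (he : IsUnit (e : A)) (a : A) :
    coeffMap (algebraMap L Kbar) (sS9 A e he a) = sK9 A e he a :=
  coeffMap_sAt e (isUnit_cast9 A e he) (P9 L) (constantCoeff_P9 L) (a : L) (algebraMap L Kbar)

theorem sK9_pow (e : ℕ) [NeZero e] (he : IsUnit (e : A)) (a : A) :
    sK9 A e he a ^ e = qExpand Kbar e (uS9 (L := Kbar) (algebraMap L Kbar (a : L))) := by
  unfold sK9 uS9
  rw [sAt_pow_inv, map_P9, tauOf_P9]

include hℓM in
theorem isUnit_M : IsUnit ((M : ℕ) : A) := isUnit_natCast_of_not_dvd A hℓM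

/-- **THEOREM N at the cusp `∞` of the `t₉`-line** (chart `B1 A t₉ = B0 A t₉⁻¹`, cover
polynomial `Ginf9 = 27 X² + 9 X + 1`), hypothesis free. -/
theorem hloc9_infty :
    ∃ k : ℕ, ∀ z : ↥(modularFunctionFieldFullC (ResidueField A) M),
      IsIntegral (resB0 (coordData9' A hℓM h9 hπ).good.inv (rho4 A hℓM)).range z →
      ∃ b : ↥(B0 A (t9el (L := L) M h9)⁻¹),
        resB0 (coordData9' A hℓM h9 hπ).good.inv (rho4 A hℓM)
            ⟨aeval (t9el (L := L) M h9)⁻¹ ((Ginf9 : A[X]).comp (X - Polynomial.C 0)),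
              aeval_mem_B0 _⟩ ^ k * z
          = resB0 (coordData9' A hℓM h9 hπ).good.inv (rho4 A hℓM) b := by
  have : CharZero L := algebraRat.charZero L
  have he : IsUnit ((M : ℕ) : A) := isUnit_M A hℓM
  have hd := downData9_u h9 A hℓM hπ 0
  have := hd.finite
  have : Algebra.IsSeparable
      (ResidueField A)⟮rhoBase (ModularH.scalable A hℓM)
        (modularFunctionFieldFullC (ResidueField A) M) (ModularH.range_gaussRes A hℓM)
        ⟨uEl9 M h9 ((0 : A) : L), hd.mem⟩⟯
      ↥(modularFunctionFieldFullC (ResidueField A) M) := hd.sep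
  have := Concrete.finiteDimensional L M
  have ht_def : uEl9 M h9 ((0 : A) : L) = (t9el (L := L) M h9)⁻¹ -
      algebraMap A ↥(laurentBaseChange L (modularFunctionFieldFull M)) 0 := by
    rw [uEl9_eq h9 A 0, map_zero, sub_zero, sub_zero]
  have ha0 : algebraMap L Kbar ((0 : A) : L) = 0 := by simp
  have huK : uS9 (L := Kbar) (algebraMap L Kbar ((0 : A) : L)) ∈ modularFunctionFieldBar M :=
    uS9_mem M h9 _
  have := LevelD5N.hfinK_nine_n1 M h9 (algebraMap L Kbar ((0 : A) : L)) huK rfl ha0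
  exact hloc_kummerField (ModularH.scalable A hℓM) (kummerData9 h9 A M he 0)
    (gaussUnit9 A M he 0) (modularFunctionFieldFullC (ResidueField A) M)
    (ModularH.range_gaussRes A hℓM) (uS9_mem M h9 ((0 : A) : L)) (sS9_pow A M he 0)
    (coordData9' A hℓM h9 hπ).good.inv 0 ht_def (hutr9 h9 A hℓM hπ 0)
    (adjoin_Jel_le9 h9 ((0 : A) : L))
    (Concrete.resIndep_pow (ModularH.isGaussRed A hℓM) hℓM)
    (by rw [Fintype.card_fin, Concrete.finrank_eq_psi])
    hd.transc hd.mem hd.tbar _ hd.finrank_eq hd.finrank_res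
    (Coord0.pr (kummerData9 h9 A M he 0))
    (Coord0.hprF_alg (kummerData9 h9 A M he 0))
    (Coord0.hprB_val (kummerData9 h9 A M he 0) he)
    (Coord0.hpr_id_alg (kummerData9 h9 A M he 0))
    (Coord0.hred (ModularH.scalable A hℓM) (kummerData9 h9 A M he 0) (gaussUnit9 A M he 0) _
      (rhoK_eq_zero_iff (ModularH.scalable A hℓM) (modularFunctionFieldFullC (ResidueField A) M)
        (ModularH.range_gaussRes A hℓM) (kummerData9 h9 A M he 0) (gaussUnit9 A M he 0)))
    huK (sK9_pow A M he 0)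
    (fun x hx => Fermat.Agent.S18.ConstExt.coeffMap_mem_up hx)
    (coeffMap_sS9 A M he 0)
    (LevelD5N.htrK_nine_n1 M h9 (algebraMap L Kbar ((0 : A) : L)) huK rfl ha0)
    (Ginf9 : A[X]) Ginf9_ne_zero
    (LevelD5N.D5_nine_n1 M h9 (algebraMap L Kbar ((0 : A) : L)) huK rfl ha0)
    (LevelD5N.htame_nine_n1 M h9 (algebraMap L Kbar ((0 : A) : L)) huK rfl ha0 M dvd_rfl)

/-- **THEOREM N at a finite cusp value `a` of the `t₉`-line** (chart `B0 A t₉`, normalisation
(N2)), for any cover polynomial `g` whose geometric (D5) holds. -/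
theorem hloc9_finite_of_D5 (a : A) (g : A[X]) (hg0 : g ≠ 0)
    (D5 : ∀ (huK : uS9 (L := Kbar) (algebraMap L Kbar (a : L)) ∈ modularFunctionFieldBar M)
      (v : Place Kbar (FF M)) (t0 : Kbar), t0 ≠ 0 → aeval t0 (g.map (algebraMap A L)) ≠ 0 →
      0 < v.ord ((⟨uS9 (L := Kbar) (algebraMap L Kbar (a : L)), huK⟩ : FF M)⁻¹ -
        algebraMap Kbar (FF M) t0) →
      v.ord ((⟨uS9 (L := Kbar) (algebraMap L Kbar (a : L)), huK⟩ : FF M)⁻¹ -
        algebraMap Kbar (FF M) t0) = 1) :
    ∃ k : ℕ, ∀ z : ↥(modularFunctionFieldFullC (ResidueField A) M),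
      IsIntegral (resB0 (coordData9' A hℓM h9 hπ).good (rho4 A hℓM)).range z →
      ∃ b : ↥(B0 A (t9el (L := L) M h9)),
        resB0 (coordData9' A hℓM h9 hπ).good (rho4 A hℓM)
            ⟨aeval (t9el (L := L) M h9) (g.comp (X - Polynomial.C a)), aeval_mem_B0 _⟩ ^ k * z
          = resB0 (coordData9' A hℓM h9 hπ).good (rho4 A hℓM) b := by
  have : CharZero L := algebraRat.charZero L
  have he : IsUnit ((M : ℕ) : A) := isUnit_M A hℓM
  have hd := downData9_u_inv h9 A hℓM hπ a
  have := hd.finite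
  have : Algebra.IsSeparable
      (ResidueField A)⟮rhoBase (ModularH.scalable A hℓM)
        (modularFunctionFieldFullC (ResidueField A) M) (ModularH.range_gaussRes A hℓM)
        ⟨(uEl9 M h9 (a : L))⁻¹, hd.mem⟩⟯
      ↥(modularFunctionFieldFullC (ResidueField A) M) := hd.sep
  have := Concrete.finiteDimensional L M
  have huK : uS9 (L := Kbar) (algebraMap L Kbar (a : L)) ∈ modularFunctionFieldBar M :=
    uS9_mem M h9 _
  have := LevelD5N.hfinK_nine_n2 M h9 (algebraMap L Kbar (a : L)) huK rfl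
  exact hloc_kummerField_inv (ModularH.scalable A hℓM) (kummerData9 h9 A M he a)
    (gaussUnit9 A M he a) (modularFunctionFieldFullC (ResidueField A) M)
    (ModularH.range_gaussRes A hℓM) (uS9_mem M h9 (a : L)) (sS9_pow A M he a)
    (coordData9' A hℓM h9 hπ).good a (uEl9_inv_eq h9 A a) (hutr9 h9 A hℓM hπ a)
    (adjoin_Jel_le9 h9 (a : L))
    (Concrete.resIndep_pow (ModularH.isGaussRed A hℓM) hℓM)
    (by rw [Fintype.card_fin, Concrete.finrank_eq_psi])
    hd.transc hd.mem hd.tbar _ hd.finrank_eq hd.finrank_res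
    (Coord0.pr (kummerData9 h9 A M he a))
    (Coord0.hprF_inv_alg (kummerData9 h9 A M he a))
    (Coord0.hprB_inv_val (kummerData9 h9 A M he a) he)
    (Coord0.hpr_id_alg (kummerData9 h9 A M he a))
    (Coord0.hred (ModularH.scalable A hℓM) (kummerData9 h9 A M he a) (gaussUnit9 A M he a) _
      (rhoK_eq_zero_iff (ModularH.scalable A hℓM) (modularFunctionFieldFullC (ResidueField A) M)
        (ModularH.range_gaussRes A hℓM) (kummerData9 h9 A M he a) (gaussUnit9 A M he a)))
    huK (sK9_pow A M he a)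
    (fun x hx => Fermat.Agent.S18.ConstExt.coeffMap_mem_up hx)
    (coeffMap_sS9 A M he a)
    (LevelD5N.htrK_nine_n2 M h9 (algebraMap L Kbar (a : L)) huK rfl)
    g hg0 (D5 huK)
    (LevelD5N.htame_nine_n2 M h9 (algebraMap L Kbar (a : L)) huK rfl M dvd_rfl)

/-- **THEOREM N at the finite cusp values `a9 r i ∈ {0, ρ, ρ'}` of the `t₉`-line**, cover
polynomials `g9 r i`, hypothesis free: `hloc0 i` of `Final/Level9.localOK9_of_kummer`. -/
theorem hloc9_g9 {r : A} (hr : r ^ 2 + 9 * r + 27 = 0) (i : Fin 3) :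
    ∃ k : ℕ, ∀ z : ↥(modularFunctionFieldFullC (ResidueField A) M),
      IsIntegral (resB0 (coordData9' A hℓM h9 hπ).good (rho4 A hℓM)).range z →
      ∃ b : ↥(B0 A (t9el (L := L) M h9)),
        resB0 (coordData9' A hℓM h9 hπ).good (rho4 A hℓM)
            ⟨aeval (t9el (L := L) M h9) ((g9 r i).comp (X - Polynomial.C (a9 r i))),
              aeval_mem_B0 _⟩ ^ k * z
          = resB0 (coordData9' A hℓM h9 hπ).good (rho4 A hℓM) b :=
  hloc9_finite_of_D5 h9 A hℓM hπ (a9 r i) (g9 r i) (g9_ne_zero r i)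
    (fun huK => LevelD5N.D5_nine_n2_g9 M h9 (algebraMap L Kbar ((a9 r i : A) : L)) huK rfl hr i rfl)

end Fermat.Agent.S18.Cusp.Level9CuspA
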