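import Mathlib
import Fermat.Agent.S18.Cusp.Level9Data
import Fermat.Agent.S18.Cusp.KummerFieldHloc
import Fermat.Agent.S18.Cusp.Coord0Alg
import Fermat.Agent.S18.Cusp.Level9D5G9
import Fermat.Agent.S18.ConstExt.Place
import Fermat.Agent.S18.Final.Level9Gen

/-!
# S18 (CUSP, level `9 ∣ M`): THEOREM N at the cusp values of the `t₉`-line, complete composition

`L` a field of characteristic `0`, algebraic over which `ℚ̄` is (`[Algebra L Kbar]`,
`[Algebra.IsAlgebraic L Kbar]`), `A` a discrete valuation subring of `L` with residue characteristic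
`ℓ ∤ M`, `9 ∣ M`.  We compose

* the Gauss side (`Cusp/Level9Data`),
* the degree-0 projection (`Cusp/Coord0`, `Cusp/Coord0Alg`),
* the geometric side at `kummerField Kbar e (modularFunctionFieldBar M) sK`
  (`Cusp/KummerFieldHloc`),
* the (D5)/tameness inputs (`Cusp/LevelD5Coe`, `Cusp/Level9D5G9`)

into the statements consumed by `Final/Level9.localOK9_of_kummer` and
`Final/Level9Gen.localGen9_of_kummer`:

* `hloc9_fin_geom` : any cusp value `a : A`, any `g`, with `D5`/`htame` as hypotheses;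
* `hloc9_inf_geom` : the chart at `∞`;
* `hloc9_g9` : `a := a9 r i`, `g := g9 r i` (`i : Fin 3`), no hypothesis left;
* `hloc9_Ginf9` : `g := Ginf9`, no hypothesis left.
-/

set_option autoImplicit false
set_option linter.unusedSectionVars false
set_option linter.unusedVariables false
set_option linter.style.haveILetI false

noncomputable section

namespace Fermat.Agent.S18.Cusp.Level9CuspAll

open Polynomial IsLocalRing IntermediateField ModularCurve HahnSeries AlgebraicCurve
open Fermat.Agent.S24.BridgeInv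
open Fermat.Agent.S18.Gauss.Basic Fermat.Agent.S18.Gauss.Residue
open Fermat.Agent.S18.Gauss
open Fermat.Agent.S18.Inst.Bundle
open Fermat.Agent.S18.Haupt9 (t9C)
open Fermat.Agent.S18.Trans Fermat.Agent.S18.Inst.Level9 Fermat.Agent.S18.Inst.Level4Final
open Fermat.Agent.S18.Inst.LevelDown
open Fermat.Agent.S18.Cusp.ShiftData Fermat.Agent.S18.Cusp.HauptSeries
open Fermat.Agent.S18.Cusp.Graded Fermat.Agent.S18.Cusp.Kummer
open Fermat.Agent.S18.Cusp.GaussKummer Fermat.Agent.S18.Cusp.KummerField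
open Fermat.Agent.S18.Cusp.KummerCoord Fermat.Agent.S18.Cusp.KummerGaussHloc
open Fermat.Agent.S18.Cusp.KummerFieldHloc
open Fermat.Agent.S18.Core.Charts Fermat.Agent.S18.Cusp.ChartLocalOK
open Fermat.Agent.S18.Cusp.Level9Data
open Fermat.Agent.S18.Final.Level9 (g9 a9 Ginf9)

set_option synthInstance.maxHeartbeats 400000
set_option maxHeartbeats 2000000

/-- a natural number prime to the residue characteristic is a unit. -/
theorem isUnit_natCast_of_charP {L : Type*} [Field L] (A : ValuationSubring L) {ℓ : ℕ}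
    [CharP (ResidueField A) ℓ] {m : ℕ} (hm : ¬ ℓ ∣ m) : IsUnit ((m : ℕ) : A) := by
  by_contra h
  have h1 : ((m : ℕ) : A) ∈ IsLocalRing.maximalIdeal A := (IsLocalRing.mem_maximalIdeal _).mpr h
  have h2 : IsLocalRing.residue A ((m : ℕ) : A) = 0 :=
    (IsLocalRing.residue_eq_zero_iff _).mpr h1
  rw [map_natCast, CharP.cast_eq_zero_iff (ResidueField A) ℓ] at h2
  exact hm h2

/-- the root series over `ℚ̄`. -/
def sK9 (e : ℕ) [NeZero e] (aK : Kbar) : LaurentSeries Kbar :=
  sAt e (IsUnit.mk0 _ (Nat.cast_ne_zero.mpr (NeZero.ne e))) (P9 Kbar) (constantCoeff_P9 Kbar) aK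

theorem sK9_pow (e : ℕ) [NeZero e] (aK : Kbar) :
    sK9 e aK ^ e = qExpand Kbar e (uS9 aK) := by
  have h := sAt_pow_mul e (IsUnit.mk0 _ (Nat.cast_ne_zero.mpr (NeZero.ne e)) : IsUnit (e : Kbar))
    (P9 Kbar) (constantCoeff_P9 Kbar) aK
  rw [tauOf_P9] at h
  unfold uS9
  rw [map_inv₀]
  exact eq_inv_of_mul_eq_one_left h

variable {L : Type*} [Field L] [Algebra ℚ L] [Algebra L Kbar]

theorem coeffMap_sS9 (A : ValuationSubring L) (e : ℕ) [NeZero e] (he : IsUnit (e : A)) (a : A) :
    coeffMap (algebraMap L Kbar) (sS9 A e he a) = sK9 e (algebraMap L Kbar (a : L)) := by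
  unfold sS9 sK9
  rw [coeffMap_sAt]
  have key : ∀ (P : PowerSeries Kbar) (hP : PowerSeries.constantCoeff P = 1)
      (h1 h2 : IsUnit (e : Kbar)), P = P9 Kbar →
      sAt e h1 P hP (algebraMap L Kbar (a : L)) =
        sAt e h2 (P9 Kbar) (constantCoeff_P9 Kbar) (algebraMap L Kbar (a : L)) := by
    rintro P hP h1 h2 rfl
    rfl
  exact key _ _ _ _ (map_P9 (algebraMap L Kbar))

variable [Algebra.IsAlgebraic L Kbar] {M : ℕ} [NeZero M] (h9 : 9 ∣ M)
  (A : ValuationSubring L) [IsDiscreteValuationRing A]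
  {ℓ : ℕ} [Fact ℓ.Prime] [CharP (ResidueField A) ℓ] (hℓM : ¬ ℓ ∣ M)
  {π : A} (hπ : Irreducible π) (e : ℕ) [NeZero e] (he : IsUnit (e : A))

include he in
/-- **THEOREM N at the finite cusp value `a` of the chart `B0 A t₉`**, with only the (D5) and
tameness inputs over `ℚ̄` left as hypotheses (for any element `tb` of `F_{M,ℚ̄}` whose expansion
is `t₉ - a`). -/
theorem hloc9_fin_geom (a : A) (g : A[X]) (hg0 : g ≠ 0)
    (D5 : ∀ tb : FF M, (tb : LaurentSeries Kbar) =
        t9C Kbar - HahnSeries.C (algebraMap L Kbar (algebraMap A L a)) →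
      ∀ (v : Place Kbar (FF M)) (t0 : Kbar), t0 ≠ 0 →
        aeval t0 (g.map (algebraMap A L)) ≠ 0 →
        0 < v.ord (tb - algebraMap Kbar (FF M) t0) →
        v.ord (tb - algebraMap Kbar (FF M) t0) = 1)
    (htame : ∀ tb : FF M, (tb : LaurentSeries Kbar) =
        t9C Kbar - HahnSeries.C (algebraMap L Kbar (algebraMap A L a)) →
      ∀ v : Place Kbar (FF M), 0 < v.ord tb → v.ord tb ∣ (e : ℤ)) :
    ∃ k : ℕ, ∀ z : ↥(modularFunctionFieldFullC (ResidueField A) M),
      IsIntegral (resB0 (coordData9' A hℓM h9 hπ).good (rho4 A hℓM)).range z →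
      ∃ b : ↥(B0 A (t9el (L := L) M h9)),
        resB0 (coordData9' A hℓM h9 hπ).good (rho4 A hℓM)
            ⟨aeval (t9el (L := L) M h9) (g.comp (X - Polynomial.C a)), aeval_mem_B0 _⟩ ^ k * z
          = resB0 (coordData9' A hℓM h9 hπ).good (rho4 A hℓM) b := by
  have : CharZero L := algebraRat.charZero L
  have hd := downData9_u_inv h9 A hℓM hπ a
  have := hd.finite
  have : Algebra.IsSeparable
      (ResidueField A)⟮rhoBase (ModularH.scalable A hℓM)
        (modularFunctionFieldFullC (ResidueField A) M) (ModularH.range_gaussRes A hℓM)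
        ⟨(uEl9 M h9 (a : L))⁻¹, hd.mem⟩⟯
      ↥(modularFunctionFieldFullC (ResidueField A) M) := hd.sep
  have := Concrete.finiteDimensional L M
  -- the geometric side
  have huK : uS9 (algebraMap L Kbar (a : L)) ∈ modularFunctionFieldBar M :=
    uS9_mem M h9 (algebraMap L Kbar (a : L))
  have hcoe : ((((⟨uS9 (algebraMap L Kbar (a : L)), huK⟩ : FF M)⁻¹ : FF M)) : LaurentSeries Kbar)
      = t9C Kbar - HahnSeries.C (algebraMap L Kbar (algebraMap A L a)) :=
    LevelD5Coe.coe_inv_mk_inv M huK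
  have htrK : Transcendental Kbar (⟨uS9 (algebraMap L Kbar (a : L)), huK⟩ : FF M) := by
    have h1 := LevelD5Coe.htr_nine_shift M h9 _ _ hcoe
    have h2 := transcendental_inv' h1
    rwa [inv_inv] at h2
  have hfinK : FiniteDimensional Kbar⟮(⟨uS9 (algebraMap L Kbar (a : L)), huK⟩ : FF M)⟯ (FF M) := by
    have h1 := LevelD5Coe.hfin_nine_shift M h9 _ _ hcoe
    rw [adjoin_simple_inv_eq] at h1
    exact h1
  exact hloc_kummerField_inv (ModularH.scalable A hℓM) (kummerData9 h9 A e he a)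
    (gaussUnit9 A e he a) (modularFunctionFieldFullC (ResidueField A) M)
    (ModularH.range_gaussRes A hℓM) (uS9_mem M h9 (a : L)) (sS9_pow A e he a)
    (coordData9' A hℓM h9 hπ).good a (uEl9_inv_eq h9 A a) (hutr9 h9 A hℓM hπ a)
    (adjoin_Jel_le9 h9 (a : L))
    (Concrete.resIndep_pow (ModularH.isGaussRed A hℓM) hℓM)
    (by rw [Fintype.card_fin, Concrete.finrank_eq_psi])
    hd.transc hd.mem hd.tbar _ hd.finrank_eq hd.finrank_res
    (Coord0.pr (kummerData9 h9 A e he a))
    (Coord0.hprF_inv_alg (kummerData9 h9 A e he a))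
    (Coord0.hprB_inv_val (kummerData9 h9 A e he a) he)
    (Coord0.hpr_id_alg (kummerData9 h9 A e he a))
    (Coord0.hred (ModularH.scalable A hℓM) (kummerData9 h9 A e he a) (gaussUnit9 A e he a)
      (rhoK (ModularH.scalable A hℓM) (modularFunctionFieldFullC (ResidueField A) M)
        (ModularH.range_gaussRes A hℓM) (kummerData9 h9 A e he a) (gaussUnit9 A e he a))
      (rhoK_eq_zero_iff (ModularH.scalable A hℓM) (modularFunctionFieldFullC (ResidueField A) M)
        (ModularH.range_gaussRes A hℓM) (kummerData9 h9 A e he a) (gaussUnit9 A e he a)))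
    huK (sK9_pow e (algebraMap L Kbar (a : L)))
    (fun x hx => Fermat.Agent.S18.ConstExt.coeffMap_mem_up hx)
    (coeffMap_sS9 A e he a) htrK g hg0 (D5 _ hcoe) (htame _ hcoe)

include he in
/-- **THEOREM N at the cusp `∞` (chart `B1 A t₉ = B0 A t₉⁻¹`, cusp value `u = 0`)**, with only the
(D5) and tameness inputs over `ℚ̄` left as hypotheses (for any element `tb` of `F_{M,ℚ̄}` whose
expansion is `t₉⁻¹`). -/
theorem hloc9_inf_geom (g : A[X]) (hg0 : g ≠ 0)
    (D5 : ∀ tb : FF M, (tb : LaurentSeries Kbar) = (t9C Kbar)⁻¹ →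
      ∀ (v : Place Kbar (FF M)) (t0 : Kbar), t0 ≠ 0 →
        aeval t0 (g.map (algebraMap A L)) ≠ 0 →
        0 < v.ord (tb - algebraMap Kbar (FF M) t0) →
        v.ord (tb - algebraMap Kbar (FF M) t0) = 1)
    (htame : ∀ tb : FF M, (tb : LaurentSeries Kbar) = (t9C Kbar)⁻¹ →
      ∀ v : Place Kbar (FF M), 0 < v.ord tb → v.ord tb ∣ (e : ℤ)) :
    ∃ k : ℕ, ∀ z : ↥(modularFunctionFieldFullC (ResidueField A) M),
      IsIntegral (resB0 (coordData9' A hℓM h9 hπ).good.inv (rho4 A hℓM)).range z →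
      ∃ b : ↥(B0 A (t9el (L := L) M h9)⁻¹),
        resB0 (coordData9' A hℓM h9 hπ).good.inv (rho4 A hℓM)
            ⟨aeval (t9el (L := L) M h9)⁻¹ (g.comp (X - Polynomial.C 0)), aeval_mem_B0 _⟩ ^ k * z
          = resB0 (coordData9' A hℓM h9 hπ).good.inv (rho4 A hℓM) b := by
  have : CharZero L := algebraRat.charZero L
  have hd := downData9_u h9 A hℓM hπ 0
  have := hd.finite
  have : Algebra.IsSeparable
      (ResidueField A)⟮rhoBase (ModularH.scalable A hℓM)
        (modularFunctionFieldFullC (ResidueField A) M) (ModularH.range_gaussRes A hℓM)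
        ⟨uEl9 M h9 ((0 : A) : L), hd.mem⟩⟯
      ↥(modularFunctionFieldFullC (ResidueField A) M) := hd.sep
  have := Concrete.finiteDimensional L M
  have ht_def : uEl9 M h9 ((0 : A) : L) = (t9el (L := L) M h9)⁻¹ -
      algebraMap A ↥(laurentBaseChange L (modularFunctionFieldFull M)) 0 := by
    rw [uEl9_eq h9 A 0, map_zero, sub_zero, sub_zero]
  -- the geometric side
  have huK : uS9 (algebraMap L Kbar ((0 : A) : L)) ∈ modularFunctionFieldBar M :=
    uS9_mem M h9 (algebraMap L Kbar ((0 : A) : L))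
  have hcoe : (((⟨uS9 (algebraMap L Kbar ((0 : A) : L)), huK⟩ : FF M)) : LaurentSeries Kbar)
      = (t9C Kbar)⁻¹ := by
    show uS9 (algebraMap L Kbar ((0 : A) : L)) = (t9C Kbar)⁻¹
    unfold uS9
    rw [ZeroMemClass.coe_zero, map_zero, map_zero, sub_zero]
  have htrK : Transcendental Kbar (⟨uS9 (algebraMap L Kbar ((0 : A) : L)), huK⟩ : FF M) :=
    LevelD5Coe.htr_nine_inv M h9 _ hcoe
  have hfinK : FiniteDimensional
      Kbar⟮(⟨uS9 (algebraMap L Kbar ((0 : A) : L)), huK⟩ : FF M)⟯ (FF M) :=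
    LevelD5Coe.hfin_nine_inv M h9 _ hcoe
  exact hloc_kummerField (ModularH.scalable A hℓM) (kummerData9 h9 A e he 0)
    (gaussUnit9 A e he 0) (modularFunctionFieldFullC (ResidueField A) M)
    (ModularH.range_gaussRes A hℓM) (uS9_mem M h9 ((0 : A) : L)) (sS9_pow A e he 0)
    (coordData9' A hℓM h9 hπ).good.inv 0 ht_def (hutr9 h9 A hℓM hπ 0)
    (adjoin_Jel_le9 h9 ((0 : A) : L))
    (Concrete.resIndep_pow (ModularH.isGaussRed A hℓM) hℓM)
    (by rw [Fintype.card_fin, Concrete.finrank_eq_psi])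
    hd.transc hd.mem hd.tbar _ hd.finrank_eq hd.finrank_res
    (Coord0.pr (kummerData9 h9 A e he 0))
    (Coord0.hprF_alg (kummerData9 h9 A e he 0))
    (Coord0.hprB_val (kummerData9 h9 A e he 0) he)
    (Coord0.hpr_id_alg (kummerData9 h9 A e he 0))
    (Coord0.hred (ModularH.scalable A hℓM) (kummerData9 h9 A e he 0) (gaussUnit9 A e he 0)
      (rhoK (ModularH.scalable A hℓM) (modularFunctionFieldFullC (ResidueField A) M)
        (ModularH.range_gaussRes A hℓM) (kummerData9 h9 A e he 0) (gaussUnit9 A e he 0))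
      (rhoK_eq_zero_iff (ModularH.scalable A hℓM) (modularFunctionFieldFullC (ResidueField A) M)
        (ModularH.range_gaussRes A hℓM) (kummerData9 h9 A e he 0) (gaussUnit9 A e he 0)))
    huK (sK9_pow e (algebraMap L Kbar ((0 : A) : L)))
    (fun x hx => Fermat.Agent.S18.ConstExt.coeffMap_mem_up hx)
    (coeffMap_sS9 A e he 0) htrK g hg0 (D5 _ hcoe) (htame _ hcoe)

/-! ### the four statements of `Final/Level9` -/

theorem g9_ne_zero (r : A) (i : Fin 3) : g9 r i ≠ 0 := by
  have h0 : (X ^ 2 + 9 * X + 27 : A[X]).Monic := by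
    have h1 : (X ^ 2 + 9 * X + 27 : A[X]) = X ^ 2 + (Polynomial.C 9 * X + Polynomial.C 27) := by
      rw [map_ofNat, map_ofNat, add_assoc]
    rw [h1]
    exact monic_X_pow_add (lt_of_le_of_lt (degree_linear_le) (by norm_num))
  fin_cases i
  · exact h0.ne_zero
  · exact ((monic_X_add_C r).mul (monic_X_add_C _)).ne_zero
  · exact ((monic_X_add_C _).mul (monic_X_add_C _)).ne_zero

theorem Ginf9_ne_zero : (Ginf9 : A[X]) ≠ 0 := by
  intro h
  have h1 := congrArg (fun p => Polynomial.eval 0 p) h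
  simp only [Ginf9, eval_add, eval_mul, eval_pow, eval_X, eval_ofNat, eval_one, eval_zero] at h1
  norm_num at h1

/-- **the three finite cusp values at level 9** (`hloc0 i` of `Final/Level9.localOK9_of_kummer` and
`Final/Level9Gen.localGen9_of_kummer`, with `h := LevelDown.coordData9' A hℓM h9 hπ`,
`ρ := rho4 A hℓM`). -/
theorem hloc9_g9 {r : A} (hr : r ^ 2 + 9 * r + 27 = 0) (i : Fin 3) :
    ∃ k : ℕ, ∀ z : ↥(modularFunctionFieldFullC (ResidueField A) M),
      IsIntegral (resB0 (coordData9' A hℓM h9 hπ).good (rho4 A hℓM)).range z →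
      ∃ b : ↥(B0 A (t9el (L := L) M h9)),
        resB0 (coordData9' A hℓM h9 hπ).good (rho4 A hℓM)
            ⟨aeval (t9el (L := L) M h9) ((g9 r i).comp (X - Polynomial.C (a9 r i))),
              aeval_mem_B0 _⟩ ^ k * z
          = resB0 (coordData9' A hℓM h9 hπ).good (rho4 A hℓM) b :=
  hloc9_fin_geom h9 A hℓM hπ M (isUnit_natCast_of_charP A hℓM) (a9 r i) (g9 r i) (g9_ne_zero A r i)
    (fun tb hcoe => Level9D5G9.D5_g9 M h9 hr i tb hcoe)
    (fun tb hcoe => Level9D5G9.htame_g9 M h9 i tb hcoe M dvd_rfl)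

/-- **the cusp `∞` at level 9** (`hlocinf` of `Final/Level9.localOK9_of_kummer`). -/
theorem hloc9_Ginf9 :
    ∃ k : ℕ, ∀ z : ↥(modularFunctionFieldFullC (ResidueField A) M),
      IsIntegral (resB0 (coordData9' A hℓM h9 hπ).good.inv (rho4 A hℓM)).range z →
      ∃ b : ↥(B0 A (t9el (L := L) M h9)⁻¹),
        resB0 (coordData9' A hℓM h9 hπ).good.inv (rho4 A hℓM)
            ⟨aeval (t9el (L := L) M h9)⁻¹ ((Ginf9 : A[X]).comp (X - Polynomial.C 0)),
              aeval_mem_B0 _⟩ ^ k * z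
          = resB0 (coordData9' A hℓM h9 hπ).good.inv (rho4 A hℓM) b :=
  hloc9_inf_geom h9 A hℓM hπ M (isUnit_natCast_of_charP A hℓM) Ginf9 (Ginf9_ne_zero A)
    (fun tb hcoe => Level9D5G9.D5_Ginf9 M h9 tb hcoe)
    (fun tb hcoe => Level9D5G9.htame_Ginf9 M h9 tb hcoe M dvd_rfl)

/-! ### the consumers: `LocalOK` and `LocalGen` on both charts of `t₉` -/

include hℓM hπ in
/-- **`LocalOK` on both charts of the `t₉`-line**, unconditional (`r` a root of `X² + 9 X + 27` in
`A`). -/
theorem localOK9_all {r : A} (hr : r ^ 2 + 9 * r + 27 = 0) :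
    (∀ f : ↥(laurentBaseChange L (modularFunctionFieldFull M)),
      Fermat.Agent.S18.Core.StarAbstract.LocalOK (B0 A (t9el (L := L) M h9))
        ⟨algebraMap A ↥(laurentBaseChange L (modularFunctionFieldFull M)) π,
          algebraMap_mem_B0 π⟩ f) ∧
    (∀ f : ↥(laurentBaseChange L (modularFunctionFieldFull M)),
      Fermat.Agent.S18.Core.StarAbstract.LocalOK (B1 A (t9el (L := L) M h9))
        ⟨algebraMap A ↥(laurentBaseChange L (modularFunctionFieldFull M)) π,
          algebraMap_mem_B0 π⟩ f) := by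
  have : CharZero L := algebraRat.charZero L
  have h3 : IsUnit (3 : A) := by
    have h := isUnit_natCast_of_charP A (m := 3)
      (fun h => hℓM (h.trans ((by norm_num : 3 ∣ 9).trans h9)))
    simpa using h
  exact Fermat.Agent.S18.Final.Level9.localOK9_of_kummer (coordData9' A hℓM h9 hπ) hr h3
    (rho4 A hℓM) (rho4_eq_zero_iff A hℓM) (fun a => rho4_algebraMap A hℓM a _)
    (fun i => hloc9_g9 h9 A hℓM hπ hr i) (hloc9_Ginf9 h9 A hℓM hπ)

include hℓM hπ in
/-- **`LocalGen` at every closed point over `π` of both charts of the `t₉`-line**,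
unconditional. -/
theorem localGen9_all {r : A} (hr : r ^ 2 + 9 * r + 27 = 0) :
    (∀ (n : Ideal ↥(B0 A (t9el (L := L) M h9))) [n.IsMaximal],
        (⟨algebraMap A ↥(laurentBaseChange L (modularFunctionFieldFull M)) π,
          algebraMap_mem_B0 π⟩ : ↥(B0 A (t9el (L := L) M h9))) ∈ n →
        Fermat.Agent.S18.Cusp.NormalBridge.LocalGen
          (⟨algebraMap A ↥(laurentBaseChange L (modularFunctionFieldFull M)) π,
            algebraMap_mem_B0 π⟩ : ↥(B0 A (t9el (L := L) M h9))) n) ∧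
    (∀ (n : Ideal ↥(B1 A (t9el (L := L) M h9))) [n.IsMaximal],
        (⟨algebraMap A ↥(laurentBaseChange L (modularFunctionFieldFull M)) π,
          algebraMap_mem_B0 π⟩ : ↥(B1 A (t9el (L := L) M h9))) ∈ n →
        Fermat.Agent.S18.Cusp.NormalBridge.LocalGen
          (⟨algebraMap A ↥(laurentBaseChange L (modularFunctionFieldFull M)) π,
            algebraMap_mem_B0 π⟩ : ↥(B1 A (t9el (L := L) M h9))) n) := by
  have : CharZero L := algebraRat.charZero L
  have h3 : IsUnit (3 : A) := by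
    have h := isUnit_natCast_of_charP A (m := 3)
      (fun h => hℓM (h.trans ((by norm_num : 3 ∣ 9).trans h9)))
    simpa using h
  exact Fermat.Agent.S18.Final.Level9.localGen9_of_kummer (coordData9' A hℓM h9 hπ) hr h3
    (rho4 A hℓM) (rho4_eq_zero_iff A hℓM) (fun a => rho4_algebraMap A hℓM a _)
    (fun i => hloc9_g9 h9 A hℓM hπ hr i) (hloc9_Ginf9 h9 A hℓM hπ)

end Fermat.Agent.S18.Cusp.Level9CuspAll
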