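import Mathlib
import Fermat.Agent.S18.Cusp.NormalBridge

/-!
# S18, block CUSP, leaf (CU5b): local form of "Theorem N ⟹ (N_n)"

`B` Noetherian, `π ∈ B`, `ρ : B → E` a ring homomorphism to a field with kernel `(π)`,
`B/π` of dimension `≤ 1`, `c ∈ B`.  If the image of `B[1/c]` is integrally closed in `E`
(element form: every fraction `ρ a / ρ b` integral over `ρ(B)` is carried into `ρ(B)` by a power of
`ρ c`), then `(N_n)` (`NormalBridge.LocalGen π n`) holds at every maximal ideal `n ∋ π` with
`c ∉ n`.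

* `exists_localGen_domain` : the statement inside a Noetherian domain `D` of dimension `≤ 1`.
* `localGen_of_range_away` : the statement for `B`, `π`, `ρ`, `c` (fraction form), and
  `localGen_of_range_away_of_isIntegral` with `dim ≤ 1` coming from an integral algebra structure
  over a ring of dimension `≤ 1` (e.g. `κ[X]`).
* `localGen_of_range_cover` : the same for a finite family `c i` not all contained in `n`.
* `isIntegralElem_iff_isIntegral_range` : `ρ.IsIntegralElem x ↔ IsIntegral ρ.range x`.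

(The producer `(b1)`: "`B̄` free over a PID with `discr ∣ c̄ ^ k` ⟹ the element form" is
`Cusp.Glue.exists_pow_mul_eq_of_discr_dvd_pow`.)
-/

set_option autoImplicit false

namespace Fermat.Agent.S18.Cusp.NormalGlue

open Ideal IsLocalRing Fermat.Agent.S18.Cusp.NormalBridge

/-- Inside a Noetherian domain `D` of dimension `≤ 1` with fraction field `K`: if `D[1/c]` is
integrally closed (element form) and `n` is a maximal ideal with `c ∉ n`, then `n D_n` is generated
by one element `T ∈ n` (element form). -/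
theorem exists_localGen_domain {D K : Type*} [CommRing D] [IsDomain D] [IsNoetherianRing D]
    [Ring.DimensionLEOne D] [Field K] [Algebra D K] [IsFractionRing D K] (c : D)
    (hcl : ∀ x : K, IsIntegral D x →
      ∃ (k : ℕ) (d : D), algebraMap D K c ^ k * x = algebraMap D K d)
    (n : Ideal D) [hn : n.IsMaximal] (hc : c ∉ n) :
    ∃ T ∈ n, ∀ x ∈ n, ∃ s, s ∉ n ∧ ∃ y, s * x = T * y := by
  classical
  by_cases hbot : n = ⊥
  · refine ⟨0, n.zero_mem, fun x hx => ⟨1, (n.ne_top_iff_one).1 hn.ne_top, 0, ?_⟩⟩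
    rw [hbot, Ideal.mem_bot] at hx
    simp [hx]
  -- the local ring `O = D_n` inside `K`
  let O := Localization.AtPrime n
  have hle : n.primeCompl ≤ nonZeroDivisors D := n.primeCompl_le_nonZeroDivisors
  have hunit : ∀ y : n.primeCompl, IsUnit (algebraMap D K (y : D)) := fun y =>
    IsLocalization.map_units K (⟨(y : D), hle y.2⟩ : nonZeroDivisors D)
  let _ : Algebra O K := (IsLocalization.lift (M := n.primeCompl) (S := O) hunit).toAlgebra
  have htower : IsScalarTower D O K := IsScalarTower.of_algebraMap_eq fun x =>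
    (IsLocalization.lift_eq (M := n.primeCompl) (S := O) hunit x).symm
  have hFR : IsFractionRing O K :=
    IsFractionRing.isFractionRing_of_isDomain_of_isLocalization n.primeCompl O K
  have hNoeth : IsNoetherianRing O := IsLocalization.isNoetherianRing n.primeCompl O inferInstance
  have hdim : Ring.DimensionLEOne O := Ring.DimensionLEOne.localization O hle
  have hinjO : Function.Injective (algebraMap D O) := IsLocalization.injective O hle
  -- `O` is integrally closed
  have hIC : IsIntegrallyClosed O := by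
    refine (isIntegrallyClosed_iff K).2 fun {x} hx => ?_
    obtain ⟨⟨s, hs⟩, hsx⟩ :=
      IsIntegral.exists_multiple_integral_of_isLocalization n.primeCompl x hx
    obtain ⟨k, d, hd⟩ := hcl _ hsx
    have hmem : c ^ k * s ∈ n.primeCompl := by
      change c ^ k * s ∉ n
      intro h
      rcases hn.isPrime.mem_or_mem h with h | h
      · exact hc (hn.isPrime.mem_of_pow_mem _ h)
      · exact hs h
    refine ⟨IsLocalization.mk' O d ⟨c ^ k * s, hmem⟩, ?_⟩
    have hne : algebraMap D K (c ^ k * s) ≠ 0 := (hunit ⟨c ^ k * s, hmem⟩).ne_zero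
    apply mul_left_cancel₀ hne
    have h1 : algebraMap D K (c ^ k * s) = algebraMap O K (algebraMap D O (c ^ k * s)) :=
      IsScalarTower.algebraMap_apply D O K _
    rw [h1, ← map_mul, IsLocalization.mk'_spec'_mk, ← IsScalarTower.algebraMap_apply, ← hd,
      ← h1, map_mul, map_pow, Submonoid.smul_def, Algebra.smul_def]
    ring
  -- `O` is not a field
  have hmax : maximalIdeal O = Ideal.map (algebraMap D O) n :=
    (Localization.AtPrime.map_eq_maximalIdeal (I := n)).symm
  have hnf : ¬ IsField O := by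
    rw [IsLocalRing.isField_iff_maximalIdeal_eq, hmax]
    intro h
    apply hbot
    rw [eq_bot_iff]
    intro x hx
    have : algebraMap D O x ∈ Ideal.map (algebraMap D O) n := Ideal.mem_map_of_mem _ hx
    rw [h, Ideal.mem_bot] at this
    rw [Ideal.mem_bot]
    exact hinjO (by rw [this, map_zero])
  have hDed : IsDedekindDomain O :=
    { toIsDomain := inferInstance
      toIsDedekindRing := { } }
  have hprin : (maximalIdeal O).IsPrincipal :=
    ((IsDiscreteValuationRing.TFAE O hnf).out 2 4).mp hDed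
  obtain ⟨ϖ, hϖ⟩ := hprin.principal
  have hϖ' : maximalIdeal O = Ideal.span {ϖ} := hϖ
  -- a generator coming from `n`
  obtain ⟨T, s0, rfl⟩ := IsLocalization.exists_mk'_eq n.primeCompl ϖ
  have hT : T ∈ n := by
    have : IsLocalization.mk' O T s0 ∈ maximalIdeal O := by
      rw [hϖ']; exact Ideal.mem_span_singleton_self _
    exact (IsLocalization.AtPrime.mk'_mem_maximal_iff O n T s0).1 this
  have hspan : maximalIdeal O = Ideal.span {algebraMap D O T} := by
    rw [hϖ']
    apply le_antisymm
    · rw [Ideal.span_singleton_le_iff_mem, Ideal.mem_span_singleton]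
      refine ⟨IsLocalization.mk' O 1 s0, ?_⟩
      rw [IsLocalization.mul_mk'_eq_mk'_of_mul, mul_one]
    · rw [Ideal.span_singleton_le_iff_mem, Ideal.mem_span_singleton]
      refine ⟨algebraMap D O s0, ?_⟩
      rw [IsLocalization.mk'_spec]
  refine ⟨T, hT, fun x hx => ?_⟩
  have hxm : algebraMap D O x ∈ maximalIdeal O :=
    (IsLocalization.AtPrime.to_map_mem_maximal_iff O n x).2 hx
  rw [hspan, Ideal.mem_span_singleton] at hxm
  obtain ⟨z, hz⟩ := hxm
  obtain ⟨y, s, rfl⟩ := IsLocalization.exists_mk'_eq n.primeCompl z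
  refine ⟨s, s.2, y, ?_⟩
  apply hinjO
  rw [map_mul, map_mul, hz, mul_comm (algebraMap D O (s : D)), mul_assoc,
    IsLocalization.mk'_spec]

section Range

variable {B E : Type*} [CommRing B] [Field E]

/-- Integrality over the image of `ρ`, instance-free versus over the subring `ρ.range`. -/
theorem isIntegralElem_iff_isIntegral_range (ρ : B →+* E) (x : E) :
    ρ.IsIntegralElem x ↔ IsIntegral ρ.range x := by
  have hcomp : (algebraMap ρ.range E).comp ρ.rangeRestrict = ρ := RingHom.ext fun _ => rfl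
  constructor
  · rintro ⟨p, hp, hpx⟩
    refine ⟨p.map ρ.rangeRestrict, hp.map _, ?_⟩
    rw [Polynomial.eval₂_map, hcomp]
    exact hpx
  · rintro ⟨p, hp, hpx⟩
    obtain ⟨q, hq, -, hqm⟩ := Polynomial.lifts_and_natDegree_eq_and_monic
      (Polynomial.mem_lifts_of_surjective ρ.rangeRestrict_surjective p) hp
    refine ⟨q, hqm, ?_⟩
    rw [← hcomp, ← Polynomial.eval₂_map, hq]
    exact hpx

/-- **(CU5b, b2)** local form of "Theorem N ⟹ (N_n)": if the image of `B[1/c]` in the field `E`
is integrally closed (fraction form), `ker ρ = (π)` and `B/π` has dimension `≤ 1`, then `(N_n)`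
holds at every maximal ideal `n ∋ π` with `c ∉ n`. -/
theorem localGen_of_range_away [IsNoetherianRing B] (π c : B) (ρ : B →+* E)
    (hker : RingHom.ker ρ = Ideal.span {π})
    (hN : ∀ a b : B, ρ b ≠ 0 → IsIntegral ρ.range (ρ a / ρ b) →
      ∃ (k : ℕ) (d : B), ρ c ^ k * (ρ a / ρ b) = ρ d)
    [hdim : Ring.DimensionLEOne (B ⧸ Ideal.span {π})]
    (n : Ideal B) [hn : n.IsMaximal] (hπ : π ∈ n) (hc : c ∉ n) : LocalGen π n := by
  have hdom := isDomain_quotient_of_ker π ρ hker
  set Q := B ⧸ Ideal.span {π} with hQ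
  let mk : B →+* Q := Ideal.Quotient.mk (Ideal.span {π})
  have hmk : Function.Surjective mk := Ideal.Quotient.mk_surjective
  let ρb : Q →+* E := Ideal.Quotient.lift (Ideal.span {π}) ρ (fun a ha => by
    rw [← hker] at ha; exact ha)
  have hρb : ∀ a, ρb (mk a) = ρ a := fun a => Ideal.Quotient.lift_mk _ _ _
  have hinj : Function.Injective ρb := by
    rw [injective_iff_map_eq_zero]
    intro q hq
    obtain ⟨a, rfl⟩ := hmk q
    rw [hρb] at hq
    rw [Ideal.Quotient.eq_zero_iff_mem, ← hker]
    exact hq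
  let φ : FractionRing Q →+* E := IsFractionRing.lift hinj
  have hφ : ∀ q, φ (algebraMap Q (FractionRing Q) q) = ρb q := fun q =>
    IsFractionRing.lift_algebraMap hinj q
  -- the maximal ideal of `Q`
  let m : Ideal Q := Ideal.map mk n
  have hcomap : Ideal.comap mk m = n := by
    rw [Ideal.comap_map_of_surjective mk hmk, sup_eq_left]
    intro x hx
    have hx' : x ∈ Ideal.span {π} := by
      rw [Ideal.mem_comap, Ideal.mem_bot] at hx
      exact Ideal.Quotient.eq_zero_iff_mem.1 hx
    obtain ⟨r, rfl⟩ := Ideal.mem_span_singleton'.1 hx'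
    exact n.mul_mem_left r hπ
  have hmem : ∀ x, mk x ∈ m ↔ x ∈ n := fun x => by rw [← Ideal.mem_comap, hcomap]
  have hm : m.IsMaximal := by
    rcases Ideal.map_eq_top_or_isMaximal_of_surjective mk hmk hn with h | h
    · exfalso
      apply hn.ne_top
      have h' : m = ⊤ := h
      rw [← hcomap, h', Ideal.comap_top]
    · exact h
  have hcm : mk c ∉ m := fun h => hc ((hmem c).1 h)
  -- integral closedness of `Q[1/c]` in element form
  have hcl : ∀ x : FractionRing Q, IsIntegral Q x →
      ∃ (k : ℕ) (d : Q), algebraMap Q (FractionRing Q) (mk c) ^ k * x =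
        algebraMap Q (FractionRing Q) d := by
    intro x hx
    obtain ⟨qa, qb, hqb, rfl⟩ := IsFractionRing.div_surjective (A := Q) x
    obtain ⟨a, rfl⟩ := hmk qa
    obtain ⟨b, rfl⟩ := hmk qb
    have hb0 : ρ b ≠ 0 := by
      rw [← hρb]
      exact (map_ne_zero_iff ρb hinj).mpr (nonZeroDivisors.ne_zero hqb)
    let ψ : Q →+* ρ.range := ρb.codRestrict ρ.range (fun q => by
      obtain ⟨a, rfl⟩ := hmk q
      rw [hρb]; exact ⟨a, rfl⟩)
    have hint : IsIntegral ρ.range (φ (algebraMap Q (FractionRing Q) (mk a) /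
        algebraMap Q (FractionRing Q) (mk b))) := by
      refine IsIntegral.map_of_comp_eq ψ φ ?_ hx
      ext q
      simp only [RingHom.comp_apply]
      rw [hφ]
      rfl
    rw [map_div₀, hφ, hφ, hρb, hρb] at hint
    obtain ⟨k, d, hd⟩ := hN a b hb0 hint
    refine ⟨k, mk d, ?_⟩
    apply φ.injective
    rw [map_mul, map_pow, hφ, hφ, hρb, hρb, map_div₀, hφ, hφ, hρb, hρb, hd]
  obtain ⟨Tb, hTb, hgen⟩ := exists_localGen_domain (K := FractionRing Q) (mk c) hcl m hcm
  obtain ⟨T, rfl⟩ := hmk Tb
  refine ⟨T, (hmem T).1 hTb, fun x hx => ?_⟩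
  obtain ⟨sb, hsb, yb, hy⟩ := hgen (mk x) ((hmem x).2 hx)
  obtain ⟨s, rfl⟩ := hmk sb
  obtain ⟨y, rfl⟩ := hmk yb
  refine ⟨s, fun h => hsb ((hmem s).2 h), ?_⟩
  have h0 : mk (s * x - T * y) = 0 := by
    rw [map_sub, map_mul, map_mul, hy, sub_self]
  have h1 : s * x - T * y ∈ Ideal.span {π} := Ideal.Quotient.eq_zero_iff_mem.1 h0
  obtain ⟨r, hr⟩ := Ideal.mem_span_singleton'.1 h1
  rw [Ideal.mem_span_pair]
  exact ⟨r, y, by rw [hr]; ring⟩

/-- The same with `dim ≤ 1` coming from an integral algebra structure over a ring of dimension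
`≤ 1` (e.g. the PID `κ[X]`, acting through `X ↦ t̄`). -/
theorem localGen_of_range_away_of_isIntegral [IsNoetherianRing B] (π c : B) (ρ : B →+* E)
    (hker : RingHom.ker ρ = Ideal.span {π})
    (hN : ∀ a b : B, ρ b ≠ 0 → IsIntegral ρ.range (ρ a / ρ b) →
      ∃ (k : ℕ) (d : B), ρ c ^ k * (ρ a / ρ b) = ρ d)
    (P : Type*) [CommRing P] [Nontrivial P] [Ring.DimensionLEOne P]
    [Algebra P (B ⧸ Ideal.span {π})] [Algebra.IsIntegral P (B ⧸ Ideal.span {π})]
    (n : Ideal B) [n.IsMaximal] (hπ : π ∈ n) (hc : c ∉ n) : LocalGen π n := by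
  have := isDomain_quotient_of_ker π ρ hker
  have : Ring.DimensionLEOne (B ⧸ Ideal.span {π}) :=
    Ring.DimensionLEOne.of_isIntegral P (B ⧸ Ideal.span {π})
  exact localGen_of_range_away π c ρ hker hN n hπ hc

/-- The same with the hypothesis in the instance-free element form
`∀ x : E, ρ.IsIntegralElem x → ∃ k d, ρ c ^ k * x = ρ d`. -/
theorem localGen_of_isIntegralElem_away [IsNoetherianRing B] (π c : B) (ρ : B →+* E)
    (hker : RingHom.ker ρ = Ideal.span {π})
    (hN : ∀ x : E, ρ.IsIntegralElem x → ∃ (k : ℕ) (d : B), ρ c ^ k * x = ρ d)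
    [Ring.DimensionLEOne (B ⧸ Ideal.span {π})]
    (n : Ideal B) [n.IsMaximal] (hπ : π ∈ n) (hc : c ∉ n) : LocalGen π n :=
  localGen_of_range_away π c ρ hker
    (fun _ _ _ h => hN _ ((isIntegralElem_iff_isIntegral_range ρ _).2 h)) n hπ hc

/-- **Cover form.** Finitely (or arbitrarily) many `c i` such that `B[1/c i]` has integrally closed
image for every `i`; then `(N_n)` holds at every maximal `n ∋ π` not containing all the `c i`. -/
theorem localGen_of_range_cover [IsNoetherianRing B] (π : B) {ι : Type*} (c : ι → B)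
    (ρ : B →+* E) (hker : RingHom.ker ρ = Ideal.span {π})
    (hN : ∀ i, ∀ a b : B, ρ b ≠ 0 → IsIntegral ρ.range (ρ a / ρ b) →
      ∃ (k : ℕ) (d : B), ρ (c i) ^ k * (ρ a / ρ b) = ρ d)
    [Ring.DimensionLEOne (B ⧸ Ideal.span {π})]
    (n : Ideal B) [n.IsMaximal] (hπ : π ∈ n) (hc : ∃ i, c i ∉ n) : LocalGen π n := by
  obtain ⟨i, hi⟩ := hc
  exact localGen_of_range_away π (c i) ρ hker (hN i) n hπ hi

/-- If the `c i` together with `π` generate the unit ideal, every proper ideal containing `π`
misses some `c i`. -/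
theorem exists_not_mem_of_span_eq_top (π : B) {ι : Type*} (c : ι → B)
    (hcov : Ideal.span (Set.range c) ⊔ Ideal.span {π} = ⊤) (n : Ideal B) (hn : n ≠ ⊤)
    (hπ : π ∈ n) : ∃ i, c i ∉ n := by
  by_contra h
  push Not at h
  apply hn
  rw [eq_top_iff, ← hcov, sup_le_iff, Ideal.span_le, Ideal.span_singleton_le_iff_mem]
  exact ⟨by rintro _ ⟨i, rfl⟩; exact h i, hπ⟩

end Range

end Fermat.Agent.S18.Cusp.NormalGlue
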