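/-
S18 (project G), block CUSP, leaf CU5-mid, part 2 (helper9): `Cusp/TheoremN` restated in the
polynomial-cover spelling consumed by `Final/Cover` (helper8): cover elements `polyToB0 R τ G`
and `polyToB1 R τ G`.

* `hloc0_of_kummer`  : (A) for the chart `B0 R τ`, cover element `polyToB0 R τ G`.
* `hloc1_of_kummer`  : (A) for the chart `B1 R τ` (coordinate `τ⁻¹`), cover element
  `polyToB1 R τ G`.
* `hN0_of_polyCover` : the image of `B0` is integrally closed in `E`, from the `hloc0` family.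
* `hloc1_X`          : (B) for the cover element `polyToB1 R τ X = τ⁻¹`.
* `hloc1_pair`       : the full `hloc1` family of `Final/Cover` for the two-element cover
  `![X, Ginf]` of the chart `B1`, from the `hloc0` family and the single statement at `Ginf`.
-/
import Mathlib
import Fermat.Agent.S18.Cusp.TheoremN
import Fermat.Agent.S18.Final.Cover

set_option autoImplicit false
set_option linter.unusedSectionVars false
set_option linter.unusedVariables false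

namespace Fermat.Agent.S18.Cusp.TheoremNPoly

open Polynomial
open Fermat.Agent.S18.Core.Charts Fermat.Agent.S18.Cusp.ChartLocalOK
open Fermat.Agent.S18.Final.Cover Fermat.Agent.S18.Cusp.TheoremN
open Fermat.Agent.S18.Purity.Chart (Bt)

variable {R L F : Type*} [CommRing R] [IsDomain R] [IsDiscreteValuationRing R]
  [Field L] [Field F] [Algebra R L] [IsFractionRing R L] [Algebra L F] [Algebra R F]
  [IsScalarTower R L F] {π : R} {O : ValuationSubring F} {τ : F} {E : Type*} [Field E]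
  [Algebra (IsLocalRing.ResidueField R) E]

local notation "κ" => IsLocalRing.ResidueField R

/-- **(A), chart `B0`**, in the spelling of `Final/Cover.localOK_B0_of_polyCover`. -/
theorem hloc0_of_kummer (h : GoodCoord π O τ) (ρ : O →+* E) (hρsurj : Function.Surjective ρ)
    (hρR : ∀ r : R, ρ ⟨algebraMap R F r, h.algebraMap_mem r⟩ =
      algebraMap κ E (IsLocalRing.residue R r))
    {F' E' : Type*} [Field F'] [Field E'] [Algebra R F'] [Algebra κ E']
    (ι : F →+* F') (hιR : ∀ r : R, ι (algebraMap R F r) = algebraMap R F' r)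
    (ιE : E →+* E') (hιE : ∀ x : κ, ιE (algebraMap κ E x) = algebraMap κ E' x)
    (O' : ValuationSubring F') (ρ' : O' →+* E')
    (hιO : ∀ x : F, x ∈ O → ι x ∈ O')
    (hρ : ∀ (x : F) (hx : x ∈ O), ρ' ⟨ι x, hιO x hx⟩ = ιE (ρ ⟨x, hx⟩))
    (s : F') (hsO : s ∈ O') (P : R[X]) (hP : P.Monic) (hP0 : P.natDegree ≠ 0)
    (hPs : ι τ = aeval s P)
    (pr : F' →+ F')
    (hprF : ∀ y : F', IsIntegral (Algebra.adjoin R {s}) y → ∃ x : F, ι x = pr y)
    (hprB : ∀ y : F', IsIntegral (Algebra.adjoin R {s}) y →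
      IsIntegral (Algebra.adjoin R {s}) (pr y))
    (hpr_id : ∀ x : F, pr (ι x) = ι x)
    (hred : ∀ (z : F') (hz : z ∈ O'), ρ' ⟨z, hz⟩ = 0 → ∃ hz' : pr z ∈ O', ρ' ⟨pr z, hz'⟩ = 0)
    (c' G : R[X]) (hc : aeval s c' = ι (aeval τ G)) (hcO : aeval s c' ∈ O')
    (hup : ∃ k : ℕ, ∀ z' : E', IsIntegral (Algebra.adjoin κ {ρ' ⟨s, hsO⟩}) z' →
      ∃ (y : Bt R s) (hy : (y : F') ∈ O'), ρ' ⟨aeval s c', hcO⟩ ^ k * z' = ρ' ⟨(y : F'), hy⟩)
    (z : E) (hz : IsIntegral (resB0 h ρ).range z) :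
    ∃ (k : ℕ) (b : ↥(B0 R τ)), resB0 h ρ (polyToB0 R τ G) ^ k * z = resB0 h ρ b := by
  obtain ⟨k, hk⟩ := hup
  exact ⟨k, hloc_of_kummer h ρ hρsurj hρR ι hιR ιE hιE O' ρ' hιO hρ s hsO P hP hP0 hPs pr
    hprF hprB hpr_id hred c' G hc hcO k hk z hz⟩

/-- **(A), chart `B1`** (coordinate `τ⁻¹`), in the spelling of
`Final/Cover.localOK_B1_of_polyCover`. -/
theorem hloc1_of_kummer (h : GoodCoord π O τ) (ρ : O →+* E) (hρsurj : Function.Surjective ρ)
    (hρR : ∀ r : R, ρ ⟨algebraMap R F r, h.algebraMap_mem r⟩ =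
      algebraMap κ E (IsLocalRing.residue R r))
    {F' E' : Type*} [Field F'] [Field E'] [Algebra R F'] [Algebra κ E']
    (ι : F →+* F') (hιR : ∀ r : R, ι (algebraMap R F r) = algebraMap R F' r)
    (ιE : E →+* E') (hιE : ∀ x : κ, ιE (algebraMap κ E x) = algebraMap κ E' x)
    (O' : ValuationSubring F') (ρ' : O' →+* E')
    (hιO : ∀ x : F, x ∈ O → ι x ∈ O')
    (hρ : ∀ (x : F) (hx : x ∈ O), ρ' ⟨ι x, hιO x hx⟩ = ιE (ρ ⟨x, hx⟩))
    (s : F') (hsO : s ∈ O') (P : R[X]) (hP : P.Monic) (hP0 : P.natDegree ≠ 0)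
    (hPs : ι τ⁻¹ = aeval s P)
    (pr : F' →+ F')
    (hprF : ∀ y : F', IsIntegral (Algebra.adjoin R {s}) y → ∃ x : F, ι x = pr y)
    (hprB : ∀ y : F', IsIntegral (Algebra.adjoin R {s}) y →
      IsIntegral (Algebra.adjoin R {s}) (pr y))
    (hpr_id : ∀ x : F, pr (ι x) = ι x)
    (hred : ∀ (z : F') (hz : z ∈ O'), ρ' ⟨z, hz⟩ = 0 → ∃ hz' : pr z ∈ O', ρ' ⟨pr z, hz'⟩ = 0)
    (c' G : R[X]) (hc : aeval s c' = ι (aeval τ⁻¹ G)) (hcO : aeval s c' ∈ O')
    (hup : ∃ k : ℕ, ∀ z' : E', IsIntegral (Algebra.adjoin κ {ρ' ⟨s, hsO⟩}) z' →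
      ∃ (y : Bt R s) (hy : (y : F') ∈ O'), ρ' ⟨aeval s c', hcO⟩ ^ k * z' = ρ' ⟨(y : F'), hy⟩)
    (z : E) (hz : IsIntegral (resB1 h ρ).range z) :
    ∃ (k : ℕ) (b : ↥(B1 R τ)), resB1 h ρ (polyToB1 R τ G) ^ k * z = resB1 h ρ b :=
  hloc0_of_kummer h.inv ρ hρsurj hρR ι hιR ιE hιE O' ρ' hιO hρ s hsO P hP hP0 hPs pr
    hprF hprB hpr_id hred c' G hc hcO hup z hz

/-- the image of the chart `B0` is integrally closed in `E`, from the `hloc0` family of
`Final/Cover`. -/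
theorem hN0_of_polyCover (h : GoodCoord π O τ) (ρ : O →+* E)
    {ι0 : Type*} [Fintype ι0] (G0 c0 : ι0 → R[X]) (hG0 : ∑ i, c0 i * G0 i = 1)
    (hloc0 : ∀ i, ∀ z : E, IsIntegral (resB0 h ρ).range z →
      ∃ (k : ℕ) (b : ↥(B0 R τ)), resB0 h ρ (polyToB0 R τ (G0 i)) ^ k * z = resB0 h ρ b)
    (z : E) (hz : IsIntegral (resB0 h ρ).range z) : ∃ b : ↥(B0 R τ), resB0 h ρ b = z := by
  refine mem_range_of_cover (resB0 h ρ) (fun i => polyToB0 R τ (G0 i)) ?_ hloc0 z hz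
  refine span_rangeRestrict_eq_top (resB0 h ρ) _ Finset.univ (fun i => polyToB0 R τ (c0 i)) ?_
  have : ∑ i, polyToB0 R τ (c0 i) * polyToB0 R τ (G0 i) = 1 := by
    simp only [← map_mul, ← map_sum, hG0, map_one]
  rw [this, map_one]

/-- **(B)** for the cover element `polyToB1 R τ X = τ⁻¹` of the chart `B1`. -/
theorem hloc1_X (h : GoodCoord π O τ) (ρ : O →+* E)
    (hρR : ∀ r : R, ρ ⟨algebraMap R F r, h.algebraMap_mem r⟩ =
      algebraMap κ E (IsLocalRing.residue R r))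
    (hN0 : ∀ z : E, IsIntegral (resB0 h ρ).range z → ∃ b : ↥(B0 R τ), resB0 h ρ b = z)
    (z : E) (hz : IsIntegral (resB1 h ρ).range z) :
    ∃ (k : ℕ) (b : ↥(B1 R τ)), resB1 h ρ (polyToB1 R τ X) ^ k * z = resB1 h ρ b := by
  have hX : polyToB1 R τ X = ⟨τ⁻¹, tau_inv_mem_B1⟩ := by
    apply Subtype.ext
    rw [coe_polyToB1, aeval_X]
  rw [hX]
  exact hloc_B1_tau_inv h ρ hρR hN0 z hz

/-- **The `hloc1` family of `Final/Cover` for the two-element cover `![X, Ginf]` of the chart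
`B1`**: the element `X` (`= τ⁻¹`) is handled by (B) and the normality of the image of `B0`
(from the `hloc0` family), the element `Ginf` is the Kummer statement at `τ⁻¹ = 0`. -/
theorem hloc1_pair (h : GoodCoord π O τ) (ρ : O →+* E)
    (hρR : ∀ r : R, ρ ⟨algebraMap R F r, h.algebraMap_mem r⟩ =
      algebraMap κ E (IsLocalRing.residue R r))
    {ι0 : Type*} [Fintype ι0] (G0 c0 : ι0 → R[X]) (hG0 : ∑ i, c0 i * G0 i = 1)
    (hloc0 : ∀ i, ∀ z : E, IsIntegral (resB0 h ρ).range z →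
      ∃ (k : ℕ) (b : ↥(B0 R τ)), resB0 h ρ (polyToB0 R τ (G0 i)) ^ k * z = resB0 h ρ b)
    (Ginf : R[X])
    (hlocinf : ∀ z : E, IsIntegral (resB1 h ρ).range z →
      ∃ (k : ℕ) (b : ↥(B1 R τ)), resB1 h ρ (polyToB1 R τ Ginf) ^ k * z = resB1 h ρ b) :
    ∀ i : Fin 2, ∀ z : E, IsIntegral (resB1 h ρ).range z →
      ∃ (k : ℕ) (b : ↥(B1 R τ)),
        resB1 h ρ (polyToB1 R τ ((![X, Ginf] : Fin 2 → R[X]) i)) ^ k * z = resB1 h ρ b := by
  intro i
  fin_cases i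
  · exact hloc1_X h ρ hρR (hN0_of_polyCover h ρ G0 c0 hG0 hloc0)
  · exact hlocinf

/-- the partition of unity for the two-element cover `![X, Ginf]` in the shape of
`Final/Cover` (`∑ i, c1 i * G1 i = 1`). -/
theorem sum_pair_eq_one {S : Type*} [CommRing S] (cX cinf Ginf : S[X])
    (hc : cX * X + cinf * Ginf = 1) :
    ∑ i : Fin 2, (![cX, cinf] : Fin 2 → S[X]) i * (![X, Ginf] : Fin 2 → S[X]) i = 1 := by
  rw [Fin.sum_univ_two]
  simpa using hc

end Fermat.Agent.S18.Cusp.TheoremNPoly
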